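/-
Programme JAC (S25), work package A4.1: the based-quotient functor and its representing ring.

Pure commutative algebra over an arbitrary commutative base ring `k`.  For a commutative
`k`-algebra `A` and a finite family `β : ι → A`, the functor

  `B ↦ { ideals I of B ⊗[k] A such that the classes of 1 ⊗ β i form a B-basis of the quotient }`

(a chart of the Hilbert functor of points of `Spec A`) is described by "multiplication tables"
(`BasedPoint`) and is represented by an explicit `k`-algebra `chartRing k A β`, of finite type when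
`A` is.
-/
import Mathlib

set_option autoImplicit false

open TensorProduct

universe u v w x y

namespace Fermat.Agent.JAC.Hilb.BasedQuot46

variable (k : Type u) [CommRing k] (A : Type v) [CommRing A] [Algebra k A]
variable {ι : Type w} [Fintype ι] [DecidableEq ι] (β : ι → A)

/-- A `β`-based point with values in `B`: a `k`-linear "coordinate" map `A → (ι → B)` sending
`β j` to the `j`-th basis vector and satisfying the multiplication-table identity. -/
@[ext]
structure BasedPoint (B : Type x) [CommRing B] [Algebra k B] where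
  /-- the coordinates of the class of `a` in the basis `β` -/
  coord : A →ₗ[k] (ι → B)
  coord_basis : ∀ j, coord (β j) = Pi.single j 1
  coord_mul : ∀ a a', coord (a * a') = ∑ j, coord a j • coord (β j * a')

namespace BasedPoint

variable {k A β}
variable {B : Type x} [CommRing B] [Algebra k B]

/-- The `B`-linear extension `B ⊗[k] A → (ι → B)` of the coordinate map. -/
noncomputable def lin (φ : BasedPoint k A β B) : B ⊗[k] A →ₗ[B] (ι → B) :=
  φ.coord.liftBaseChange B

@[simp]
theorem lin_tmul (φ : BasedPoint k A β B) (b : B) (a : A) :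
    φ.lin (b ⊗ₜ[k] a) = b • φ.coord a := rfl

theorem lin_mul (φ : BasedPoint k A β B) (s t : B ⊗[k] A) :
    φ.lin (s * t) = ∑ j, φ.lin s j • φ.lin ((1 ⊗ₜ[k] β j) * t) := by
  induction s using TensorProduct.induction_on with
  | zero => simp
  | add s₁ s₂ h₁ h₂ =>
    simp only [add_mul, map_add, h₁, h₂, Pi.add_apply, add_smul, Finset.sum_add_distrib]
  | tmul b a =>
    induction t using TensorProduct.induction_on with
    | zero => simp
    | add t₁ t₂ h₁ h₂ =>
      simp only [mul_add, map_add, h₁, h₂, smul_add, Finset.sum_add_distrib]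
    | tmul b' a' =>
      simp only [Algebra.TensorProduct.tmul_mul_tmul, lin_tmul, one_mul, φ.coord_mul a a',
        Pi.smul_apply, smul_eq_mul, Finset.smul_sum]
      refine Finset.sum_congr rfl fun j _ => ?_
      simp only [smul_smul]
      congr 1
      ring

theorem lin_mul_eq_zero (φ : BasedPoint k A β B) (s t : B ⊗[k] A) (ht : φ.lin t = 0) :
    φ.lin (s * t) = 0 := by
  rw [mul_comm, lin_mul]
  simp [ht]

/-- The ideal of a based point: the kernel of the extended coordinate map. -/
noncomputable def ideal (φ : BasedPoint k A β B) : Ideal (B ⊗[k] A) where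
  carrier := {t | φ.lin t = 0}
  add_mem' := by
    intro a b ha hb
    simp only [Set.mem_ofPred_eq] at ha hb ⊢
    rw [map_add, ha, hb, add_zero]
  zero_mem' := by simp
  smul_mem' := by
    intro c t ht
    simp only [Set.mem_ofPred_eq, smul_eq_mul] at ht ⊢
    exact lin_mul_eq_zero φ c t ht

theorem mem_ideal (φ : BasedPoint k A β B) (t : B ⊗[k] A) : t ∈ φ.ideal ↔ φ.lin t = 0 :=
  Iff.rfl

theorem lin_basis (φ : BasedPoint k A β B) (j : ι) : φ.lin (1 ⊗ₜ[k] β j) = Pi.single j 1 := by
  simp [φ.coord_basis j]

/-- The canonical representative `∑ i, c i ⊗ β i` of a coordinate vector. -/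
noncomputable def rep (β : ι → A) (c : ι → B) : B ⊗[k] A := ∑ i, c i ⊗ₜ[k] β i

theorem lin_rep (φ : BasedPoint k A β B) (c : ι → B) : φ.lin (rep β c) = c := by
  unfold rep
  simp only [map_sum, lin_tmul, φ.coord_basis]
  ext l
  simp [Finset.sum_apply, Pi.single_apply]

theorem lin_surjective (φ : BasedPoint k A β B) : Function.Surjective φ.lin :=
  fun c => ⟨rep β c, φ.lin_rep c⟩

theorem sub_rep_mem_ideal (φ : BasedPoint k A β B) (t : B ⊗[k] A) :
    t - rep β (φ.lin t) ∈ φ.ideal := by
  rw [mem_ideal, map_sub, lin_rep, sub_self]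

end BasedPoint

section IdealSide

variable {k A β}
variable {B : Type x} [CommRing B] [Algebra k B]

/-- The `B`-linear map `(ι → B) → (B ⊗[k] A) ⧸ I`, `c ↦ ∑ i, c i • [1 ⊗ β i]`. -/
noncomputable def basisMap (β : ι → A) (I : Ideal (B ⊗[k] A)) : (ι → B) →ₗ[B] (B ⊗[k] A) ⧸ I :=
  Fintype.linearCombination B (fun i => Ideal.Quotient.mk I (1 ⊗ₜ[k] β i))

theorem smul_mk (I : Ideal (B ⊗[k] A)) (c : B) (t : B ⊗[k] A) :
    c • (Ideal.Quotient.mk I) t = Ideal.Quotient.mk I (c • t) := rfl

omit [DecidableEq ι] in
theorem basisMap_apply (I : Ideal (B ⊗[k] A)) (c : ι → B) :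
    basisMap β I c = Ideal.Quotient.mk I (BasedPoint.rep β c) := by
  unfold basisMap BasedPoint.rep
  rw [Fintype.linearCombination_apply, map_sum]
  refine Finset.sum_congr rfl fun i _ => ?_
  rw [smul_mk, TensorProduct.smul_tmul', smul_eq_mul, mul_one]

/-- `I` is a `β`-based quotient: the classes of `1 ⊗ β i` form a `B`-basis of `(B ⊗[k] A) ⧸ I`. -/
def IsBasedQuot (β : ι → A) (I : Ideal (B ⊗[k] A)) : Prop :=
  Function.Bijective (basisMap β I)

theorem BasedPoint.isBasedQuot_ideal (φ : BasedPoint k A β B) : IsBasedQuot β φ.ideal := by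
  constructor
  · rw [injective_iff_map_eq_zero]
    intro c hc
    rw [basisMap_apply, Ideal.Quotient.eq_zero_iff_mem, BasedPoint.mem_ideal,
      BasedPoint.lin_rep] at hc
    exact hc
  · intro q
    obtain ⟨t, rfl⟩ := Ideal.Quotient.mk_surjective q
    refine ⟨φ.lin t, ?_⟩
    rw [basisMap_apply, eq_comm, Ideal.Quotient.eq]
    exact φ.sub_rep_mem_ideal t

/-- The basis of the quotient given by a based quotient. -/
noncomputable def IsBasedQuot.equiv {I : Ideal (B ⊗[k] A)} (h : IsBasedQuot β I) :
    (ι → B) ≃ₗ[B] (B ⊗[k] A) ⧸ I :=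
  LinearEquiv.ofBijective (basisMap β I) h

omit [DecidableEq ι] in
theorem IsBasedQuot.equiv_apply {I : Ideal (B ⊗[k] A)} (h : IsBasedQuot β I) (c : ι → B) :
    h.equiv c = Ideal.Quotient.mk I (BasedPoint.rep β c) := by
  rw [← basisMap_apply]
  rfl

/-- Coordinates of an element modulo a based quotient. -/
noncomputable def IsBasedQuot.coordLin {I : Ideal (B ⊗[k] A)} (h : IsBasedQuot β I) :
    B ⊗[k] A →ₗ[B] (ι → B) :=
  h.equiv.symm.toLinearMap ∘ₗ (Ideal.Quotient.mkₐ B I).toLinearMap

omit [DecidableEq ι] in
theorem IsBasedQuot.coordLin_apply {I : Ideal (B ⊗[k] A)} (h : IsBasedQuot β I) (t : B ⊗[k] A) :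
    h.coordLin t = h.equiv.symm (Ideal.Quotient.mk I t) := rfl

omit [DecidableEq ι] in
theorem IsBasedQuot.mk_rep_coordLin {I : Ideal (B ⊗[k] A)} (h : IsBasedQuot β I) (t : B ⊗[k] A) :
    Ideal.Quotient.mk I (BasedPoint.rep β (h.coordLin t)) = Ideal.Quotient.mk I t := by
  rw [← h.equiv_apply, h.coordLin_apply, LinearEquiv.apply_symm_apply]

omit [DecidableEq ι] in
theorem IsBasedQuot.coordLin_eq_zero_iff {I : Ideal (B ⊗[k] A)} (h : IsBasedQuot β I)
    (t : B ⊗[k] A) : h.coordLin t = 0 ↔ t ∈ I := by
  rw [h.coordLin_apply, LinearEquiv.map_eq_zero_iff, Ideal.Quotient.eq_zero_iff_mem]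

omit [DecidableEq ι] in
theorem IsBasedQuot.coordLin_rep {I : Ideal (B ⊗[k] A)} (h : IsBasedQuot β I) (c : ι → B) :
    h.coordLin (BasedPoint.rep β c) = c := by
  rw [h.coordLin_apply, ← h.equiv_apply, LinearEquiv.symm_apply_apply]

/-- The based point attached to a based quotient. -/
noncomputable def IsBasedQuot.toBasedPoint {I : Ideal (B ⊗[k] A)} (h : IsBasedQuot β I) :
    BasedPoint k A β B where
  coord := (h.coordLin.restrictScalars k) ∘ₗ
    (Algebra.TensorProduct.includeRight (R := k) (A := B) (B := A)).toLinearMap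
  coord_basis j := by
    have : (1 : B) ⊗ₜ[k] β j = BasedPoint.rep β (Pi.single j (1 : B)) := by
      unfold BasedPoint.rep
      rw [Finset.sum_eq_single j]
      · simp
      · intro i _ hij
        simp [hij]
      · intro hj
        exact absurd (Finset.mem_univ j) hj
    simp only [LinearMap.coe_comp, LinearMap.coe_restrictScalars, AlgHom.toLinearMap_apply,
      Function.comp_apply, Algebra.TensorProduct.includeRight_apply]
    rw [this, h.coordLin_rep]
  coord_mul a a' := by
    simp only [LinearMap.coe_comp, LinearMap.coe_restrictScalars, AlgHom.toLinearMap_apply,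
      Function.comp_apply, Algebra.TensorProduct.includeRight_apply]
    -- work in the quotient
    apply h.equiv.injective
    simp only [h.coordLin_apply, LinearEquiv.apply_symm_apply, map_sum, map_smul]
    have h1 : Ideal.Quotient.mk I ((1 : B) ⊗ₜ[k] (a * a')) =
        Ideal.Quotient.mk I (BasedPoint.rep β (h.coordLin (1 ⊗ₜ[k] a))) *
          Ideal.Quotient.mk I ((1 : B) ⊗ₜ[k] a') := by
      rw [h.mk_rep_coordLin, ← map_mul, Algebra.TensorProduct.tmul_mul_tmul, one_mul]
    rw [h1]
    unfold BasedPoint.rep
    rw [map_sum, Finset.sum_mul]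
    refine Finset.sum_congr rfl fun j _ => ?_
    rw [smul_mk, ← map_mul, Algebra.TensorProduct.tmul_mul_tmul, TensorProduct.smul_tmul',
      smul_eq_mul]
    rfl

theorem IsBasedQuot.toBasedPoint_lin {I : Ideal (B ⊗[k] A)} (h : IsBasedQuot β I) :
    h.toBasedPoint.lin = h.coordLin := by
  apply TensorProduct.AlgebraTensorModule.curry_injective
  ext a
  simp [IsBasedQuot.toBasedPoint, BasedPoint.lin]

theorem IsBasedQuot.toBasedPoint_ideal {I : Ideal (B ⊗[k] A)} (h : IsBasedQuot β I) :
    h.toBasedPoint.ideal = I := by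
  ext t
  rw [BasedPoint.mem_ideal, h.toBasedPoint_lin, h.coordLin_eq_zero_iff]

theorem BasedPoint.coordLin_isBasedQuot_ideal (φ : BasedPoint k A β B) :
    φ.isBasedQuot_ideal.coordLin = φ.lin := by
  refine LinearMap.ext fun t => ?_
  have h := φ.isBasedQuot_ideal
  apply h.equiv.injective
  rw [h.coordLin_apply, LinearEquiv.apply_symm_apply, h.equiv_apply, Ideal.Quotient.eq]
  exact φ.sub_rep_mem_ideal t

theorem BasedPoint.toBasedPoint_isBasedQuot_ideal (φ : BasedPoint k A β B) :
    φ.isBasedQuot_ideal.toBasedPoint = φ := by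
  apply BasedPoint.ext
  ext a : 1
  have := congrArg (fun f => f ((1 : B) ⊗ₜ[k] a)) φ.coordLin_isBasedQuot_ideal
  simpa [IsBasedQuot.toBasedPoint] using this

/-- (A4.1, ideal form) Based points are the same as based quotients. -/
noncomputable def basedPointEquivIdeal :
    BasedPoint k A β B ≃ {I : Ideal (B ⊗[k] A) // IsBasedQuot β I} where
  toFun φ := ⟨φ.ideal, φ.isBasedQuot_ideal⟩
  invFun I := I.2.toBasedPoint
  left_inv φ := φ.toBasedPoint_isBasedQuot_ideal
  right_inv I := Subtype.ext I.2.toBasedPoint_ideal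

end IdealSide

section BaseChange

variable {k A β}
variable {B : Type x} [CommRing B] [Algebra k B] {B' : Type y} [CommRing B'] [Algebra k B']

/-- Functoriality of based points in the coefficient algebra. -/
def BasedPoint.map (g : B →ₐ[k] B') (φ : BasedPoint k A β B) : BasedPoint k A β B' where
  coord := (g.toLinearMap.compLeft ι) ∘ₗ φ.coord
  coord_basis j := by
    simp only [LinearMap.coe_comp, Function.comp_apply, φ.coord_basis j]
    ext l
    simp [Pi.single_apply, apply_ite g]
  coord_mul a a' := by
    simp only [LinearMap.coe_comp, Function.comp_apply, φ.coord_mul a a']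
    ext l
    simp [Finset.sum_apply]

@[simp]
theorem BasedPoint.map_coord_apply (g : B →ₐ[k] B') (φ : BasedPoint k A β B) (a : A) (l : ι) :
    (φ.map g).coord a l = g (φ.coord a l) := rfl

theorem BasedPoint.map_id (φ : BasedPoint k A β B) : φ.map (AlgHom.id k B) = φ := by
  apply BasedPoint.ext
  ext a l
  rfl

theorem BasedPoint.map_comp {B'' : Type*} [CommRing B''] [Algebra k B''] (g : B →ₐ[k] B')
    (g' : B' →ₐ[k] B'') (φ : BasedPoint k A β B) : φ.map (g'.comp g) = (φ.map g).map g' := by
  apply BasedPoint.ext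
  ext a l
  rfl

/-- The base change map `B ⊗[k] A → B' ⊗[k] A`. -/
noncomputable abbrev tensorMap (g : B →ₐ[k] B') : B ⊗[k] A →ₐ[k] B' ⊗[k] A :=
  Algebra.TensorProduct.map g (AlgHom.id k A)

theorem BasedPoint.map_lin (g : B →ₐ[k] B') (φ : BasedPoint k A β B) (t : B ⊗[k] A) (l : ι) :
    (φ.map g).lin (tensorMap g t) l = g (φ.lin t l) := by
  induction t using TensorProduct.induction_on with
  | zero => simp
  | add t₁ t₂ h₁ h₂ => simp only [map_add, Pi.add_apply, h₁, h₂]
  | tmul b a => simp

omit [DecidableEq ι] in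
theorem tensorMap_rep (g : B →ₐ[k] B') (c : ι → B) :
    tensorMap (A := A) g (BasedPoint.rep β c) = BasedPoint.rep β (fun i => g (c i)) := by
  unfold BasedPoint.rep
  simp

/-- (A4.1, base change) The ideal of the base-changed point is the extension of the ideal. -/
theorem BasedPoint.map_ideal (g : B →ₐ[k] B') (φ : BasedPoint k A β B) :
    (φ.map g).ideal = Ideal.map (tensorMap g) φ.ideal := by
  apply le_antisymm
  · -- every `t'` is congruent to its canonical representative modulo the extended ideal
    have key : ∀ t' : B' ⊗[k] A,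
        t' - BasedPoint.rep β ((φ.map g).lin t') ∈ Ideal.map (tensorMap g) φ.ideal := by
      intro t'
      induction t' using TensorProduct.induction_on with
      | zero =>
        simp only [map_zero]
        unfold BasedPoint.rep
        simp
      | add t₁ t₂ h₁ h₂ =>
        have : t₁ + t₂ - BasedPoint.rep β ((φ.map g).lin (t₁ + t₂)) =
            (t₁ - BasedPoint.rep β ((φ.map g).lin t₁)) +
              (t₂ - BasedPoint.rep β ((φ.map g).lin t₂)) := by
          unfold BasedPoint.rep
          simp only [map_add, Pi.add_apply, TensorProduct.add_tmul, Finset.sum_add_distrib]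
          abel
        rw [this]
        exact Ideal.add_mem _ h₁ h₂
      | tmul b' a =>
        have h0 : (1 : B) ⊗ₜ[k] a - BasedPoint.rep β (φ.lin (1 ⊗ₜ[k] a)) ∈ φ.ideal :=
          φ.sub_rep_mem_ideal _
        have h1 := Ideal.mul_mem_left _ (b' ⊗ₜ[k] (1 : A)) (Ideal.mem_map_of_mem (tensorMap g) h0)
        convert h1 using 1
        rw [map_sub, tensorMap_rep, mul_sub]
        congr 1
        · simp
        · unfold BasedPoint.rep
          rw [Finset.mul_sum]
          refine Finset.sum_congr rfl fun i _ => ?_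
          simp [Algebra.TensorProduct.tmul_mul_tmul]
    intro t' ht'
    rw [BasedPoint.mem_ideal] at ht'
    have := key t'
    rw [ht'] at this
    unfold BasedPoint.rep at this
    simpa using this
  · rw [Ideal.map_le_iff_le_comap]
    intro t ht
    rw [BasedPoint.mem_ideal] at ht
    rw [Ideal.mem_comap, BasedPoint.mem_ideal]
    ext l
    rw [BasedPoint.map_lin, ht]
    simp

end BaseChange

section ChartRing

open MvPolynomial

/-- The defining relations of the chart ring. -/
def relSet : Set (MvPolynomial (A × ι) k) :=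
  {p | ∃ (a a' : A) (i : ι), p = X (a + a', i) - X (a, i) - X (a', i)} ∪
  {p | ∃ (c : k) (a : A) (i : ι), p = X (c • a, i) - C c * X (a, i)} ∪
  {p | ∃ (j i : ι), p = X (β j, i) - C (if i = j then (1 : k) else 0)} ∪
  {p | ∃ (a a' : A) (l : ι), p = X (a * a', l) - ∑ j, X (a, j) * X (β j * a', l)}

/-- (A4.1) The chart ring `R^β`: the `k`-algebra representing the based-quotient functor. -/
def chartRing : Type (max u v w) :=
  MvPolynomial (A × ι) k ⧸ Ideal.span (relSet k A β)

noncomputable instance : CommRing (chartRing k A β) :=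
  inferInstanceAs (CommRing (MvPolynomial (A × ι) k ⧸ Ideal.span (relSet k A β)))

noncomputable instance : Algebra k (chartRing k A β) :=
  inferInstanceAs (Algebra k (MvPolynomial (A × ι) k ⧸ Ideal.span (relSet k A β)))

/-- The quotient map from the polynomial ring, as an algebra map. -/
noncomputable def chartMk : MvPolynomial (A × ι) k →ₐ[k] chartRing k A β :=
  Ideal.Quotient.mkₐ k (Ideal.span (relSet k A β))

theorem chartMk_surjective : Function.Surjective (chartMk k A β) :=
  Ideal.Quotient.mkₐ_surjective k _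

theorem chartMk_eq_zero_of_mem {p : MvPolynomial (A × ι) k} (hp : p ∈ relSet k A β) :
    chartMk k A β p = 0 :=
  Ideal.Quotient.eq_zero_iff_mem.mpr (Ideal.subset_span hp)

/-- The universal coordinates: `gen a i` is the `i`-th coordinate of the class of `a`. -/
noncomputable def gen (a : A) (i : ι) : chartRing k A β := chartMk k A β (X (a, i))

variable {k A β}

theorem gen_add (a a' : A) (i : ι) : gen k A β (a + a') i = gen k A β a i + gen k A β a' i := by
  have h : X (a + a', i) - X (a, i) - X (a', i) ∈ relSet k A β :=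
    Or.inl (Or.inl (Or.inl ⟨a, a', i, rfl⟩))
  have := chartMk_eq_zero_of_mem k A β h
  rw [map_sub, map_sub, sub_sub, sub_eq_zero] at this
  exact this

theorem gen_smul (c : k) (a : A) (i : ι) : gen k A β (c • a) i = c • gen k A β a i := by
  have h : X (c • a, i) - C c * X (a, i) ∈ relSet k A β :=
    Or.inl (Or.inl (Or.inr ⟨c, a, i, rfl⟩))
  have := chartMk_eq_zero_of_mem k A β h
  rw [map_sub, sub_eq_zero, map_mul] at this
  rw [gen, this, Algebra.smul_def, ← MvPolynomial.algebraMap_eq, AlgHom.commutes]
  rfl

theorem gen_basis (j i : ι) : gen k A β (β j) i = if i = j then 1 else 0 := by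
  have h : X (β j, i) - C (if i = j then (1 : k) else 0) ∈ relSet k A β :=
    Or.inl (Or.inr ⟨j, i, rfl⟩)
  have := chartMk_eq_zero_of_mem k A β h
  rw [map_sub, sub_eq_zero] at this
  rw [gen, this]
  by_cases hij : i = j
  · simp [hij]
  · simp [hij]

theorem gen_mul (a a' : A) (l : ι) :
    gen k A β (a * a') l = ∑ j, gen k A β a j * gen k A β (β j * a') l := by
  have h : X (a * a', l) - ∑ j, X (a, j) * X (β j * a', l) ∈ relSet k A β :=
    Or.inr ⟨a, a', l, rfl⟩
  have := chartMk_eq_zero_of_mem k A β h
  rw [map_sub, sub_eq_zero, map_sum] at this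
  rw [gen, this]
  refine Finset.sum_congr rfl fun j _ => ?_
  rw [map_mul]
  rfl

/-- Algebra maps out of the chart ring are determined by their values on the generators. -/
theorem chartRing_algHom_ext {B : Type x} [CommRing B] [Algebra k B]
    {f g : chartRing k A β →ₐ[k] B} (h : ∀ a i, f (gen k A β a i) = g (gen k A β a i)) :
    f = g := by
  have : f.comp (chartMk k A β) = g.comp (chartMk k A β) := by
    apply MvPolynomial.algHom_ext
    rintro ⟨a, i⟩
    exact h a i
  ext q
  obtain ⟨p, rfl⟩ := chartMk_surjective k A β q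
  exact congrArg (fun F => F p) this

/-- The universal based point. -/
noncomputable def univPoint : BasedPoint k A β (chartRing k A β) where
  coord :=
    { toFun := fun a i => gen k A β a i
      map_add' := fun a a' => by
        ext i
        exact gen_add a a' i
      map_smul' := fun c a => by
        ext i
        exact gen_smul c a i }
  coord_basis j := by
    ext i
    simp only [LinearMap.coe_mk, AddHom.coe_mk, Pi.single_apply]
    exact gen_basis j i
  coord_mul a a' := by
    ext l
    simp only [LinearMap.coe_mk, AddHom.coe_mk, Finset.sum_apply, Pi.smul_apply, smul_eq_mul]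
    exact gen_mul a a' l

@[simp]
theorem univPoint_coord_apply (a : A) (i : ι) :
    (univPoint (k := k) (A := A) (β := β)).coord a i = gen k A β a i := rfl

variable {B : Type x} [CommRing B] [Algebra k B]

theorem BasedPoint.aeval_mem_relSet (φ : BasedPoint k A β B) {p : MvPolynomial (A × ι) k}
    (hp : p ∈ relSet k A β) :
    MvPolynomial.aeval (fun q : A × ι => φ.coord q.1 q.2) p = 0 := by
  rcases hp with ((⟨a, a', i, rfl⟩ | ⟨c, a, i, rfl⟩) | ⟨j, i, rfl⟩) | ⟨a, a', l, rfl⟩
  · simp
  · rw [map_sub, map_mul, aeval_X, aeval_X, aeval_C, φ.coord.map_smul, Pi.smul_apply,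
      Algebra.smul_def, sub_self]
  · simp only [map_sub, aeval_X, φ.coord_basis j, Pi.single_apply]
    split_ifs <;> simp
  · simp only [map_sub, aeval_X, map_sum, map_mul, φ.coord_mul a a', Finset.sum_apply,
      Pi.smul_apply, smul_eq_mul, sub_self]

theorem BasedPoint.aeval_mem_span (φ : BasedPoint k A β B) (p : MvPolynomial (A × ι) k)
    (hp : p ∈ Ideal.span (relSet k A β)) :
    MvPolynomial.aeval (fun q : A × ι => φ.coord q.1 q.2) p = 0 := by
  have hle : Ideal.span (relSet k A β) ≤
      RingHom.ker (MvPolynomial.aeval (fun q : A × ι => φ.coord q.1 q.2) :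
        MvPolynomial (A × ι) k →ₐ[k] B).toRingHom := by
    rw [Ideal.span_le]
    intro p hp
    exact φ.aeval_mem_relSet hp
  exact hle hp

/-- The classifying map of a based point. -/
noncomputable def BasedPoint.classify (φ : BasedPoint k A β B) : chartRing k A β →ₐ[k] B :=
  Ideal.Quotient.liftₐ (Ideal.span (relSet k A β))
    (MvPolynomial.aeval (fun q : A × ι => φ.coord q.1 q.2)) φ.aeval_mem_span

@[simp]
theorem BasedPoint.classify_gen (φ : BasedPoint k A β B) (a : A) (i : ι) :
    φ.classify (gen k A β a i) = φ.coord a i := by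
  have : φ.classify (gen k A β a i) =
      MvPolynomial.aeval (fun q : A × ι => φ.coord q.1 q.2) (X (a, i)) := rfl
  rw [this, aeval_X]

/-- (A4.1, representability) `k`-algebra maps `chartRing k A β → B` are the same as `β`-based
points with values in `B`. -/
noncomputable def pointEquiv : (chartRing k A β →ₐ[k] B) ≃ BasedPoint k A β B where
  toFun f := (univPoint (k := k) (A := A) (β := β)).map f
  invFun φ := φ.classify
  left_inv f := by
    apply chartRing_algHom_ext
    intro a i
    simp
  right_inv φ := by
    apply BasedPoint.ext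
    ext a i
    simp

theorem pointEquiv_apply_coord (f : chartRing k A β →ₐ[k] B) (a : A) (i : ι) :
    (pointEquiv f).coord a i = f (gen k A β a i) := rfl

/-- (A4.1, naturality) -/
theorem pointEquiv_comp {B' : Type y} [CommRing B'] [Algebra k B'] (g : B →ₐ[k] B')
    (f : chartRing k A β →ₐ[k] B) : pointEquiv (g.comp f) = (pointEquiv f).map g := by
  unfold pointEquiv
  simp only [Equiv.coe_fn_mk]
  rw [BasedPoint.map_comp]

/-- The universal ideal on the chart ring. -/
noncomputable def univIdeal : Ideal (chartRing k A β ⊗[k] A) :=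
  (univPoint (k := k) (A := A) (β := β)).ideal

/-- (A4.1, ideal form of representability) The ideal of the point classified by `f` is the
extension of the universal ideal along `f`. -/
theorem pointEquiv_ideal (f : chartRing k A β →ₐ[k] B) :
    (pointEquiv f).ideal = Ideal.map (tensorMap f) (univIdeal (k := k) (A := A) (β := β)) :=
  BasedPoint.map_ideal f _

end ChartRing

section FiniteType

variable {k A β}

/-- The chart ring is generated by the universal coordinates. -/
theorem adjoin_range_gen :
    Algebra.adjoin k (Set.range fun q : A × ι => gen k A β q.1 q.2) = ⊤ := by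
  have h1 : (Set.range fun q : A × ι => gen k A β q.1 q.2) =
      (chartMk k A β) '' (Set.range (MvPolynomial.X : A × ι → MvPolynomial (A × ι) k)) := by
    ext q
    constructor
    · rintro ⟨p, rfl⟩
      exact ⟨MvPolynomial.X p, ⟨p, rfl⟩, rfl⟩
    · rintro ⟨_, ⟨p, rfl⟩, rfl⟩
      exact ⟨p, rfl⟩
  rw [h1, ← AlgHom.map_adjoin, MvPolynomial.adjoin_range_X, Algebra.map_top,
    AlgHom.range_eq_top]
  exact chartMk_surjective k A β

/-- (A4.1, finiteness) If `A` is generated by the finite set `s` as a `k`-algebra, the chart ring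
is generated by the coordinates of `1` and of the products `β j * x`, `x ∈ s`. -/
theorem adjoin_gen_eq_top (s : Set A) (hs : Algebra.adjoin k s = ⊤) :
    Algebra.adjoin k
      ((Set.range fun l : ι => gen k A β 1 l) ∪
        {q | ∃ x ∈ s, ∃ (j l : ι), q = gen k A β (β j * x) l}) = ⊤ := by
  set G : Set (chartRing k A β) := (Set.range fun l : ι => gen k A β 1 l) ∪
        {q | ∃ x ∈ s, ∃ (j l : ι), q = gen k A β (β j * x) l} with hG
  set S := Algebra.adjoin k G with hS
  have h1 : ∀ l, gen k A β 1 l ∈ S := fun l =>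
    Algebra.subset_adjoin (Or.inl ⟨l, rfl⟩)
  have h2 : ∀ x ∈ s, ∀ j l, gen k A β (β j * x) l ∈ S := fun x hx j l =>
    Algebra.subset_adjoin (Or.inr ⟨x, hx, j, l, rfl⟩)
  have key : ∀ a : A, (∀ l, gen k A β a l ∈ S) ∧ (∀ j l, gen k A β (β j * a) l ∈ S) := by
    intro a
    have ha : a ∈ Algebra.adjoin k s := by
      rw [hs]
      trivial
    induction ha using Algebra.adjoin_induction with
    | mem x hx =>
      refine ⟨fun l => ?_, fun j l => h2 x hx j l⟩
      have : gen k A β x l = ∑ j, gen k A β 1 j * gen k A β (β j * x) l := by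
        rw [← gen_mul, one_mul]
      rw [this]
      exact Subalgebra.sum_mem _ fun j _ => Subalgebra.mul_mem _ (h1 j) (h2 x hx j l)
    | algebraMap c =>
      refine ⟨fun l => ?_, fun j l => ?_⟩
      · rw [Algebra.algebraMap_eq_smul_one, gen_smul]
        exact Subalgebra.smul_mem _ (h1 l) c
      · rw [Algebra.algebraMap_eq_smul_one, mul_smul_comm, mul_one, gen_smul, gen_basis]
        refine Subalgebra.smul_mem _ ?_ c
        split_ifs
        · exact Subalgebra.one_mem _
        · exact Subalgebra.zero_mem _
    | add x y _ _ hx hy =>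
      refine ⟨fun l => ?_, fun j l => ?_⟩
      · rw [gen_add]
        exact Subalgebra.add_mem _ (hx.1 l) (hy.1 l)
      · rw [mul_add, gen_add]
        exact Subalgebra.add_mem _ (hx.2 j l) (hy.2 j l)
    | mul x y _ _ hx hy =>
      refine ⟨fun l => ?_, fun j l => ?_⟩
      · rw [gen_mul]
        exact Subalgebra.sum_mem _ fun j _ => Subalgebra.mul_mem _ (hx.1 j) (hy.2 j l)
      · rw [← mul_assoc, gen_mul]
        exact Subalgebra.sum_mem _ fun i _ => Subalgebra.mul_mem _ (hx.2 j i) (hy.2 i l)
  rw [eq_top_iff, ← adjoin_range_gen]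
  apply Algebra.adjoin_le
  rintro _ ⟨⟨a, l⟩, rfl⟩
  exact (key a).1 l

/-- (A4.1, finiteness) The chart ring of a finitely generated algebra is finitely generated. -/
instance chartRing_finiteType [Algebra.FiniteType k A] :
    Algebra.FiniteType k (chartRing k A β) := by
  obtain ⟨s, hs⟩ := (Algebra.FiniteType.out : (⊤ : Subalgebra k A).FG)
  refine ⟨Subalgebra.fg_def.mpr ⟨_, ?_, adjoin_gen_eq_top (β := β) (s : Set A) hs⟩⟩
  refine Set.Finite.union (Set.finite_range _) ?_
  have : {q | ∃ x ∈ (s : Set A), ∃ (j l : ι), q = gen k A β (β j * x) l} =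
      (fun t : A × ι × ι => gen k A β (β t.2.1 * t.1) t.2.2) ''
        ((s : Set A) ×ˢ (Set.univ : Set (ι × ι))) := by
    ext q
    constructor
    · rintro ⟨x, hx, j, l, rfl⟩
      exact ⟨(x, j, l), ⟨hx, Set.mem_univ _⟩, rfl⟩
    · rintro ⟨⟨x, j, l⟩, ⟨hx, _⟩, rfl⟩
      exact ⟨x, hx, j, l, rfl⟩
  rw [this]
  exact Set.Finite.image _ (Set.Finite.prod s.finite_toSet Set.finite_univ)

end FiniteType

end Fermat.Agent.JAC.Hilb.BasedQuot46
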