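/-
Programme JAC (S25), work package A4.3a (helper46): the ideal of zeros of a section.

For a module `M` over a commutative ring `R` and `σ : M`, `zeroIdeal R σ` is the ideal
`{λ σ | λ ∈ Dual R M}`.  For an invertible module it cuts out the zero scheme of the section `σ`:
`zeroIdeal R σ • ⊤ = R ∙ σ`, it is generated by the coordinates of `σ` in any finite projective
coordinate system, it commutes with every base change, and for a regular section it is an
invertible module isomorphic to the dual of `M`.
-/
import Mathlib

set_option autoImplicit false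

open TensorProduct

namespace Fermat.Agent.JAC.Hilb.ZeroIdeal46

universe u v w

section Basic

variable {R : Type u} [CommRing R] {M : Type v} [AddCommGroup M] [Module R M]

/-- The ideal of zeros of the section `σ`: all values `λ σ` of linear forms at `σ`. -/
def zeroIdeal (R : Type u) [CommRing R] {M : Type v} [AddCommGroup M] [Module R M] (σ : M) :
    Ideal R :=
  LinearMap.range (Module.Dual.eval R M σ)

theorem mem_zeroIdeal {σ : M} {r : R} : r ∈ zeroIdeal R σ ↔ ∃ l : Module.Dual R M, l σ = r :=
  Iff.rfl

theorem apply_mem_zeroIdeal (σ : M) (l : Module.Dual R M) : l σ ∈ zeroIdeal R σ :=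
  ⟨l, rfl⟩

theorem zeroIdeal_zero : zeroIdeal R (0 : M) = ⊥ := by
  rw [eq_bot_iff]
  rintro r ⟨l, rfl⟩
  simp

/-- Linear maps can only enlarge the zero ideal. -/
theorem zeroIdeal_le_map {M' : Type w} [AddCommGroup M'] [Module R M'] (f : M →ₗ[R] M') (σ : M) :
    zeroIdeal R (f σ) ≤ zeroIdeal R σ := by
  rintro r ⟨l, rfl⟩
  exact ⟨l ∘ₗ f, rfl⟩

/-- The zero ideal is invariant under linear isomorphisms. -/
theorem zeroIdeal_equiv {M' : Type w} [AddCommGroup M'] [Module R M'] (e : M ≃ₗ[R] M') (σ : M) :
    zeroIdeal R (e σ) = zeroIdeal R σ := by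
  apply le_antisymm (zeroIdeal_le_map e.toLinearMap σ)
  have := zeroIdeal_le_map e.symm.toLinearMap (e σ)
  simpa using this

theorem zeroIdeal_smul_le (r : R) (σ : M) : zeroIdeal R (r • σ) ≤ zeroIdeal R σ := by
  rintro x ⟨l, rfl⟩
  exact ⟨r • l, by simp⟩

/-- Scaling a section by a unit does not change its zero ideal. -/
theorem zeroIdeal_units_smul (c : Rˣ) (σ : M) : zeroIdeal R (c • σ) = zeroIdeal R σ := by
  apply le_antisymm
  · exact zeroIdeal_smul_le (c : R) σ
  · have := zeroIdeal_smul_le ((c⁻¹ : Rˣ) : R) (c • σ)
    rwa [Units.smul_def, smul_smul, Units.inv_mul, one_smul] at this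

theorem zeroIdeal_isUnit_smul {c : R} (hc : IsUnit c) (σ : M) :
    zeroIdeal R (c • σ) = zeroIdeal R σ :=
  zeroIdeal_units_smul hc.unit σ

/-- The zero ideal of an element of the ring itself is the principal ideal it generates. -/
theorem zeroIdeal_self (r : R) : zeroIdeal R r = Ideal.span {r} := by
  apply le_antisymm
  · rintro x ⟨l, rfl⟩
    have : l r = r * l 1 := by
      have := l.map_smul r 1
      simpa using this
    change l r ∈ Ideal.span {r}
    rw [this]
    exact Ideal.mul_mem_right _ _ (Ideal.subset_span rfl)
  · rw [Ideal.span_le, Set.singleton_subset_iff]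
    exact ⟨LinearMap.id, rfl⟩

/-- If `x = ∑ i, c i x • m i` is a finite coordinate system on `M` (for instance a dual basis of a
finite projective module), the zero ideal of `σ` is generated by the coordinates of `σ`. -/
theorem zeroIdeal_eq_span_of_coords {ι : Type*} [Fintype ι] (m : ι → M)
    (c : ι → Module.Dual R M) (h : ∀ x, ∑ i, c i x • m i = x) (σ : M) :
    zeroIdeal R σ = Ideal.span (Set.range fun i => c i σ) := by
  apply le_antisymm
  · rintro r ⟨l, rfl⟩
    have : l σ = ∑ i, c i σ * l (m i) := by
      conv_lhs => rw [← h σ]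
      simp [map_sum]
    change l σ ∈ Ideal.span _
    rw [this]
    exact Ideal.sum_mem _ fun i _ => Ideal.mul_mem_right _ _ (Ideal.subset_span ⟨i, rfl⟩)
  · rw [Ideal.span_le]
    rintro _ ⟨i, rfl⟩
    exact apply_mem_zeroIdeal σ (c i)

/-- A finite projective module has a finite coordinate system. -/
theorem exists_coords (R : Type u) [CommRing R] (M : Type v) [AddCommGroup M] [Module R M]
    [Module.Finite R M] [Module.Projective R M] :
    ∃ (n : ℕ) (m : Fin n → M) (c : Fin n → Module.Dual R M), ∀ x, ∑ i, c i x • m i = x := by
  obtain ⟨n, f, g, -, -, hfg⟩ := Module.Finite.exists_comp_eq_id_of_projective R M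
  refine ⟨n, fun i => f (Pi.single i 1), fun i => LinearMap.proj i ∘ₗ g, fun x => ?_⟩
  have h1 : f (g x) = x := by
    have := congrArg (fun F => F x) hfg
    simpa using this
  conv_rhs => rw [← h1]
  have h2 : g x = ∑ i, (g x) i • (Pi.single i 1 : Fin n → R) := by
    ext j
    simp [Finset.sum_apply, Pi.single_apply]
  conv_rhs => rw [h2]
  simp [map_sum]

theorem zeroIdeal_fg [Module.Finite R M] [Module.Projective R M] (σ : M) :
    (zeroIdeal R σ).FG := by
  obtain ⟨n, m, c, h⟩ := exists_coords R M
  rw [zeroIdeal_eq_span_of_coords m c h σ]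
  exact Submodule.fg_span (Set.finite_range _)

end Basic

section BaseChange

variable {R : Type u} [CommRing R] {M : Type v} [AddCommGroup M] [Module R M]
variable {R' : Type*} [CommRing R'] [Algebra R R']
variable {M' : Type*} [AddCommGroup M'] [Module R M'] [Module R' M'] [IsScalarTower R R' M']

/-- (base change) For a finite projective module, the zero ideal of the base-changed section is the
extension of the zero ideal. -/
theorem zeroIdeal_isBaseChange [Module.Finite R M] [Module.Projective R M]
    {f : M →ₗ[R] M'} (hf : IsBaseChange R' f) (σ : M) :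
    zeroIdeal R' (f σ) = Ideal.map (algebraMap R R') (zeroIdeal R σ) := by
  obtain ⟨n, m, c, h⟩ := exists_coords R M
  -- base-changed coordinate system
  let c' : Fin n → Module.Dual R' M' := fun i =>
    hf.lift ((Algebra.linearMap R R') ∘ₗ c i)
  have hc' : ∀ i x, c' i (f x) = algebraMap R R' (c i x) := fun i x => by
    simp only [c']
    rw [hf.lift_eq]
    rfl
  have h' : ∀ y, ∑ i, c' i y • f (m i) = y := by
    intro y
    induction y using hf.inductionOn with
    | zero => simp
    | tmul x =>
      simp only [hc', algebraMap_smul]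
      simp only [← LinearMap.map_smul, ← map_sum, h x]
    | smul r y hy =>
      simp only [map_smul, smul_eq_mul, mul_smul]
      rw [← Finset.smul_sum, hy]
    | add y₁ y₂ h₁ h₂ =>
      simp only [map_add, add_smul, Finset.sum_add_distrib, h₁, h₂]
  rw [zeroIdeal_eq_span_of_coords (fun i => f (m i)) c' h' (f σ),
    zeroIdeal_eq_span_of_coords m c h σ, Ideal.map_span]
  congr 1
  ext r
  constructor
  · rintro ⟨i, rfl⟩
    exact ⟨c i σ, ⟨i, rfl⟩, (hc' i σ).symm⟩
  · rintro ⟨_, ⟨i, rfl⟩, rfl⟩
    exact ⟨i, hc' i σ⟩

/-- (base change, tensor form) -/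
theorem zeroIdeal_tmul [Module.Finite R M] [Module.Projective R M] (σ : M) :
    zeroIdeal R' ((1 : R') ⊗ₜ[R] σ) = Ideal.map (algebraMap R R') (zeroIdeal R σ) :=
  zeroIdeal_isBaseChange (TensorProduct.isBaseChange R M R') σ

end BaseChange

section Invertible

variable {R : Type u} [CommRing R] {M : Type v} [AddCommGroup M] [Module R M]
  [Module.Invertible R M]

/-- The rank-one identity in an invertible module. -/
theorem apply_smul_comm (l : Module.Dual R M) (x y : M) : l x • y = l y • x := by
  have h := congrArg (TensorProduct.lift ((LinearMap.lsmul R M).comp l))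
    (Module.Invertible.tmul_comm (R := R) (m₁ := x) (m₂ := y))
  simpa using h

/-- In an invertible module, `zeroIdeal R σ • ⊤ = R ∙ σ`: the quotient `M ⧸ R σ` is the restriction
of `M` to the zero scheme of `σ`. -/
theorem zeroIdeal_smul_top (σ : M) :
    zeroIdeal R σ • (⊤ : Submodule R M) = Submodule.span R {σ} := by
  apply le_antisymm
  · rw [Submodule.smul_le]
    rintro r ⟨l, rfl⟩ x -
    change l σ • x ∈ _
    rw [apply_smul_comm l σ x]
    exact Submodule.smul_mem _ _ (Submodule.subset_span rfl)
  · rw [Submodule.span_le, Set.singleton_subset_iff]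
    -- write `1 = ∑ l_i (m_i)` using the surjectivity of the evaluation pairing
    obtain ⟨z, hz⟩ := (Module.Invertible.linearEquiv R M).surjective 1
    have key : ∀ z : Module.Dual R M ⊗[R] M,
        (Module.Invertible.linearEquiv R M z) • σ ∈ zeroIdeal R σ • (⊤ : Submodule R M) := by
      intro z
      induction z using TensorProduct.induction_on with
      | zero => simp
      | tmul l x =>
        have : Module.Invertible.linearEquiv R M (l ⊗ₜ x) = l x := by
          simp [Module.Invertible.linearEquiv]
        rw [this, apply_smul_comm l x σ]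
        exact Submodule.smul_mem_smul (apply_mem_zeroIdeal σ l) Submodule.mem_top
      | add z₁ z₂ h₁ h₂ =>
        rw [map_add, add_smul]
        exact Submodule.add_mem _ h₁ h₂
    have := key z
    rwa [hz, one_smul] at this

/-- A section is regular if no nonzero scalar kills it. -/
def IsRegularSection (R : Type u) [CommRing R] {M : Type v} [AddCommGroup M] [Module R M]
    (σ : M) : Prop := ∀ r : R, r • σ = 0 → r = 0

/-- For a regular section of an invertible module, evaluation at `σ` is injective on the dual. -/
theorem eval_injective_of_regular {σ : M} (hσ : IsRegularSection R σ) :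
    Function.Injective (Module.Dual.eval R M σ) := by
  rw [injective_iff_map_eq_zero]
  intro l hl
  ext x
  have h1 : l x • σ = 0 := by
    rw [← apply_smul_comm l σ x]
    have : l σ = 0 := hl
    rw [this, zero_smul]
  simpa using hσ _ h1

/-- For a regular section of an invertible module the zero ideal is isomorphic to the dual. -/
noncomputable def dualEquivZeroIdeal {σ : M} (hσ : IsRegularSection R σ) :
    Module.Dual R M ≃ₗ[R] zeroIdeal R σ :=
  LinearEquiv.ofInjective (Module.Dual.eval R M σ) (eval_injective_of_regular hσ)

theorem dualEquivZeroIdeal_apply {σ : M} (hσ : IsRegularSection R σ) (l : Module.Dual R M) :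
    (dualEquivZeroIdeal hσ l : R) = l σ := rfl

/-- The zero ideal of a regular section of an invertible module is an invertible module. -/
theorem invertible_zeroIdeal {σ : M} (hσ : IsRegularSection R σ) :
    Module.Invertible R (zeroIdeal R σ) :=
  Module.Invertible.congr (dualEquivZeroIdeal hσ)

end Invertible

end Fermat.Agent.JAC.Hilb.ZeroIdeal46
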