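/-
Programme JAC (S25), work package A4.3a (helper46): sections of line diagrams and their divisors.

* `idealDiag Z0 Z1 h` : the line diagram `Z0 → Z0·R01 ← Z1` attached to a pair of invertible
  ideals with the same extension to `R01` (the line bundle `O(-D)` of a divisor given on both
  charts).
* For a line diagram `N` and a regular section `σ = (σ0, σ1)`, the dual of `N` is isomorphic to
  `idealDiag (zeroIdeal σ0) (zeroIdeal σ1)`: "`N ≅ O(div σ)`".
* Isomorphic diagrams with corresponding sections have the same zero ideals.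
-/
import Mathlib
import Fermat.Agent.JAC.Core.Defs36
import Fermat.Agent.JAC.Grp.Diag33
import Fermat.Agent.JAC.Hilb.ZeroIdeal46

set_option autoImplicit false

open TensorProduct

universe u

namespace Fermat.Agent.JAC.Hilb.SectionDiv46

open Fermat.Agent.JAC.Core.Defs36 Fermat.Agent.JAC.Grp.LocTensor33 Fermat.Agent.JAC.Grp.Diag33
  Fermat.Agent.JAC.Hilb.ZeroIdeal46

variable {R0 R1 R01 : Type u} [CommRing R0] [CommRing R1] [CommRing R01]
  [Algebra R0 R01] [Algebra R1 R01] {t : R0} {s : R1}
  [IsLocalization.Away t R01] [IsLocalization.Away s R01]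

section IdealDiag

variable (t s)

/-- The line diagram `Z0 → Z0·R01 ← Z1` of a pair of invertible ideals with the same extension to
`R01`. -/
noncomputable def idealDiag (Z0 : Ideal R0) (Z1 : Ideal R1)
    (h : Ideal.map (algebraMap R0 R01) Z0 = Ideal.map (algebraMap R1 R01) Z1)
    [Module.Invertible R0 Z0] [Module.Invertible R1 Z1] : LineDiag t s R01 where
  M0 := Z0
  M1 := Z1
  M01 := Ideal.map (algebraMap R0 R01) Z0
  rho0 := Algebra.idealMap R01 Z0
  rho1 := ((LinearEquiv.ofEq _ _ h.symm).restrictScalars R1).toLinearMap ∘ₗ Algebra.idealMap R01 Z1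
  isLocalizedModule0 := Algebra.idealMap_isLocalizedModule R01 (Submonoid.powers t) Z0
  isLocalizedModule1 :=
    haveI := Algebra.idealMap_isLocalizedModule R01 (Submonoid.powers s) Z1
    IsLocalizedModule.of_linearEquiv (Submonoid.powers s) (Algebra.idealMap R01 Z1)
      ((LinearEquiv.ofEq _ _ h.symm).restrictScalars R1)

variable {t s}

theorem idealDiag_rho0_apply (Z0 : Ideal R0) (Z1 : Ideal R1)
    (h : Ideal.map (algebraMap R0 R01) Z0 = Ideal.map (algebraMap R1 R01) Z1)
    [Module.Invertible R0 Z0] [Module.Invertible R1 Z1] (x : Z0) :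
    (idealDiag t s Z0 Z1 h).rho0 x =
      (⟨algebraMap R0 R01 x, Ideal.mem_map_of_mem _ x.2⟩ : Ideal.map (algebraMap R0 R01) Z0) :=
  rfl

theorem idealDiag_rho1_apply (Z0 : Ideal R0) (Z1 : Ideal R1)
    (h : Ideal.map (algebraMap R0 R01) Z0 = Ideal.map (algebraMap R1 R01) Z1)
    [Module.Invertible R0 Z0] [Module.Invertible R1 Z1] (y : Z1) :
    (idealDiag t s Z0 Z1 h).rho1 y =
      (⟨algebraMap R1 R01 y, h ▸ Ideal.mem_map_of_mem _ y.2⟩ :
        Ideal.map (algebraMap R0 R01) Z0) :=
  rfl

end IdealDiag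

section Section

variable (N : LineDiag t s R01)

/-- The zero ideals of the two components of a section have the same extension to `R01`. -/
theorem map_zeroIdeal_eq {σ0 : N.M0} {σ1 : N.M1} (hσ : N.rho0 σ0 = N.rho1 σ1) :
    Ideal.map (algebraMap R0 R01) (zeroIdeal R0 σ0) =
      Ideal.map (algebraMap R1 R01) (zeroIdeal R1 σ1) := by
  rw [← zeroIdeal_isBaseChange (IsLocalizedModule.isBaseChange (Submonoid.powers t) R01 N.rho0),
    ← zeroIdeal_isBaseChange (IsLocalizedModule.isBaseChange (Submonoid.powers s) R01 N.rho1), hσ]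

omit [IsLocalization.Away s R01] in
theorem map_zeroIdeal_rho0 (σ0 : N.M0) :
    Ideal.map (algebraMap R0 R01) (zeroIdeal R0 σ0) = zeroIdeal R01 (N.rho0 σ0) :=
  (zeroIdeal_isBaseChange (IsLocalizedModule.isBaseChange (Submonoid.powers t) R01 N.rho0) σ0).symm

omit [IsLocalization.Away t R01] in
theorem map_zeroIdeal_rho1 (σ1 : N.M1) :
    Ideal.map (algebraMap R1 R01) (zeroIdeal R1 σ1) = zeroIdeal R01 (N.rho1 σ1) :=
  (zeroIdeal_isBaseChange (IsLocalizedModule.isBaseChange (Submonoid.powers s) R01 N.rho1) σ1).symm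

/-- Regularity of a section is preserved by localisation. -/
theorem isRegularSection_of_isLocalizedModule {R : Type*} [CommRing R] (S : Submonoid R)
    (R' : Type*) [CommRing R'] [Algebra R R'] [IsLocalization S R']
    {M M' : Type*} [AddCommGroup M] [Module R M] [AddCommGroup M'] [Module R M'] [Module R' M']
    [IsScalarTower R R' M'] (f : M →ₗ[R] M') [IsLocalizedModule S f] {σ : M}
    (hσ : IsRegularSection R σ) : IsRegularSection R' (f σ) := by
  intro r' hr'
  obtain ⟨⟨r, m⟩, hrm⟩ := IsLocalization.surj S r'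
  simp only at hrm
  -- `r' * m = r`, so `r • f σ = m • (r' • f σ) = 0`
  have h1 : f (r • σ) = 0 := by
    rw [map_smul, ← algebraMap_smul R' r (f σ), ← hrm, mul_smul, algebraMap_smul,
      smul_comm, hr', smul_zero]
  rw [← map_zero f] at h1
  obtain ⟨c, hc⟩ := IsLocalizedModule.exists_of_eq (S := S) h1
  rw [smul_zero, Submonoid.smul_def, smul_smul] at hc
  have h2 : (c : R) * r = 0 := hσ _ hc
  have h3 : algebraMap R R' r = 0 := by
    have := congrArg (algebraMap R R') h2
    rw [map_mul, map_zero] at this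
    exact (IsLocalization.map_units R' c).mul_right_eq_zero.mp this
  have h4 : r' * algebraMap R R' m = 0 := by rw [hrm, h3]
  exact (IsLocalization.map_units R' m).mul_left_eq_zero.mp h4

variable {σ0 : N.M0} {σ1 : N.M1}

/-- The divisor diagram `O(-div σ)` of a regular section. -/
noncomputable def divDiag (hσ : N.rho0 σ0 = N.rho1 σ1) (h0 : IsRegularSection R0 σ0)
    (h1 : IsRegularSection R1 σ1) : LineDiag t s R01 :=
  haveI := invertible_zeroIdeal h0
  haveI := invertible_zeroIdeal h1
  idealDiag t s (zeroIdeal R0 σ0) (zeroIdeal R1 σ1) (map_zeroIdeal_eq N hσ)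

/-- "`N ≅ O(div σ)`": the dual of a line diagram is isomorphic to the ideal diagram of the zero
ideals of any regular section. -/
noncomputable def dualIsoDivDiag (hσ : N.rho0 σ0 = N.rho1 σ1) (h0 : IsRegularSection R0 σ0)
    (h1 : IsRegularSection R1 σ1) : LineDiag.Iso (dual N) (divDiag N hσ h0 h1) where
  e0 := dualEquivZeroIdeal h0
  e1 := dualEquivZeroIdeal h1
  e01 := (dualEquivZeroIdeal
      (isRegularSection_of_isLocalizedModule (Submonoid.powers t) R01 N.rho0 h0)).trans
    (LinearEquiv.ofEq _ _ (map_zeroIdeal_rho0 N σ0).symm)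
  comm0 := by
    intro (x : Module.Dual R0 N.M0)
    apply Subtype.ext
    change (dualMap (Submonoid.powers t) R01 N.rho0 x) (N.rho0 σ0) = algebraMap R0 R01 (x σ0)
    exact dualMap_apply (Submonoid.powers t) R01 N.rho0 x σ0
  comm1 := by
    intro (y : Module.Dual R1 N.M1)
    apply Subtype.ext
    change (dualMap (Submonoid.powers s) R01 N.rho1 y) (N.rho0 σ0) = algebraMap R1 R01 (y σ1)
    rw [hσ]
    exact dualMap_apply (Submonoid.powers s) R01 N.rho1 y σ1

/-- The class of a line diagram with a regular section is the inverse of the class of the ideal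
diagram of its zero ideals. -/
theorem cls_eq_inv_cls_divDiag (hσ : N.rho0 σ0 = N.rho1 σ1) (h0 : IsRegularSection R0 σ0)
    (h1 : IsRegularSection R1 σ1) : cls N = (cls (divDiag N hσ h0 h1))⁻¹ := by
  rw [eq_inv_iff_mul_eq_one, ← inv_inv (cls N), inv_mul_eq_one, cls_inv]
  exact cls_eq_iff.mpr ⟨dualIsoDivDiag N hσ h0 h1⟩

end Section

section Tautological

variable (Z0 : Ideal R0) (Z1 : Ideal R1)
  (h : Ideal.map (algebraMap R0 R01) Z0 = Ideal.map (algebraMap R1 R01) Z1)
  [Module.Invertible R0 Z0] [Module.Invertible R1 Z1]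

/-- The zero ideal of the inclusion `Z → R`, viewed as a section of the dual of an invertible ideal
`Z`, is `Z` itself. -/
theorem zeroIdeal_subtype {R : Type*} [CommRing R] (Z : Ideal R) [Module.Invertible R Z] :
    zeroIdeal R (Submodule.subtype Z : Module.Dual R Z) = Z := by
  apply le_antisymm
  · rintro r ⟨Φ, rfl⟩
    -- `Z` is reflexive: `Φ` is evaluation at some `x : Z`
    obtain ⟨x, rfl⟩ := (Module.evalEquiv R Z).surjective Φ
    change (Module.evalEquiv R Z x) (Submodule.subtype Z) ∈ Z
    rw [Module.evalEquiv_apply, Module.Dual.eval_apply]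
    exact x.2
  · intro x hx
    refine ⟨Module.Dual.eval R Z ⟨x, hx⟩, ?_⟩
    rfl

/-- The tautological section of the dual of an ideal diagram: the two inclusions. -/
theorem dual_idealDiag_section :
    (dual (idealDiag t s Z0 Z1 h)).rho0 (Submodule.subtype Z0 : Module.Dual R0 Z0) =
      (dual (idealDiag t s Z0 Z1 h)).rho1 (Submodule.subtype Z1 : Module.Dual R1 Z1) := by
  change dualMap (Submonoid.powers t) R01 (idealDiag t s Z0 Z1 h).rho0 (Submodule.subtype Z0) =
    dualMap (Submonoid.powers s) R01 (idealDiag t s Z0 Z1 h).rho1 (Submodule.subtype Z1)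
  have key : ∀ ψ : Module.Dual R01 (idealDiag t s Z0 Z1 h).M01,
      (∀ y : Z1, ψ ((idealDiag t s Z0 Z1 h).rho1 y) = algebraMap R1 R01 y) →
      ψ = Submodule.subtype (Ideal.map (algebraMap R0 R01) Z0) := by
    intro ψ hψ
    apply dual_ext (Submonoid.powers s) R01 (idealDiag t s Z0 Z1 h).rho1
    intro y
    exact hψ y
  have key0 : ∀ ψ : Module.Dual R01 (idealDiag t s Z0 Z1 h).M01,
      (∀ x : Z0, ψ ((idealDiag t s Z0 Z1 h).rho0 x) = algebraMap R0 R01 x) →
      ψ = Submodule.subtype (Ideal.map (algebraMap R0 R01) Z0) := by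
    intro ψ hψ
    apply dual_ext (Submonoid.powers t) R01 (idealDiag t s Z0 Z1 h).rho0
    intro x
    exact hψ x
  exact (key0 _ (fun x => dualMap_apply (Submonoid.powers t) R01
      (idealDiag t s Z0 Z1 h).rho0 (Submodule.subtype Z0) x)).trans
    (key _ (fun y => dualMap_apply (Submonoid.powers s) R01
      (idealDiag t s Z0 Z1 h).rho1 (Submodule.subtype Z1) y)).symm

end Tautological

section Uniqueness

variable {N N' : LineDiag t s R01}

omit [IsLocalization.Away t R01] [IsLocalization.Away s R01] in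
/-- (Ch1 core) If an isomorphism of line diagrams carries the section `σ` to a unit multiple of
`σ'`, the zero ideals on the first chart agree. -/
theorem zeroIdeal_eq_of_iso0 (e : LineDiag.Iso N N') {σ0 : N.M0} {σ0' : N'.M0} {c : R0}
    (hc : IsUnit c) (h : e.e0 σ0 = c • σ0') : zeroIdeal R0 σ0 = zeroIdeal R0 σ0' := by
  rw [← zeroIdeal_equiv e.e0 σ0, h, zeroIdeal_isUnit_smul hc]

omit [IsLocalization.Away t R01] [IsLocalization.Away s R01] in
theorem zeroIdeal_eq_of_iso1 (e : LineDiag.Iso N N') {σ1 : N.M1} {σ1' : N'.M1} {c : R1}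
    (hc : IsUnit c) (h : e.e1 σ1 = c • σ1') : zeroIdeal R1 σ1 = zeroIdeal R1 σ1' := by
  rw [← zeroIdeal_equiv e.e1 σ1, h, zeroIdeal_isUnit_smul hc]

end Uniqueness

end Fermat.Agent.JAC.Hilb.SectionDiv46
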