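/-
Programme JAC (S25), work package A4.3a, part III (helper46): flat cokernels are universally
injective, and the consequence for base changes of ideals with flat quotient.

* `lTensor_injective_of_flat_coker` : if `0 → K → F → Q → 0` is exact and `Q` is flat, then
  `X ⊗ K → X ⊗ F` is injective for every module `X` (mirror of `Div/FlatCoker56`).
* `baseChange_injective_of_flat_coker` : the same along a pushout `R' = B' ⊗[B] R` of rings, for an
  exact sequence of `R`-modules whose cokernel is flat over `B`: `R' ⊗[R] K → R' ⊗[R] F` is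
  injective.
* `baseChange_subtype_injective_of_flat_quotient` : for an ideal `Z` of `R` with `R ⧸ Z` flat over
  `B`, the map `R' ⊗[R] Z → R' ⊗[R] R` is injective.
* `flat_quotient_of_sup_span_eq_top` : flatness of `R1 ⧸ Z1` (chart at infinity) from flatness of
  `R0 ⧸ Z0` when `Z1` is comaximal with `s` (via `quotientEquivOfSupSpanEqTop` and
  `flat_quotient_map_of_isLocalization`).
* `isPushout_const` : `B' ⊗[k] A` is the pushout of `B ⊗[k] A` along `B → B'`.
-/
import Mathlib

set_option autoImplicit false

open TensorProduct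

namespace Fermat.Agent.JAC.Hilb.FlatPure46

section Pure

variable {B : Type*} [CommRing B]
variable {K F Q : Type*} [AddCommGroup K] [AddCommGroup F] [AddCommGroup Q]
variable [Module B K] [Module B F] [Module B Q]

/-- Auxiliary form of `lTensor_injective_of_flat_coker`, with a chosen flat presentation `P → X`. -/
theorem lTensor_injective_of_flat_coker_aux [Module.Flat B Q]
    (i : K →ₗ[B] F) (π : F →ₗ[B] Q) (hi : Function.Injective i) (hex : Function.Exact i π)
    (hπ : Function.Surjective π) {X P : Type*} [AddCommGroup X] [Module B X] [AddCommGroup P]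
    [Module B P] [Module.Flat B P] (p : P →ₗ[B] X) (hp : Function.Surjective p) :
    Function.Injective (i.lTensor X) := by
  rw [injective_iff_map_eq_zero]
  intro z hz
  -- the presentation `0 → Y → P → X → 0`
  let j : LinearMap.ker p →ₗ[B] P := (LinearMap.ker p).subtype
  have hj : Function.Injective j := Subtype.val_injective
  have hjp : Function.Exact j p := LinearMap.exact_subtype_ker_map p
  -- 1. lift `z` to `w : P ⊗ K`
  obtain ⟨w, rfl⟩ := LinearMap.rTensor_surjective K hp z
  -- 2. the image of `w` in `P ⊗ F` comes from `y' : Y ⊗ F`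
  have h2 : (p.rTensor F) ((i.lTensor P) w) = 0 := by
    rw [← hz, ← LinearMap.comp_apply, ← LinearMap.comp_apply, LinearMap.rTensor_comp_lTensor,
      LinearMap.lTensor_comp_rTensor]
  obtain ⟨y', hy'⟩ := (rTensor_exact F hjp hp ((i.lTensor P) w)).mp h2
  -- 3. `y'` dies in `Y ⊗ Q`, hence comes from `y : Y ⊗ K`
  have h3 : (π.lTensor (LinearMap.ker p)) y' = 0 := by
    apply Module.Flat.rTensor_preserves_injective_linearMap (M := Q) j hj
    rw [map_zero, ← LinearMap.comp_apply, LinearMap.rTensor_comp_lTensor,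
      ← LinearMap.lTensor_comp_rTensor, LinearMap.comp_apply, hy', ← LinearMap.comp_apply,
      ← LinearMap.lTensor_comp, hex.linearMap_comp_eq_zero, LinearMap.lTensor_zero,
      LinearMap.zero_apply]
  obtain ⟨y, hy⟩ := (lTensor_exact (LinearMap.ker p) hex hπ y').mp h3
  -- 4. `(j ⊗ 1) y = w` by injectivity of `P ⊗ K → P ⊗ F`
  have h4 : (j.rTensor K) y = w := by
    apply Module.Flat.lTensor_preserves_injective_linearMap (M := P) i hi
    rw [← LinearMap.comp_apply, LinearMap.lTensor_comp_rTensor, ← LinearMap.rTensor_comp_lTensor,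
      LinearMap.comp_apply, hy, hy']
  -- 5. conclude
  rw [← h4, ← LinearMap.comp_apply, ← LinearMap.rTensor_comp, hjp.linearMap_comp_eq_zero,
    LinearMap.rTensor_zero, LinearMap.zero_apply]

/-- If `0 → K → F → Q → 0` is exact and `Q` is flat, then `X ⊗ K → X ⊗ F` is injective for every
module `X`: a submodule with flat quotient is pure. -/
theorem lTensor_injective_of_flat_coker [Module.Flat B Q]
    (i : K →ₗ[B] F) (π : F →ₗ[B] Q) (hi : Function.Injective i) (hex : Function.Exact i π)
    (hπ : Function.Surjective π) (X : Type*) [AddCommGroup X] [Module B X] :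
    Function.Injective (i.lTensor X) :=
  lTensor_injective_of_flat_coker_aux i π hi hex hπ (Finsupp.linearCombination B (id : X → X))
    (Finsupp.linearCombination_id_surjective B X)

end Pure


section Pushout

variable (B B' R R' : Type*) [CommRing B] [CommRing B'] [CommRing R] [CommRing R']
  [Algebra B B'] [Algebra B R] [Algebra R R'] [Algebra B' R'] [Algebra B R']
  [IsScalarTower B R R'] [IsScalarTower B B' R'] [Algebra.IsPushout B B' R R']

variable {K F Q : Type*} [AddCommGroup K] [AddCommGroup F] [AddCommGroup Q]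
  [Module R K] [Module R F] [Module R Q] [Module B K] [Module B F] [Module B Q]
  [IsScalarTower B R K] [IsScalarTower B R F] [IsScalarTower B R Q]

/-- Naturality of `Algebra.IsPushout.cancelBaseChange`. -/
theorem cancelBaseChange_symm_lTensor (i : K →ₗ[R] F) (x : B' ⊗[B] K) :
    (i.baseChange R') ((Algebra.IsPushout.cancelBaseChange B B' R R' K).symm x) =
      (Algebra.IsPushout.cancelBaseChange B B' R R' F).symm
        (((i.restrictScalars B).lTensor B') x) := by
  induction x using TensorProduct.induction_on with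
  | zero => simp
  | tmul b k =>
    rw [LinearMap.lTensor_tmul, Algebra.IsPushout.cancelBaseChange_symm_tmul,
      Algebra.IsPushout.cancelBaseChange_symm_tmul, LinearMap.baseChange_tmul]
    rfl
  | add x y hx hy => simp only [map_add, hx, hy]

include B' in
/-- Along a pushout `R' = B' ⊗[B] R`, an injective map of `R`-modules whose cokernel is flat over
`B` stays injective after base change to `R'`. -/
theorem baseChange_injective_of_flat_coker [Module.Flat B Q]
    (i : K →ₗ[R] F) (π : F →ₗ[R] Q) (hi : Function.Injective i) (hex : Function.Exact i π)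
    (hπ : Function.Surjective π) : Function.Injective (i.baseChange R') := by
  have h1 : Function.Injective ((i.restrictScalars B).lTensor B') :=
    lTensor_injective_of_flat_coker (i.restrictScalars B) (π.restrictScalars B) hi hex hπ B'
  intro x y hxy
  obtain ⟨x, rfl⟩ := (Algebra.IsPushout.cancelBaseChange B B' R R' K).symm.surjective x
  obtain ⟨y, rfl⟩ := (Algebra.IsPushout.cancelBaseChange B B' R R' K).symm.surjective y
  rw [cancelBaseChange_symm_lTensor, cancelBaseChange_symm_lTensor] at hxy
  rw [h1 ((Algebra.IsPushout.cancelBaseChange B B' R R' F).symm.injective hxy)]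

include B' in
/-- Along a pushout `R' = B' ⊗[B] R`: if `R ⧸ Z` is flat over `B`, then `R' ⊗[R] Z → R' ⊗[R] R` is
injective. -/
theorem baseChange_subtype_injective_of_flat_quotient (Z : Ideal R) [Module.Flat B (R ⧸ Z)] :
    Function.Injective (Z.subtype.baseChange R') :=
  baseChange_injective_of_flat_coker B B' R R' Z.subtype (Submodule.mkQ Z)
    Subtype.val_injective (LinearMap.exact_subtype_mkQ Z) (Submodule.mkQ_surjective Z)

end Pushout


section Infinity

variable {B R0 R1 R01 : Type*} [CommRing B] [CommRing R0] [CommRing R1] [CommRing R01]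
  [Algebra R0 R01] [Algebra R1 R01] [Algebra B R0] [Algebra B R1] [Algebra B R01]
  [IsScalarTower B R0 R01] [IsScalarTower B R1 R01]

theorem isScalarTower_quotient_map {R S : Type*} [CommRing R] [CommRing S] [Algebra R S]
    [Algebra B R] [Algebra B S] [IsScalarTower B R S] (Z : Ideal R) :
    IsScalarTower B (R ⧸ Z) (S ⧸ Z.map (algebraMap R S)) := by
  refine IsScalarTower.of_algebraMap_eq (fun b => ?_)
  rw [IsScalarTower.algebraMap_apply B R (R ⧸ Z), IsScalarTower.algebraMap_apply B S (S ⧸ _),
    IsScalarTower.algebraMap_apply B R S]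
  rfl

/-- Localisation of a quotient: `S ⧸ Z·S` is flat over `B` if `R ⧸ Z` is, `S` a localisation of
`R`. -/
theorem flat_quotient_map_of_isLocalization {R S : Type*} [CommRing R] [CommRing S] [Algebra R S]
    [Algebra B R] [Algebra B S] [IsScalarTower B R S] (M : Submonoid R) [IsLocalization M S]
    (Z : Ideal R) [Module.Flat B (R ⧸ Z)] : Module.Flat B (S ⧸ Z.map (algebraMap R S)) := by
  have := isScalarTower_quotient_map (B := B) (S := S) Z
  have : Module.Flat (R ⧸ Z) (S ⧸ Z.map (algebraMap R S)) :=
    IsLocalization.flat _ (Algebra.algebraMapSubmonoid (R ⧸ Z) M)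
  exact Module.Flat.trans B (R ⧸ Z) (S ⧸ Z.map (algebraMap R S))

/-- If `Z` is comaximal with `s`, then `R ⧸ Z → R[1/s] ⧸ Z·R[1/s]` is an isomorphism. -/
noncomputable def quotientEquivOfSupSpanEqTop {R S : Type*} [CommRing R] [CommRing S] [Algebra R S]
    [Algebra B R] [Algebra B S] [IsScalarTower B R S] (s : R) [IsLocalization.Away s S]
    (Z : Ideal R) (hZ : Z ⊔ Ideal.span {s} = ⊤) : (R ⧸ Z) ≃ₗ[B] (S ⧸ Z.map (algebraMap R S)) := by
  have := isScalarTower_quotient_map (B := B) (S := S) Z
  have H : Algebra.algebraMapSubmonoid (R ⧸ Z) (Submonoid.powers s) ≤ IsUnit.submonoid (R ⧸ Z) := by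
    rintro _ ⟨_, ⟨n, rfl⟩, rfl⟩
    obtain ⟨a, ha, b, hb, hab⟩ := Submodule.mem_sup.mp (hZ ▸ Submodule.mem_top : (1 : R) ∈ _)
    obtain ⟨c, rfl⟩ := Ideal.mem_span_singleton'.mp hb
    change IsUnit (algebraMap R (R ⧸ Z) (s ^ n))
    rw [map_pow]
    refine IsUnit.pow n (IsUnit.of_mul_eq_one (algebraMap R (R ⧸ Z) c) ?_)
    rw [← map_mul, ← map_one (algebraMap R (R ⧸ Z)), ← hab, map_add, mul_comm]
    have : algebraMap R (R ⧸ Z) a = 0 := Ideal.Quotient.eq_zero_iff_mem.mpr ha
    rw [this, zero_add]
  exact ((IsLocalization.atUnits (R ⧸ Z) (Algebra.algebraMapSubmonoid (R ⧸ Z) (Submonoid.powers s))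
    (S := S ⧸ Z.map (algebraMap R S)) H).restrictScalars B).toLinearEquiv

/-- Flatness of the quotient on the chart at infinity: if `Z1` is comaximal with `s`, has the same
extension to `R01` as `Z0`, and `R0 ⧸ Z0` is flat over `B`, then `R1 ⧸ Z1` is flat over `B`. -/
theorem flat_quotient_of_sup_span_eq_top (t : R0) (s : R1) [IsLocalization.Away t R01]
    [IsLocalization.Away s R01] (Z0 : Ideal R0) (Z1 : Ideal R1)
    (h : Ideal.map (algebraMap R0 R01) Z0 = Ideal.map (algebraMap R1 R01) Z1)
    (hinf : Z1 ⊔ Ideal.span {s} = ⊤) [Module.Flat B (R0 ⧸ Z0)] : Module.Flat B (R1 ⧸ Z1) := by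
  have h1 : Module.Flat B (R01 ⧸ Z0.map (algebraMap R0 R01)) :=
    flat_quotient_map_of_isLocalization (Submonoid.powers t) Z0
  have h2 : Module.Flat B (R01 ⧸ Z1.map (algebraMap R1 R01)) :=
    Module.Flat.of_linearEquiv (Ideal.quotientEquivAlgOfEq B h.symm).toLinearEquiv
  exact Module.Flat.of_linearEquiv (quotientEquivOfSupSpanEqTop (B := B) (S := R01) s Z1 hinf)

end Infinity

section Const

variable (k A B B' : Type*) [CommRing k] [CommRing A] [Algebra k A] [CommRing B] [Algebra k B]
  [CommRing B'] [Algebra k B'] [Algebra B B'] [IsScalarTower k B B']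
  [Algebra (B ⊗[k] A) (B' ⊗[k] A)]

/-- The scalar tower `B → B ⊗[k] A → B' ⊗[k] A` for an algebra structure given by `ψ ⊗ id`. -/
theorem isScalarTower_const
    (halg : ∀ (b : B) (a : A), algebraMap (B ⊗[k] A) (B' ⊗[k] A) (b ⊗ₜ a) = algebraMap B B' b ⊗ₜ a) :
    IsScalarTower B (B ⊗[k] A) (B' ⊗[k] A) := by
  refine IsScalarTower.of_algebraMap_eq (fun b => ?_)
  rw [Algebra.TensorProduct.algebraMap_apply, Algebra.TensorProduct.algebraMap_apply, halg]
  rfl

/-- `B' ⊗[k] A` is the pushout of `B ⊗[k] A` along `B → B'`. -/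
theorem isPushout_const [IsScalarTower B (B ⊗[k] A) (B' ⊗[k] A)]
    (halg : ∀ (b : B) (a : A), algebraMap (B ⊗[k] A) (B' ⊗[k] A) (b ⊗ₜ a) = algebraMap B B' b ⊗ₜ a) :
    Algebra.IsPushout B B' (B ⊗[k] A) (B' ⊗[k] A) := by
  refine Algebra.IsPushout.tensorProduct_tensorProduct k A B B' ?_
  ext a
  simp [halg]

end Const

end Fermat.Agent.JAC.Hilb.FlatPure46
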