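/-
Programme JAC (S25), work package A4.3a, part II (helper46): divisors of sections and base change.

* `nonempty_iso_dual_divDiag` : `N ≅ dual (divDiag N ..)` ("`N ≅ O(div σ)`", restated).
* `idealDiagCongr` : `idealDiag` only depends on the two ideals.
* `baseChange_section`, `zeroIdeal_baseChange0/1` : the base change of a section along a morphism
  of two-chart families (`BaseChange33.baseChange`), and its zero ideals.
* `isRegularSection_tmul_of_injective` : the base-changed section stays regular as soon as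
  `R' ⊗[R] Z → R'` is injective (`Z` the zero ideal).
* `nonempty_iso_baseChange_dual_idealDiag` : the base change of a diagram with a section is
  `dual (idealDiag (Z0.map) (Z1.map))`.
* `nonempty_iso_baseChange_idealDiag` : `baseChange (idealDiag Z0 Z1) ≅ idealDiag Z0.map Z1.map`.
* `eq_comap_map_of_sup_span_eq_top` : an ideal of `R1` comaximal with `s` is determined by its
  extension to `R01 = R1[1/s]`.
-/
import Mathlib
import Fermat.Agent.JAC.Core.Defs36
import Fermat.Agent.JAC.Grp.Diag33
import Fermat.Agent.JAC.Grp.BaseChange33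
import Fermat.Agent.JAC.Hilb.ZeroIdeal46
import Fermat.Agent.JAC.Hilb.SectionDiv46

set_option autoImplicit false

open TensorProduct

universe u

namespace Fermat.Agent.JAC.Hilb.IdealDiagBC46

open Fermat.Agent.JAC.Core.Defs36 Fermat.Agent.JAC.Grp.LocTensor33 Fermat.Agent.JAC.Grp.Diag33
  Fermat.Agent.JAC.Grp.BaseChange33 Fermat.Agent.JAC.Hilb.ZeroIdeal46
  Fermat.Agent.JAC.Hilb.SectionDiv46

section OneFamily

variable {R0 R1 R01 : Type u} [CommRing R0] [CommRing R1] [CommRing R01]
  [Algebra R0 R01] [Algebra R1 R01] {t : R0} {s : R1}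
  [IsLocalization.Away t R01] [IsLocalization.Away s R01]

/-- "`N ≅ O(div σ)`": a line diagram with a regular section is the dual of the ideal diagram of
its zero ideals. -/
theorem nonempty_iso_dual_divDiag (N : LineDiag t s R01) {σ0 : N.M0} {σ1 : N.M1}
    (hσ : N.rho0 σ0 = N.rho1 σ1) (h0 : IsRegularSection R0 σ0) (h1 : IsRegularSection R1 σ1) :
    Nonempty (LineDiag.Iso N (dual (divDiag N hσ h0 h1))) := by
  rw [← cls_eq_iff, ← cls_inv]
  exact cls_eq_inv_cls_divDiag N hσ h0 h1

/-- `idealDiag` only depends on the two ideals. -/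
noncomputable def idealDiagCongr {Z0 Z0' : Ideal R0} {Z1 Z1' : Ideal R1} (e0 : Z0 = Z0')
    (e1 : Z1 = Z1')
    (h : Ideal.map (algebraMap R0 R01) Z0 = Ideal.map (algebraMap R1 R01) Z1)
    (h' : Ideal.map (algebraMap R0 R01) Z0' = Ideal.map (algebraMap R1 R01) Z1')
    [Module.Invertible R0 Z0] [Module.Invertible R1 Z1]
    [Module.Invertible R0 Z0'] [Module.Invertible R1 Z1'] :
    LineDiag.Iso (idealDiag t s Z0 Z1 h) (idealDiag t s Z0' Z1' h') := by
  subst e0
  subst e1
  exact LineDiag.Iso.refl _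

end OneFamily


section Regular

variable {R : Type u} [CommRing R] {M : Type u} [AddCommGroup M] [Module R M]
  [Module.Invertible R M] (R' : Type u) [CommRing R'] [Algebra R R']

/-- The base change `1 ⊗ σ` of a regular section stays regular as soon as `R' ⊗[R] Z → R' ⊗[R] R`
is injective, `Z` being the zero ideal of `σ`. -/
theorem isRegularSection_tmul_of_injective {σ : M} (hσ : IsRegularSection R σ) {Z : Ideal R}
    (hZ : zeroIdeal R σ = Z) (hinj : Function.Injective (Z.subtype.baseChange R')) :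
    IsRegularSection R' ((1 : R') ⊗ₜ[R] σ) := by
  subst hZ
  have := invertible_zeroIdeal hσ
  intro r' hr'
  -- `r'` kills `R' ⊗ Z`
  have hkill : ∀ w : R' ⊗[R] (zeroIdeal R σ), r' • w = 0 := by
    intro w
    induction w using TensorProduct.induction_on with
    | zero => simp
    | tmul x z =>
      obtain ⟨l, hl⟩ := mem_zeroIdeal.mp z.2
      apply hinj
      rw [map_zero, TensorProduct.smul_tmul', LinearMap.baseChange_tmul, Submodule.subtype_apply,
        ← hl]
      have h1 : (LinearMap.baseChange R' (l : M →ₗ[R] R)) (r' • ((1 : R') ⊗ₜ[R] σ)) = 0 := by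
        rw [hr', map_zero]
      rw [TensorProduct.smul_tmul', LinearMap.baseChange_tmul, smul_eq_mul, mul_one] at h1
      rw [smul_eq_mul, mul_comm, ← smul_eq_mul, ← TensorProduct.smul_tmul', h1, smul_zero]
    | add x y hx hy => rw [smul_add, hx, hy, add_zero]
  exact (FaithfulSMul.eq_of_smul_eq_smul (M := R') (α := R' ⊗[R] (zeroIdeal R σ))
    (fun w => by rw [hkill w, zero_smul]) : r' = 0)

omit [Module.Invertible R M] in
/-- The tautological section `Z ↪ R` of the dual of an invertible ideal is regular. -/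
theorem isRegularSection_subtype (Z : Ideal R) [Module.Invertible R Z] :
    IsRegularSection R (Submodule.subtype Z : Module.Dual R Z) := by
  intro r hr
  have h : ∀ z : Z, r • z = (0 : R) • z := by
    intro z
    apply Subtype.ext
    have := congrArg (fun l : Module.Dual R Z => l z) hr
    simpa using this
  exact FaithfulSMul.eq_of_smul_eq_smul (M := R) (α := Z) h

end Regular


section TwoFamilies

variable {R0 R1 R01 : Type u} [CommRing R0] [CommRing R1] [CommRing R01]
  [Algebra R0 R01] [Algebra R1 R01] {t : R0} {s : R1}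
variable {R0' R1' R01' : Type u} [CommRing R0'] [CommRing R1'] [CommRing R01']
  [Algebra R0' R01'] [Algebra R1' R01']
  [Algebra R0 R0'] [Algebra R1 R1'] [Algebra R01 R01'] [Algebra R0 R01'] [Algebra R1 R01']
  [IsScalarTower R0 R01 R01'] [IsScalarTower R0 R0' R01']
  [IsScalarTower R1 R01 R01'] [IsScalarTower R1 R1' R01']
  (t' : R0') (s' : R1')
variable [IsLocalization.Away t R01] [IsLocalization.Away s R01]
  [IsLocalization.Away t' R01'] [IsLocalization.Away s' R01']

variable (R01')

/-- The extensions to `R01'` of the extended ideals agree. -/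
theorem map_map_eq {Z0 : Ideal R0} {Z1 : Ideal R1}
    (h : Ideal.map (algebraMap R0 R01) Z0 = Ideal.map (algebraMap R1 R01) Z1) :
    Ideal.map (algebraMap R0' R01') (Ideal.map (algebraMap R0 R0') Z0) =
      Ideal.map (algebraMap R1' R01') (Ideal.map (algebraMap R1 R1') Z1) := by
  rw [Ideal.map_map, Ideal.map_map, ← IsScalarTower.algebraMap_eq, ← IsScalarTower.algebraMap_eq,
    IsScalarTower.algebraMap_eq R0 R01 R01', IsScalarTower.algebraMap_eq R1 R01 R01',
    ← Ideal.map_map, ← Ideal.map_map, h]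

variable (N : LineDiag t s R01)

theorem baseChange_rho0_tmul (x : R0') (m : N.M0) :
    (baseChange R01' t' s' N).rho0 (x ⊗ₜ[R0] m) = algebraMap R0' R01' x ⊗ₜ[R01] N.rho0 m :=
  baseChangeMap_tmul N.rho0 x m

theorem baseChange_rho1_tmul (x : R1') (m : N.M1) :
    (baseChange R01' t' s' N).rho1 (x ⊗ₜ[R1] m) = algebraMap R1' R01' x ⊗ₜ[R01] N.rho1 m :=
  baseChangeMap_tmul N.rho1 x m

/-- The base change `(1 ⊗ σ0, 1 ⊗ σ1)` of a section is a section. -/
theorem baseChange_section {σ0 : N.M0} {σ1 : N.M1} (hσ : N.rho0 σ0 = N.rho1 σ1) :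
    (baseChange R01' t' s' N).rho0 ((1 : R0') ⊗ₜ[R0] σ0) =
      (baseChange R01' t' s' N).rho1 ((1 : R1') ⊗ₜ[R1] σ1) := by
  rw [baseChange_rho0_tmul, baseChange_rho1_tmul, map_one, map_one, hσ]

omit [IsLocalization.Away t R01] [IsLocalization.Away s R01] in
/-- The zero ideal of the base-changed section on the chart `0` (a form of `zeroIdeal_tmul`). -/
theorem zeroIdeal_baseChange0 (σ0 : N.M0) :
    zeroIdeal R0' ((1 : R0') ⊗ₜ[R0] σ0) = Ideal.map (algebraMap R0 R0') (zeroIdeal R0 σ0) :=
  zeroIdeal_tmul σ0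

omit [IsLocalization.Away t R01] [IsLocalization.Away s R01] in
/-- The zero ideal of the base-changed section on the chart `1` (a form of `zeroIdeal_tmul`). -/
theorem zeroIdeal_baseChange1 (σ1 : N.M1) :
    zeroIdeal R1' ((1 : R1') ⊗ₜ[R1] σ1) = Ideal.map (algebraMap R1 R1') (zeroIdeal R1 σ1) :=
  zeroIdeal_tmul σ1

/-- **Divisor of a base change.**  If `N` has a section `(σ0, σ1)` whose base change is regular on
both charts, then the base change of `N` is `O(D')`, `D'` the base change of the divisor of the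
section: `baseChange N ≅ dual (idealDiag (Z0.map) (Z1.map))`. -/
theorem nonempty_iso_baseChange_dual_idealDiag {σ0 : N.M0} {σ1 : N.M1}
    (hσ : N.rho0 σ0 = N.rho1 σ1)
    (h0' : IsRegularSection R0' ((1 : R0') ⊗ₜ[R0] σ0))
    (h1' : IsRegularSection R1' ((1 : R1') ⊗ₜ[R1] σ1)) :
    ∃ (_ : Module.Invertible R0' (Ideal.map (algebraMap R0 R0') (zeroIdeal R0 σ0)))
      (_ : Module.Invertible R1' (Ideal.map (algebraMap R1 R1') (zeroIdeal R1 σ1))),
      Nonempty (LineDiag.Iso (baseChange R01' t' s' N)
        (dual (idealDiag t' s' (Ideal.map (algebraMap R0 R0') (zeroIdeal R0 σ0))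
          (Ideal.map (algebraMap R1 R1') (zeroIdeal R1 σ1))
          (map_map_eq R01' (map_zeroIdeal_eq N hσ))))) := by
  have e0 := zeroIdeal_baseChange0 (R0' := R0') N σ0
  have e1 := zeroIdeal_baseChange1 (R1' := R1') N σ1
  have hσ' := baseChange_section R01' t' s' N hσ
  have i0 : Module.Invertible R0' (Ideal.map (algebraMap R0 R0') (zeroIdeal R0 σ0)) := by
    rw [← e0]; exact invertible_zeroIdeal h0'
  have i1 : Module.Invertible R1' (Ideal.map (algebraMap R1 R1') (zeroIdeal R1 σ1)) := by
    rw [← e1]; exact invertible_zeroIdeal h1'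
  refine ⟨i0, i1, ?_⟩
  obtain ⟨e⟩ := nonempty_iso_dual_divDiag (baseChange R01' t' s' N) hσ' h0' h1'
  have := invertible_zeroIdeal h0'
  have := invertible_zeroIdeal h1'
  exact ⟨e.trans (dualCongr (idealDiagCongr e0 e1 _ _))⟩

/-- **Base change of an ideal diagram.**  If `R_i' ⊗[R_i] Z_i → R_i'` is injective on both charts
(e.g. when `R_i ⧸ Z_i` is flat over a base and the family morphism is a base change of the base),
then `baseChange (idealDiag Z0 Z1) ≅ idealDiag (Z0.map) (Z1.map)`. -/
theorem nonempty_iso_baseChange_idealDiag (Z0 : Ideal R0) (Z1 : Ideal R1)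
    (h : Ideal.map (algebraMap R0 R01) Z0 = Ideal.map (algebraMap R1 R01) Z1)
    [Module.Invertible R0 Z0] [Module.Invertible R1 Z1]
    (hinj0 : Function.Injective (Z0.subtype.baseChange R0'))
    (hinj1 : Function.Injective (Z1.subtype.baseChange R1')) :
    ∃ (_ : Module.Invertible R0' (Ideal.map (algebraMap R0 R0') Z0))
      (_ : Module.Invertible R1' (Ideal.map (algebraMap R1 R1') Z1)),
      Nonempty (LineDiag.Iso (baseChange R01' t' s' (idealDiag t s Z0 Z1 h))
        (idealDiag t' s' (Ideal.map (algebraMap R0 R0') Z0) (Ideal.map (algebraMap R1 R1') Z1)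
          (map_map_eq R01' h))) := by
  have hz0 := zeroIdeal_subtype Z0
  have hz1 := zeroIdeal_subtype Z1
  obtain ⟨i0, i1, ⟨e⟩⟩ := nonempty_iso_baseChange_dual_idealDiag R01' t' s'
    (dual (idealDiag t s Z0 Z1 h)) (dual_idealDiag_section Z0 Z1 h)
    (isRegularSection_tmul_of_injective R0' (isRegularSection_subtype Z0) hz0 hinj0)
    (isRegularSection_tmul_of_injective R1' (isRegularSection_subtype Z1) hz1 hinj1)
  have j0 : Module.Invertible R0' (Ideal.map (algebraMap R0 R0') Z0) := by
    rw [← hz0]; exact i0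
  have j1 : Module.Invertible R1' (Ideal.map (algebraMap R1 R1') Z1) := by
    rw [← hz1]; exact i1
  refine ⟨j0, j1, ?_⟩
  have i0' : Module.Invertible R0'
      (Ideal.map (algebraMap R0 R0') (zeroIdeal R0 (Submodule.subtype Z0 : Module.Dual R0 Z0))) := i0
  have i1' : Module.Invertible R1'
      (Ideal.map (algebraMap R1 R1') (zeroIdeal R1 (Submodule.subtype Z1 : Module.Dual R1 Z1))) := i1
  have e' := e.trans (dualCongr (idealDiagCongr (congrArg (Ideal.map (algebraMap R0 R0')) hz0)
    (congrArg (Ideal.map (algebraMap R1 R1')) hz1) _ (map_map_eq R01' h)))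
  have h1 := cls_eq_iff.mpr ⟨e'⟩
  rw [← cls_inv, ← baseChangeHom_cls, ← cls_inv, map_inv, inv_inj, baseChangeHom_cls] at h1
  exact cls_eq_iff.mp h1

end TwoFamilies


section Infinity

variable {R : Type*} [CommRing R] (s : R) (R' : Type*) [CommRing R'] [Algebra R R']
  [IsLocalization.Away s R']

/-- An ideal comaximal with `s` is determined by its extension to `R[1/s]`: it is the contraction
of its extension. -/
theorem eq_comap_map_of_sup_span_eq_top {Z : Ideal R} (hZ : Z ⊔ Ideal.span {s} = ⊤) :
    Z = Ideal.comap (algebraMap R R') (Ideal.map (algebraMap R R') Z) := by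
  refine le_antisymm Ideal.le_comap_map ?_
  intro x hx
  rw [Ideal.mem_comap, IsLocalization.mem_map_algebraMap_iff (Submonoid.powers s) R'] at hx
  obtain ⟨⟨z, ⟨_, n, rfl⟩⟩, hz⟩ := hx
  simp only at hz
  rw [← map_mul, IsLocalization.eq_iff_exists (Submonoid.powers s) R'] at hz
  obtain ⟨⟨_, m, rfl⟩, hc⟩ := hz
  simp only at hc
  -- `s ^ (m + n) * x ∈ Z`
  have h1 : s ^ (m + n) * x ∈ Z := by
    have : s ^ (m + n) * x = s ^ m * (x * s ^ n) := by ring
    rw [this, hc]
    exact Z.mul_mem_left _ z.2
  -- `Z + (s ^ (m + n)) = ⊤`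
  have h2 : Z ⊔ Ideal.span {s ^ (m + n)} = ⊤ := by
    rw [← Ideal.span_singleton_pow]
    exact Ideal.sup_pow_eq_top hZ
  obtain ⟨a, ha, b, hb, hab⟩ := Submodule.mem_sup.mp (h2 ▸ Submodule.mem_top : (1 : R) ∈ _)
  obtain ⟨c, rfl⟩ := Ideal.mem_span_singleton'.mp hb
  have : x = a * x + c * (s ^ (m + n) * x) := by
    rw [← mul_assoc, ← add_mul, hab, one_mul]
  rw [this]
  exact Z.add_mem (Z.mul_mem_right _ ha) (Z.mul_mem_left _ h1)

/-- Two ideals comaximal with `s` and with the same extension to `R[1/s]` are equal. -/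
theorem eq_of_map_eq_of_sup_span_eq_top {Z Z' : Ideal R} (hZ : Z ⊔ Ideal.span {s} = ⊤)
    (hZ' : Z' ⊔ Ideal.span {s} = ⊤)
    (h : Ideal.map (algebraMap R R') Z = Ideal.map (algebraMap R R') Z') : Z = Z' := by
  rw [eq_comap_map_of_sup_span_eq_top s R' hZ, eq_comap_map_of_sup_span_eq_top s R' hZ', h]

omit [IsLocalization.Away s R'] in
/-- Comaximality with `s` is preserved by extension of scalars. -/
theorem map_sup_span_eq_top {Z : Ideal R} (hZ : Z ⊔ Ideal.span {s} = ⊤) :
    Ideal.map (algebraMap R R') Z ⊔ Ideal.span {algebraMap R R' s} = ⊤ := by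
  have := congrArg (Ideal.map (algebraMap R R')) hZ
  rwa [Ideal.map_sup, Ideal.map_span, Set.image_singleton, Ideal.map_top] at this

end Infinity

end Fermat.Agent.JAC.Hilb.IdealDiagBC46
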