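/-
Programme JAC (S25), work package A4.3a, part IV (helper46): base change of divisor classes over
the constant family, in the class form of `Core/AlgAtlas36`.

For `ψ : B →ₐ[k] B'` and a pair of invertible ideals `Z0 ⊆ B ⊗[k] A0`, `Z1 ⊆ B ⊗[k] A1` with the same
extension to `B ⊗[k] A01` and with `B`-flat quotients:
`bc ψ (cls (dual (idealDiag Z0 Z1))) = cls (dual (idealDiag (Z0·(B' ⊗ A0)) (Z1·(B' ⊗ A1))))`.
-/
import Mathlib
import Fermat.Agent.JAC.Core.AlgAtlas36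
import Fermat.Agent.JAC.Hilb.IdealDiagBC46
import Fermat.Agent.JAC.Hilb.FlatPure46

set_option autoImplicit false

universe u

namespace Fermat.Agent.JAC.Hilb.DivBaseChange46

open scoped TensorProduct
open scoped Fermat.Agent.JAC.Core.ConstFamily36
open Fermat.Agent.JAC.Core.Defs36 Fermat.Agent.JAC.Core.ConstFamily36
  Fermat.Agent.JAC.Core.AlgAtlas36 Fermat.Agent.JAC.Grp.Diag33 Fermat.Agent.JAC.Grp.BaseChange33
  Fermat.Agent.JAC.Hilb.SectionDiv46 Fermat.Agent.JAC.Hilb.IdealDiagBC46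
  Fermat.Agent.JAC.Hilb.FlatPure46

variable {k : Type u} [Field k] {A0 A1 A01 : Type u} [CommRing A0] [CommRing A1] [CommRing A01]
  [Algebra k A0] [Algebra k A1] [Algebra k A01] [Algebra A0 A01] [Algebra A1 A01]
  [IsScalarTower k A0 A01] [IsScalarTower k A1 A01] {t : A0} {s : A1}
  [IsLocalization.Away t A01] [IsLocalization.Away s A01]
variable {B B' : Type u} [CommRing B] [CommRing B'] [Algebra k B] [Algebra k B']
  (ψ : B →ₐ[k] B')

/-- The base change along `ψ ⊗ id` of ideals of `B ⊗[k] A` with `B`-flat quotient is injective on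
`(B' ⊗[k] A) ⊗ Z`. -/
theorem baseChange_subtype_injective_const (A : Type u) [CommRing A] [Algebra k A]
    (Z : Ideal (B ⊗[k] A)) [Module.Flat B ((B ⊗[k] A) ⧸ Z)] :
    let _ : Algebra (B ⊗[k] A) (B' ⊗[k] A) := (bcMap ψ A A).toAlgebra
    Function.Injective (Z.subtype.baseChange (B' ⊗[k] A)) := by
  let _ : Algebra (B ⊗[k] A) (B' ⊗[k] A) := (bcMap ψ A A).toAlgebra
  let _ : Algebra B B' := ψ.toRingHom.toAlgebra
  have : IsScalarTower k B B' := IsScalarTower.of_algebraMap_eq (fun x => (ψ.commutes x).symm)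
  have halg : ∀ (b : B) (a : A),
      algebraMap (B ⊗[k] A) (B' ⊗[k] A) (b ⊗ₜ a) = algebraMap B B' b ⊗ₜ a := fun b a => rfl
  have := isScalarTower_const k A B B' halg
  have := isPushout_const k A B B' halg
  exact baseChange_subtype_injective_of_flat_quotient B B' (B ⊗[k] A) (B' ⊗[k] A) Z


/-- The extensions to `B' ⊗[k] A01` of the base-changed ideals agree. -/
theorem map_bcMap_eq {Z0 : Ideal (B ⊗[k] A0)} {Z1 : Ideal (B ⊗[k] A1)}
    (h : Ideal.map (algebraMap (B ⊗[k] A0) (B ⊗[k] A01)) Z0 =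
      Ideal.map (algebraMap (B ⊗[k] A1) (B ⊗[k] A01)) Z1) :
    Ideal.map (algebraMap (B' ⊗[k] A0) (B' ⊗[k] A01)) (Ideal.map (bcMap ψ A0 A0) Z0) =
      Ideal.map (algebraMap (B' ⊗[k] A1) (B' ⊗[k] A01)) (Ideal.map (bcMap ψ A1 A1) Z1) := by
  have e0 : (algebraMap (B' ⊗[k] A0) (B' ⊗[k] A01)).comp (bcMap ψ A0 A0) =
      (bcMap ψ A01 A01).comp (algebraMap (B ⊗[k] A0) (B ⊗[k] A01)) := by
    refine RingHom.ext fun x => ?_
    induction x using TensorProduct.induction_on with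
    | zero => simp
    | tmul b a => rfl
    | add x y hx hy => simp only [map_add, hx, hy]
  have e1 : (algebraMap (B' ⊗[k] A1) (B' ⊗[k] A01)).comp (bcMap ψ A1 A1) =
      (bcMap ψ A01 A01).comp (algebraMap (B ⊗[k] A1) (B ⊗[k] A01)) := by
    refine RingHom.ext fun x => ?_
    induction x using TensorProduct.induction_on with
    | zero => simp
    | tmul b a => rfl
    | add x y hx hy => simp only [map_add, hx, hy]
  rw [Ideal.map_map, Ideal.map_map, e0, e1, ← Ideal.map_map, ← Ideal.map_map, h]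

/-- **Base change of divisor classes, class form.**  For ideals with `B`-flat quotients,
`bc ψ [O(-D)] = [O(-D_{B'})]`. -/
theorem bc_cls_idealDiag (Z0 : Ideal (B ⊗[k] A0)) (Z1 : Ideal (B ⊗[k] A1))
    (h : Ideal.map (algebraMap (B ⊗[k] A0) (B ⊗[k] A01)) Z0 =
      Ideal.map (algebraMap (B ⊗[k] A1) (B ⊗[k] A01)) Z1)
    [Module.Invertible (B ⊗[k] A0) Z0] [Module.Invertible (B ⊗[k] A1) Z1]
    [Module.Flat B ((B ⊗[k] A0) ⧸ Z0)] [Module.Flat B ((B ⊗[k] A1) ⧸ Z1)] :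
    ∃ (_ : Module.Invertible (B' ⊗[k] A0) (Ideal.map (bcMap ψ A0 A0) Z0))
      (_ : Module.Invertible (B' ⊗[k] A1) (Ideal.map (bcMap ψ A1 A1) Z1)),
      bc ψ (cls (idealDiag ((1 : B) ⊗ₜ[k] t) ((1 : B) ⊗ₜ[k] s) Z0 Z1 h)) =
        cls (idealDiag ((1 : B') ⊗ₜ[k] t) ((1 : B') ⊗ₜ[k] s) (Ideal.map (bcMap ψ A0 A0) Z0)
          (Ideal.map (bcMap ψ A1 A1) Z1) (map_bcMap_eq ψ h)) := by
  have hinj0 := baseChange_subtype_injective_const ψ A0 Z0
  have hinj1 := baseChange_subtype_injective_const ψ A1 Z1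
  let _ : Algebra (B ⊗[k] A0) (B' ⊗[k] A0) := (bcMap ψ A0 A0).toAlgebra
  let _ : Algebra (B ⊗[k] A1) (B' ⊗[k] A1) := (bcMap ψ A1 A1).toAlgebra
  let _ : Algebra (B ⊗[k] A01) (B' ⊗[k] A01) := (bcMap ψ A01 A01).toAlgebra
  let _ : Algebra (B ⊗[k] A0) (B' ⊗[k] A01) := (bcMap ψ A0 A01).toAlgebra
  let _ : Algebra (B ⊗[k] A1) (B' ⊗[k] A01) := (bcMap ψ A1 A01).toAlgebra
  have : IsScalarTower (B ⊗[k] A0) (B ⊗[k] A01) (B' ⊗[k] A01) :=
    IsScalarTower.of_algebraMap_eq (fun x => by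
      induction x using TensorProduct.induction_on with
      | zero => simp
      | tmul b a => rfl
      | add x y hx hy => simp only [map_add, hx, hy])
  have : IsScalarTower (B ⊗[k] A0) (B' ⊗[k] A0) (B' ⊗[k] A01) :=
    IsScalarTower.of_algebraMap_eq (fun x => by
      induction x using TensorProduct.induction_on with
      | zero => simp
      | tmul b a => rfl
      | add x y hx hy => simp only [map_add, hx, hy])
  have : IsScalarTower (B ⊗[k] A1) (B ⊗[k] A01) (B' ⊗[k] A01) :=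
    IsScalarTower.of_algebraMap_eq (fun x => by
      induction x using TensorProduct.induction_on with
      | zero => simp
      | tmul b a => rfl
      | add x y hx hy => simp only [map_add, hx, hy])
  have : IsScalarTower (B ⊗[k] A1) (B' ⊗[k] A1) (B' ⊗[k] A01) :=
    IsScalarTower.of_algebraMap_eq (fun x => by
      induction x using TensorProduct.induction_on with
      | zero => simp
      | tmul b a => rfl
      | add x y hx hy => simp only [map_add, hx, hy])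
  obtain ⟨i0, i1, ⟨e⟩⟩ := nonempty_iso_baseChange_idealDiag (t := (1 : B) ⊗ₜ[k] t)
    (s := (1 : B) ⊗ₜ[k] s) (B' ⊗[k] A01) ((1 : B') ⊗ₜ[k] t) ((1 : B') ⊗ₜ[k] s) Z0 Z1 h hinj0 hinj1
  exact ⟨i0, i1, cls_eq_iff.mpr ⟨e⟩⟩


/-- **Base change of divisor classes, class form, for `O(D) = dual (idealDiag ..)`.** -/
theorem bc_cls_dual_idealDiag (Z0 : Ideal (B ⊗[k] A0)) (Z1 : Ideal (B ⊗[k] A1))
    (h : Ideal.map (algebraMap (B ⊗[k] A0) (B ⊗[k] A01)) Z0 =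
      Ideal.map (algebraMap (B ⊗[k] A1) (B ⊗[k] A01)) Z1)
    [Module.Invertible (B ⊗[k] A0) Z0] [Module.Invertible (B ⊗[k] A1) Z1]
    [Module.Flat B ((B ⊗[k] A0) ⧸ Z0)] [Module.Flat B ((B ⊗[k] A1) ⧸ Z1)] :
    ∃ (_ : Module.Invertible (B' ⊗[k] A0) (Ideal.map (bcMap ψ A0 A0) Z0))
      (_ : Module.Invertible (B' ⊗[k] A1) (Ideal.map (bcMap ψ A1 A1) Z1)),
      bc ψ (cls (dual (idealDiag ((1 : B) ⊗ₜ[k] t) ((1 : B) ⊗ₜ[k] s) Z0 Z1 h))) =
        cls (dual (idealDiag ((1 : B') ⊗ₜ[k] t) ((1 : B') ⊗ₜ[k] s)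
          (Ideal.map (bcMap ψ A0 A0) Z0) (Ideal.map (bcMap ψ A1 A1) Z1) (map_bcMap_eq ψ h))) := by
  obtain ⟨i0, i1, e⟩ := bc_cls_idealDiag (t := t) (s := s) ψ Z0 Z1 h
  refine ⟨i0, i1, ?_⟩
  rw [← cls_inv, ← cls_inv, map_inv, e]

include t in
/-- Flatness of the quotient on the chart at infinity, for the constant family. -/
theorem flat_quotient_infty (Z0 : Ideal (B ⊗[k] A0)) (Z1 : Ideal (B ⊗[k] A1))
    (h : Ideal.map (algebraMap (B ⊗[k] A0) (B ⊗[k] A01)) Z0 =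
      Ideal.map (algebraMap (B ⊗[k] A1) (B ⊗[k] A01)) Z1)
    (hinf : Z1 ⊔ Ideal.span {(1 : B) ⊗ₜ[k] s} = ⊤)
    [Module.Flat B ((B ⊗[k] A0) ⧸ Z0)] : Module.Flat B ((B ⊗[k] A1) ⧸ Z1) :=
  flat_quotient_of_sup_span_eq_top (B := B) (R01 := B ⊗[k] A01) ((1 : B) ⊗ₜ[k] t)
    ((1 : B) ⊗ₜ[k] s) Z0 Z1 h hinf

/-- `bc_cls_dual_idealDiag` with the flatness on the chart at infinity derived from comaximality
with `1 ⊗ s`. -/
theorem bc_cls_dual_idealDiag_of_sup (Z0 : Ideal (B ⊗[k] A0)) (Z1 : Ideal (B ⊗[k] A1))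
    (h : Ideal.map (algebraMap (B ⊗[k] A0) (B ⊗[k] A01)) Z0 =
      Ideal.map (algebraMap (B ⊗[k] A1) (B ⊗[k] A01)) Z1)
    (hinf : Z1 ⊔ Ideal.span {(1 : B) ⊗ₜ[k] s} = ⊤)
    [Module.Invertible (B ⊗[k] A0) Z0] [Module.Invertible (B ⊗[k] A1) Z1]
    [Module.Flat B ((B ⊗[k] A0) ⧸ Z0)] :
    ∃ (_ : Module.Invertible (B' ⊗[k] A0) (Ideal.map (bcMap ψ A0 A0) Z0))
      (_ : Module.Invertible (B' ⊗[k] A1) (Ideal.map (bcMap ψ A1 A1) Z1)),
      bc ψ (cls (dual (idealDiag ((1 : B) ⊗ₜ[k] t) ((1 : B) ⊗ₜ[k] s) Z0 Z1 h))) =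
        cls (dual (idealDiag ((1 : B') ⊗ₜ[k] t) ((1 : B') ⊗ₜ[k] s)
          (Ideal.map (bcMap ψ A0 A0) Z0) (Ideal.map (bcMap ψ A1 A1) Z1) (map_bcMap_eq ψ h))) := by
  have := flat_quotient_infty (t := t) (s := s) Z0 Z1 h hinf
  exact bc_cls_dual_idealDiag ψ Z0 Z1 h

/-- Comaximality with `1 ⊗ s` is preserved by `bc`. -/
theorem map_bcMap_sup_span_eq_top {Z1 : Ideal (B ⊗[k] A1)}
    (hinf : Z1 ⊔ Ideal.span {(1 : B) ⊗ₜ[k] s} = ⊤) :
    Ideal.map (bcMap ψ A1 A1) Z1 ⊔ Ideal.span {(1 : B') ⊗ₜ[k] s} = ⊤ := by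
  have := congrArg (Ideal.map (bcMap ψ A1 A1)) hinf
  rw [Ideal.map_sup, Ideal.map_span, Set.image_singleton, Ideal.map_top, bcMap_tmul, map_one] at this
  exact this

end Fermat.Agent.JAC.Hilb.DivBaseChange46
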