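/-
Programme JAC (S25), work package A4.3a, part VI (helper46): the (Ch1) injectivity core.

Over a base ring `B`, a section `(σ0, σ1)` of a line diagram `N` is *generating* if every section of
`N` is a unique `B`-multiple of it (`H⁰(N)` is free of rank one over `B` with generator `σ`).
An isomorphism of line diagrams carries a generating section to a `B`-unit multiple of a
generating section; hence the divisors (zero ideals) agree.
-/
import Mathlib
import Fermat.Agent.JAC.Core.Defs36
import Fermat.Agent.JAC.Hilb.ZeroIdeal46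
import Fermat.Agent.JAC.Hilb.SectionDiv46

set_option autoImplicit false

universe u

namespace Fermat.Agent.JAC.Hilb.GenSection46

open Fermat.Agent.JAC.Core.Defs36 Fermat.Agent.JAC.Hilb.ZeroIdeal46
  Fermat.Agent.JAC.Hilb.SectionDiv46

variable (B : Type*) [CommRing B]
variable {R0 R1 R01 : Type u} [CommRing R0] [CommRing R1] [CommRing R01]
  [Algebra R0 R01] [Algebra R1 R01] {t : R0} {s : R1}
  [Algebra B R0] [Algebra B R1]

/-- `(σ0, σ1)` is a section of `N` and every section of `N` is a `B`-multiple of it. -/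
def Generates (N : LineDiag t s R01) (σ0 : N.M0) (σ1 : N.M1) : Prop :=
  N.rho0 σ0 = N.rho1 σ1 ∧ ∀ (x : N.M0) (y : N.M1), N.rho0 x = N.rho1 y →
    ∃ b : B, x = algebraMap B R0 b • σ0 ∧ y = algebraMap B R1 b • σ1

/-- The `B`-multiples of `(σ0, σ1)` are distinct. -/
def IsFaithfulSection (N : LineDiag t s R01) (σ0 : N.M0) (σ1 : N.M1) : Prop :=
  ∀ b : B, algebraMap B R0 b • σ0 = 0 → algebraMap B R1 b • σ1 = 0 → b = 0

variable {B} {N N' : LineDiag t s R01}

/-- **(Ch1) core.**  An isomorphism of line diagrams carries a generating section to a `B`-unit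
multiple of a generating section. -/
theorem exists_isUnit_smul_of_iso (e : LineDiag.Iso N N') {σ0 : N.M0} {σ1 : N.M1}
    {σ0' : N'.M0} {σ1' : N'.M1} (hσ : Generates B N σ0 σ1) (hf : IsFaithfulSection B N σ0 σ1)
    (hσ' : Generates B N' σ0' σ1') :
    ∃ b : B, IsUnit b ∧ e.e0 σ0 = algebraMap B R0 b • σ0' ∧ e.e1 σ1 = algebraMap B R1 b • σ1' := by
  -- `e σ` is a section of `N'`
  have h1 : N'.rho0 (e.e0 σ0) = N'.rho1 (e.e1 σ1) := by
    rw [← e.comm0, ← e.comm1, hσ.1]
  obtain ⟨b, hb0, hb1⟩ := hσ'.2 _ _ h1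
  -- `e⁻¹ σ'` is a section of `N`
  have h2 : N.rho0 (e.e0.symm σ0') = N.rho1 (e.e1.symm σ1') := by
    apply e.e01.injective
    rw [e.comm0, e.comm1, LinearEquiv.apply_symm_apply, LinearEquiv.apply_symm_apply, hσ'.1]
  obtain ⟨b', hb0', hb1'⟩ := hσ.2 _ _ h2
  refine ⟨b, ?_, hb0, hb1⟩
  -- `(1 - b * b') • σ = 0`
  have h3 : algebraMap B R0 (1 - b * b') • σ0 = 0 := by
    have : σ0 = algebraMap B R0 b • algebraMap B R0 b' • σ0 := by
      rw [← hb0', ← map_smul, ← hb0, LinearEquiv.symm_apply_apply]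
    rw [map_sub, map_one, map_mul, sub_smul, one_smul, mul_smul, ← this, sub_self]
  have h4 : algebraMap B R1 (1 - b * b') • σ1 = 0 := by
    have : σ1 = algebraMap B R1 b • algebraMap B R1 b' • σ1 := by
      rw [← hb1', ← map_smul, ← hb1, LinearEquiv.symm_apply_apply]
    rw [map_sub, map_one, map_mul, sub_smul, one_smul, mul_smul, ← this, sub_self]
  have h5 := hf _ h3 h4
  exact IsUnit.of_mul_eq_one b' (sub_eq_zero.mp h5).symm

/-- **(Ch1).**  Isomorphic line diagrams with generating sections have the same divisor on the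
chart `0`. -/
theorem zeroIdeal_eq_of_iso_of_generates0 (e : LineDiag.Iso N N') {σ0 : N.M0} {σ1 : N.M1}
    {σ0' : N'.M0} {σ1' : N'.M1} (hσ : Generates B N σ0 σ1) (hf : IsFaithfulSection B N σ0 σ1)
    (hσ' : Generates B N' σ0' σ1') : zeroIdeal R0 σ0 = zeroIdeal R0 σ0' := by
  obtain ⟨b, hb, h0, -⟩ := exists_isUnit_smul_of_iso e hσ hf hσ'
  exact zeroIdeal_eq_of_iso0 e (hb.map (algebraMap B R0)) h0

/-- **(Ch1).**  Isomorphic line diagrams with generating sections have the same divisor on the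
chart `1`. -/
theorem zeroIdeal_eq_of_iso_of_generates1 (e : LineDiag.Iso N N') {σ0 : N.M0} {σ1 : N.M1}
    {σ0' : N'.M0} {σ1' : N'.M1} (hσ : Generates B N σ0 σ1) (hf : IsFaithfulSection B N σ0 σ1)
    (hσ' : Generates B N' σ0' σ1') : zeroIdeal R1 σ1 = zeroIdeal R1 σ1' := by
  obtain ⟨b, hb, -, h1⟩ := exists_isUnit_smul_of_iso e hσ hf hσ'
  exact zeroIdeal_eq_of_iso1 e (hb.map (algebraMap B R1)) h1

end Fermat.Agent.JAC.Hilb.GenSection46
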