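/-
JAC programme, work package A4.2 (helper24), module-level part.

For a finite projective `B`-module `Q` and a finite family `v : ι → Q`:
* `v` is a basis of `Q` iff it is a basis of every fibre `κ(p) ⊗ Q` (`bijective_of_forall_isBasisAt`);
* the locus of primes `p` where `v` is a basis of the fibre is open (`isOpen_basisLocus`);
* being a basis is invariant under faithfully flat base change (field extensions).
-/
import Mathlib
import Fermat.Agent.JAC.Cech.Basic

set_option autoImplicit false
set_option linter.unusedSectionVars false

namespace Fermat.Agent.JAC.Hilb.BasisLocus24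

open TensorProduct

universe u w

section Module

variable {B : Type u} [CommRing B] {Q : Type u} [AddCommGroup Q] [Module B Q]
variable {ι : Type w} [Fintype ι] [DecidableEq ι] (v : ι → Q)

variable (B) in
/-- `v` becomes a basis of `B' ⊗[B] Q`. -/
def IsBasisAt (B' : Type u) [CommRing B'] [Algebra B B'] : Prop :=
  Function.Bijective (Fintype.linearCombination B' (fun i => (1 : B') ⊗ₜ[B] v i))

theorem linearCombination_comp_piScalarRight (B' : Type u) [CommRing B'] [Algebra B B'] :
    (Fintype.linearCombination B' (fun i => (1 : B') ⊗ₜ[B] v i)) ∘ₗ
      (TensorProduct.piScalarRight B B' B' ι).toLinearMap =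
    (Fintype.linearCombination B v).baseChange B' := by
  apply LinearMap.ext
  intro x
  induction x using TensorProduct.induction_on with
  | zero => simp
  | tmul b' c =>
    rw [LinearMap.comp_apply, LinearEquiv.coe_coe, LinearMap.baseChange_tmul,
      Fintype.linearCombination_apply, Fintype.linearCombination_apply, TensorProduct.tmul_sum]
    refine Finset.sum_congr rfl fun i _ => ?_
    rw [TensorProduct.piScalarRight_apply, TensorProduct.piScalarRightHom_tmul]
    show (c i • b') • ((1 : B') ⊗ₜ[B] v i) = _
    rw [TensorProduct.smul_tmul', smul_eq_mul, mul_one, TensorProduct.tmul_smul,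
      TensorProduct.smul_tmul']
  | add x y hx hy => rw [map_add, map_add, hx, hy]

theorem isBasisAt_iff_baseChange (B' : Type u) [CommRing B'] [Algebra B B'] :
    IsBasisAt B v B' ↔ Function.Bijective ((Fintype.linearCombination B v).baseChange B') := by
  rw [← linearCombination_comp_piScalarRight v B', LinearMap.coe_comp, LinearEquiv.coe_coe,
    Function.Bijective.of_comp_iff _ (LinearEquiv.bijective (TensorProduct.piScalarRight B B' B' ι))]
  rfl

/-- A basis stays a basis after any base change. -/
theorem isBasisAt_of_bijective (h : Function.Bijective (Fintype.linearCombination B v))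
    (B' : Type u) [CommRing B'] [Algebra B B'] : IsBasisAt B v B' := by
  rw [isBasisAt_iff_baseChange, LinearMap.baseChange_eq_ltensor]
  have := (LinearEquiv.lTensor B' (LinearEquiv.ofBijective _ h)).bijective
  convert this using 1
  ext x
  rw [← LinearEquiv.coe_coe, LinearEquiv.coe_lTensor]
  rfl

/-- Being a basis descends along faithfully flat base change. -/
theorem isBasisAt_iff_of_faithfullyFlat (B' : Type u) [CommRing B'] [Algebra B B']
    [Module.FaithfullyFlat B B'] :
    IsBasisAt B v B' ↔ Function.Bijective (Fintype.linearCombination B v) := by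
  rw [isBasisAt_iff_baseChange, LinearMap.baseChange_eq_ltensor]
  exact Module.FaithfullyFlat.lTensor_bijective_iff_bijective B B' _

/-- A finite module all of whose fibres at primes vanish is zero (universe-polymorphic). -/
theorem subsingleton_of_fibres {P : Type w} [AddCommGroup P] [Module B P] [Module.Finite B P]
    (h : ∀ (p : Ideal B) [p.IsPrime], Subsingleton (p.ResidueField ⊗[B] P)) : Subsingleton P := by
  rw [← Module.support_eq_empty_iff (R := B)]
  ext p
  simp only [Set.mem_empty_iff_false, iff_false]
  rw [Module.mem_support_iff_nontrivial_residueField_tensorProduct, not_nontrivial_iff_subsingleton]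
  exact h p.asIdeal

/-- A surjection from a finite module onto a projective module with the same fibre dimensions is
bijective (universe-polymorphic version of `Cech.bijective_of_surjective_of_finrank_eq`). -/
theorem bijective_of_surjective_of_fibres {P : Type w} [AddCommGroup P] [Module B P]
    [Module.Finite B P] [Module.Projective B Q] (φ : P →ₗ[B] Q) (hφ : Function.Surjective φ)
    (hrk : ∀ (p : Ideal B) [p.IsPrime],
      Module.finrank p.ResidueField (p.ResidueField ⊗[B] P) =
        Module.finrank p.ResidueField (p.ResidueField ⊗[B] Q))
    (hfin : ∀ (p : Ideal B) [p.IsPrime], Module.Finite p.ResidueField (p.ResidueField ⊗[B] P)) :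
    Function.Bijective φ := by
  refine ⟨?_, hφ⟩
  obtain ⟨s, hs⟩ := Module.projective_lifting_property φ LinearMap.id hφ
  have hs' : ∀ q, φ (s q) = q := fun q => LinearMap.congr_fun hs q
  -- the projection onto the kernel
  let π : P →ₗ[B] LinearMap.ker φ :=
    LinearMap.codRestrict (LinearMap.ker φ) (LinearMap.id - s ∘ₗ φ) (fun x => by
      rw [LinearMap.mem_ker, LinearMap.sub_apply, map_sub, LinearMap.id_apply,
        LinearMap.comp_apply, hs', sub_self])
  have hπ : ∀ x : LinearMap.ker φ, π x = x := by
    intro x
    apply Subtype.ext
    have hx : φ (x : P) = 0 := x.2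
    simp [π, hx]
  have hπs : Function.Surjective π := fun x => ⟨x, hπ x⟩
  have : Module.Finite B (LinearMap.ker φ) := Module.Finite.of_surjective π hπs
  -- the equivalence P ≃ ker × Q
  let e : P ≃ₗ[B] (LinearMap.ker φ × Q) :=
    LinearEquiv.ofLinearMap (LinearMap.prod π φ)
      (LinearMap.coprod (LinearMap.ker φ).subtype s)
      (by
        apply LinearMap.ext
        rintro ⟨⟨x, hx⟩, q⟩
        rw [LinearMap.mem_ker] at hx
        apply Prod.ext
        · apply Subtype.ext
          simp [π, hx, hs']
        · simp [hx, hs'])
      (by
        apply LinearMap.ext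
        intro x
        simp [π])
  have hK : Subsingleton (LinearMap.ker φ) := by
    refine subsingleton_of_fibres (B := B) ?_
    intro p _
    let e' : p.ResidueField ⊗[B] P ≃ₗ[p.ResidueField]
        (p.ResidueField ⊗[B] LinearMap.ker φ) × (p.ResidueField ⊗[B] Q) :=
      (LinearEquiv.baseChange B p.ResidueField P (LinearMap.ker φ × Q) e).trans
        (TensorProduct.prodRight B p.ResidueField p.ResidueField (LinearMap.ker φ) Q)
    have := hfin p
    have : Module.Finite p.ResidueField
        ((p.ResidueField ⊗[B] LinearMap.ker φ) × (p.ResidueField ⊗[B] Q)) :=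
      Module.Finite.equiv e'
    have h1 := e'.finrank_eq
    have hfk : Module.Finite p.ResidueField (p.ResidueField ⊗[B] LinearMap.ker φ) :=
      Module.Finite.of_surjective (LinearMap.fst p.ResidueField
        (p.ResidueField ⊗[B] LinearMap.ker φ) (p.ResidueField ⊗[B] Q)) LinearMap.fst_surjective
    have hfq : Module.Finite p.ResidueField (p.ResidueField ⊗[B] Q) :=
      Module.Finite.of_surjective (LinearMap.snd p.ResidueField
        (p.ResidueField ⊗[B] LinearMap.ker φ) (p.ResidueField ⊗[B] Q)) LinearMap.snd_surjective
    rw [Module.finrank_prod, hrk p] at h1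
    have h0 : Module.finrank p.ResidueField (p.ResidueField ⊗[B] LinearMap.ker φ) = 0 := by
      omega
    exact Module.finrank_zero_iff.mp h0
  rw [injective_iff_map_eq_zero]
  intro x hx
  have : (⟨x, hx⟩ : LinearMap.ker φ) = 0 := Subsingleton.elim _ _
  exact congrArg Subtype.val this

/-- **Fibre criterion**: a finite family in a finite projective module is a basis as soon as it
is a basis of every fibre. -/
theorem bijective_of_forall_isBasisAt [Module.Finite B Q] [Module.Projective B Q]
    (h : ∀ (p : Ideal B) [p.IsPrime], IsBasisAt B v p.ResidueField) :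
    Function.Bijective (Fintype.linearCombination B v) := by
  set L := Fintype.linearCombination B v with hL
  -- surjectivity: the cokernel has trivial fibres
  have hsurj : Function.Surjective L := by
    set R := LinearMap.range L with hR
    have hex : Function.Exact L R.mkQ := LinearMap.exact_map_mkQ_range L
    have hsq : Function.Surjective R.mkQ := R.mkQ_surjective
    have hsub : Subsingleton (Q ⧸ R) := by
      refine subsingleton_of_fibres (B := B) ?_
      intro p _
      have hb := (isBasisAt_iff_baseChange v p.ResidueField).mp (h p)
      have hex' := lTensor_exact p.ResidueField hex hsq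
      have hs' : Function.Surjective (R.mkQ.lTensor p.ResidueField) :=
        LinearMap.lTensor_surjective _ hsq
      refine ⟨fun a b => ?_⟩
      obtain ⟨a', rfl⟩ := hs' a
      obtain ⟨b', rfl⟩ := hs' b
      have ha : R.mkQ.lTensor p.ResidueField a' = 0 := by
        rw [hex' a']
        obtain ⟨x, hx⟩ := hb.2 a'
        exact ⟨x, by rw [← hx, LinearMap.baseChange_eq_ltensor]⟩
      have hb' : R.mkQ.lTensor p.ResidueField b' = 0 := by
        rw [hex' b']
        obtain ⟨x, hx⟩ := hb.2 b'
        exact ⟨x, by rw [← hx, LinearMap.baseChange_eq_ltensor]⟩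
      rw [ha, hb']
    rw [← LinearMap.range_eq_top, ← Submodule.Quotient.subsingleton_iff]
    exact hsub
  refine bijective_of_surjective_of_fibres L hsurj ?_ ?_
  · intro p _
    have hb := (isBasisAt_iff_baseChange v p.ResidueField).mp (h p)
    exact (LinearEquiv.ofBijective _ hb).finrank_eq
  · intro p _
    exact Module.Finite.equiv
      (TensorProduct.piScalarRight B p.ResidueField p.ResidueField ι).symm

/-- The fibre map is surjective iff the prime is outside the support of the cokernel. -/
theorem baseChange_residueField_surjective_iff [Module.Finite B Q] (p : PrimeSpectrum B) :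
    Function.Surjective ((Fintype.linearCombination B v).baseChange p.asIdeal.ResidueField) ↔
      p ∉ Module.support B (Q ⧸ LinearMap.range (Fintype.linearCombination B v)) := by
  set L := Fintype.linearCombination B v with hL
  set R := LinearMap.range L with hR
  have hex : Function.Exact L R.mkQ := LinearMap.exact_map_mkQ_range L
  have hsq : Function.Surjective R.mkQ := R.mkQ_surjective
  have hex' := lTensor_exact p.asIdeal.ResidueField hex hsq
  have hs' : Function.Surjective (R.mkQ.lTensor p.asIdeal.ResidueField) :=
    LinearMap.lTensor_surjective _ hsq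
  rw [Module.mem_support_iff_nontrivial_residueField_tensorProduct,
    not_nontrivial_iff_subsingleton, LinearMap.baseChange_eq_ltensor]
  constructor
  · intro hsurj
    refine ⟨fun a b => ?_⟩
    obtain ⟨a', rfl⟩ := hs' a
    obtain ⟨b', rfl⟩ := hs' b
    have ha : R.mkQ.lTensor p.asIdeal.ResidueField a' = 0 := by
      rw [hex' a']
      exact hsurj a'
    have hb' : R.mkQ.lTensor p.asIdeal.ResidueField b' = 0 := by
      rw [hex' b']
      exact hsurj b'
    rw [ha, hb']
  · intro hsub x
    have : R.mkQ.lTensor p.asIdeal.ResidueField x = 0 := Subsingleton.elim _ _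
    exact (hex' x).mp this

/-- Pointwise description of the basis locus. -/
theorem isBasisAt_residueField_iff [Module.Finite B Q] [Module.Projective B Q]
    (p : PrimeSpectrum B) :
    IsBasisAt B v p.asIdeal.ResidueField ↔
      p ∉ Module.support B (Q ⧸ LinearMap.range (Fintype.linearCombination B v)) ∧
        Module.rankAtStalk Q p = Fintype.card ι := by
  rw [isBasisAt_iff_baseChange, ← baseChange_residueField_surjective_iff, Module.rankAtStalk_eq]
  have hpi : Module.finrank p.asIdeal.ResidueField (p.asIdeal.ResidueField ⊗[B] (ι → B)) =
      Fintype.card ι := by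
    rw [(TensorProduct.piScalarRight B p.asIdeal.ResidueField p.asIdeal.ResidueField ι).finrank_eq,
      Module.finrank_pi]
  constructor
  · intro hb
    refine ⟨hb.2, ?_⟩
    rw [← hpi]
    exact (LinearEquiv.ofBijective _ hb).finrank_eq.symm
  · rintro ⟨hs, hr⟩
    refine ⟨?_, hs⟩
    have hfd : Module.finrank p.asIdeal.ResidueField (p.asIdeal.ResidueField ⊗[B] (ι → B)) =
        Module.finrank p.asIdeal.ResidueField (p.asIdeal.ResidueField ⊗[B] Q) := by
      rw [hpi, ← hr]
    exact (LinearMap.injective_iff_surjective_of_finrank_eq_finrank hfd).mpr hs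

/-- **Openness** of the basis locus. -/
theorem isOpen_basisLocus [Module.Finite B Q] [Module.Projective B Q] :
    IsOpen {p : PrimeSpectrum B | IsBasisAt B v p.asIdeal.ResidueField} := by
  have : {p : PrimeSpectrum B | IsBasisAt B v p.asIdeal.ResidueField} =
      (Module.support B (Q ⧸ LinearMap.range (Fintype.linearCombination B v)))ᶜ ∩
        (Module.rankAtStalk Q) ⁻¹' {Fintype.card ι} := by
    ext p
    rw [Set.mem_ofPred_eq, isBasisAt_residueField_iff]
    rfl
  rw [this]
  refine IsOpen.inter ?_ ?_
  · rw [isOpen_compl_iff, Module.support_eq_zeroLocus]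
    exact PrimeSpectrum.isClosed_zeroLocus _
  · have : Module.FinitePresentation B Q := Module.finitePresentation_of_projective B Q
    exact (Module.isLocallyConstant_rankAtStalk (R := B) (M := Q)).isOpen_fiber _

/-- Transport of bijectivity of `linearCombination` along a linear equivalence. -/
theorem bijective_linearCombination_congr {R : Type*} [CommRing R] {M N : Type*}
    [AddCommGroup M] [Module R M] [AddCommGroup N] [Module R N] (e : M ≃ₗ[R] N) (w : ι → M)
    (w' : ι → N) (hw : ∀ i, e (w i) = w' i) :
    Function.Bijective (Fintype.linearCombination R w') ↔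
      Function.Bijective (Fintype.linearCombination R w) := by
  have : Fintype.linearCombination R w' = e.toLinearMap ∘ₗ Fintype.linearCombination R w := by
    apply LinearMap.pi_ext
    intro i r
    simp [Fintype.linearCombination_apply_single, hw]
  rw [this, LinearMap.coe_comp, LinearEquiv.coe_coe, Function.Bijective.of_comp_iff' e.bijective]

/-- Transitivity of base change for `IsBasisAt`. -/
theorem isBasisAt_trans (B' B'' : Type u) [CommRing B'] [Algebra B B'] [CommRing B'']
    [Algebra B B''] [Algebra B' B''] [IsScalarTower B B' B''] :
    IsBasisAt B' (fun i => (1 : B') ⊗ₜ[B] v i) B'' ↔ IsBasisAt B v B'' := by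
  unfold IsBasisAt
  refine (bijective_linearCombination_congr
    (TensorProduct.AlgebraTensorModule.cancelBaseChange B B' B'' B'' Q) _ _ ?_).symm
  intro i
  simp

/-- Invariance of the basis condition under extension of the field. -/
theorem isBasisAt_field_ext (K K' : Type u) [Field K] [Algebra B K] [Field K'] [Algebra B K']
    [Algebra K K'] [IsScalarTower B K K'] :
    IsBasisAt B v K' ↔ IsBasisAt B v K := by
  rw [← isBasisAt_trans v K K']
  exact isBasisAt_iff_of_faithfullyFlat _ K'

/-- If `q` is a prime of `B'` lying over the prime `p` of `B`, the basis condition at `κ(q)`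
(for the base-changed family) is the basis condition at `κ(p)`. -/
theorem isBasisAt_residueField_comap (B' : Type u) [CommRing B'] [Algebra B B']
    (q : Ideal B') [q.IsPrime] (p : Ideal B) [p.IsPrime] (hpq : p = q.comap (algebraMap B B')) :
    IsBasisAt B' (fun i => (1 : B') ⊗ₜ[B] v i) q.ResidueField ↔ IsBasisAt B v p.ResidueField := by
  rw [isBasisAt_trans v B' q.ResidueField]
  let _ : Algebra p.ResidueField q.ResidueField :=
    (Ideal.ResidueField.map p q (algebraMap B B') hpq).toAlgebra
  have : IsScalarTower B p.ResidueField q.ResidueField := by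
    refine IsScalarTower.of_algebraMap_eq' ?_
    ext r
    rw [RingHom.comp_apply, RingHom.algebraMap_toAlgebra, Ideal.ResidueField.map_algebraMap,
      ← IsScalarTower.algebraMap_apply]
  exact isBasisAt_field_ext v p.ResidueField q.ResidueField

/-- **Spreading out**: if `v` is a basis of the fibre at `p`, it is a basis over a basic open
neighbourhood of `p`. -/
theorem exists_away_isBasisAt [Module.Finite B Q] [Module.Projective B Q] (p : Ideal B)
    [p.IsPrime] (h : IsBasisAt B v p.ResidueField) :
    ∃ f : B, f ∉ p ∧ IsBasisAt B v (Localization.Away f) := by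
  have hopen := isOpen_basisLocus (B := B) v
  have hp : (⟨p, inferInstance⟩ : PrimeSpectrum B) ∈
      {p : PrimeSpectrum B | IsBasisAt B v p.asIdeal.ResidueField} := h
  obtain ⟨U, ⟨f, rfl⟩, hpU, hU⟩ :=
    PrimeSpectrum.isTopologicalBasis_basic_opens.exists_subset_of_mem_open hp hopen
  refine ⟨f, hpU, ?_⟩
  unfold IsBasisAt
  refine bijective_of_forall_isBasisAt (B := Localization.Away f)
    (fun i => (1 : Localization.Away f) ⊗ₜ[B] v i) ?_
  intro q _
  rw [isBasisAt_residueField_comap v (Localization.Away f) q
    (q.comap (algebraMap B (Localization.Away f))) rfl]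
  refine hU (a := ⟨q.comap (algebraMap B (Localization.Away f)), inferInstance⟩) ?_
  show f ∉ q.comap (algebraMap B (Localization.Away f))
  rw [Ideal.mem_comap]
  intro hf
  exact (Ideal.IsPrime.ne_top inferInstance)
    (Ideal.eq_top_of_isUnit_mem q hf (IsLocalization.Away.algebraMap_isUnit f))

end Module

section Cover

/-- Over a field, a spanning family of a finite-dimensional space contains a basis: there is a
reindexing `β : Fin (finrank K Q) → S` with `f ∘ β` a basis. -/
theorem exists_fin_bijective_of_span {K : Type*} [Field K] {Q : Type*} [AddCommGroup Q]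
    [Module K Q] [FiniteDimensional K Q] {S : Type*} (f : S → Q)
    (hf : ⊤ ≤ Submodule.span K (Set.range f)) :
    ∃ β : Fin (Module.finrank K Q) → S,
      Function.Bijective (Fintype.linearCombination K (f ∘ β)) := by
  classical
  obtain ⟨b, hbs, hspan, hli⟩ := exists_linearIndependent K (Set.range f)
  have hfin : b.Finite := hli.setFinite
  have : Fintype b := hfin.fintype
  have hsp : ⊤ ≤ Submodule.span K (Set.range (Subtype.val : b → Q)) := by
    rw [Subtype.range_coe, hspan]
    exact hf
  let bas : Module.Basis b K Q := Module.Basis.mk hli hsp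
  have hcard : Fintype.card b = Module.finrank K Q := (Module.finrank_eq_card_basis bas).symm
  let e : Fin (Module.finrank K Q) ≃ b := (Fintype.equivFinOfCardEq hcard).symm
  choose g hg using fun x : b => hbs x.2
  refine ⟨fun i => g (e i), ?_⟩
  let bas' : Module.Basis (Fin (Module.finrank K Q)) K Q := bas.reindex e.symm
  have hb' : ∀ i, bas' i = (f ∘ fun i => g (e i)) i := by
    intro i
    simp [bas', bas, hg]
  have : Fintype.linearCombination K (f ∘ fun i => g (e i)) = bas'.equivFun.symm.toLinearMap := by
    apply LinearMap.pi_ext
    intro i c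
    rw [Fintype.linearCombination_apply_single, LinearEquiv.coe_coe,
      Module.Basis.equivFun_symm_apply, Finset.sum_eq_single i, Pi.single_eq_same, hb' i]
    · intro j _ hj
      rw [Pi.single_eq_of_ne hj, zero_smul]
    · intro h
      exact absurd (Finset.mem_univ i) h
  rw [this]
  exact bas'.equivFun.symm.bijective

end Cover

end Fermat.Agent.JAC.Hilb.BasisLocus24
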