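/-
JAC programme, work package A4.2 (helper24): the open locus "`β` is a basis" and the covering of
the Hilbert functor of points by based charts, on top of helper46's `BasedQuot46` (A4.1).

`I` is an ideal of `B ⊗[k] A` with quotient `Q = (B ⊗[k] A) ⧸ I`.  For a `B`-algebra `B'` the base
change of `I` is `baseChangeIdeal I B' = I.map (B ⊗[k] A → B' ⊗[k] A)`.

* `quotBaseChangeEquiv` : `B' ⊗[B] Q ≃ₐ[B'] (B' ⊗[k] A) ⧸ baseChangeIdeal I B'`;
* `isBasedQuot_baseChange_iff` : `IsBasedQuot β (baseChangeIdeal I B')` iff the classes of `1 ⊗ β i`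
  become a basis of `B' ⊗[B] Q`;
* fibre criterion, openness, invariance under field extensions, covering by based charts.
-/
import Mathlib
import Fermat.Agent.JAC.Hilb.BasedQuot46
import Fermat.Agent.JAC.Hilb.BasisLocus24

set_option autoImplicit false
set_option linter.unusedSectionVars false

namespace Fermat.Agent.JAC.Hilb.BasedOpen24

open TensorProduct Fermat.Agent.JAC.Hilb.BasedQuot46 Fermat.Agent.JAC.Hilb.BasisLocus24

universe u w

section BaseChange

variable {k : Type u} [CommRing k] {A : Type u} [CommRing A] [Algebra k A]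
variable {B : Type u} [CommRing B] [Algebra k B]

/-- The base change map `B ⊗[k] A → B' ⊗[k] A` for a `B`-algebra `B'`. -/
noncomputable def baseChangeHom (k A B : Type u) [CommRing k] [CommRing A] [Algebra k A]
    [CommRing B] [Algebra k B] (B' : Type u) [CommRing B'] [Algebra k B'] [Algebra B B']
    [IsScalarTower k B B'] : B ⊗[k] A →ₐ[k] B' ⊗[k] A :=
  Algebra.TensorProduct.map (IsScalarTower.toAlgHom k B B') (AlgHom.id k A)

@[simp]
theorem baseChangeHom_tmul (B' : Type u) [CommRing B'] [Algebra k B'] [Algebra B B']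
    [IsScalarTower k B B'] (b : B) (a : A) :
    baseChangeHom k A B B' (b ⊗ₜ[k] a) = algebraMap B B' b ⊗ₜ[k] a := by
  simp [baseChangeHom]

/-- The base change of an ideal of `B ⊗[k] A` to `B' ⊗[k] A`. -/
noncomputable def baseChangeIdeal (I : Ideal (B ⊗[k] A)) (B' : Type u) [CommRing B'] [Algebra k B']
    [Algebra B B'] [IsScalarTower k B B'] : Ideal (B' ⊗[k] A) :=
  I.map (baseChangeHom k A B B')

/-- Comparison with the notation of `BasedQuot46`. -/
theorem baseChangeIdeal_eq_map_tensorMap (I : Ideal (B ⊗[k] A)) (B' : Type u) [CommRing B']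
    [Algebra k B'] [Algebra B B'] [IsScalarTower k B B'] :
    baseChangeIdeal I B' = Ideal.map (tensorMap (A := A) (IsScalarTower.toAlgHom k B B')) I := rfl

theorem cancel_comp_includeRight (B' : Type u) [CommRing B'] [Algebra k B'] [Algebra B B']
    [IsScalarTower k B B'] :
    ((Algebra.TensorProduct.cancelBaseChange k B B' B' A : B' ⊗[B] (B ⊗[k] A) ≃ₐ[B'] B' ⊗[k] A) :
        B' ⊗[B] (B ⊗[k] A) →+* B' ⊗[k] A).comp
      (Algebra.TensorProduct.includeRight (R := B) (A := B') (B := B ⊗[k] A) :
        B ⊗[k] A →ₐ[B] B' ⊗[B] (B ⊗[k] A)).toRingHom =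
    (baseChangeHom k A B B').toRingHom := by
  apply RingHom.ext
  intro x
  induction x using TensorProduct.induction_on with
  | zero => simp
  | tmul b a =>
    simp [Algebra.smul_def]
  | add x y hx hy => rw [map_add, map_add, hx, hy]

theorem baseChangeIdeal_eq_map_map (I : Ideal (B ⊗[k] A)) (B' : Type u) [CommRing B']
    [Algebra k B'] [Algebra B B'] [IsScalarTower k B B'] :
    baseChangeIdeal I B' =
      (I.map (Algebra.TensorProduct.includeRight (R := B) (A := B') (B := B ⊗[k] A))).map
        (Algebra.TensorProduct.cancelBaseChange k B B' B' A :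
          B' ⊗[B] (B ⊗[k] A) ≃ₐ[B'] B' ⊗[k] A) := by
  rw [baseChangeIdeal]
  have h := cancel_comp_includeRight (k := k) (A := A) (B := B) B'
  have h2 := Ideal.map_map (I := I)
    (Algebra.TensorProduct.includeRight (R := B) (A := B') (B := B ⊗[k] A) :
        B ⊗[k] A →ₐ[B] B' ⊗[B] (B ⊗[k] A)).toRingHom
    ((Algebra.TensorProduct.cancelBaseChange k B B' B' A : B' ⊗[B] (B ⊗[k] A) ≃ₐ[B'] B' ⊗[k] A) :
        B' ⊗[B] (B ⊗[k] A) →+* B' ⊗[k] A)
  rw [h] at h2
  exact h2.symm

/-- The quotient by the base-changed ideal is the base change of the quotient. -/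
noncomputable def quotBaseChangeEquiv (I : Ideal (B ⊗[k] A)) (B' : Type u) [CommRing B']
    [Algebra k B'] [Algebra B B'] [IsScalarTower k B B'] :
    B' ⊗[B] ((B ⊗[k] A) ⧸ I) ≃ₐ[B'] (B' ⊗[k] A) ⧸ baseChangeIdeal I B' :=
  (Algebra.TensorProduct.tensorQuotientEquiv (R := B) B' (B ⊗[k] A) B' I).trans
    (Ideal.quotientEquivAlg _ _ (Algebra.TensorProduct.cancelBaseChange k B B' B' A)
      (baseChangeIdeal_eq_map_map I B'))

theorem quotBaseChangeEquiv_tmul (I : Ideal (B ⊗[k] A)) (B' : Type u) [CommRing B']
    [Algebra k B'] [Algebra B B'] [IsScalarTower k B B'] (b' : B') (x : B ⊗[k] A) :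
    quotBaseChangeEquiv I B' (b' ⊗ₜ[B] Ideal.Quotient.mk I x) =
      b' • Ideal.Quotient.mk (baseChangeIdeal I B') (baseChangeHom k A B B' x) := by
  have h1 : quotBaseChangeEquiv I B' (b' ⊗ₜ[B] Ideal.Quotient.mk I x) =
      Ideal.Quotient.mk (baseChangeIdeal I B')
        (Algebra.TensorProduct.cancelBaseChange k B B' B' A (b' ⊗ₜ[B] x)) := rfl
  rw [h1]
  have h2 : (Algebra.TensorProduct.cancelBaseChange k B B' B' A (b' ⊗ₜ[B] x) : B' ⊗[k] A) =
      b' • baseChangeHom k A B B' x := by
    have := RingHom.congr_fun (cancel_comp_includeRight (k := k) (A := A) (B := B) B') x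
    simp only [AlgHom.toRingHom_eq_coe, RingHom.coe_comp, RingHom.coe_coe,
      Function.comp_apply, Algebra.TensorProduct.includeRight_apply] at this
    rw [← this, ← map_smul, TensorProduct.smul_tmul', smul_eq_mul, mul_one]
  rw [h2]
  rfl

variable {ι : Type w} [Fintype ι] [DecidableEq ι] (β : ι → A)

/-- The family of classes of the `1 ⊗ β i` in the quotient. -/
noncomputable def classFam (I : Ideal (B ⊗[k] A)) : ι → (B ⊗[k] A) ⧸ I :=
  fun i => Ideal.Quotient.mk I ((1 : B) ⊗ₜ[k] β i)

theorem isBasedQuot_iff (I : Ideal (B ⊗[k] A)) :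
    IsBasedQuot β I ↔ Function.Bijective (Fintype.linearCombination B (classFam β I)) :=
  Iff.rfl

/-- `β` is a based quotient of the base change of `I` to `B'` iff the classes of `1 ⊗ β i` become a
basis of `B' ⊗[B] Q`. -/
theorem isBasedQuot_baseChange_iff (I : Ideal (B ⊗[k] A)) (B' : Type u) [CommRing B']
    [Algebra k B'] [Algebra B B'] [IsScalarTower k B B'] :
    IsBasedQuot β (baseChangeIdeal I B') ↔ IsBasisAt B (classFam β I) B' := by
  rw [isBasedQuot_iff]
  unfold IsBasisAt
  refine bijective_linearCombination_congr (quotBaseChangeEquiv I B').toLinearEquiv _ _ ?_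
  intro i
  rw [AlgEquiv.toLinearEquiv_apply, classFam, quotBaseChangeEquiv_tmul, one_smul,
    baseChangeHom_tmul, map_one]
  rfl

/-- Base change of a based quotient is a based quotient. -/
theorem isBasedQuot_baseChange {I : Ideal (B ⊗[k] A)} (h : IsBasedQuot β I) (B' : Type u)
    [CommRing B'] [Algebra k B'] [Algebra B B'] [IsScalarTower k B B'] :
    IsBasedQuot β (baseChangeIdeal I B') :=
  (isBasedQuot_baseChange_iff β I B').mpr (isBasisAt_of_bijective _ h B')

/-- Based quotients descend along faithfully flat base change (e.g. field extensions). -/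
theorem isBasedQuot_baseChange_iff_of_faithfullyFlat (I : Ideal (B ⊗[k] A)) (B' : Type u)
    [CommRing B'] [Algebra k B'] [Algebra B B'] [IsScalarTower k B B']
    [Module.FaithfullyFlat B B'] :
    IsBasedQuot β (baseChangeIdeal I B') ↔ IsBasedQuot β I := by
  rw [isBasedQuot_baseChange_iff, isBasisAt_iff_of_faithfullyFlat]
  rfl

/-- **Fibre criterion**: if the quotient is finite projective over `B`, then `β` is a based
quotient of `I` iff it is one on every fibre. -/
theorem isBasedQuot_iff_forall_fibre (I : Ideal (B ⊗[k] A)) [Module.Finite B ((B ⊗[k] A) ⧸ I)]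
    [Module.Projective B ((B ⊗[k] A) ⧸ I)] :
    IsBasedQuot β I ↔
      ∀ (p : Ideal B) [p.IsPrime], IsBasedQuot β (baseChangeIdeal I p.ResidueField) := by
  constructor
  · intro h p _
    exact isBasedQuot_baseChange β h _
  · intro h
    refine bijective_of_forall_isBasisAt (classFam β I) ?_
    intro p _
    exact (isBasedQuot_baseChange_iff β I p.ResidueField).mp (h p)

/-- **Openness** of the locus where `β` is a based quotient of the fibre. -/
theorem isOpen_basedLocus (I : Ideal (B ⊗[k] A)) [Module.Finite B ((B ⊗[k] A) ⧸ I)]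
    [Module.Projective B ((B ⊗[k] A) ⧸ I)] :
    IsOpen {p : PrimeSpectrum B | IsBasedQuot β (baseChangeIdeal I p.asIdeal.ResidueField)} := by
  simp only [isBasedQuot_baseChange_iff]
  exact isOpen_basisLocus (classFam β I)

/-- Transitivity of base change of ideals. -/
theorem baseChangeIdeal_trans (I : Ideal (B ⊗[k] A)) (B' B'' : Type u) [CommRing B']
    [Algebra k B'] [Algebra B B'] [IsScalarTower k B B'] [CommRing B''] [Algebra k B'']
    [Algebra B B''] [IsScalarTower k B B''] [Algebra B' B''] [IsScalarTower k B' B'']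
    [IsScalarTower B B' B''] :
    baseChangeIdeal (baseChangeIdeal I B') B'' = baseChangeIdeal I B'' := by
  unfold baseChangeIdeal
  have key : (baseChangeHom k A B' B'').toRingHom.comp (baseChangeHom k A B B').toRingHom =
      (baseChangeHom k A B B'').toRingHom := by
    apply RingHom.ext
    intro x
    induction x using TensorProduct.induction_on with
    | zero => simp
    | tmul b a =>
      simp only [AlgHom.toRingHom_eq_coe, RingHom.coe_comp, RingHom.coe_coe, Function.comp_apply,
        baseChangeHom_tmul]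
      rw [← IsScalarTower.algebraMap_apply]
    | add x y hx hy => rw [map_add, map_add, hx, hy]
  calc Ideal.map (baseChangeHom k A B' B'') (Ideal.map (baseChangeHom k A B B') I)
      = Ideal.map (baseChangeHom k A B' B'').toRingHom
          (Ideal.map (baseChangeHom k A B B').toRingHom I) := rfl
    _ = Ideal.map ((baseChangeHom k A B' B'').toRingHom.comp (baseChangeHom k A B B').toRingHom) I :=
        Ideal.map_map _ _
    _ = Ideal.map (baseChangeHom k A B B'') I := by rw [key]; rfl

/-- Invariance of based quotients under extension of the field. -/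
theorem isBasedQuot_baseChange_field_ext (I : Ideal (B ⊗[k] A)) (K K' : Type u) [Field K]
    [Algebra k K] [Algebra B K] [IsScalarTower k B K] [Field K'] [Algebra k K'] [Algebra B K']
    [IsScalarTower k B K'] [Algebra K K'] [IsScalarTower k K K'] [IsScalarTower B K K'] :
    IsBasedQuot β (baseChangeIdeal I K') ↔ IsBasedQuot β (baseChangeIdeal I K) := by
  rw [← baseChangeIdeal_trans I K K']
  exact isBasedQuot_baseChange_iff_of_faithfullyFlat β (baseChangeIdeal I K) K'

/-- **Spreading out**: a based quotient of the fibre at `p` is a based quotient over a basic open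
neighbourhood of `p`. -/
theorem exists_away_isBasedQuot (I : Ideal (B ⊗[k] A)) [Module.Finite B ((B ⊗[k] A) ⧸ I)]
    [Module.Projective B ((B ⊗[k] A) ⧸ I)] (p : Ideal B) [p.IsPrime]
    (h : IsBasedQuot β (baseChangeIdeal I p.ResidueField)) :
    ∃ f : B, f ∉ p ∧ IsBasedQuot β (baseChangeIdeal I (Localization.Away f)) := by
  obtain ⟨f, hf, hb⟩ := exists_away_isBasisAt (classFam β I) p
    ((isBasedQuot_baseChange_iff β I p.ResidueField).mp h)
  exact ⟨f, hf, (isBasedQuot_baseChange_iff β I _).mpr hb⟩

end BaseChange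

section Cover

variable {k : Type u} [CommRing k] {A : Type u} [CommRing A] [Algebra k A]

/-- **Covering by based charts, field case**: over a field `K`, every ideal of `K ⊗[k] A` with
finite-dimensional quotient is a `β`-based quotient for some `β : Fin g → A` (defined over `k`!),
`g` the dimension of the quotient. -/
theorem exists_isBasedQuot_of_field {K : Type u} [Field K] [Algebra k K] (I : Ideal (K ⊗[k] A))
    [FiniteDimensional K ((K ⊗[k] A) ⧸ I)] :
    ∃ β : Fin (Module.finrank K ((K ⊗[k] A) ⧸ I)) → A, IsBasedQuot β I := by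
  have hspan : ⊤ ≤ Submodule.span K
      (Set.range fun a : A => Ideal.Quotient.mk I ((1 : K) ⊗ₜ[k] a)) := by
    rintro q -
    obtain ⟨x, rfl⟩ := Ideal.Quotient.mk_surjective q
    induction x using TensorProduct.induction_on with
    | zero => simp
    | tmul c a =>
      have : Ideal.Quotient.mk I (c ⊗ₜ[k] a) = c • Ideal.Quotient.mk I ((1 : K) ⊗ₜ[k] a) := by
        rw [smul_mk, TensorProduct.smul_tmul', smul_eq_mul, mul_one]
      rw [this]
      exact Submodule.smul_mem _ _ (Submodule.subset_span ⟨a, rfl⟩)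
    | add x y hx hy =>
      rw [map_add]
      exact Submodule.add_mem _ hx hy
  obtain ⟨β, hβ⟩ := exists_fin_bijective_of_span
    (fun a : A => Ideal.Quotient.mk I ((1 : K) ⊗ₜ[k] a)) hspan
  exact ⟨β, hβ⟩

variable {B : Type u} [CommRing B] [Algebra k B]

/-- The quotient of a fibre is finite-dimensional when `Q` is a finite `B`-module. -/
theorem finite_quot_baseChangeIdeal (I : Ideal (B ⊗[k] A)) [Module.Finite B ((B ⊗[k] A) ⧸ I)]
    (B' : Type u) [CommRing B'] [Algebra k B'] [Algebra B B'] [IsScalarTower k B B'] :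
    Module.Finite B' ((B' ⊗[k] A) ⧸ baseChangeIdeal I B') :=
  Module.Finite.equiv (quotBaseChangeEquiv I B').toLinearEquiv

/-- **Covering by based charts**: if `Q = (B ⊗[k] A) ⧸ I` is finite projective over `B` and `p` is
a prime of `B`, then on a basic open neighbourhood `D(f)` of `p` the ideal `I` becomes a
`β`-based quotient for some `β : Fin g → A`, where `g` is the dimension of the fibre of `Q`
at `p`. -/
theorem exists_away_exists_isBasedQuot (I : Ideal (B ⊗[k] A))
    [Module.Finite B ((B ⊗[k] A) ⧸ I)] [Module.Projective B ((B ⊗[k] A) ⧸ I)] (p : Ideal B)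
    [p.IsPrime] :
    ∃ (g : ℕ) (β : Fin g → A) (f : B), f ∉ p ∧
      IsBasedQuot β (baseChangeIdeal I (Localization.Away f)) := by
  have := finite_quot_baseChangeIdeal I p.ResidueField
  obtain ⟨β, hβ⟩ := exists_isBasedQuot_of_field (k := k) (A := A)
    (baseChangeIdeal I p.ResidueField)
  obtain ⟨f, hf, h⟩ := exists_away_isBasedQuot β I p hβ
  exact ⟨_, β, f, hf, h⟩

end Cover

end Fermat.Agent.JAC.Hilb.BasedOpen24
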