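/-
Programme JAC (S25), chart theorem (A4.3) and atlas assembly.  Owner: helper24.

THE BRICKS of `nonempty_algAtlas`, as compiled `Prop`-valued definitions (statements only).
Each brick `Brick.X` is to be PROVED by its owner in a separate file as
`theorem x (H : CurveHyp k A0 A1 A01 t s) … : Brick.X …`; the assembly (`Hilb/Atlas24`) takes the
bricks as hypotheses.  Notation: `N.bcd ψ` is the canonical base change of a line diagram along
`ψ : B →ₐ[k] B'` (`Cart33.baseChange (familyHom ψ t s) N`), with its cartesian morphism `N.bcc ψ`.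
-/
import Mathlib
import Fermat.Agent.JAC.Hilb.ChartDef24
import Fermat.Agent.JAC.Hilb.BasedOpen24

set_option autoImplicit false
set_option maxHeartbeats 400000

universe u

namespace Fermat.Agent.JAC.Hilb.ChartSpec24

open scoped TensorProduct Polynomial
open scoped Fermat.Agent.JAC.Core.ConstFamily36
open Fermat.Agent.JAC.Core.Defs36 Fermat.Agent.JAC.Core.Cart36 Fermat.Agent.JAC.Core.ConstFamily36
  Fermat.Agent.JAC.Core.Degree36 Fermat.Agent.JAC.Core.AlgAtlas36 Fermat.Agent.JAC.Grp.Diag33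
  Fermat.Agent.JAC.Hilb.BasedQuot46 Fermat.Agent.JAC.Hilb.ZeroIdeal46
  Fermat.Agent.JAC.Hilb.ChartDef24

variable (k : Type u) [Field k] (A0 A1 A01 : Type u) [CommRing A0] [CommRing A1] [CommRing A01]
  [Algebra k A0] [Algebra k A1] [Algebra k A01] [Algebra A0 A01] [Algebra A1 A01]
  [IsScalarTower k A0 A01] [IsScalarTower k A1 A01] (t : A0) (s : A1)
  [IsLocalization.Away t A01] [IsLocalization.Away s A01]

/-- Line diagrams over the constant family of a `k`-algebra `B`. -/
abbrev CDiag (B : Type u) [CommRing B] [Algebra k B] : Type (u + 1) :=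
  LineDiag ((1 : B) ⊗ₜ[k] t) ((1 : B) ⊗ₜ[k] s) (B ⊗[k] A01)

variable {k A0 A1 A01 t s}

section BaseChange

variable {B B' : Type u} [CommRing B] [CommRing B'] [Algebra k B] [Algebra k B']

/-- The canonical base change of a line diagram along `ψ : B →ₐ[k] B'`. -/
noncomputable def bcd (ψ : B →ₐ[k] B') (N : CDiag k A0 A1 A01 t s B) : CDiag k A0 A1 A01 t s B' :=
  Fermat.Agent.JAC.Grp.Cart33.baseChange (familyHom ψ t s) N

/-- The cartesian morphism `N → bcd ψ N`. -/
noncomputable def bcc (ψ : B →ₐ[k] B') (N : CDiag k A0 A1 A01 t s B) :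
    LineDiag.CartHom (familyHom ψ t s) N (bcd ψ N) :=
  Fermat.Agent.JAC.Grp.Cart33.cartHomBaseChange (familyHom ψ t s) N

end BaseChange

/-- The localisation map `B →ₐ[k] B_f`. -/
noncomputable abbrev toAway (B : Type u) [CommRing B] [Algebra k B] (f : B) :
    B →ₐ[k] Localization.Away f :=
  IsScalarTower.toAlgHom k B (Localization.Away f)

namespace Brick

variable (k A0 A1 A01 t s)

/-! ### (BC) base change of the conditions along an arbitrary `ψ : B →ₐ[k] B'`
(any cartesian morphism `c`; in particular `c = bcc ψ N`) -/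

/-- (BC1) `H¹ = 0` is stable under base change. -/
def BC1 : Prop :=
  ∀ (B B' : Type u) [CommRing B] [CommRing B'] [Algebra k B] [Algebra k B'] (ψ : B →ₐ[k] B')
    (N : CDiag k A0 A1 A01 t s B) (N' : CDiag k A0 A1 A01 t s B')
    (_c : LineDiag.CartHom (familyHom ψ t s) N N'), H1Zero N → H1Zero N'

/-- (BC2) if `H¹ = 0`, a generating section stays generating after base change
(`H⁰` commutes with base change). -/
def BC2 : Prop :=
  ∀ (B B' : Type u) [CommRing B] [CommRing B'] [Algebra k B] [Algebra k B'] (ψ : B →ₐ[k] B')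
    (N : CDiag k A0 A1 A01 t s B) (N' : CDiag k A0 A1 A01 t s B')
    (c : LineDiag.CartHom (familyHom ψ t s) N N') (σ0 : N.M0) (σ1 : N.M1),
    H1Zero N → IsGenSection N σ0 σ1 → IsGenSection N' (c.f0 σ0) (c.f1 σ1)

/-- (BC3) "no zero at infinity" is stable under base change. -/
def BC3 : Prop :=
  ∀ (B B' : Type u) [CommRing B] [CommRing B'] [Algebra k B] [Algebra k B'] (ψ : B →ₐ[k] B')
    (N : CDiag k A0 A1 A01 t s B) (N' : CDiag k A0 A1 A01 t s B')
    (c : LineDiag.CartHom (familyHom ψ t s) N N') (σ1 : N.M1),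
    NoZeroInf N σ1 → NoZeroInf N' (c.f1 σ1)

/-- (BC4) the zero ideal of a section commutes with base change. -/
def BC4 : Prop :=
  ∀ (B B' : Type u) [CommRing B] [CommRing B'] [Algebra k B] [Algebra k B'] (ψ : B →ₐ[k] B')
    (N : CDiag k A0 A1 A01 t s B) (N' : CDiag k A0 A1 A01 t s B')
    (c : LineDiag.CartHom (familyHom ψ t s) N N') (σ0 : N.M0),
    zeroIdeal (B' ⊗[k] A0) (c.f0 σ0) =
      Ideal.map (tensorMap (A := A0) ψ) (zeroIdeal (B ⊗[k] A0) σ0)

/-! ### (FE) descent along a field extension `ψ : K →ₐ[k] L` -/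

/-- (FE1) `H¹ = 0` descends along field extensions. -/
def FE1 : Prop :=
  ∀ (K L : Type u) [Field K] [Field L] [Algebra k K] [Algebra k L] (ψ : K →ₐ[k] L)
    (N : CDiag k A0 A1 A01 t s K) (N' : CDiag k A0 A1 A01 t s L)
    (_c : LineDiag.CartHom (familyHom ψ t s) N N'), H1Zero N' → H1Zero N

/-- (FE2) if `H⁰` is one-dimensional over `L` (and `H¹ = 0`) then it is one-dimensional over `K`. -/
def FE2 : Prop :=
  ∀ (K L : Type u) [Field K] [Field L] [Algebra k K] [Algebra k L] (ψ : K →ₐ[k] L)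
    (N : CDiag k A0 A1 A01 t s K) (N' : CDiag k A0 A1 A01 t s L)
    (_c : LineDiag.CartHom (familyHom ψ t s) N N') (τ0 : N'.M0) (τ1 : N'.M1),
    H1Zero N' → IsGenSection N' τ0 τ1 → ∃ (σ0 : N.M0) (σ1 : N.M1), IsGenSection N σ0 σ1

/-- (FE3) "no zero at infinity" descends along field extensions. -/
def FE3 : Prop :=
  ∀ (K L : Type u) [Field K] [Field L] [Algebra k K] [Algebra k L] (ψ : K →ₐ[k] L)
    (N : CDiag k A0 A1 A01 t s K) (N' : CDiag k A0 A1 A01 t s L)
    (c : LineDiag.CartHom (familyHom ψ t s) N N') (σ1 : N.M1),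
    NoZeroInf N' (c.f1 σ1) → NoZeroInf N σ1

/-! ### (SP) spreading out from the residue field of a prime `p` of `B` to a basic open -/

/-- (SP1) `H¹ = 0` at `κ(p)` spreads to a basic open neighbourhood of `p`. -/
def SP1 : Prop :=
  ∀ (B : Type u) [CommRing B] [Algebra k B] (p : PrimeSpectrum B) (N : CDiag k A0 A1 A01 t s B),
    H1Zero (bcd (toResidue B p) N) → ∃ f : B, f ∉ p.asIdeal ∧ H1Zero (bcd (toAway B f) N)

/-- (SP2) if `H¹(N) = 0` over `B` and `H⁰` of the fibre at `p` is one-dimensional, then `H⁰` is free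
of rank one on a generating section over a basic open neighbourhood of `p`. -/
def SP2 : Prop :=
  ∀ (B : Type u) [CommRing B] [Algebra k B] (p : PrimeSpectrum B) (N : CDiag k A0 A1 A01 t s B)
    (τ0 : (bcd (toResidue B p) N).M0) (τ1 : (bcd (toResidue B p) N).M1),
    H1Zero N → IsGenSection (bcd (toResidue B p) N) τ0 τ1 →
    ∃ f : B, f ∉ p.asIdeal ∧ ∃ (σ0 : (bcd (toAway B f) N).M0) (σ1 : (bcd (toAway B f) N).M1),
      IsGenSection (bcd (toAway B f) N) σ0 σ1

/-- (SP3) "no zero at infinity" at `κ(p)` spreads to a basic open neighbourhood of `p`. -/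
def SP3 : Prop :=
  ∀ (B : Type u) [CommRing B] [Algebra k B] (p : PrimeSpectrum B) (N : CDiag k A0 A1 A01 t s B)
    (σ1 : N.M1), NoZeroInf (bcd (toResidue B p) N) ((bcc (toResidue B p) N).f1 σ1) →
    ∃ f : B, f ∉ p.asIdeal ∧ NoZeroInf (bcd (toAway B f) N) ((bcc (toAway B f) N).f1 σ1)

/-! ### (K) sections and divisors -/

variable {k A0 A1 A01 t s} in
/-- The hypothesis `t s = 1`, as a variable of the bricks about `OD`. -/
abbrev Hts : Prop := algebraMap A0 A01 t * algebraMap A1 A01 s = 1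

/-- (K0) ideals of based quotients are invertible (A3.2: relative effective Cartier divisors). -/
def K0 : Prop :=
  ∀ (B : Type u) [CommRing B] [Algebra k B] (n : ℕ) (β : Fin n → A0) (I0 : Ideal (B ⊗[k] A0)),
    IsBasedQuot β I0 → Module.Invertible (B ⊗[k] A0) I0

/-- (K1) "`N ≅ O(div σ)`": a line diagram with a section without zero at infinity whose zero ideal
on `U0` has finite quotient over `B` is `O(D)`, `D = V(zeroIdeal σ0)`. -/
def K1 (hts : algebraMap A0 A01 t * algebraMap A1 A01 s = 1) : Prop :=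
  ∀ (B : Type u) [CommRing B] [Algebra k B] (N : CDiag k A0 A1 A01 t s B) (σ0 : N.M0) (σ1 : N.M1),
    N.rho0 σ0 = N.rho1 σ1 → NoZeroInf N σ1 →
    Module.Finite B ((B ⊗[k] A0) ⧸ zeroIdeal (B ⊗[k] A0) σ0) →
    Module.Invertible (B ⊗[k] A0) (zeroIdeal (B ⊗[k] A0) σ0) ∧
      cls N = odClass hts B (zeroIdeal (B ⊗[k] A0) σ0)

/-- (K2) base change of `O(D)` with its tautological section, for a divisor with `B`-flat structure
ring: the ideal `I0' = I0·(B' ⊗ A0)` is again invertible with finite quotient and there is a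
cartesian morphism `O(D) → O(D')` over `ψ` carrying `1_D` to `1_{D'}`. -/
def K2 (hts : algebraMap A0 A01 t * algebraMap A1 A01 s = 1) : Prop :=
  ∀ (B B' : Type u) [CommRing B] [CommRing B'] [Algebra k B] [Algebra k B'] (ψ : B →ₐ[k] B')
    (I0 : Ideal (B ⊗[k] A0)) (hf : Module.Finite B ((B ⊗[k] A0) ⧸ I0))
    (_hfl : Module.Flat B ((B ⊗[k] A0) ⧸ I0)) (hi : Module.Invertible (B ⊗[k] A0) I0),
    ∃ (hf' : Module.Finite B' ((B' ⊗[k] A0) ⧸ Ideal.map (tensorMap (A := A0) ψ) I0))
      (hi' : Module.Invertible (B' ⊗[k] A0) (Ideal.map (tensorMap (A := A0) ψ) I0))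
      (c : LineDiag.CartHom (familyHom ψ t s) (OD hts B I0 hf hi)
        (OD hts B' (Ideal.map (tensorMap (A := A0) ψ) I0) hf' hi')),
      c.f0 (oneSec0 hts B I0 hf hi) = oneSec0 hts B' _ hf' hi' ∧
        c.f1 (oneSec1 hts B I0 hf hi) = oneSec1 hts B' _ hf' hi'

/-- (K3) the tautological section of `O(D)` has no zero at infinity. -/
def K3 (hts : algebraMap A0 A01 t * algebraMap A1 A01 s = 1) : Prop :=
  ∀ (B : Type u) [CommRing B] [Algebra k B] (I0 : Ideal (B ⊗[k] A0))
    (hf : Module.Finite B ((B ⊗[k] A0) ⧸ I0)) (hi : Module.Invertible (B ⊗[k] A0) I0),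
    NoZeroInf (OD hts B I0 hf hi) (oneSec1 hts B I0 hf hi)

/-- (K4) a generating section of a diagram with `H¹ = 0` whose zero scheme on `U0` is finite over
the base and which has no zero at infinity has a `B`-PROJECTIVE structure ring of zeros
(relative effective Cartier divisor; the fibres of `U0` are domains and the section is nonzero on
every fibre). -/
def K4 : Prop :=
  ∀ (B : Type u) [CommRing B] [Algebra k B] (N : CDiag k A0 A1 A01 t s B) (σ0 : N.M0) (σ1 : N.M1),
    H1Zero N → IsGenSection N σ0 σ1 → NoZeroInf N σ1 →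
    Module.Finite B ((B ⊗[k] A0) ⧸ zeroIdeal (B ⊗[k] A0) σ0) ∧
      Module.Projective B ((B ⊗[k] A0) ⧸ zeroIdeal (B ⊗[k] A0) σ0)

/-! ### (G) the functor of rigid classes -/

/-- (G1) functoriality of `bc`. -/
def G1 : Prop :=
  (∀ (B : Type u) [CommRing B] [Algebra k B] (ξ : Cl k A0 A1 A01 t s B),
    bc (AlgHom.id k B) ξ = ξ) ∧
  ∀ (B B' B'' : Type u) [CommRing B] [CommRing B'] [CommRing B''] [Algebra k B] [Algebra k B']
    [Algebra k B''] (ψ : B →ₐ[k] B') (ψ' : B' →ₐ[k] B'') (ξ : Cl k A0 A1 A01 t s B),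
    bc (ψ'.comp ψ) ξ = bc ψ' (bc ψ ξ)

/-- (G2) `bc` is computed by any cartesian morphism. -/
def G2 : Prop :=
  ∀ (B B' : Type u) [CommRing B] [CommRing B'] [Algebra k B] [Algebra k B'] (ψ : B →ₐ[k] B')
    (N : CDiag k A0 A1 A01 t s B) (N' : CDiag k A0 A1 A01 t s B'),
    bc ψ (cls N) = cls N' ↔ Nonempty (LineDiag.CartHom (familyHom ψ t s) N N')

/-- (G3) rigidity and degree zero are stable under base change; over a field every class is
rigid. -/
def G3 (e : A01 →ₐ[k] k) : Prop :=
  (∀ (B B' : Type u) [CommRing B] [CommRing B'] [Algebra k B] [Algebra k B'] (ψ : B →ₐ[k] B')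
    (ξ : Cl k A0 A1 A01 t s B), IsRigidCl e B ξ → IsRigidCl e B' (bc ψ ξ)) ∧
  (∀ (B B' : Type u) [CommRing B] [CommRing B'] [Algebra k B] [Algebra k B'] (ψ : B →ₐ[k] B')
    (ξ : Cl k A0 A1 A01 t s B), IsDegZero B ξ → IsDegZero B' (bc ψ ξ)) ∧
  ∀ (K : Type u) [Field K] [Algebra k K] (ξ : Cl k A0 A1 A01 t s K), IsRigidCl e K ξ

/-- (G4) separatedness: two rigid classes which agree on a standard open cover are equal. -/
def G4 (e : A01 →ₐ[k] k) : Prop :=
  ∀ (B : Type u) [CommRing B] [Algebra k B] (ξ ξ' : Cl k A0 A1 A01 t s B),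
    IsRigidCl e B ξ → IsRigidCl e B ξ' → ∀ S : Finset B, Ideal.span (S : Set B) = ⊤ →
    (∀ f ∈ S, bc (toAway B f) ξ = bc (toAway B f) ξ') → ξ = ξ'

/-- (G5) rigid classes are locally trivial on the base after restriction along the base point:
for `ξ` over `B` and a prime `p` there is `f ∉ p` such that `ξ` restricted to `B_f` is rigid.
(Used in `covers` only: `e^* N` is an invertible `B`-module, hence locally free.) -/
def G5 (e : A01 →ₐ[k] k) : Prop :=
  ∀ (B : Type u) [CommRing B] [Algebra k B] (p : PrimeSpectrum B) (ξ : Cl k A0 A1 A01 t s B),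
    ∃ f : B, f ∉ p.asIdeal ∧ IsRigidCl e (Localization.Away f) (bc (toAway B f) ξ)

/-- (G6) the degree is locally constant: if the fibre of `ξ` at `p` has degree zero then `ξ` has
degree zero over a basic open neighbourhood of `p`. -/
def G6 : Prop :=
  ∀ (B : Type u) [CommRing B] [Algebra k B] (p : PrimeSpectrum B) (ξ : Cl k A0 A1 A01 t s B),
    IsDegZero p.asIdeal.ResidueField (bc (toResidue B p) ξ) →
    ∃ f : B, f ∉ p.asIdeal ∧ IsDegZero (Localization.Away f) (bc (toAway B f) ξ)

/-- (G7) degree zero descends along field extensions. -/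
def G7 : Prop :=
  ∀ (K L : Type u) [Field K] [Field L] [Algebra k K] [Algebra k L] (ψ : K →ₐ[k] L)
    (ξ : Cl k A0 A1 A01 t s K), IsDegZero L (bc ψ ξ) → IsDegZero K ξ

/-! ### (COV) the covering theorem (A5) and (FS) formal smoothness (A6d) -/

/-- (COV) every class of degree zero over an algebraically closed field becomes good after one of
the twists `lam j` (translates of the big chart cover `Pic^g`). -/
def COV {J : Type u} (lam : J → Cl k A0 A1 A01 t s k) : Prop :=
  ∀ (K : Type u) [Field K] [IsAlgClosed K] [Algebra k K] (ξ : Cl k A0 A1 A01 t s K),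
    IsDegZero K ξ → ∃ j, GoodAt K (ξ * twist lam K j)

/-- (FS) a chart of the functor of rigid classes of degree zero (injective, with image described
pointwise by a predicate invariant under field extensions) is formally smooth: line bundles lift
along square-zero extensions. -/
def FS (e : A01 →ₐ[k] k) : Prop :=
  ∀ (R : Type u) [CommRing R] [Algebra k R] (x : Cl k A0 A1 A01 t s R),
    IsRigidCl e R x → IsDegZero R x →
    ∀ (W : ∀ (K : Type u) [Field K] [Algebra k K], Cl k A0 A1 A01 t s K → Prop),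
    (∀ (K L : Type u) [Field K] [Field L] [Algebra k K] [Algebra k L] (ψ : K →ₐ[k] L)
      (ξ : Cl k A0 A1 A01 t s K), W L (bc ψ ξ) ↔ W K ξ) →
    (∀ (B : Type u) [CommRing B] [Algebra k B] (φ ψ : R →ₐ[k] B), bc φ x = bc ψ x → φ = ψ) →
    (∀ (B : Type u) [CommRing B] [Algebra k B] (ξ : Cl k A0 A1 A01 t s B),
      IsRigidCl e B ξ → IsDegZero B ξ →
      ((∃ ψ : R →ₐ[k] B, bc ψ x = ξ) ↔
        ∀ p : PrimeSpectrum B, W p.asIdeal.ResidueField (bc (toResidue B p) ξ))) →
    Algebra.FormallySmooth k R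

end Brick

end Fermat.Agent.JAC.Hilb.ChartSpec24
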