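/-
Programme JAC (S25), chart theorem (A4.3): the brick `(COV)` of `Hilb/ChartSpec24`.  Owner: helper67.

`Brick.COV lam`: every class over an algebraically closed field `K ⊇ k` becomes good after one of
the twists `lam j`.  Here `J := ℤ × List (A01 →ₐ[k] k) × List (A01 →ₐ[k] k)` and
`lam (m, l, l') := [O(m·P_e + Σ_{q ∈ l} q − Σ_{q ∈ l'} q)]` (classes defined over `k`), and the
statement is a thin repackaging of `Fibre/CovWire67.exists_good_diagram` (which needs neither `K`
algebraically closed nor the degree hypothesis).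
-/
import Mathlib
import Fermat.Agent.JAC.Hilb.ChartSpec24
import Fermat.Agent.JAC.Fibre.CovWire67

set_option autoImplicit false
set_option maxHeartbeats 400000

universe u

namespace Fermat.Agent.JAC.Hilb.Cov67

open scoped TensorProduct Polynomial
open Fermat.Agent.JAC.Core.Defs36 Fermat.Agent.JAC.Core.AlgAtlas36
  Fermat.Agent.JAC.Core.ConstFamily36
  Fermat.Agent.JAC.Hilb.ChartDef24 Fermat.Agent.JAC.Hilb.ChartSpec24
  Fermat.Agent.JAC.Fibre.ConstExt37

variable {k : Type u} [Field k] {A0 A1 A01 : Type u} [CommRing A0] [CommRing A1] [CommRing A01]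
  [Algebra k A0] [Algebra k A1] [Algebra k A01] [Algebra A0 A01] [Algebra A1 A01]
  [IsScalarTower k A0 A01] [IsScalarTower k A1 A01] {t : A0} {s : A1}
  [IsLocalization.Away t A01] [IsLocalization.Away s A01]

/-- A generating faithful section (helper46's `GenSection46`) is a generating section in the sense
of `ChartDef24`. -/
theorem isGenSection_of_generates {B : Type u} [CommRing B] [Algebra k B]
    (N : LineDiag ((1 : B) ⊗ₜ[k] t) ((1 : B) ⊗ₜ[k] s) (B ⊗[k] A01)) (σ0 : N.M0) (σ1 : N.M1)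
    (hgen : Fermat.Agent.JAC.Hilb.GenSection46.Generates B N σ0 σ1)
    (hfaith : Fermat.Agent.JAC.Hilb.GenSection46.IsFaithfulSection B N σ0 σ1) :
    IsGenSection N σ0 σ1 := by
  refine ⟨hgen.1, fun x y hxy => ?_⟩
  obtain ⟨b, hx, hy⟩ := hgen.2 x y hxy
  refine ⟨b, ⟨hx, hy⟩, fun b' hb' => ?_⟩
  have h0 : algebraMap B (B ⊗[k] A0) (b' - b) • σ0 = 0 := by
    rw [map_sub, sub_smul, ← hb'.1, ← hx, sub_self]
  have h1 : algebraMap B (B ⊗[k] A1) (b' - b) • σ1 = 0 := by
    rw [map_sub, sub_smul, ← hb'.2, ← hy, sub_self]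
  exact sub_eq_zero.mp (hfaith (b' - b) h0 h1)

theorem not_isField₀ (H : CurveHyp k A0 A1 A01 t s) (K : Type u) [Field K] [Algebra k K] :
    ¬ IsField (K ⊗[k] A0) := by
  have := H.dedekind0 K
  obtain ⟨n, b, hb⟩ := H.coords0
  exact Fermat.Agent.JAC.Fibre.CovWire67.not_isField_tensor K hb

theorem not_isField₁ (H : CurveHyp k A0 A1 A01 t s) (K : Type u) [Field K] [Algebra k K] :
    ¬ IsField (K ⊗[k] A1) := by
  have := H.dedekind1 K
  obtain ⟨n, b, hb⟩ := H.coords1
  exact Fermat.Agent.JAC.Fibre.CovWire67.not_isField_tensor K hb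

/-- The index type of the twists: `(m, l, l')` stands for the divisor
`m·P_e + Σ_{q ∈ l} q − Σ_{q ∈ l'} q` of `k`-points of the overlap. -/
abbrev J (k A01 : Type u) [Field k] [CommRing A01] [Algebra k A01] : Type u :=
  ℤ × List (A01 →ₐ[k] k) × List (A01 →ₐ[k] k)

/-- **The twists** of the atlas: classes defined over `k`. -/
noncomputable def lam (H : CurveHyp k A0 A1 A01 t s) (e : A01 →ₐ[k] k) (j : J k A01) :
    Cl k A0 A1 A01 t s k :=
  haveI := H.dedekind0 k
  haveI := H.dedekind1 k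
  haveI := H.dedekind01 k
  haveI : IsFractionRing (k ⊗[k] A0) (FF k A01 k) := isFractionRing₀ t k
  haveI : IsFractionRing (k ⊗[k] A1) (FF k A01 k) := isFractionRing₁ s k
  Fermat.Agent.JAC.Fibre.CovWire67.twist t s k (not_isField₀ H k) (not_isField₁ H k) e j

/-- **(COV)**: every class over a field `K ⊇ k` (`k` algebraically closed) becomes good after one
of the twists `lam j`. -/
theorem goodAt_twist [IsAlgClosed k] (H : CurveHyp k A0 A1 A01 t s) (e : A01 →ₐ[k] k)
    (K : Type u) [Field K] [Algebra k K] (ξ : Cl k A0 A1 A01 t s K) :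
    ∃ j, GoodAt K (ξ * ChartDef24.twist (lam H e) K j) := by
  have := H.dedekind0 k
  have := H.dedekind1 k
  have := H.dedekind01 k
  have : IsFractionRing (k ⊗[k] A0) (FF k A01 k) := isFractionRing₀ t k
  have : IsFractionRing (k ⊗[k] A1) (FF k A01 k) := isFractionRing₁ s k
  have := H.dedekind0 K
  have := H.dedekind1 K
  have := H.dedekind01 K
  have : IsFractionRing (K ⊗[k] A0) (FF k A01 K) := isFractionRing₀ t K
  have : IsFractionRing (K ⊗[k] A1) (FF k A01 K) := isFractionRing₁ s K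
  obtain ⟨n0, b0, hb0⟩ := H.coords0
  obtain ⟨n1, b1, hb1⟩ := H.coords1
  obtain ⟨j, N, σ0, σ1, hcls, hH1, hgen, hfaith, hinf⟩ :=
    Fermat.Agent.JAC.Fibre.CovWire67.exists_good_diagram t s K H.hts hb0 hb1 e ξ
  exact ⟨j, N, σ0, σ1, hcls, hH1, isGenSection_of_generates N σ0 σ1 hgen hfaith, hinf⟩

/-- **The brick `(COV)` of `ChartSpec24`.** -/
theorem cov [IsAlgClosed k] (H : CurveHyp k A0 A1 A01 t s) (e : A01 →ₐ[k] k) :
    Brick.COV k A0 A1 A01 t s (lam H e) :=
  fun K _ _ _ ξ _ => goodAt_twist H e K ξ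

end Fermat.Agent.JAC.Hilb.Cov67
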