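/-
Programme JAC (S25), chart theorem, brick (BC4) of `Hilb/ChartSpec24` (helper80, backup of the
brick's owner): the zero ideal of a section commutes with base change.

`N.M0` is invertible, hence finite projective, `c.f0` exhibits `N'.M0` as the base change of `N.M0`
along `B ⊗ A0 → B' ⊗ A0`, and `ZeroIdeal46.zeroIdeal_isBaseChange` applies.
-/
import Mathlib
import Fermat.Agent.JAC.Hilb.ChartSpec24

set_option autoImplicit false
set_option maxHeartbeats 400000
set_option linter.style.haveILetI false

universe u

namespace Fermat.Agent.JAC.Hilb.BC4_80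

open scoped TensorProduct Polynomial
open Fermat.Agent.JAC.Core.Defs36 Fermat.Agent.JAC.Core.Cart36 Fermat.Agent.JAC.Core.ConstFamily36
  Fermat.Agent.JAC.Grp.Cart33 Fermat.Agent.JAC.Hilb.BasedQuot46 Fermat.Agent.JAC.Hilb.ZeroIdeal46
  Fermat.Agent.JAC.Hilb.ChartDef24 Fermat.Agent.JAC.Hilb.ChartSpec24

section General

variable {R R' : Type u} [CommRing R] [CommRing R'] {φ : R →+* R'}
  {P P' : Type u} [AddCommGroup P] [Module R P] [AddCommGroup P'] [Module R' P']

/-- The zero ideal of a section of a finite projective module commutes with base change, in the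
fibred form of `Core/Cart36`. -/
theorem zeroIdeal_isBaseChangeHom [Module.Finite R P] [Module.Projective R P]
    {θ : P →ₛₗ[φ] P'} (hθ : IsBaseChangeHom θ) (σ : P) :
    zeroIdeal R' (θ σ) = Ideal.map φ (zeroIdeal R σ) := by
  letI : Algebra R R' := φ.toAlgebra
  letI : Module R P' := Module.compHom P' φ
  haveI : IsScalarTower R R' P' := IsScalarTower.of_algebraMap_smul fun _ _ => rfl
  let fR : P →ₗ[R] P' :=
    { toFun := θ
      map_add' := θ.map_add
      map_smul' := fun r x => θ.map_smulₛₗ r x }
  have hfR : IsBaseChange R' fR := isBaseChange_of_isBaseChangeHom fR hθ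
  exact zeroIdeal_isBaseChange hfR σ

end General

variable {k : Type u} [Field k] {A0 A1 A01 : Type u} [CommRing A0] [CommRing A1] [CommRing A01]
  [Algebra k A0] [Algebra k A1] [Algebra k A01] [Algebra A0 A01] [Algebra A1 A01]
  [IsScalarTower k A0 A01] [IsScalarTower k A1 A01] {t : A0} {s : A1}

/-- **Brick (BC4)**: the zero ideal of a section commutes with base change. -/
theorem bc4 : Brick.BC4 k A0 A1 A01 t s := by
  intro B B' _ _ _ _ ψ N N' c σ0
  exact zeroIdeal_isBaseChangeHom c.cart0 σ0

end Fermat.Agent.JAC.Hilb.BC4_80
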