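/-
Programme JAC (S25), helper46: a fibrewise criterion for universal injectivity
(the "content lemma" in module form; no noetherian hypothesis).

Let `u : P → P'` be a linear map of modules over a commutative ring `B`, with `P` projective and
`P'` flat.  If `u` stays injective after tensoring with every module killed by a maximal ideal
(for instance: if `(B ⧸ m) ⊗ u` is injective for all maximal ideals `m`), then `u` stays injective
after tensoring with EVERY `B`-module, and consequently its cokernel is flat.

The proof is a "content" argument: an element `g` of `N ⊗ P` has a finitely generated module of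
coefficients `N' ≤ N`; if `u g = 0` then the coefficients lie in `m N'` for every maximal ideal
`m`, and Nakayama's lemma produces, for every `m`, an element outside `m` that kills `g`.
-/
import Mathlib
import Fermat.Agent.JAC.Div.FlatCoker56

set_option autoImplicit false

open TensorProduct

namespace Fermat.Agent.JAC.Hilb.FibrewiseInj46

universe u v w x

variable {B : Type u} [CommRing B]

section Naturality

variable {ι : Type v} [DecidableEq ι]
variable {N₁ : Type w} {N₂ : Type x} [AddCommGroup N₁] [Module B N₁] [AddCommGroup N₂] [Module B N₂]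

/-- Naturality of `finsuppScalarRight` in the module. -/
theorem finsuppScalarRight_rTensor (q : N₁ →ₗ[B] N₂) (t : N₁ ⊗[B] (ι →₀ B)) :
    finsuppScalarRight B B N₂ ι (q.rTensor (ι →₀ B) t) =
      Finsupp.mapRange q q.map_zero (finsuppScalarRight B B N₁ ι t) := by
  induction t using TensorProduct.induction_on with
  | zero => simp
  | tmul n p =>
    ext i
    simp
  | add t₁ t₂ h₁ h₂ =>
    rw [map_add, map_add, h₁, h₂, map_add]
    ext i
    simp

end Naturality

section Main

variable {P : Type v} {P' : Type w} [AddCommGroup P] [Module B P] [AddCommGroup P'] [Module B P']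

/-- Elements of `N' ⊗ P` are killed by any scalar that kills `N'`. -/
theorem smul_tensor_eq_zero {N' : Type x} [AddCommGroup N'] [Module B N'] (b : B)
    (hb : ∀ n : N', b • n = 0) (g : N' ⊗[B] P) : b • g = 0 := by
  induction g using TensorProduct.induction_on with
  | zero => simp
  | tmul n p => rw [TensorProduct.smul_tmul', hb, TensorProduct.zero_tmul]
  | add g₁ g₂ h₁ h₂ => rw [smul_add, h₁, h₂, add_zero]

/-- Commutation of `rTensor` and `lTensor`, applied to an element. -/
theorem rTensor_lTensor_apply {M₁ : Type*} {M₂ : Type*} {Q₁ : Type*} {Q₂ : Type*}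
    [AddCommGroup M₁] [Module B M₁] [AddCommGroup M₂] [Module B M₂]
    [AddCommGroup Q₁] [Module B Q₁] [AddCommGroup Q₂] [Module B Q₂]
    (a : M₁ →ₗ[B] M₂) (b : Q₁ →ₗ[B] Q₂) (z : M₁ ⊗[B] Q₁) :
    a.rTensor Q₂ (b.lTensor M₁ z) = b.lTensor M₂ (a.rTensor Q₁ z) := by
  rw [← LinearMap.comp_apply, ← LinearMap.comp_apply, LinearMap.rTensor_comp_lTensor,
    LinearMap.lTensor_comp_rTensor]

/-- (content lemma, module form) Let `f : P → P'` be a linear map with `P` projective and `P'`
flat.  If `f` stays injective after tensoring with every module killed by a maximal ideal, then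
it stays injective after tensoring with every module. -/
theorem lTensor_injective_of_fibrewise [Module.Projective B P] [Module.Flat B P']
    (f : P →ₗ[B] P')
    (hfib : ∀ (m : Ideal B), m.IsMaximal → ∀ (V : Type x) [AddCommGroup V] [Module B V],
      (∀ b ∈ m, ∀ v : V, b • v = 0) → Function.Injective (f.lTensor V))
    (N : Type x) [AddCommGroup N] [Module B N] : Function.Injective (f.lTensor N) := by
  classical
  rw [injective_iff_map_eq_zero]
  intro g hg
  -- the annihilator of `g`
  let I : Ideal B := LinearMap.ker (LinearMap.toSpanSingleton B (N ⊗[B] P) g)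
  have hI : ∀ b : B, b ∈ I ↔ b • g = 0 := fun b => by
    simp [I, LinearMap.mem_ker, LinearMap.toSpanSingleton_apply]
  suffices h1 : (1 : B) ∈ I by
    have := (hI 1).mp h1
    rwa [one_smul] at this
  by_contra hne
  have hItop : I ≠ ⊤ := fun h => hne (h ▸ Submodule.mem_top)
  obtain ⟨m, hm, hIm⟩ := Ideal.exists_le_maximal I hItop
  -- a free module `F = P →₀ B` of which `P` is a retract
  obtain ⟨s, hs⟩ := (Module.projective_def' (R := B) (P := P)).mp inferInstance
  let π : (P →₀ B) →ₗ[B] P := Finsupp.linearCombination B id
  have hπs : π ∘ₗ s = LinearMap.id := hs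
  have hπsN : ∀ (X : Type x) [AddCommGroup X] [Module B X] (z : X ⊗[B] P),
      π.lTensor X (s.lTensor X z) = z := by
    intro X _ _ z
    rw [← LinearMap.comp_apply, ← LinearMap.lTensor_comp, hπs, LinearMap.lTensor_id,
      LinearMap.id_apply]
  -- coefficients of `g`
  let γ : N ⊗[B] (P →₀ B) := s.lTensor N g
  let c : P →₀ N := finsuppScalarRight B B N P γ
  let N' : Submodule B N := Submodule.span B (Set.range c)
  have hN'fg : N'.FG := by
    have : Set.range c ⊆ (c.support.image c : Set N) ∪ {0} := by
      rintro _ ⟨p, rfl⟩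
      by_cases hp : p ∈ c.support
      · left
        exact Finset.mem_coe.mpr (Finset.mem_image_of_mem _ hp)
      · right
        simpa using hp
    refine Submodule.fg_span (Set.Finite.subset ?_ this)
    exact (Finset.finite_toSet _).union (Set.finite_singleton 0)
  -- the coefficients, as elements of `N'`
  let c' : P →₀ N' := Finsupp.onFinset c.support
    (fun p => (⟨c p, Submodule.subset_span ⟨p, rfl⟩⟩ : N')) (by
      intro p hp
      rw [Finsupp.mem_support_iff]
      intro h0
      apply hp
      exact Subtype.ext h0)
  have hc' : Finsupp.mapRange N'.subtype N'.subtype.map_zero c' = c := by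
    ext p
    simp [c']
  let γ' : N' ⊗[B] (P →₀ B) := (finsuppScalarRight B B N' P).symm c'
  have hγ' : N'.subtype.rTensor (P →₀ B) γ' = γ := by
    apply (finsuppScalarRight B B N P).injective
    rw [finsuppScalarRight_rTensor]
    simp only [γ', LinearEquiv.apply_symm_apply]
    exact hc'
  let g' : N' ⊗[B] P := π.lTensor N' γ'
  have hg'g : N'.subtype.rTensor P g' = g := by
    simp only [g']
    rw [rTensor_lTensor_apply, hγ']
    exact hπsN N g
  have hsg' : s.lTensor N' g' = γ' := by
    apply Module.Flat.rTensor_preserves_injective_linearMap (M := (P →₀ B)) N'.subtype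
      Subtype.val_injective
    rw [rTensor_lTensor_apply, hg'g, hγ']
  have hfg' : f.lTensor N' g' = 0 := by
    apply Module.Flat.rTensor_preserves_injective_linearMap (M := P') N'.subtype
      Subtype.val_injective
    rw [rTensor_lTensor_apply, hg'g, hg, map_zero]
  -- reduce modulo `m`
  let mN' : Submodule B N' := m • (⊤ : Submodule B N')
  let q : N' →ₗ[B] (N' ⧸ mN') := mN'.mkQ
  have hV : ∀ b ∈ m, ∀ v : N' ⧸ mN', b • v = 0 := by
    intro b hb v
    obtain ⟨n, rfl⟩ := mN'.mkQ_surjective v
    rw [← map_smul, Submodule.mkQ_apply, Submodule.Quotient.mk_eq_zero]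
    exact Submodule.smul_mem_smul hb Submodule.mem_top
  have hqg' : q.rTensor P g' = 0 := by
    apply hfib m hm (N' ⧸ mN') hV
    rw [← rTensor_lTensor_apply, hfg', map_zero, map_zero]
  have hqc' : ∀ p, q (c' p) = 0 := by
    intro p
    have h0 : q.rTensor (P →₀ B) γ' = 0 := by
      rw [← hsg', rTensor_lTensor_apply, hqg', map_zero]
    have h1 := finsuppScalarRight_rTensor (ι := P) q γ'
    rw [h0, map_zero] at h1
    simp only [γ', LinearEquiv.apply_symm_apply] at h1
    have h2 := congrArg (fun F => F p) h1
    simpa using h2.symm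
  -- Nakayama
  have hspan : Submodule.span B (Set.range c') = ⊤ := by
    apply Submodule.map_injective_of_injective (f := N'.subtype) Subtype.val_injective
    rw [Submodule.map_span, Submodule.map_top, Submodule.range_subtype]
    congr 1
    ext n
    constructor
    · rintro ⟨_, ⟨p, rfl⟩, rfl⟩
      exact ⟨p, by simp [c']⟩
    · rintro ⟨p, rfl⟩
      exact ⟨c' p, ⟨p, rfl⟩, by simp [c']⟩
  have hle : (⊤ : Submodule B N') ≤ m • (⊤ : Submodule B N') := by
    have hle' : Submodule.span B (Set.range c') ≤ m • (⊤ : Submodule B N') := by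
      rw [Submodule.span_le]
      rintro _ ⟨p, rfl⟩
      have := hqc' p
      rwa [Submodule.mkQ_apply, Submodule.Quotient.mk_eq_zero] at this
    rwa [hspan] at hle'
  have hfgtop : (⊤ : Submodule B N').FG := by
    have : Module.Finite B N' := Module.Finite.iff_fg.mpr hN'fg
    exact Module.Finite.fg_top
  obtain ⟨r, hr1, hr0⟩ :=
    Submodule.exists_sub_one_mem_and_smul_eq_zero_of_fg_of_le_smul m ⊤ hfgtop hle
  have hrg : r • g = 0 := by
    rw [← hg'g, ← map_smul, smul_tensor_eq_zero r (fun n => hr0 n Submodule.mem_top) g', map_zero]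
  have hrm : r ∈ m := hIm ((hI r).mpr hrg)
  have h1m : (1 : B) ∈ m := by
    have := m.sub_mem hrm hr1
    simpa using this
  exact hm.ne_top ((Ideal.eq_top_iff_one m).mpr h1m)

/-- A module killed by `m` is a module over the field `B ⧸ m`; tensoring an injective map of
`B ⧸ m`-vector spaces `(B ⧸ m) ⊗ P → (B ⧸ m) ⊗ P'` with it preserves injectivity. -/
theorem lTensor_injective_of_baseChange_injective (f : P →ₗ[B] P') (m : Ideal B) [m.IsMaximal]
    (hf : Function.Injective (f.baseChange (B ⧸ m)))
    (V : Type x) [AddCommGroup V] [Module B V] (hV : ∀ b ∈ m, ∀ v : V, b • v = 0) :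
    Function.Injective (f.lTensor V) := by
  let _ : Field (B ⧸ m) := Ideal.Quotient.field m
  -- the `B ⧸ m`-module structure on `V`
  let _ : Module (B ⧸ m) V := Module.IsTorsionBySet.module (R := B) (I := m) (M := V)
    (fun v b => hV b.1 b.2 v)
  have : IsScalarTower B (B ⧸ m) V := Module.IsTorsionBySet.isScalarTower _
  -- `V ⊗[B ⧸ m] ((B ⧸ m) ⊗[B] P) ≃ V ⊗[B] P`
  let e := TensorProduct.AlgebraTensorModule.cancelBaseChange B (B ⧸ m) (B ⧸ m) V P
  let e' := TensorProduct.AlgebraTensorModule.cancelBaseChange B (B ⧸ m) (B ⧸ m) V P'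
  have hinj : Function.Injective ((f.baseChange (B ⧸ m)).lTensor V) :=
    Module.Flat.lTensor_preserves_injective_linearMap (M := V) _ hf
  have hcomm : ∀ z, f.lTensor V (e z) = e' ((f.baseChange (B ⧸ m)).lTensor V z) := by
    intro z
    induction z using TensorProduct.induction_on with
    | zero => simp
    | tmul v y =>
      induction y using TensorProduct.induction_on with
      | zero => simp
      | tmul a p => simp [e, e']
      | add y₁ y₂ h₁ h₂ =>
        simp only [TensorProduct.tmul_add, map_add, h₁, h₂]
    | add z₁ z₂ h₁ h₂ => simp only [map_add, h₁, h₂]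
  intro z₁ z₂ hz
  obtain ⟨w₁, rfl⟩ := e.surjective z₁
  obtain ⟨w₂, rfl⟩ := e.surjective z₂
  rw [hcomm, hcomm] at hz
  rw [hinj (e'.injective hz)]

/-- (content lemma, fibre form) If `P` is projective, `P'` is flat and `(B ⧸ m) ⊗ f` is injective
for every maximal ideal `m`, then `N ⊗ f` is injective for every module `N`. -/
theorem lTensor_injective_of_forall_maximal [Module.Projective B P] [Module.Flat B P']
    (f : P →ₗ[B] P')
    (hf : ∀ (m : Ideal B) [m.IsMaximal], Function.Injective (f.baseChange (B ⧸ m)))
    (N : Type x) [AddCommGroup N] [Module B N] : Function.Injective (f.lTensor N) :=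
  lTensor_injective_of_fibrewise f
    (fun m hm V _ _ hV => by
      have := hm
      exact lTensor_injective_of_baseChange_injective f m (hf m) V hV) N

/-- Under the hypotheses of the content lemma, `f` itself is injective. -/
theorem injective_of_forall_maximal [Module.Projective B P] [Module.Flat B P']
    (f : P →ₗ[B] P')
    (hf : ∀ (m : Ideal B) [m.IsMaximal], Function.Injective (f.baseChange (B ⧸ m))) :
    Function.Injective f := by
  have h := lTensor_injective_of_forall_maximal.{u, v, w, u} f hf B
  intro p₁ p₂ hp
  have : f.lTensor B ((1 : B) ⊗ₜ p₁) = f.lTensor B ((1 : B) ⊗ₜ p₂) := by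
    simp [hp]
  have h2 := h this
  have h3 := congrArg (TensorProduct.lid B P) h2
  simpa using h3

/-- (content lemma, flatness of the cokernel) If `P` is projective, `P'` is flat and
`(B ⧸ m) ⊗ f` is injective for every maximal ideal `m`, then every cokernel of `f` is flat. -/
theorem flat_of_exact_of_forall_maximal [Module.Projective B P] [Module.Flat B P']
    (f : P →ₗ[B] P')
    (hf : ∀ (m : Ideal B) [m.IsMaximal], Function.Injective (f.baseChange (B ⧸ m)))
    {Q : Type x} [AddCommGroup Q] [Module B Q] (π : P' →ₗ[B] Q) (hex : Function.Exact f π)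
    (hπ : Function.Surjective π) : Module.Flat B Q :=
  Fermat.Agent.JAC.Div.FlatCoker56.flat_of_exact_of_lTensor_quotient_injective f π hex hπ
    (fun I => lTensor_injective_of_forall_maximal.{u, v, w, u} f hf (B ⧸ I))

/-- (content lemma, quotient form) -/
theorem flat_quotient_range_of_forall_maximal [Module.Projective B P] [Module.Flat B P']
    (f : P →ₗ[B] P')
    (hf : ∀ (m : Ideal B) [m.IsMaximal], Function.Injective (f.baseChange (B ⧸ m))) :
    Module.Flat B (P' ⧸ LinearMap.range f) :=
  flat_of_exact_of_forall_maximal f hf (LinearMap.range f).mkQ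
    (LinearMap.exact_map_mkQ_range f) (Submodule.mkQ_surjective _)

end Main

end Fermat.Agent.JAC.Hilb.FibrewiseInj46
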