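/-
Programme JAC (S25), work package A4.3a (helper46): closedness at infinity gives finiteness.

Two-chart family `R0 → R01 ← R1` over `B` with `R01 = R0[1/t]`, `t * s = 1` in `R01`,
`R0` module-finite over `B[t]` and `R1` module-finite over `B[s]`.  If `Z0 ≤ R0`, `Z1 ≤ R1` are
ideals cutting out the same closed subscheme on the overlap (only `Z1 R01 ≤ Z0 R01` is used) and
the subscheme does not meet the divisor at infinity (`Z1 ⊔ (s) = ⊤`), then `R0 ⧸ Z0` is a finite
`B`-module.
-/
import Mathlib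

set_option autoImplicit false

open Polynomial

namespace Fermat.Agent.JAC.Hilb.FiniteAtInfty46

universe u

variable {B : Type*} [CommRing B]

/-- A `B[X]`-algebra, module-finite over `B[X]`, in which a monic polynomial vanishes, is
module-finite over `B`. -/
theorem finite_of_monic_algebraMap_eq_zero {E : Type*} [CommRing E] [Algebra B E] [Algebra B[X] E]
    [IsScalarTower B B[X] E] [Module.Finite B[X] E] (G : B[X]) (hG : G.Monic)
    (h0 : algebraMap B[X] E G = 0) : Module.Finite B E := by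
  let J : Ideal B[X] := Ideal.span {G}
  have hJ : ∀ a ∈ J, algebraMap B[X] E a = 0 := by
    intro a ha
    obtain ⟨c, rfl⟩ := Ideal.mem_span_singleton.mp ha
    rw [map_mul, h0, zero_mul]
  let ψ : (B[X] ⧸ J) →+* E := Ideal.Quotient.lift J (algebraMap B[X] E) hJ
  have hψmk : ∀ q' : B[X], ψ (Ideal.Quotient.mk J q') = algebraMap B[X] E q' := fun q' => rfl
  let _ : Algebra (B[X] ⧸ J) E := ψ.toAlgebra
  have hψ : ∀ (q : B[X] ⧸ J) (e : E), q • e = ψ q * e := fun q e => rfl
  have : IsScalarTower B[X] (B[X] ⧸ J) E := ⟨fun p q e => by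
    obtain ⟨q', rfl⟩ := Ideal.Quotient.mk_surjective q
    have h1 : p • (Ideal.Quotient.mk J) q' = Ideal.Quotient.mk J (p * q') := rfl
    rw [hψ, hψ, h1, hψmk, hψmk, Algebra.smul_def p, map_mul, mul_assoc]⟩
  have : IsScalarTower B (B[X] ⧸ J) E := ⟨fun b q e => by
    obtain ⟨q', rfl⟩ := Ideal.Quotient.mk_surjective q
    have h2 : b • (Ideal.Quotient.mk J) q' = Ideal.Quotient.mk J (b • q') := rfl
    rw [hψ, hψ, h2, hψmk, hψmk, Algebra.smul_def b, Algebra.smul_def b, map_mul, mul_assoc,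
      ← IsScalarTower.algebraMap_apply B B[X] E]⟩
  have : Module.Finite (B[X] ⧸ J) E := Module.Finite.of_restrictScalars_finite B[X] _ E
  have : Module.Finite B (B[X] ⧸ J) := hG.finite_quotient
  exact Module.Finite.trans (B[X] ⧸ J) E

/-- In a `B[X]`-algebra `E`, module-finite over `B[X]`, in which the image of `X` is a unit, some
polynomial with constant coefficient `1` vanishes. -/
theorem exists_coeff_zero_eq_one_of_isUnit {E : Type*} [CommRing E] [Algebra B[X] E]
    [Module.Finite B[X] E] (hu : IsUnit (algebraMap B[X] E X)) :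
    ∃ h : B[X], h.coeff 0 = 1 ∧ algebraMap B[X] E h = 0 := by
  obtain ⟨v, hv⟩ := hu.exists_right_inv
  have hle : (⊤ : Submodule B[X] E) ≤ Ideal.span {(X : B[X])} • (⊤ : Submodule B[X] E) := by
    intro e _
    have : e = (X : B[X]) • (v * e) := by
      rw [Algebra.smul_def, ← mul_assoc, hv, one_mul]
    rw [this]
    exact Submodule.smul_mem_smul (Ideal.subset_span rfl) Submodule.mem_top
  obtain ⟨r, hr1, hr0⟩ := Submodule.exists_sub_one_mem_and_smul_eq_zero_of_fg_of_le_smul
    (Ideal.span {(X : B[X])}) (⊤ : Submodule B[X] E) Module.Finite.fg_top hle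
  refine ⟨r, ?_, ?_⟩
  · obtain ⟨c, hc⟩ := Ideal.mem_span_singleton.mp hr1
    have h0 : (r - 1).coeff 0 = 0 := by
      rw [hc]
      simp
    simpa [sub_eq_zero] using h0
  · have := hr0 1 Submodule.mem_top
    rwa [Algebra.smul_def, mul_one] at this

variable {R0 R1 R01 : Type*} [CommRing R0] [CommRing R1] [CommRing R01]
variable [Algebra B R0] [Algebra B R1] [Algebra B R01] [Algebra R0 R01] [Algebra R1 R01]
variable [IsScalarTower B R0 R01] [IsScalarTower B R1 R01]

/-- (A4.3a, closedness at infinity ⇒ finiteness) -/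
theorem finite_quotient_of_sup_span_eq_top (t : R0) (s : R1)
    [IsLocalization.Away t R01]
    (hts : algebraMap R0 R01 t * algebraMap R1 R01 s = 1)
    [Algebra B[X] R0] [IsScalarTower B B[X] R0] (hX0 : algebraMap B[X] R0 X = t)
    [Module.Finite B[X] R0]
    [Algebra B[X] R1] [IsScalarTower B B[X] R1] (hX1 : algebraMap B[X] R1 X = s)
    [Module.Finite B[X] R1]
    (Z0 : Ideal R0) (Z1 : Ideal R1)
    (hZ : Ideal.map (algebraMap R1 R01) Z1 ≤ Ideal.map (algebraMap R0 R01) Z0)
    (hinf : Z1 ⊔ Ideal.span {s} = ⊤) : Module.Finite B (R0 ⧸ Z0) := by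
  -- Step 1: a polynomial `h` with `h(0) = 1` and `h(s) ∈ Z1`
  have hu : IsUnit (algebraMap B[X] (R1 ⧸ Z1) X) := by
    have h1 : (1 : R1) ∈ Z1 ⊔ Ideal.span {s} := by
      rw [hinf]
      trivial
    obtain ⟨z, hz, y, hy, hzy⟩ := Submodule.mem_sup.mp h1
    obtain ⟨r, rfl⟩ := Ideal.mem_span_singleton'.mp hy
    rw [IsScalarTower.algebraMap_apply B[X] R1 (R1 ⧸ Z1), hX1]
    refine IsUnit.of_mul_eq_one (Ideal.Quotient.mk Z1 r) ?_
    rw [Ideal.Quotient.algebraMap_eq, ← map_mul, ← map_one (Ideal.Quotient.mk Z1),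
      Ideal.Quotient.eq]
    have : s * r - 1 = -z := by
      rw [← hzy]
      ring
    rw [this]
    exact Z1.neg_mem hz
  obtain ⟨h, hh0, hh⟩ := exists_coeff_zero_eq_one_of_isUnit hu
  have hhs : algebraMap B[X] R1 h ∈ Z1 := by
    rw [IsScalarTower.algebraMap_apply B[X] R1 (R1 ⧸ Z1), Ideal.Quotient.algebraMap_eq,
      Ideal.Quotient.eq_zero_iff_mem] at hh
    exact hh
  -- Step 2: in `Q01 = R01 ⧸ Z01`, the reflected polynomial kills `t`
  set Z01 : Ideal R01 := Ideal.map (algebraMap R0 R01) Z0 with hZ01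
  let q : R01 →+* R01 ⧸ Z01 := Ideal.Quotient.mk Z01
  let τ : R01 ⧸ Z01 := q (algebraMap R0 R01 t)
  let σ : R01 ⧸ Z01 := q (algebraMap R1 R01 s)
  have hτσ : τ * σ = 1 := by
    simp only [τ, σ]
    rw [← map_mul, hts, map_one]
  let _ : Invertible σ := ⟨τ, hτσ, by rw [mul_comm]; exact hτσ⟩
  have hinvσ : ⅟σ = τ := rfl
  let i : B →+* R01 ⧸ Z01 := q.comp (algebraMap B R01)
  -- the two composite maps `B[X] → Q01`
  have e1 : ∀ p : B[X], q (algebraMap R1 R01 (algebraMap B[X] R1 p)) = eval₂ i σ p := by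
    intro p
    have : (q.comp ((algebraMap R1 R01).comp (algebraMap B[X] R1))) = eval₂RingHom i σ := by
      apply Polynomial.ringHom_ext
      · intro b
        simp only [RingHom.comp_apply, coe_eval₂RingHom, eval₂_C, i]
        rw [Polynomial.C_eq_algebraMap, ← IsScalarTower.algebraMap_apply B B[X] R1,
          ← IsScalarTower.algebraMap_apply B R1 R01]
      · simp only [RingHom.comp_apply, coe_eval₂RingHom, eval₂_X, hX1, σ]
    exact congrArg (fun F => F p) this
  have e0 : ∀ p : B[X], q (algebraMap R0 R01 (algebraMap B[X] R0 p)) = eval₂ i τ p := by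
    intro p
    have : (q.comp ((algebraMap R0 R01).comp (algebraMap B[X] R0))) = eval₂RingHom i τ := by
      apply Polynomial.ringHom_ext
      · intro b
        simp only [RingHom.comp_apply, coe_eval₂RingHom, eval₂_C, i]
        rw [Polynomial.C_eq_algebraMap, ← IsScalarTower.algebraMap_apply B B[X] R0,
          ← IsScalarTower.algebraMap_apply B R0 R01]
      · simp only [RingHom.comp_apply, coe_eval₂RingHom, eval₂_X, hX0, τ]
    exact congrArg (fun F => F p) this
  have hσh : eval₂ i σ h = 0 := by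
    rw [← e1, Ideal.Quotient.eq_zero_iff_mem]
    exact hZ (Ideal.mem_map_of_mem _ hhs)
  set N := h.natDegree with hN
  let G : B[X] := reflect N h
  have hGτ : eval₂ i τ G = 0 := by
    have h1 := eval₂_reflect_mul_pow i σ N h le_rfl
    rw [hinvσ, hσh] at h1
    have h2 : eval₂ i τ G * (σ ^ N * τ ^ N) = 0 := by
      rw [← mul_assoc, h1, zero_mul]
    rwa [← mul_pow, mul_comm σ τ, hτσ, one_pow, mul_one] at h2
  have hGmonic : G.Monic := by
    apply monic_of_natDegree_le_of_coeff_eq_one N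
    · rw [natDegree_le_iff_coeff_eq_zero]
      intro j hj
      rw [coeff_reflect, revAt_eq_self_of_lt hj]
      exact coeff_eq_zero_of_natDegree_lt hj
    · rw [coeff_reflect, revAt_le le_rfl, Nat.sub_self, hh0]
  -- Step 3: `t ^ a * G(t) ∈ Z0`
  have hGmem : algebraMap R0 R01 (algebraMap B[X] R0 G) ∈ Z01 := by
    rw [← Ideal.Quotient.eq_zero_iff_mem]
    exact (e0 G).trans hGτ
  obtain ⟨⟨⟨z, hz⟩, ⟨_, b, rfl⟩⟩, hzm⟩ :=
    (IsLocalization.mem_map_algebraMap_iff (Submonoid.powers t) R01).mp hGmem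
  simp only at hzm
  rw [← map_mul] at hzm
  obtain ⟨⟨_, a, rfl⟩, ha⟩ := (IsLocalization.eq_iff_exists (Submonoid.powers t) R01).mp hzm
  simp only at ha
  have hmem : t ^ (a + b) * algebraMap B[X] R0 G ∈ Z0 := by
    have : t ^ (a + b) * algebraMap B[X] R0 G = t ^ a * z := by
      rw [← ha]
      ring
    rw [this]
    exact Z0.mul_mem_left _ hz
  -- Step 4: conclude
  apply finite_of_monic_algebraMap_eq_zero (E := R0 ⧸ Z0) (X ^ (a + b) * G)
    ((monic_X_pow _).mul hGmonic)
  rw [IsScalarTower.algebraMap_apply B[X] R0 (R0 ⧸ Z0), Ideal.Quotient.algebraMap_eq,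
    Ideal.Quotient.eq_zero_iff_mem, map_mul, map_pow, hX0]
  exact hmem

end Fermat.Agent.JAC.Hilb.FiniteAtInfty46
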