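/-
Programme JAC (S25), work package A4.3a (helper46): the structure ring of the divisor of a
section is finite projective over the base.

`B`-family `R0 → R01 ← R1` (abstract-family block of the pinned plan), an invertible `R0`-module
`M0` with a section `σ0`, an `R1`-module `M1` with a section `σ1`:

* `sup_span_eq_top_of_span_sup_smul`: if `σ1` generates `M1 / s M1`, then
  `zeroIdeal σ1 ⊔ (s) = ⊤` ("no zero at infinity");
* `flat_quotient_zeroIdeal`: if evaluation at `σ0` is fibrewise injective on the dual of `M0`,
  then `R0 ⧸ zeroIdeal σ0` is flat over `B`;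
* `projective_quotient_zeroIdeal`: if moreover it is a finite `B`-module and `R0` is a finitely
  presented `B`-algebra, it is a projective `B`-module.
-/
import Mathlib
import Fermat.Agent.JAC.Hilb.ZeroIdeal46
import Fermat.Agent.JAC.Hilb.FibrewiseInj46
import Fermat.Agent.JAC.Hilb.FiniteAtInfty46

set_option autoImplicit false

open TensorProduct

namespace Fermat.Agent.JAC.Hilb.SectionQuot46

open Fermat.Agent.JAC.Hilb.ZeroIdeal46 Fermat.Agent.JAC.Hilb.FibrewiseInj46

universe u v

/-- Transitivity of projectivity: a projective module over a `B`-algebra which is projective as a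
`B`-module is projective over `B`. -/
theorem projective_trans (B R M : Type*) [CommRing B] [CommRing R] [Algebra B R]
    [AddCommGroup M] [Module R M] [Module B M] [IsScalarTower B R M]
    [Module.Projective B R] [Module.Projective R M] : Module.Projective B M := by
  classical
  obtain ⟨s, hs⟩ := (Module.projective_def' (R := R) (P := M)).mp inferInstance
  have : Module.Projective B (M →₀ R) :=
    Module.Projective.of_equiv (finsuppLequivDFinsupp (ι := M) (M := R) B).symm
  refine Module.Projective.of_split (s.restrictScalars B)
    ((Finsupp.linearCombination R (id : M → M)).restrictScalars B) ?_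
  ext x
  have := congrArg (fun F => F x) hs
  simpa using this

section NoZeroAtInfinity

variable {R : Type*} [CommRing R] {M : Type*} [AddCommGroup M] [Module R M]
  [Module.Invertible R M]

/-- In an invertible module, `J • ⊤ = ⊤` forces `J = ⊤`. -/
theorem ideal_eq_top_of_smul_top_eq_top (J : Ideal R) (h : J • (⊤ : Submodule R M) = ⊤) :
    J = ⊤ := by
  rw [Ideal.eq_top_iff_one]
  obtain ⟨z, hz⟩ := (Module.Invertible.linearEquiv R M).surjective 1
  have key : ∀ z : Module.Dual R M ⊗[R] M, Module.Invertible.linearEquiv R M z ∈ J := by
    intro z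
    induction z using TensorProduct.induction_on with
    | zero => simp
    | tmul l x =>
      have hl : Module.Invertible.linearEquiv R M (l ⊗ₜ x) = l x := by
        simp [Module.Invertible.linearEquiv]
      rw [hl]
      have hx : x ∈ J • (⊤ : Submodule R M) := by
        rw [h]
        trivial
      refine Submodule.smul_induction_on hx ?_ ?_
      · intro r hr n _
        rw [map_smul, smul_eq_mul]
        exact J.mul_mem_right _ hr
      · intro a b ha hb
        rw [map_add]
        exact J.add_mem ha hb
    | add z₁ z₂ h₁ h₂ =>
      rw [map_add]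
      exact J.add_mem h₁ h₂
  have := key z
  rwa [hz] at this

/-- "No zero at infinity": if `σ` generates `M / s M`, then `zeroIdeal σ ⊔ (s) = ⊤`. -/
theorem sup_span_eq_top_of_span_sup_smul (σ : M) (s : R)
    (h : Submodule.span R {σ} ⊔ Ideal.span {s} • (⊤ : Submodule R M) = ⊤) :
    zeroIdeal R σ ⊔ Ideal.span {s} = ⊤ := by
  apply ideal_eq_top_of_smul_top_eq_top (M := M)
  rw [Submodule.sup_smul, zeroIdeal_smul_top, h]

end NoZeroAtInfinity

section Flat

variable {B : Type u} [CommRing B] {R0 : Type u} [CommRing R0] [Algebra B R0]
variable {M0 : Type v} [AddCommGroup M0] [Module R0 M0] [Module.Invertible R0 M0]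

/-- Evaluation at `σ0`, as a `B`-linear map from the dual of `M0` to `R0`. -/
noncomputable def evalLin (B : Type u) [CommRing B] (R0 : Type u) [CommRing R0] [Algebra B R0]
    {M0 : Type v} [AddCommGroup M0] [Module R0 M0] (σ0 : M0) : Module.Dual R0 M0 →ₗ[B] R0 :=
  (Module.Dual.eval R0 M0 σ0).restrictScalars B

omit [Module.Invertible R0 M0] in
theorem evalLin_apply (σ0 : M0) (l : Module.Dual R0 M0) : evalLin B R0 σ0 l = l σ0 := rfl

/-- (flatness of the divisor) If evaluation at `σ0` is injective on the fibres over all maximal
ideals of `B`, then `R0 ⧸ zeroIdeal σ0` is flat over `B`. -/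
theorem flat_quotient_zeroIdeal [Module.Projective B R0] (σ0 : M0)
    (hfib : ∀ (m : Ideal B) [m.IsMaximal], Function.Injective ((evalLin B R0 σ0).baseChange (B ⧸ m))) :
    Module.Flat B (R0 ⧸ zeroIdeal R0 σ0) := by
  have : Module.Projective B (Module.Dual R0 M0) := projective_trans B R0 _
  refine flat_of_exact_of_forall_maximal.{u, max u v, u, u} (evalLin B R0 σ0) hfib
    ((Ideal.Quotient.mkₐ B (zeroIdeal R0 σ0)).toLinearMap) ?_ ?_
  · intro r
    simp only [AlgHom.toLinearMap_apply, Ideal.Quotient.mkₐ_eq_mk, Ideal.Quotient.eq_zero_iff_mem]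
    exact Iff.rfl
  · exact Ideal.Quotient.mk_surjective

/-- (projectivity of the divisor) -/
theorem projective_quotient_zeroIdeal [Module.Projective B R0] [Algebra.FinitePresentation B R0]
    (σ0 : M0)
    (hfib : ∀ (m : Ideal B) [m.IsMaximal], Function.Injective ((evalLin B R0 σ0).baseChange (B ⧸ m)))
    [Module.Finite B (R0 ⧸ zeroIdeal R0 σ0)] :
    Module.Projective B (R0 ⧸ zeroIdeal R0 σ0) := by
  have := flat_quotient_zeroIdeal σ0 hfib
  have : Algebra.FinitePresentation B (R0 ⧸ zeroIdeal R0 σ0) :=
    Algebra.FinitePresentation.quotient (zeroIdeal_fg σ0)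
  have : Module.FinitePresentation B (R0 ⧸ zeroIdeal R0 σ0) :=
    Module.FinitePresentation.of_finite_of_finitePresentation B _
  exact Module.Flat.projective_of_finitePresentation

end Flat

section Domain

variable {D : Type*} [CommRing D] [IsDomain D] {L : Type*} [AddCommGroup L] [Module D L]
  [Module.Invertible D L]

/-- Over a domain, a nonzero section of an invertible module is regular. -/
theorem isRegularSection_of_ne_zero {σ : L} (hσ : σ ≠ 0) : IsRegularSection D σ := by
  intro r hr
  by_contra hr0
  apply hσ
  -- `L` is torsion-free (it is projective)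
  obtain ⟨n, m, c, h⟩ := exists_coords D L
  rw [← h σ]
  refine Finset.sum_eq_zero fun i _ => ?_
  have : r * c i σ = 0 := by
    have := congrArg (c i) hr
    simpa using this
  rcases mul_eq_zero.mp this with h0 | h0
  · exact absurd h0 hr0
  · rw [h0, zero_smul]

/-- Over a domain, evaluation at a nonzero section of an invertible module is injective. -/
theorem eval_injective_of_ne_zero {σ : L} (hσ : σ ≠ 0) :
    Function.Injective (Module.Dual.eval D L σ) :=
  eval_injective_of_regular (isRegularSection_of_ne_zero hσ)

end Domain

end Fermat.Agent.JAC.Hilb.SectionQuot46
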