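/-
Programme JAC (S25), chart theorem (helper46): the bricks (K1), (K2) of `Hilb/ChartSpec24`.

* `exists_iso_baseChange_of_section` : the base change of a line diagram with a section whose base
  change is regular is `O(D')`, with the section going to the tautological section;
* `k2 : Brick.K2 ..` : base change of `O(D)` with its tautological section;
* `k1 : Brick.K1 ..` : "`N ≅ O(div σ)`".
-/
import Mathlib
import Fermat.Agent.JAC.Hilb.ChartSpec24
import Fermat.Agent.JAC.Hilb.SectionIso46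
import Fermat.Agent.JAC.Hilb.IdealDiagBC46
import Fermat.Agent.JAC.Hilb.FlatPure46
import Fermat.Agent.JAC.Hilb.DivBaseChange46
import Fermat.Agent.JAC.Div.BasedInvertible56
import Fermat.Agent.JAC.Frame.BaseChange65
import Fermat.Agent.JAC.Hilb.SectionQuot46

set_option autoImplicit false
set_option maxHeartbeats 400000

universe u

namespace Fermat.Agent.JAC.Hilb.DivBricks46

open scoped TensorProduct Polynomial
open scoped Fermat.Agent.JAC.Core.ConstFamily36
open Fermat.Agent.JAC.Core.Defs36 Fermat.Agent.JAC.Core.Cart36 Fermat.Agent.JAC.Core.ConstFamily36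
  Fermat.Agent.JAC.Core.AlgAtlas36 Fermat.Agent.JAC.Grp.Diag33 Fermat.Agent.JAC.Grp.Cart33
  Fermat.Agent.JAC.Hilb.BasedQuot46 Fermat.Agent.JAC.Hilb.ZeroIdeal46
  Fermat.Agent.JAC.Hilb.SectionDiv46 Fermat.Agent.JAC.Hilb.SectionIso46
  Fermat.Agent.JAC.Hilb.IdealDiagBC46 Fermat.Agent.JAC.Hilb.FlatPure46
  Fermat.Agent.JAC.Hilb.ChartDef24 Fermat.Agent.JAC.Hilb.ChartSpec24
  Fermat.Agent.JAC.Div.DivisorDiagram56 Fermat.Agent.JAC.Hilb.SectionQuot46

section TwoFamilies

variable {R0 R1 R01 : Type u} [CommRing R0] [CommRing R1] [CommRing R01]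
  [Algebra R0 R01] [Algebra R1 R01] {t : R0} {s : R1}
variable {R0' R1' R01' : Type u} [CommRing R0'] [CommRing R1'] [CommRing R01']
  [Algebra R0' R01'] [Algebra R1' R01']
  [Algebra R0 R0'] [Algebra R1 R1'] [Algebra R01 R01'] [Algebra R0 R01'] [Algebra R1 R01']
  [IsScalarTower R0 R01 R01'] [IsScalarTower R0 R0' R01']
  [IsScalarTower R1 R01 R01'] [IsScalarTower R1 R1' R01']
  (t' : R0') (s' : R1')
variable [IsLocalization.Away t R01] [IsLocalization.Away s R01]
  [IsLocalization.Away t' R01'] [IsLocalization.Away s' R01']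

variable (R01') in
/-- **Divisor of a base change, with its section.**  If the base change `(1 ⊗ σ0, 1 ⊗ σ1)` of a
section of `N` is regular on both charts, with zero ideals `Z0'`, `Z1'`, then the base change of `N`
is `O(D') = dual (idealDiag Z0' Z1')`, by an isomorphism carrying `1 ⊗ σ_i` to the tautological
section `Z_i' ↪ R_i'`. -/
theorem exists_iso_baseChange_of_section (N : LineDiag t s R01) {σ0 : N.M0} {σ1 : N.M1}
    (hσ : N.rho0 σ0 = N.rho1 σ1)
    (h0' : IsRegularSection R0' ((1 : R0') ⊗ₜ[R0] σ0))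
    (h1' : IsRegularSection R1' ((1 : R1') ⊗ₜ[R1] σ1))
    {Z0' : Ideal R0'} {Z1' : Ideal R1'} [Module.Invertible R0' Z0'] [Module.Invertible R1' Z1']
    (e0 : zeroIdeal R0' ((1 : R0') ⊗ₜ[R0] σ0) = Z0')
    (e1 : zeroIdeal R1' ((1 : R1') ⊗ₜ[R1] σ1) = Z1')
    (h' : Ideal.map (algebraMap R0' R01') Z0' = Ideal.map (algebraMap R1' R01') Z1') :
    ∃ E : LineDiag.Iso (Fermat.Agent.JAC.Grp.BaseChange33.baseChange R01' t' s' N)
        (dual (idealDiag t' s' Z0' Z1' h')),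
      E.e0 ((1 : R0') ⊗ₜ[R0] σ0) = (Submodule.subtype Z0' : Module.Dual R0' Z0') ∧
      E.e1 ((1 : R1') ⊗ₜ[R1] σ1) = (Submodule.subtype Z1' : Module.Dual R1' Z1') := by
  have hσ' := baseChange_section R01' t' s' N hσ
  have := invertible_zeroIdeal h0'
  have := invertible_zeroIdeal h1'
  refine ⟨(sectionIso (Fermat.Agent.JAC.Grp.BaseChange33.baseChange R01' t' s' N) hσ' h0' h1').trans
    (dualCongr (idealDiagCongr' e0 e1 (map_zeroIdeal_eq (Fermat.Agent.JAC.Grp.BaseChange33.baseChange R01' t' s' N) hσ') h')), ?_, ?_⟩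
  · change (dualCongr (idealDiagCongr' e0 e1 (map_zeroIdeal_eq (Fermat.Agent.JAC.Grp.BaseChange33.baseChange R01' t' s' N) hσ') h')).e0
      ((sectionIso (Fermat.Agent.JAC.Grp.BaseChange33.baseChange R01' t' s' N) hσ' h0' h1').e0 _) = _
    rw [sectionIso_e0]
    exact dualCongr_idealDiagCongr'_e0 e0 e1 _ h'
  · change (dualCongr (idealDiagCongr' e0 e1 (map_zeroIdeal_eq (Fermat.Agent.JAC.Grp.BaseChange33.baseChange R01' t' s' N) hσ') h')).e1
      ((sectionIso (Fermat.Agent.JAC.Grp.BaseChange33.baseChange R01' t' s' N) hσ' h0' h1').e1 _) = _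
    rw [sectionIso_e1]
    exact dualCongr_idealDiagCongr'_e1 e0 e1 _ h'

end TwoFamilies


section Coords

variable {B R : Type*} [CommRing B] [CommRing R] [Algebra B R]

/-- If `R` is free over `B[X]` (through `X ↦ x`) on a finite family, the value at `x` of a monic
polynomial is a nonzerodivisor of `R`. -/
theorem eq_zero_of_mul_aeval_eq_zero (x : R) {n : ℕ} (b : Fin n → R)
    (hb : Function.Bijective (fun p : Fin n → B[X] => ∑ j, Polynomial.aeval x (p j) * b j))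
    {G : B[X]} (hG : G.Monic) {r : R} (h : r * Polynomial.aeval x G = 0) : r = 0 := by
  obtain ⟨p, rfl⟩ := hb.2 r
  have h1 : (fun p : Fin n → B[X] => ∑ j, Polynomial.aeval x (p j) * b j) (fun j => p j * G) =
      (fun p : Fin n → B[X] => ∑ j, Polynomial.aeval x (p j) * b j) 0 := by
    simp only [Pi.zero_apply, map_zero, zero_mul, Finset.sum_const_zero]
    rw [← h, Finset.sum_mul]
    refine Finset.sum_congr rfl fun j _ => ?_
    rw [map_mul]
    ring
  have h2 := hb.1 h1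
  have h3 : p = 0 := by
    funext j
    have h4 := congrFun h2 j
    exact (hG.mul_left_eq_zero_iff).mp h4
  subst h3
  simp

/-- If `R ⧸ Z` is finite over `B`, every element of `R` satisfies a monic equation modulo `Z`. -/
theorem exists_monic_aeval_mem (Z : Ideal R) [Module.Finite B (R ⧸ Z)] (x : R) :
    ∃ G : B[X], G.Monic ∧ Polynomial.aeval x G ∈ Z := by
  have hint : Algebra.IsIntegral B (R ⧸ Z) := Algebra.IsIntegral.of_finite B (R ⧸ Z)
  obtain ⟨P, hmonic, hP⟩ := hint.isIntegral (Ideal.Quotient.mk Z x)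
  refine ⟨P, hmonic, ?_⟩
  rw [← Ideal.Quotient.eq_zero_iff_mem]
  have h1 : (Ideal.Quotient.mk Z) (Polynomial.aeval x P) =
      Polynomial.aeval ((Ideal.Quotient.mk Z) x) P := by
    have := Polynomial.aeval_algHom_apply (Ideal.Quotient.mkₐ B Z) x P
    simpa using this.symm
  rw [h1]
  exact hP

/-- **Regularity from finiteness**: if `R` is free over `B[X]` (through `X ↦ x`) and the zero scheme
of a section `σ` is finite over `B`, then `σ` is regular. -/
theorem isRegularSection_of_finite_quotient {M : Type*} [AddCommGroup M] [Module R M] (x : R)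
    {n : ℕ} (b : Fin n → R)
    (hb : Function.Bijective (fun p : Fin n → B[X] => ∑ j, Polynomial.aeval x (p j) * b j))
    (σ : M) [Module.Finite B (R ⧸ zeroIdeal R σ)] : IsRegularSection R σ := by
  intro r hr
  obtain ⟨G, hG, hGZ⟩ := exists_monic_aeval_mem (B := B) (zeroIdeal R σ) x
  obtain ⟨l, hl⟩ := mem_zeroIdeal.mp hGZ
  refine eq_zero_of_mul_aeval_eq_zero x b hb hG ?_
  rw [← hl, ← smul_eq_mul, ← map_smul, hr, map_zero]

/-- If `R` is free over `B[X]` through `X ↦ x`, then `x` is a nonzerodivisor. -/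
theorem eq_zero_of_pow_mul_eq_zero (x : R) {n : ℕ} (b : Fin n → R)
    (hb : Function.Bijective (fun p : Fin n → B[X] => ∑ j, Polynomial.aeval x (p j) * b j))
    (m : ℕ) {r : R} (h : x ^ m * r = 0) : r = 0 := by
  refine eq_zero_of_mul_aeval_eq_zero x b hb (Polynomial.monic_X_pow m) ?_
  rw [map_pow, Polynomial.aeval_X, mul_comm, h]

end Coords

section Bricks

variable {k : Type u} [Field k] {A0 A1 A01 : Type u} [CommRing A0] [CommRing A1] [CommRing A01]
  [Algebra k A0] [Algebra k A1] [Algebra k A01] [Algebra A0 A01] [Algebra A1 A01]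
  [IsScalarTower k A0 A01] [IsScalarTower k A1 A01] {t : A0} {s : A1}
  [IsLocalization.Away t A01] [IsLocalization.Away s A01]

omit [IsLocalization.Away t A01] [IsLocalization.Away s A01] in
/-- The closure in `U1` of a `B`-finite divisor of `U0` does not meet `s = 0`. -/
theorem ideal1_sup_span_eq_top (hts : algebraMap A0 A01 t * algebraMap A1 A01 s = 1)
    (B : Type u) [CommRing B] [Algebra k B] (I0 : Ideal (B ⊗[k] A0))
    (hf : Module.Finite B ((B ⊗[k] A0) ⧸ I0)) :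
    ideal1 (A1 := A1) (A01 := A01) B I0 ⊔ Ideal.span {(1 : B) ⊗ₜ[k] s} = ⊤ :=
  Fermat.Agent.JAC.Div.BasedInvertible56.I1_sup_span_eq_top (B := B) ((1 : B) ⊗ₜ[k] t)
    ((1 : B) ⊗ₜ[k] s) I0 (hts_tensor hts B)

/-- **(K2)** base change of `O(D)` with its tautological section. -/
theorem k2 (hts : algebraMap A0 A01 t * algebraMap A1 A01 s = 1) :
    Brick.K2 k A0 A1 A01 t s hts := by
  intro B B' _ _ _ _ ψ I0 hf hfl hi
  -- the algebra structures of `Cart33.baseChange`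
  let _ : Algebra (B ⊗[k] A0) (B' ⊗[k] A0) := (familyHom (A01 := A01) ψ t s).ψ0.toAlgebra
  let _ : Algebra (B ⊗[k] A1) (B' ⊗[k] A1) := (familyHom (A01 := A01) ψ t s).ψ1.toAlgebra
  let _ : Algebra (B ⊗[k] A01) (B' ⊗[k] A01) := (familyHom (A01 := A01) ψ t s).ψ01.toAlgebra
  let _ : Algebra (B ⊗[k] A0) (B' ⊗[k] A01) :=
    ((familyHom (A01 := A01) ψ t s).ψ01.comp (algebraMap (B ⊗[k] A0) (B ⊗[k] A01))).toAlgebra
  let _ : Algebra (B ⊗[k] A1) (B' ⊗[k] A01) :=
    ((familyHom (A01 := A01) ψ t s).ψ01.comp (algebraMap (B ⊗[k] A1) (B ⊗[k] A01))).toAlgebra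
  have : IsScalarTower (B ⊗[k] A0) (B ⊗[k] A01) (B' ⊗[k] A01) :=
    IsScalarTower.of_algebraMap_eq (fun _ => rfl)
  have : IsScalarTower (B ⊗[k] A0) (B' ⊗[k] A0) (B' ⊗[k] A01) :=
    IsScalarTower.of_algebraMap_eq (fun r => (familyHom (A01 := A01) ψ t s).comm0 r)
  have : IsScalarTower (B ⊗[k] A1) (B ⊗[k] A01) (B' ⊗[k] A01) :=
    IsScalarTower.of_algebraMap_eq (fun _ => rfl)
  have : IsScalarTower (B ⊗[k] A1) (B' ⊗[k] A1) (B' ⊗[k] A01) :=
    IsScalarTower.of_algebraMap_eq (fun r => (familyHom (A01 := A01) ψ t s).comm1 r)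
  -- the base `B → B'`
  let _ : Algebra B B' := ψ.toRingHom.toAlgebra
  have : IsScalarTower k B B' := IsScalarTower.of_algebraMap_eq (fun x => (ψ.commutes x).symm)
  have halg0 : ∀ (b : B) (a : A0),
      algebraMap (B ⊗[k] A0) (B' ⊗[k] A0) (b ⊗ₜ a) = algebraMap B B' b ⊗ₜ a := fun b a => rfl
  have halg1 : ∀ (b : B) (a : A1),
      algebraMap (B ⊗[k] A1) (B' ⊗[k] A1) (b ⊗ₜ a) = algebraMap B B' b ⊗ₜ a := fun b a => rfl
  have := isScalarTower_const k A0 B B' halg0
  have := isPushout_const k A0 B B' halg0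
  have := isScalarTower_const k A1 B B' halg1
  have := isPushout_const k A1 B B' halg1
  -- the divisor at infinity
  have hinv1 := invertible_ideal1 hts B I0 hf hi
  have hinf := ideal1_sup_span_eq_top (A1 := A1) (A01 := A01) (t := t) (s := s) hts B I0 hf
  have hmap : Ideal.map (algebraMap (B ⊗[k] A0) (B ⊗[k] A01)) I0 =
      Ideal.map (algebraMap (B ⊗[k] A1) (B ⊗[k] A01)) (ideal1 (A1 := A1) (A01 := A01) B I0) :=
    (map_I1 ((1 : B) ⊗ₜ[k] s) I0).symm
  have hfl1 : Module.Flat B ((B ⊗[k] A1) ⧸ ideal1 (A1 := A1) (A01 := A01) B I0) :=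
    Fermat.Agent.JAC.Hilb.DivBaseChange46.flat_quotient_infty (t := t) (s := s) I0 _ hmap hinf
  have hinj0 : Function.Injective (I0.subtype.baseChange (B' ⊗[k] A0)) :=
    baseChange_subtype_injective_of_flat_quotient B B' (B ⊗[k] A0) (B' ⊗[k] A0) I0
  have hinj1 : Function.Injective
      ((ideal1 (A1 := A1) (A01 := A01) B I0).subtype.baseChange (B' ⊗[k] A1)) :=
    baseChange_subtype_injective_of_flat_quotient B B' (B ⊗[k] A1) (B' ⊗[k] A1) _
  -- regularity of the base-changed tautological section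
  have hreg0 : IsRegularSection (B' ⊗[k] A0)
      ((1 : B' ⊗[k] A0) ⊗ₜ[B ⊗[k] A0] oneSec0 hts B I0 hf hi) :=
    isRegularSection_tmul_of_injective (B' ⊗[k] A0) (isRegularSection_subtype I0)
      (zeroIdeal_subtype I0) hinj0
  have hreg1 : IsRegularSection (B' ⊗[k] A1)
      ((1 : B' ⊗[k] A1) ⊗ₜ[B ⊗[k] A1] oneSec1 hts B I0 hf hi) :=
    isRegularSection_tmul_of_injective (B' ⊗[k] A1)
      (isRegularSection_subtype (ideal1 (A1 := A1) (A01 := A01) B I0))
      (zeroIdeal_subtype (ideal1 (A1 := A1) (A01 := A01) B I0)) hinj1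
  -- the ideal of the base-changed divisor
  have ez0 : zeroIdeal (B' ⊗[k] A0) ((1 : B' ⊗[k] A0) ⊗ₜ[B ⊗[k] A0] oneSec0 hts B I0 hf hi) =
      Ideal.map (tensorMap (A := A0) ψ) I0 := by
    rw [zeroIdeal_tmul, zeroIdeal_oneSec0]
    rfl
  have hψeq : IsScalarTower.toAlgHom k B B' = ψ := by ext; rfl
  have hf' : Module.Finite B' ((B' ⊗[k] A0) ⧸ Ideal.map (tensorMap (A := A0) ψ) I0) := by
    have h := Fermat.Agent.JAC.Hilb.BasedOpen24.finite_quot_baseChangeIdeal I0 B'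
    rw [Fermat.Agent.JAC.Hilb.BasedOpen24.baseChangeIdeal_eq_map_tensorMap, hψeq] at h
    exact h
  have hi' : Module.Invertible (B' ⊗[k] A0) (Ideal.map (tensorMap (A := A0) ψ) I0) := by
    rw [← ez0]
    exact invertible_zeroIdeal hreg0
  have hinv1' := invertible_ideal1 hts B' _ hf' hi'
  have hinf' := ideal1_sup_span_eq_top (A1 := A1) (A01 := A01) (t := t) (s := s) hts B' _ hf'
  have hs : algebraMap (B ⊗[k] A1) (B' ⊗[k] A1) ((1 : B) ⊗ₜ[k] s) = (1 : B') ⊗ₜ[k] s :=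
    (familyHom (A01 := A01) ψ t s).map_s
  have ez1 : zeroIdeal (B' ⊗[k] A1) ((1 : B' ⊗[k] A1) ⊗ₜ[B ⊗[k] A1] oneSec1 hts B I0 hf hi) =
      ideal1 (A1 := A1) (A01 := A01) B' (Ideal.map (tensorMap (A := A0) ψ) I0) := by
    have h1 : zeroIdeal (B ⊗[k] A1) (oneSec1 hts B I0 hf hi) =
        ideal1 (A1 := A1) (A01 := A01) B I0 := zeroIdeal_subtype _
    rw [zeroIdeal_tmul, h1]
    refine eq_of_map_eq_of_sup_span_eq_top ((1 : B') ⊗ₜ[k] s) (B' ⊗[k] A01) ?_ hinf' ?_
    · have h2 := map_sup_span_eq_top ((1 : B) ⊗ₜ[k] s) (B' ⊗[k] A1) hinf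
      rw [hs] at h2
      exact h2
    · have h3 := map_map_eq (R0' := B' ⊗[k] A0) (R1' := B' ⊗[k] A1) (B' ⊗[k] A01) hmap
      have h4 := map_I1 (R1 := B' ⊗[k] A1) (R01 := B' ⊗[k] A01) ((1 : B') ⊗ₜ[k] s)
        (Ideal.map (tensorMap (A := A0) ψ) I0)
      rw [h4]
      exact h3.symm
  -- the isomorphism `baseChange (O(D)) ≅ O(D')` carrying `1 ⊗ 1_D` to `1_{D'}`
  obtain ⟨E, hE0, hE1⟩ := exists_iso_baseChange_of_section (B' ⊗[k] A01) ((1 : B') ⊗ₜ[k] t)
    ((1 : B') ⊗ₜ[k] s) (OD hts B I0 hf hi) (oneSec_comm hts B I0 hf hi) hreg0 hreg1 ez0 ez1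
    (map_I1 ((1 : B') ⊗ₜ[k] s) (Ideal.map (tensorMap (A := A0) ψ) I0)).symm
  refine ⟨hf', hi', cartHomOfIso (cartHomBaseChange (familyHom (A01 := A01) ψ t s)
    (OD hts B I0 hf hi)) E, ?_, ?_⟩
  · exact hE0
  · exact hE1

/-- **(K1)** "`N ≅ O(div σ)`": a line diagram with a section without zero at infinity whose zero
scheme on `U0` is finite over `B` is `O(D)`, `D = V(zeroIdeal σ0)`. -/
theorem k1 (H : CurveHyp k A0 A1 A01 t s) : Brick.K1 k A0 A1 A01 t s H.hts := by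
  intro B _ _ N σ0 σ1 hσ hinf hfin
  obtain ⟨n0, b0, hb0⟩ := H.coords0
  obtain ⟨n1, b1, hb1⟩ := H.coords1
  have hB0 := Fermat.Agent.JAC.Frame.BaseChange65.bijective_baseChange B hb0
  have hB1 := Fermat.Agent.JAC.Frame.BaseChange65.bijective_baseChange B hb1
  -- regularity of `σ0`: its zero scheme is finite over `B`
  have h0 : IsRegularSection (B ⊗[k] A0) σ0 :=
    isRegularSection_of_finite_quotient (B := B) ((1 : B) ⊗ₜ[k] t) _ hB0 σ0
  -- regularity of `σ1`: `σ0` is regular on the overlap and `1 ⊗ s` is a nonzerodivisor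
  have h01 : IsRegularSection (B ⊗[k] A01) (N.rho0 σ0) :=
    isRegularSection_of_isLocalizedModule (Submonoid.powers ((1 : B) ⊗ₜ[k] t)) (B ⊗[k] A01)
      N.rho0 h0
  have h1 : IsRegularSection (B ⊗[k] A1) σ1 := by
    intro r hr
    have h2 : algebraMap (B ⊗[k] A1) (B ⊗[k] A01) r • N.rho0 σ0 = 0 := by
      rw [hσ, algebraMap_smul, ← map_smul, hr, map_zero]
    have h3 := h01 _ h2
    rw [IsLocalization.map_eq_zero_iff (Submonoid.powers ((1 : B) ⊗ₜ[k] s))] at h3
    obtain ⟨⟨_, m, rfl⟩, hm⟩ := h3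
    exact eq_zero_of_pow_mul_eq_zero (B := B) ((1 : B) ⊗ₜ[k] s) _ hB1 m hm
  have hi : Module.Invertible (B ⊗[k] A0) (zeroIdeal (B ⊗[k] A0) σ0) := invertible_zeroIdeal h0
  have hi1 : Module.Invertible (B ⊗[k] A1) (zeroIdeal (B ⊗[k] A1) σ1) := invertible_zeroIdeal h1
  refine ⟨hi, ?_⟩
  -- the zero ideal at infinity is the closure ideal
  have hZ1 : zeroIdeal (B ⊗[k] A1) σ1 =
      ideal1 (A1 := A1) (A01 := A01) B (zeroIdeal (B ⊗[k] A0) σ0) := by
    have h4 := eq_comap_map_of_sup_span_eq_top ((1 : B) ⊗ₜ[k] s) (B ⊗[k] A01)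
      (sup_span_eq_top_of_span_sup_smul σ1 ((1 : B) ⊗ₜ[k] s) hinf)
    rw [← map_zeroIdeal_eq N hσ] at h4
    exact h4
  have hinv1 := invertible_ideal1 H.hts B _ hfin hi
  rw [odClass_eq H.hts B _ hfin hi]
  exact cls_eq_iff.mpr ⟨(sectionIso N hσ h0 h1).trans (dualCongr (idealDiagCongr' rfl hZ1
    (map_zeroIdeal_eq N hσ) (map_I1 ((1 : B) ⊗ₜ[k] s) (zeroIdeal (B ⊗[k] A0) σ0)).symm))⟩

end Bricks

end Fermat.Agent.JAC.Hilb.DivBricks46
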