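import Fermat.Agent.JAC.Hilb.ChartSpec24
import Fermat.Agent.JAC.Frame.GenSpread50
import Fermat.Agent.JAC.Frame.DegFamily65
import Fermat.Agent.JAC.Cech.FlatBC67

/-!
# Programme JAC (S25), bricks BC2, FE2, SP2 of `Hilb/ChartSpec24` (helper50)

The `H⁰` family of bricks of the chart theorem: generating sections of line diagrams over the
constant family `B ⊗[k] A_i`

* `bc2` : stay generating after ANY base change when `H¹ = 0` (`Brick.BC2`);
* `fe2` : exist over `K` if they exist over a field extension `L` (`Brick.FE2`);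
* `sp2` : spread out from the fibre at a prime `p` to a basic open neighbourhood (`Brick.SP2`),
  with the stronger form `exists_away_isGenSection` (a GLOBAL section over `B` which is generating
  after every base change `B → B'` inverting `f`).

Method: the dictionary `H1Zero`/`IsGenSection` ↔ `GenSpread50.UnivGen` of the Cech pair
`(rho0B B N, rho1B B N)` over `B` (`Frame/DegFamily65`), the bridge
`B' ⊗[B] N.M_i ≃ N'.M_i` for a cartesian morphism `N → N'` (vertex lemma of `DegFamily65`), and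
`Frame/GenSpread50`.
-/

set_option autoImplicit false
set_option linter.style.haveILetI false
set_option linter.unusedSectionVars false

universe u

namespace Fermat.Agent.JAC.Hilb.H0Bricks50

open scoped TensorProduct Polynomial
open scoped Fermat.Agent.JAC.Core.ConstFamily36
open Fermat.Agent.JAC.Core.Defs36 Fermat.Agent.JAC.Core.Cart36 Fermat.Agent.JAC.Core.ConstFamily36
  Fermat.Agent.JAC.Core.AlgAtlas36 Fermat.Agent.JAC.Hilb.ChartDef24
  Fermat.Agent.JAC.Hilb.ChartSpec24 Fermat.Agent.JAC.Cech Fermat.Agent.JAC.Frame.GoodTwist65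
  Fermat.Agent.JAC.Frame.DegFamily65 Fermat.Agent.JAC.Frame.GenSpread50
  Fermat.Agent.JAC.Frame.ChiCongr65 Fermat.Agent.JAC.Grp.Cart33

/-! ### The dictionary: line diagrams over a family over `B` ↔ Cech pairs over `B` -/

section Dictionary

variable (B : Type u) [CommRing B] {R0 R1 R01 : Type u} [CommRing R0] [CommRing R1] [CommRing R01]
  [Algebra B R0] [Algebra B R1] [Algebra B R01] [Algebra R0 R01] [Algebra R1 R01]
  [IsScalarTower B R0 R01] [IsScalarTower B R1 R01] {t : R0} {s : R1} (N : LineDiag t s R01)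

/-- `H¹ = 0` in Cech form. -/
theorem surjective_cechD_iff :
    letI := moduleB0 B N; letI := moduleB1 B N; letI := moduleB01 B N
    Function.Surjective (cechD (rho0B B N) (rho1B B N)) ↔
      ∀ z : N.M01, ∃ (x : N.M0) (y : N.M1), N.rho0 x - N.rho1 y = z := by
  letI := moduleB0 B N; letI := moduleB1 B N; letI := moduleB01 B N
  constructor
  · intro h z
    obtain ⟨w, hw⟩ := h z
    exact ⟨w.1, w.2, by rw [← hw, cechD_apply]; rfl⟩
  · intro h z
    obtain ⟨x, y, hxy⟩ := h z
    exact ⟨(x, y), by rw [cechD_apply]; exact hxy⟩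

/-- A section of a line diagram, as an element of `H⁰` of the Cech pair over `B`. -/
def sec (σ0 : N.M0) (σ1 : N.M1) (h : N.rho0 σ0 = N.rho1 σ1) :
    letI := moduleB0 B N; letI := moduleB1 B N; letI := moduleB01 B N
    H0 (rho0B B N) (rho1B B N) :=
  letI := moduleB0 B N; letI := moduleB1 B N; letI := moduleB01 B N
  ⟨(σ0, σ1), (mem_H0 _ _ _).2 h⟩

/-- "Every section is a unique `B`-multiple of `σ`" in Cech form. -/
theorem bijective_smul_sec_iff (σ0 : N.M0) (σ1 : N.M1) (h : N.rho0 σ0 = N.rho1 σ1) :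
    letI := moduleB0 B N; letI := moduleB1 B N; letI := moduleB01 B N
    Function.Bijective (fun b : B => b • sec B N σ0 σ1 h) ↔
      ∀ (x : N.M0) (y : N.M1), N.rho0 x = N.rho1 y →
        ∃! b : B, x = algebraMap B R0 b • σ0 ∧ y = algebraMap B R1 b • σ1 := by
  letI := moduleB0 B N; letI := moduleB1 B N; letI := moduleB01 B N
  have hsm : ∀ b : B, ((b • sec B N σ0 σ1 h : H0 (rho0B B N) (rho1B B N)) : N.M0 × N.M1) =
      (algebraMap B R0 b • σ0, algebraMap B R1 b • σ1) := fun b => rfl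
  constructor
  · rintro ⟨hinj, hsurj⟩ x y hxy
    obtain ⟨b, hb⟩ := hsurj ⟨(x, y), (mem_H0 _ _ _).2 hxy⟩
    have hb' := congrArg Subtype.val hb
    rw [hsm] at hb'
    refine ⟨b, ⟨(congrArg Prod.fst hb').symm, (congrArg Prod.snd hb').symm⟩, ?_⟩
    rintro b' ⟨h1, h2⟩
    apply hinj
    apply Subtype.ext
    change ((b' • sec B N σ0 σ1 h : H0 (rho0B B N) (rho1B B N)) : N.M0 × N.M1) =
      ((b • sec B N σ0 σ1 h : H0 (rho0B B N) (rho1B B N)) : N.M0 × N.M1)
    rw [hsm, hsm, ← h1, ← h2]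
    exact hb'.symm
  · intro hex
    constructor
    · intro b b' hbb'
      have hbb := congrArg Subtype.val hbb'
      change ((b • sec B N σ0 σ1 h : H0 (rho0B B N) (rho1B B N)) : N.M0 × N.M1) =
        ((b' • sec B N σ0 σ1 h : H0 (rho0B B N) (rho1B B N)) : N.M0 × N.M1) at hbb
      rw [hsm, hsm] at hbb
      have hmem : N.rho0 (algebraMap B R0 b • σ0) = N.rho1 (algebraMap B R1 b • σ1) :=
        (mem_H0 (rho0B B N) (rho1B B N) _).1 (b • sec B N σ0 σ1 h).2
      obtain ⟨c, -, hc⟩ := hex _ _ hmem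
      rw [hc b ⟨rfl, rfl⟩, hc b' ⟨congrArg Prod.fst hbb, congrArg Prod.snd hbb⟩]
    · intro w
      obtain ⟨b, ⟨h1, h2⟩, -⟩ := hex w.1.1 w.1.2 ((mem_H0 _ _ _).1 w.2)
      refine ⟨b, Subtype.ext ?_⟩
      change ((b • sec B N σ0 σ1 h : H0 (rho0B B N) (rho1B B N)) : N.M0 × N.M1) = w.1
      rw [hsm, ← h1, ← h2]

end Dictionary

/-! ### The bridge: a cartesian morphism over `B → B'` identifies `N'` with the base change of the
Cech pair of `N` -/

section Bridge

variable {B B' : Type u} [CommRing B] [CommRing B'] [Algebra B B']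
  {R0 R1 R01 : Type u} [CommRing R0] [CommRing R1] [CommRing R01]
  [Algebra B R0] [Algebra B R1] [Algebra B R01] [Algebra R0 R01] [Algebra R1 R01]
  [IsScalarTower B R0 R01] [IsScalarTower B R1 R01] {t : R0} {s : R1}
  {R0' R1' R01' : Type u} [CommRing R0'] [CommRing R1'] [CommRing R01']
  [Algebra B' R0'] [Algebra B' R1'] [Algebra B' R01'] [Algebra R0' R01'] [Algebra R1' R01']
  [IsScalarTower B' R0' R01'] [IsScalarTower B' R1' R01'] {t' : R0'} {s' : R1'}

/-- **The Cech bridge.**  For a cartesian morphism `c : N → N'` over a morphism of families lying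
over `B → B'` whose three ring squares are pushouts, the vertices of `N'` are the base changes
`B' ⊗[B] N.M_i`, compatibly with the two localisation maps and with `c`. -/
theorem exists_equivs_of_cartHom (ψ : FamilyHom t s t' s' R01 R01') {N : LineDiag t s R01}
    {N' : LineDiag t' s' R01'} (c : LineDiag.CartHom ψ N N')
    (h0 : IsPushoutSquare B B' ψ.ψ0) (h1 : IsPushoutSquare B B' ψ.ψ1)
    (h01 : IsPushoutSquare B B' ψ.ψ01) :
    letI := moduleB0 B N; letI := moduleB1 B N; letI := moduleB01 B N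
    letI := moduleB0 B' N'; letI := moduleB1 B' N'; letI := moduleB01 B' N'
    ∃ (e₀ : B' ⊗[B] N.M0 ≃ₗ[B'] N'.M0) (e₁ : B' ⊗[B] N.M1 ≃ₗ[B'] N'.M1)
      (e : B' ⊗[B] N.M01 ≃ₗ[B'] N'.M01),
      (∀ z, e ((rho0B B N).baseChange B' z) = rho0B B' N' (e₀ z)) ∧
      (∀ z, e ((rho1B B N).baseChange B' z) = rho1B B' N' (e₁ z)) ∧
      (∀ x : N.M0, e₀ ((1 : B') ⊗ₜ[B] x) = c.f0 x) ∧
      (∀ y : N.M1, e₁ ((1 : B') ⊗ₜ[B] y) = c.f1 y) := by
  obtain ⟨θ0, hθ0, cart0⟩ := h0
  obtain ⟨θ1, hθ1, cart1⟩ := h1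
  obtain ⟨θ01, hθ01, cart01⟩ := h01
  letI := moduleB0 B N; letI := moduleB1 B N; letI := moduleB01 B N
  letI := moduleB0 B' N'; letI := moduleB1 B' N'; letI := moduleB01 B' N'
  letI : Module B N'.M0 := Module.compHom N'.M0 (algebraMap B B')
  letI : Module B N'.M1 := Module.compHom N'.M1 (algebraMap B B')
  letI : Module B N'.M01 := Module.compHom N'.M01 (algebraMap B B')
  haveI : IsScalarTower B B' N'.M0 := IsScalarTower.of_algebraMap_smul fun _ _ => rfl
  haveI : IsScalarTower B B' N'.M1 := IsScalarTower.of_algebraMap_smul fun _ _ => rfl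
  haveI : IsScalarTower B B' N'.M01 := IsScalarTower.of_algebraMap_smul fun _ _ => rfl
  obtain ⟨f₀, hf₀, hb₀⟩ := exists_isBaseChange_of_isBaseChangeHom θ0 hθ0 cart0 c.f0 c.cart0
  obtain ⟨f₁, hf₁, hb₁⟩ := exists_isBaseChange_of_isBaseChangeHom θ1 hθ1 cart1 c.f1 c.cart1
  obtain ⟨f, hf, hb⟩ := exists_isBaseChange_of_isBaseChangeHom θ01 hθ01 cart01 c.f01 c.cart01
  refine ⟨hb₀.equiv, hb₁.equiv, hb.equiv, ?_, ?_, ?_, ?_⟩
  · intro z
    exact FlatBC67.isBaseChange_comm B' hb₀ hb
      (fun x => by rw [rho0B_apply, hf₀, rho0B_apply, hf, c.comm0]) z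
  · intro z
    exact FlatBC67.isBaseChange_comm B' hb₁ hb
      (fun y => by rw [rho1B_apply, hf₁, rho1B_apply, hf, c.comm1]) z
  · intro x
    rw [IsBaseChange.equiv_tmul, one_smul, hf₀]
  · intro y
    rw [IsBaseChange.equiv_tmul, one_smul, hf₁]

variable (ψ : FamilyHom t s t' s' R01 R01') {N : LineDiag t s R01}
    {N' : LineDiag t' s' R01'} (c : LineDiag.CartHom ψ N N')
    (h0 : IsPushoutSquare B B' ψ.ψ0) (h1 : IsPushoutSquare B B' ψ.ψ1)
    (h01 : IsPushoutSquare B B' ψ.ψ01)

include h0 h1 h01 c in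
/-- `H¹ = 0` of a model `N'` of the base change, in Cech form over `B`. -/
theorem surjective_cechD_cartHom_iff :
    letI := moduleB0 B N; letI := moduleB1 B N; letI := moduleB01 B N
    letI := moduleB0 B' N'; letI := moduleB1 B' N'; letI := moduleB01 B' N'
    Function.Surjective (cechD (rho0B B' N') (rho1B B' N')) ↔
      Function.Surjective (cechD ((rho0B B N).baseChange B') ((rho1B B N).baseChange B')) := by
  letI := moduleB0 B N; letI := moduleB1 B N; letI := moduleB01 B N
  letI := moduleB0 B' N'; letI := moduleB1 B' N'; letI := moduleB01 B' N'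
  obtain ⟨e₀, e₁, e, hc0, hc1, -, -⟩ := exists_equivs_of_cartHom ψ c h0 h1 h01
  exact cechD_surjective_congr e₀ e₁ e hc0 hc1

include h0 h1 h01 c in
/-- `H⁰` of a model `N'` of the base change is `H⁰` of the base-changed Cech pair. -/
theorem nonempty_h0_equiv_of_cartHom :
    letI := moduleB0 B N; letI := moduleB1 B N; letI := moduleB01 B N
    letI := moduleB0 B' N'; letI := moduleB1 B' N'; letI := moduleB01 B' N'
    Nonempty (H0 ((rho0B B N).baseChange B') ((rho1B B N).baseChange B') ≃ₗ[B']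
      H0 (rho0B B' N') (rho1B B' N')) := by
  letI := moduleB0 B N; letI := moduleB1 B N; letI := moduleB01 B N
  letI := moduleB0 B' N'; letI := moduleB1 B' N'; letI := moduleB01 B' N'
  obtain ⟨e₀, e₁, e, hc0, hc1, -, -⟩ := exists_equivs_of_cartHom ψ c h0 h1 h01
  exact ⟨h0Congr e₀ e₁ e hc0 hc1⟩

include h0 h1 h01 in
/-- **Transfer of `UnivGen`** from the base-changed Cech pair of `N` to a model `N'` of the base
change: the generator `1 ⊗ (σ0, σ1)` corresponds to `(c.f0 σ0, c.f1 σ1)`. -/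
theorem univGen_cartHom_iff (σ0 : N.M0) (σ1 : N.M1) (hσ : N.rho0 σ0 = N.rho1 σ1)
    (hσ' : N'.rho0 (c.f0 σ0) = N'.rho1 (c.f1 σ1)) :
    letI := moduleB0 B N; letI := moduleB1 B N; letI := moduleB01 B N
    letI := moduleB0 B' N'; letI := moduleB1 B' N'; letI := moduleB01 B' N'
    UnivGen (rho0B B' N') (rho1B B' N') (sec B' N' (c.f0 σ0) (c.f1 σ1) hσ') ↔
      UnivGen ((rho0B B N).baseChange B') ((rho1B B N).baseChange B')
        (h0ToBaseChange (rho0B B N) (rho1B B N) B' (sec B N σ0 σ1 hσ)) := by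
  letI := moduleB0 B N; letI := moduleB1 B N; letI := moduleB01 B N
  letI := moduleB0 B' N'; letI := moduleB1 B' N'; letI := moduleB01 B' N'
  obtain ⟨e₀, e₁, e, hc0, hc1, he0, he1⟩ := exists_equivs_of_cartHom ψ c h0 h1 h01
  have key : h0Congr e₀ e₁ e hc0 hc1
      (h0ToBaseChange (rho0B B N) (rho1B B N) B' (sec B N σ0 σ1 hσ)) =
      sec B' N' (c.f0 σ0) (c.f1 σ1) hσ' := by
    apply Subtype.ext
    rw [coe_h0Congr]
    exact Prod.ext (he0 σ0) (he1 σ1)
  rw [← key]
  exact univGen_congr e₀ e₁ e hc0 hc1 _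

end Bridge

/-! ### The constant family `B ⊗[k] A_i` -/

section Const

variable {k : Type u} [Field k] {A0 A1 A01 : Type u} [CommRing A0] [CommRing A1] [CommRing A01]
  [Algebra k A0] [Algebra k A1] [Algebra k A01] [Algebra A0 A01] [Algebra A1 A01]
  [IsScalarTower k A0 A01] [IsScalarTower k A1 A01] {t : A0} {s : A1}
  [IsLocalization.Away t A01] [IsLocalization.Away s A01]

/-- The three ring squares of `familyHom ψ t s` are pushouts (typeclass form: `ψ` is the structure
map of a `B`-algebra `B'`). -/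
theorem isPushoutSquare_familyHom {B B' : Type u} [CommRing B] [CommRing B'] [Algebra k B]
    [Algebra k B'] [Algebra B B'] [IsScalarTower k B B'] (ψ : B →ₐ[k] B')
    (hψ : ∀ b, ψ b = algebraMap B B' b) :
    IsPushoutSquare B B' (familyHom (A01 := A01) ψ t s).ψ0 ∧
      IsPushoutSquare B B' (familyHom (A01 := A01) ψ t s).ψ1 ∧
      IsPushoutSquare B B' (familyHom (A01 := A01) ψ t s).ψ01 := by
  refine ⟨isPushoutSquare_tensor A0 _ (fun b a => ?_), isPushoutSquare_tensor A1 _ (fun b a => ?_),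
    isPushoutSquare_tensor A01 _ (fun b a => ?_)⟩
  · change (Algebra.TensorProduct.map ψ (AlgHom.id k A0)) (b ⊗ₜ a) = _
    rw [Algebra.TensorProduct.map_tmul, hψ]
    rfl
  · change (Algebra.TensorProduct.map ψ (AlgHom.id k A1)) (b ⊗ₜ a) = _
    rw [Algebra.TensorProduct.map_tmul, hψ]
    rfl
  · change (Algebra.TensorProduct.map ψ (AlgHom.id k A01)) (b ⊗ₜ a) = _
    rw [Algebra.TensorProduct.map_tmul, hψ]
    rfl

/-- The overlap module of a line diagram over the constant family is flat over the base. -/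
theorem flat_M01 {B : Type u} [CommRing B] [Algebra k B] (N : CDiag k A0 A1 A01 t s B) :
    letI := moduleB01 B N
    Module.Flat B N.M01 := by
  letI := moduleB01 B N
  haveI : IsScalarTower B (B ⊗[k] A01) N.M01 := IsScalarTower.of_algebraMap_smul fun _ _ => rfl
  haveI : Module.Flat (B ⊗[k] A01) N.M01 :=
    Module.Flat.of_isLocalizedModule (B ⊗[k] A01) (Submonoid.powers ((1 : B) ⊗ₜ[k] t)) N.rho0
  exact Module.Flat.trans B (B ⊗[k] A01) N.M01

variable (k A0 A1 A01 t s)

/-- **Brick BC2**: if `H¹ = 0`, a generating section stays generating after any base change. -/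
theorem bc2 : Brick.BC2 k A0 A1 A01 t s := by
  intro B B' _ _ _ _ ψ N N' c σ0 σ1 hH1 hgen
  letI : Algebra B B' := ψ.toRingHom.toAlgebra
  haveI : IsScalarTower k B B' := IsScalarTower.of_algebraMap_eq fun x => (ψ.commutes x).symm
  obtain ⟨p0, p1, p01⟩ := isPushoutSquare_familyHom (A01 := A01) (t := t) (s := s) ψ (fun _ => rfl)
  letI := moduleB0 B N; letI := moduleB1 B N; letI := moduleB01 B N
  letI := moduleB0 B' N'; letI := moduleB1 B' N'; letI := moduleB01 B' N'
  haveI := flat_M01 N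
  have hσ' : N'.rho0 (c.f0 σ0) = N'.rho1 (c.f1 σ1) := by rw [← c.comm0, ← c.comm1, hgen.1]
  have hU : UnivGen (rho0B B N) (rho1B B N) (sec B N σ0 σ1 hgen.1) :=
    ⟨(surjective_cechD_iff B N).2 hH1, (bijective_smul_sec_iff B N σ0 σ1 hgen.1).2 hgen.2⟩
  have hU' := (univGen_cartHom_iff _ c p0 p1 p01 σ0 σ1 hgen.1 hσ').2 (hU.baseChange B')
  exact ⟨hσ', (bijective_smul_sec_iff B' N' _ _ hσ').1 hU'.2⟩

/-- **Brick FE2**: a generating section exists over `K` if one exists over a field extension. -/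
theorem fe2 : Brick.FE2 k A0 A1 A01 t s := by
  intro K L _ _ _ _ ψ N N' c τ0 τ1 _ hgen
  letI : Algebra K L := ψ.toRingHom.toAlgebra
  haveI : IsScalarTower k K L := IsScalarTower.of_algebraMap_eq fun x => (ψ.commutes x).symm
  obtain ⟨p0, p1, p01⟩ := isPushoutSquare_familyHom (A01 := A01) (t := t) (s := s) ψ (fun _ => rfl)
  letI := moduleB0 K N; letI := moduleB1 K N; letI := moduleB01 K N
  letI := moduleB0 L N'; letI := moduleB1 L N'; letI := moduleB01 L N'
  have hL : Module.finrank L (H0 (rho0B L N') (rho1B L N')) = 1 :=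
    finrank_eq_one_of_bijective_smul (sec L N' τ0 τ1 hgen.1)
      ((bijective_smul_sec_iff L N' τ0 τ1 hgen.1).2 hgen.2)
  obtain ⟨e⟩ := nonempty_h0_equiv_of_cartHom _ c p0 p1 p01
  rw [← e.finrank_eq, FlatBC67.finrank_H0_baseChange] at hL
  obtain ⟨z, hz⟩ := exists_bijective_smul_of_finrank_eq_one hL
  have hzmem : N.rho0 z.1.1 = N.rho1 z.1.2 := (mem_H0 _ _ _).1 z.2
  exact ⟨z.1.1, z.1.2, hzmem, (bijective_smul_sec_iff K N z.1.1 z.1.2 hzmem).1 hz⟩

variable {k A0 A1 A01 t s} in
/-- **Spreading out a generating section, strong form**: if the fibre of `N` at `p` has `H¹ = 0`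
and a generating section, there are `f ∉ p` and a GLOBAL section `(σ0, σ1)` of `N` such that for
every cartesian morphism `c : N → N'` over a `k`-algebra map `ψ : B → B'` inverting `f`, `N'` has
`H¹ = 0` and `(c.f0 σ0, c.f1 σ1)` is a generating section of `N'`. -/
theorem exists_away_isGenSection (H : CurveHyp k A0 A1 A01 t s) (B : Type u) [CommRing B]
    [Algebra k B] (p : PrimeSpectrum B) (N : CDiag k A0 A1 A01 t s B)
    (hH1 : H1Zero (bcd (toResidue B p) N))
    (τ0 : (bcd (toResidue B p) N).M0) (τ1 : (bcd (toResidue B p) N).M1)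
    (hgen : IsGenSection (bcd (toResidue B p) N) τ0 τ1) :
    ∃ f : B, f ∉ p.asIdeal ∧ ∃ (σ0 : N.M0) (σ1 : N.M1), N.rho0 σ0 = N.rho1 σ1 ∧
      ∀ (B' : Type u) [CommRing B'] [Algebra k B'] (ψ : B →ₐ[k] B')
        (N' : CDiag k A0 A1 A01 t s B') (c : LineDiag.CartHom (familyHom ψ t s) N N'),
        IsUnit (ψ f) → H1Zero N' ∧ IsGenSection N' (c.f0 σ0) (c.f1 σ1) := by
  obtain ⟨n0, a0, ha0⟩ := H.coords0
  obtain ⟨n1, a1, ha1⟩ := H.coords1
  have hb0 := Frame.BaseChange65.bijective_baseChange B ha0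
  have hb1 := Frame.BaseChange65.bijective_baseChange B ha1
  letI := moduleB0 B N; letI := moduleB1 B N; letI := moduleB01 B N
  haveI := tower0 B N; haveI := tower1 B N; haveI := tower01_0 B N; haveI := tower01_1 B N
  obtain ⟨m0, hG⟩ := exists_goodTwist (B := B) _ _ (ChartDef24.hts_tensor H.hts B) _ hb0 _ hb1
    N.rho0 N.rho1
  have hG' := hG m0 le_rfl
  -- the fibre at `p`
  obtain ⟨q0, q1, q01⟩ := isPushoutSquare_familyHom (A01 := A01) (t := t) (s := s)
    (toResidue (k := k) B p) (fun _ => rfl)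
  have hp : Function.Surjective (cechD ((rho0B B N).baseChange p.asIdeal.ResidueField)
      ((rho1B B N).baseChange p.asIdeal.ResidueField)) :=
    (surjective_cechD_cartHom_iff _ (bcc (toResidue B p) N) q0 q1 q01).1
      ((surjective_cechD_iff p.asIdeal.ResidueField (bcd (toResidue B p) N)).2 hH1)
  have hrank : Module.finrank p.asIdeal.ResidueField
      (H0 ((rho0B B N).baseChange p.asIdeal.ResidueField)
        ((rho1B B N).baseChange p.asIdeal.ResidueField)) = 1 := by
    obtain ⟨e⟩ := nonempty_h0_equiv_of_cartHom _ (bcc (toResidue B p) N) q0 q1 q01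
    rw [e.finrank_eq]
    exact finrank_eq_one_of_bijective_smul
      (sec p.asIdeal.ResidueField (bcd (toResidue B p) N) τ0 τ1 hgen.1)
      ((bijective_smul_sec_iff p.asIdeal.ResidueField (bcd (toResidue B p) N) τ0 τ1 hgen.1).2
        hgen.2)
  obtain ⟨f, hf, z, hz⟩ := GoodTwist.exists_away_univGen hG' p hp hrank
  have hzmem : N.rho0 z.1.1 = N.rho1 z.1.2 := (mem_H0 (rho0B B N) (rho1B B N) _).1 z.2
  refine ⟨f, hf, z.1.1, z.1.2, hzmem, ?_⟩
  intro B' _ _ ψ N' c hu
  letI : Algebra B B' := ψ.toRingHom.toAlgebra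
  haveI : IsScalarTower k B B' := IsScalarTower.of_algebraMap_eq fun x => (ψ.commutes x).symm
  obtain ⟨r0, r1, r01⟩ := isPushoutSquare_familyHom (A01 := A01) (t := t) (s := s) ψ
    (fun _ => rfl)
  have hzf := hz B' hu
  have hσ' : N'.rho0 (c.f0 z.1.1) = N'.rho1 (c.f1 z.1.2) := by
    rw [← c.comm0, ← c.comm1, hzmem]
  have hU' := (univGen_cartHom_iff _ c r0 r1 r01 z.1.1 z.1.2 hzmem hσ').2 hzf
  exact ⟨(surjective_cechD_iff B' N').1 hU'.1,
    hσ', (bijective_smul_sec_iff B' N' _ _ hσ').1 hU'.2⟩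

/-- **Brick SP2**: a generating section of the fibre at `p` spreads out to a generating section
over a basic open neighbourhood of `p`. -/
theorem sp2 (H : CurveHyp k A0 A1 A01 t s) : Brick.SP2 k A0 A1 A01 t s := by
  intro B _ _ p N τ0 τ1 hH1 hgen
  obtain ⟨q0, q1, q01⟩ := isPushoutSquare_familyHom (A01 := A01) (t := t) (s := s)
    (toResidue (k := k) B p) (fun _ => rfl)
  have hH1p : H1Zero (bcd (toResidue B p) N) := by
    letI := moduleB0 B N; letI := moduleB1 B N; letI := moduleB01 B N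
    exact (surjective_cechD_iff p.asIdeal.ResidueField (bcd (toResidue B p) N)).1
      ((surjective_cechD_cartHom_iff _ (bcc (toResidue B p) N) q0 q1 q01).2
        (Frame.Shrink65.cechD_surjective_baseChange p.asIdeal.ResidueField _ _
          ((surjective_cechD_iff B N).2 hH1)))
  obtain ⟨f, hf, σ0, σ1, -, hσ⟩ := exists_away_isGenSection H B p N hH1p τ0 τ1 hgen
  exact ⟨f, hf, _, _, (hσ (Localization.Away f) (toAway B f) (bcd (toAway B f) N)
    (bcc (toAway B f) N) (IsLocalization.Away.algebraMap_isUnit f)).2⟩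

end Const

end Fermat.Agent.JAC.Hilb.H0Bricks50
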