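/-
Programme JAC (S25), work package A4.3a, part VII (helper46): relative effective Cartier divisors
from fibrewise non-vanishing.

Let `R` be a `B`-algebra (projective as a `B`-module), `M` an invertible `R`-module and `σ : M`.
If for every maximal ideal `m` of `B` the fibre ring `R' = (B ⧸ m) ⊗[B] R` (any pushout) is a domain
and `1 ⊗ σ ≠ 0` in `R' ⊗[R] M`, then evaluation at `σ` is injective on all fibres
(`hfib` of `SectionQuot46.flat_quotient_zeroIdeal`), hence `R ⧸ zeroIdeal σ` is flat over `B` and `σ`
is a regular section.
-/
import Mathlib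
import Fermat.Agent.JAC.Hilb.ZeroIdeal46
import Fermat.Agent.JAC.Hilb.FibrewiseInj46
import Fermat.Agent.JAC.Hilb.SectionQuot46
import Fermat.Agent.JAC.Hilb.FlatPure46

set_option autoImplicit false

open TensorProduct

universe u v

namespace Fermat.Agent.JAC.Hilb.FibreRegular46

open Fermat.Agent.JAC.Hilb.ZeroIdeal46 Fermat.Agent.JAC.Hilb.FibrewiseInj46
  Fermat.Agent.JAC.Hilb.SectionQuot46 Fermat.Agent.JAC.Hilb.FlatPure46

section Basic

variable {R : Type*} [CommRing R] {M : Type*} [AddCommGroup M] [Module R M]

/-- A section of a finite projective module with vanishing zero ideal is zero. -/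
theorem eq_zero_of_zeroIdeal_eq_bot [Module.Finite R M] [Module.Projective R M] {σ : M}
    (h : zeroIdeal R σ = ⊥) : σ = 0 := by
  obtain ⟨n, m, c, hc⟩ := exists_coords R M
  rw [← hc σ]
  refine Finset.sum_eq_zero fun i _ => ?_
  have h1 : c i σ ∈ zeroIdeal R σ := apply_mem_zeroIdeal σ (c i)
  rw [h, Ideal.mem_bot] at h1
  rw [h1, zero_smul]

end Basic

section Domain

variable {D : Type*} [CommRing D] [IsDomain D] {L L' : Type*} [AddCommGroup L] [Module D L]
  [Module.Invertible D L] [AddCommGroup L'] [Module D L'] [Module.Invertible D L']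

/-- Over a domain, a nonzero linear map between invertible modules is injective. -/
theorem injective_of_ne_zero_of_isDomain (ε : L →ₗ[D] L') (hε : ε ≠ 0) :
    Function.Injective ε := by
  rw [injective_iff_map_eq_zero]
  intro x hx
  obtain ⟨y, hy⟩ : ∃ y, ε y ≠ 0 := by
    by_contra h
    push Not at h
    exact hε (LinearMap.ext h)
  have h1 : ∀ l : Module.Dual D L, l x = 0 := by
    intro l
    have h2 : l x • ε y = 0 := by
      rw [← map_smul, apply_smul_comm l x y, map_smul, hx, smul_zero]
    exact isRegularSection_of_ne_zero hy _ h2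
  obtain ⟨n, m, c, hc⟩ := exists_coords D L
  rw [← hc x]
  exact Finset.sum_eq_zero fun i _ => by rw [h1, zero_smul]

end Domain


section BaseChange

variable {R : Type*} [CommRing R] {M : Type*} [AddCommGroup M] [Module R M]
  [Module.Invertible R M] (R' : Type*) [CommRing R'] [Algebra R R']

/-- If `1 ⊗ σ ≠ 0`, the base change of "evaluation at `σ`" is not zero. -/
theorem baseChange_eval_ne_zero {σ : M} (h : (1 : R') ⊗ₜ[R] σ ≠ 0) :
    LinearMap.baseChange R' (Module.Dual.eval R M σ : Module.Dual R M →ₗ[R] R) ≠ 0 := by
  intro h0
  apply h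
  apply eq_zero_of_zeroIdeal_eq_bot (R := R')
  rw [zeroIdeal_tmul, Ideal.map_eq_bot_iff_le_ker]
  intro r hr
  obtain ⟨l, rfl⟩ := mem_zeroIdeal.mp hr
  rw [RingHom.mem_ker]
  have h1 : (LinearMap.baseChange R' (Module.Dual.eval R M σ : Module.Dual R M →ₗ[R] R))
      ((1 : R') ⊗ₜ[R] l) = 0 := by
    rw [h0, LinearMap.zero_apply]
  rw [LinearMap.baseChange_tmul] at h1
  have h2 := congrArg (TensorProduct.AlgebraTensorModule.rid R R' R') h1
  rw [map_zero, TensorProduct.AlgebraTensorModule.rid_tmul, Algebra.smul_def, mul_one] at h2
  exact h2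

variable [IsDomain R']

/-- Over a domain `R'`, if `1 ⊗ σ ≠ 0`, the base change of "evaluation at `σ`" is injective. -/
theorem baseChange_eval_injective {σ : M} (h : (1 : R') ⊗ₜ[R] σ ≠ 0) :
    Function.Injective
      (LinearMap.baseChange R' (Module.Dual.eval R M σ : Module.Dual R M →ₗ[R] R)) :=
  injective_of_ne_zero_of_isDomain _ (baseChange_eval_ne_zero R' h)

end BaseChange


section Pushout

variable {B : Type u} [CommRing B] {R : Type u} [CommRing R] [Algebra B R]
  {M : Type v} [AddCommGroup M] [Module R M] [Module.Invertible R M]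

/-- **Fibre criterion.**  Let `K` be a `B`-algebra and `R' = K ⊗[B] R` (any pushout) a domain.  If
`1 ⊗ σ ≠ 0` in `R' ⊗[R] M`, then evaluation at `σ` stays injective after base change to `K`. -/
theorem baseChange_evalLin_injective (K : Type*) [CommRing K] [Algebra B K] (R' : Type*)
    [CommRing R'] [IsDomain R'] [Algebra R R'] [Algebra K R'] [Algebra B R'] [IsScalarTower B R R']
    [IsScalarTower B K R'] [Algebra.IsPushout B K R R'] {σ : M} (h : (1 : R') ⊗ₜ[R] σ ≠ 0) :
    Function.Injective ((evalLin B R σ).baseChange K) := by
  have h1 := baseChange_eval_injective R' h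
  intro x y hxy
  rw [LinearMap.baseChange_eq_ltensor] at hxy
  have h2 := congrArg (Algebra.IsPushout.cancelBaseChange B K R R' R).symm hxy
  change (Algebra.IsPushout.cancelBaseChange B K R R' R).symm
      ((((Module.Dual.eval R M σ : Module.Dual R M →ₗ[R] R).restrictScalars B).lTensor K) x) =
    (Algebra.IsPushout.cancelBaseChange B K R R' R).symm
      ((((Module.Dual.eval R M σ : Module.Dual R M →ₗ[R] R).restrictScalars B).lTensor K) y) at h2
  rw [← cancelBaseChange_symm_lTensor, ← cancelBaseChange_symm_lTensor] at h2
  exact (Algebra.IsPushout.cancelBaseChange B K R R' (Module.Dual R M)).symm.injective (h1 h2)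

end Pushout

section Residue

variable {B : Type*} [CommRing B] {P P' : Type*} [AddCommGroup P] [Module B P]
  [AddCommGroup P'] [Module B P']

/-- Injectivity of `X ⊗ f` only depends on the isomorphism class of `X`. -/
theorem lTensor_injective_congr {X Y : Type*} [AddCommGroup X] [Module B X] [AddCommGroup Y]
    [Module B Y] (e : X ≃ₗ[B] Y) (f : P →ₗ[B] P') (h : Function.Injective (f.lTensor Y)) :
    Function.Injective (f.lTensor X) := by
  intro x y hxy
  have h1 : (f.lTensor Y) ((e.toLinearMap.rTensor P) x) = (f.lTensor Y) ((e.toLinearMap.rTensor P) y) := by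
    rw [← LinearMap.comp_apply, ← LinearMap.comp_apply, LinearMap.lTensor_comp_rTensor,
      ← LinearMap.rTensor_comp_lTensor, LinearMap.comp_apply, LinearMap.comp_apply, hxy]
  have h2 := h h1
  have hinj : Function.Injective (e.toLinearMap.rTensor P) :=
    (LinearEquiv.rTensor P e).injective
  exact hinj h2

/-- For a maximal ideal `m`, injectivity after base change to the residue field `κ(m)` implies
injectivity after base change to `B ⧸ m`. -/
theorem baseChange_quotient_injective_of_residueField (f : P →ₗ[B] P') (m : Ideal B)
    [m.IsMaximal] (h : Function.Injective (f.baseChange m.ResidueField)) :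
    Function.Injective (f.baseChange (B ⧸ m)) := by
  rw [LinearMap.baseChange_eq_ltensor] at h ⊢
  let e : (B ⧸ m) ≃ₗ[B] m.ResidueField :=
    LinearEquiv.ofBijective (IsScalarTower.toAlgHom B (B ⧸ m) m.ResidueField).toLinearMap
      (Ideal.bijective_algebraMap_quotient_residueField m)
  exact lTensor_injective_congr e f h

end Residue


section Main

variable {B : Type u} [CommRing B] {R : Type u} [CommRing R] [Algebra B R]
  {M : Type v} [AddCommGroup M] [Module R M] [Module.Invertible R M]

/-- If evaluation at `σ` is injective on the fibres over all maximal ideals of `B`, then `σ` is a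
regular section. -/
theorem isRegularSection_of_fibres [Module.Projective B R] (σ : M)
    (hfib : ∀ (m : Ideal B) [m.IsMaximal],
      Function.Injective ((evalLin B R σ).baseChange (B ⧸ m))) : IsRegularSection R σ := by
  have : Module.Projective B (Module.Dual R M) := projective_trans B R _
  have hinj : Function.Injective (evalLin B R σ) :=
    injective_of_forall_maximal.{u, max u v, u} (evalLin B R σ) hfib
  intro r hr
  have h : ∀ l : Module.Dual R M, r • l = (0 : R) • l := by
    intro l
    apply hinj
    rw [zero_smul, map_zero, evalLin_apply, LinearMap.smul_apply, ← map_smul, hr, map_zero]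
  exact FaithfulSMul.eq_of_smul_eq_smul (M := R) (α := Module.Dual R M) h

/-- **Relative effective Cartier divisor from fibrewise non-vanishing** (residue field form): if
for every maximal ideal `m` of `B` evaluation at `σ` is injective after base change to `κ(m)`, then
`σ` is regular and `R ⧸ zeroIdeal σ` is flat over `B`. -/
theorem regular_and_flat_of_residueField [Module.Projective B R] (σ : M)
    (h : ∀ (m : Ideal B) [m.IsMaximal],
      Function.Injective ((evalLin B R σ).baseChange m.ResidueField)) :
    IsRegularSection R σ ∧ Module.Flat B (R ⧸ zeroIdeal R σ) := by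
  have hfib : ∀ (m : Ideal B) [m.IsMaximal],
      Function.Injective ((evalLin B R σ).baseChange (B ⧸ m)) :=
    fun m _ => baseChange_quotient_injective_of_residueField _ m (h m)
  exact ⟨isRegularSection_of_fibres σ hfib, flat_quotient_zeroIdeal σ hfib⟩

end Main

end Fermat.Agent.JAC.Hilb.FibreRegular46
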