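/-
Programme JAC (S25), chart theorem: bricks `K0` and `K3` of `Hilb/ChartSpec24` (helper87).

* `k0`: ideals of based quotients are invertible (from helper56's
  `BasedInvertible56.invertible_of_isBasedQuot`; `¬ Module.Finite k A0` from the coordinates).
* `k3`: the tautological section of `O(D)` has no zero at infinity
  (`zeroIdeal (oneSec1) = I1`, `I1 ⊔ (s) = ⊤`, `zeroIdeal σ • ⊤ = span {σ}`).
-/
import Mathlib
import Fermat.Agent.JAC.Hilb.ChartSpec24
import Fermat.Agent.JAC.Div.BasedInvertible56

set_option autoImplicit false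
set_option linter.unusedSectionVars false

universe u

namespace Fermat.Agent.JAC.Hilb.K0K3_87

open scoped TensorProduct Polynomial
open scoped Fermat.Agent.JAC.Core.ConstFamily36
open Fermat.Agent.JAC.Core.Defs36 Fermat.Agent.JAC.Core.ConstFamily36
  Fermat.Agent.JAC.Core.AlgAtlas36 Fermat.Agent.JAC.Grp.Diag33
  Fermat.Agent.JAC.Hilb.BasedQuot46 Fermat.Agent.JAC.Hilb.ZeroIdeal46
  Fermat.Agent.JAC.Hilb.ChartDef24 Fermat.Agent.JAC.Hilb.ChartSpec24
  Fermat.Agent.JAC.Div.DivisorDiagram56 Fermat.Agent.JAC.Div.BasedInvertible56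

variable {k : Type u} [Field k] {A0 A1 A01 : Type u} [CommRing A0] [CommRing A1] [CommRing A01]
  [Algebra k A0] [Algebra k A1] [Algebra k A01] [Algebra A0 A01] [Algebra A1 A01]
  [IsScalarTower k A0 A01] [IsScalarTower k A1 A01] {t : A0} {s : A1}
  [IsLocalization.Away t A01] [IsLocalization.Away s A01]

/-- A nontrivial `k`-algebra which is free of finite rank over `k[t]` (coordinate form) is not
finite-dimensional over `k`. -/
theorem not_finite_of_coords {A : Type u} [CommRing A] [Algebra k A] [Nontrivial A] (t : A)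
    {n : ℕ} (b : Fin n → A)
    (hb : Function.Bijective (fun p : Fin n → k[X] => ∑ j, Polynomial.aeval t (p j) * b j)) :
    ¬ Module.Finite k A := by
  intro hfin
  -- `n ≠ 0`
  obtain ⟨j0⟩ : Nonempty (Fin n) := by
    by_contra hne
    rw [not_nonempty_iff] at hne
    have : Subsingleton A := by
      refine ⟨fun x y => ?_⟩
      obtain ⟨p, rfl⟩ := hb.2 x
      obtain ⟨q, rfl⟩ := hb.2 y
      rw [Subsingleton.elim p q]
    exact not_subsingleton A this
  -- `k[X] → A`, `p ↦ p(t) * b j0` is `k`-linear and injective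
  let f : k[X] →ₗ[k] A :=
    { toFun := fun p => Polynomial.aeval t p * b j0
      map_add' := fun p q => by rw [map_add, add_mul]
      map_smul' := fun c p => by
        rw [map_smul, RingHom.id_apply, smul_mul_assoc] }
  have hf : Function.Injective f := by
    intro p q hpq
    have h1 : (fun r : Fin n → k[X] => ∑ j, Polynomial.aeval t (r j) * b j) (Pi.single j0 p) =
        (fun r : Fin n → k[X] => ∑ j, Polynomial.aeval t (r j) * b j) (Pi.single j0 q) := by
      simp only
      rw [Finset.sum_eq_single j0, Finset.sum_eq_single j0]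
      · simp only [Pi.single_eq_same]
        exact hpq
      · intro j _ hj
        rw [Pi.single_eq_of_ne hj, map_zero, zero_mul]
      · intro h
        exact absurd (Finset.mem_univ j0) h
      · intro j _ hj
        rw [Pi.single_eq_of_ne hj, map_zero, zero_mul]
      · intro h
        exact absurd (Finset.mem_univ j0) h
    have h2 := hb.1 h1
    have h3 := congrFun h2 j0
    simpa using h3
  have : Module.Finite k k[X] := Module.Finite.of_injective f hf
  exact Polynomial.not_finite this

/-- **Brick K0**: ideals of based quotients are invertible. -/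
theorem k0 (H : CurveHyp k A0 A1 A01 t s) : Brick.K0 k A0 := by
  intro B _ _ n β I0 h
  have := H.finiteType0
  have hnt : Nontrivial A0 := by
    have h1 : IsDedekindDomain (k ⊗[k] A0) := H.dedekind0 k
    have h2 : Nontrivial (k ⊗[k] A0) := inferInstance
    exact (Algebra.TensorProduct.lid k A0).injective.nontrivial
  obtain ⟨m, b, hb⟩ := H.coords0
  exact invertible_of_isBasedQuot H.dedekind0 (not_finite_of_coords t b hb) β I0 h

/-- In an invertible module, a section whose zero ideal is comaximal with `s` generates modulo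
`s`. -/
theorem span_sup_smul_of_zeroIdeal_sup {R : Type*} [CommRing R] {M : Type*} [AddCommGroup M]
    [Module R M] [Module.Invertible R M] (σ : M) (s : R)
    (h : zeroIdeal R σ ⊔ Ideal.span {s} = ⊤) :
    Submodule.span R {σ} ⊔ Ideal.span {s} • (⊤ : Submodule R M) = ⊤ := by
  rw [← zeroIdeal_smul_top, ← Submodule.sup_smul, h, Submodule.top_smul]

/-- **Brick K3**: the tautological section of `O(D)` has no zero at infinity. -/
theorem k3 (hts : algebraMap A0 A01 t * algebraMap A1 A01 s = 1) :
    Brick.K3 k A0 A1 A01 t s hts := by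
  intro B _ _ I0 hf hi
  have hI1 : ideal1 (A1 := A1) (A01 := A01) B I0 ⊔ Ideal.span {(1 : B) ⊗ₜ[k] s} = ⊤ :=
    I1_sup_span_eq_top (B := B) ((1 : B) ⊗ₜ[k] t) ((1 : B) ⊗ₜ[k] s) I0 (hts_tensor hts B)
  have hinv := invertible_ideal1 hts B I0 hf hi
  have hz : zeroIdeal (B ⊗[k] A1) (oneSec1 hts B I0 hf hi) =
      ideal1 (A1 := A1) (A01 := A01) B I0 :=
    Fermat.Agent.JAC.Hilb.SectionDiv46.zeroIdeal_subtype _
  unfold NoZeroInf
  exact span_sup_smul_of_zeroIdeal_sup (oneSec1 hts B I0 hf hi) ((1 : B) ⊗ₜ[k] s)
    (by rw [hz]; exact hI1)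

end Fermat.Agent.JAC.Hilb.K0K3_87
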