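/-
Programme JAC (S25), work package A4.3a, part VIII (helper46): `FibreRegular46` for the constant
family `B ⊗[k] A`, in the notation of `Core/AlgAtlas36` (`bcMap`, residue fields).

If all `K ⊗[k] A` (`K` a field over `k`) are domains and the section `σ` of an invertible
`B ⊗[k] A`-module does not vanish identically on the fibres over the closed points of `Spec B`,
then `σ` is regular and `(B ⊗[k] A) ⧸ zeroIdeal σ` is flat over `B`.
-/
import Mathlib
import Fermat.Agent.JAC.Core.AlgAtlas36
import Fermat.Agent.JAC.Hilb.FibreRegular46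

set_option autoImplicit false

universe u

namespace Fermat.Agent.JAC.Hilb.FibreRegularConst46

open scoped TensorProduct
open Fermat.Agent.JAC.Core.AlgAtlas36 Fermat.Agent.JAC.Hilb.ZeroIdeal46
  Fermat.Agent.JAC.Hilb.SectionQuot46 Fermat.Agent.JAC.Hilb.FlatPure46
  Fermat.Agent.JAC.Hilb.FibreRegular46

variable {k : Type u} [Field k] {A : Type u} [CommRing A] [Algebra k A]
  {B : Type u} [CommRing B] [Algebra k B]
  {M : Type u} [AddCommGroup M] [Module (B ⊗[k] A) M] [Module.Invertible (B ⊗[k] A) M]

/-- Fibre criterion over the constant family, for a field `K` over `B`. -/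
theorem baseChange_evalLin_injective_const {K : Type u} [Field K] [Algebra k K] [Algebra B K]
    [IsScalarTower k B K] [IsDomain (K ⊗[k] A)] (σ : M)
    (h : letI : Algebra (B ⊗[k] A) (K ⊗[k] A) :=
        (bcMap (IsScalarTower.toAlgHom k B K) A A).toAlgebra
      (1 : K ⊗[k] A) ⊗ₜ[B ⊗[k] A] σ ≠ 0) :
    Function.Injective ((evalLin B (B ⊗[k] A) σ).baseChange K) := by
  let _ : Algebra (B ⊗[k] A) (K ⊗[k] A) := (bcMap (IsScalarTower.toAlgHom k B K) A A).toAlgebra
  have halg : ∀ (b : B) (a : A),
      algebraMap (B ⊗[k] A) (K ⊗[k] A) (b ⊗ₜ a) = algebraMap B K b ⊗ₜ a := fun b a => rfl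
  have := isScalarTower_const k A B K halg
  have := isPushout_const k A B K halg
  have h1 := baseChange_evalLin_injective (B := B) (R := B ⊗[k] A) (M := M) K (K ⊗[k] A) (σ := σ)
  exact h1 h

/-- **Relative divisor from fibrewise non-vanishing, constant family.** -/
theorem regular_and_flat_const (hdom : ∀ (K : Type u) [Field K] [Algebra k K], IsDomain (K ⊗[k] A))
    (σ : M)
    (h : ∀ (m : Ideal B) [m.IsMaximal],
      letI : Algebra (B ⊗[k] A) (m.ResidueField ⊗[k] A) :=
        (bcMap (IsScalarTower.toAlgHom k B m.ResidueField) A A).toAlgebra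
      (1 : m.ResidueField ⊗[k] A) ⊗ₜ[B ⊗[k] A] σ ≠ 0) :
    IsRegularSection (B ⊗[k] A) σ ∧ Module.Flat B ((B ⊗[k] A) ⧸ zeroIdeal (B ⊗[k] A) σ) := by
  refine regular_and_flat_of_residueField σ (fun m _ => ?_)
  have := hdom m.ResidueField
  have h1 := baseChange_evalLin_injective_const (k := k) (A := A) (B := B) (M := M)
    (K := m.ResidueField) σ
  exact h1 (h m)

end Fermat.Agent.JAC.Hilb.FibreRegularConst46
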