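/-
Programme JAC (S25), chart theorem: brick `K4` of `Hilb/ChartSpec24` (helper87).

A generating section `(σ0, σ1)` of a line diagram `N` over `B` with `H¹(N) = 0` and without zero at
infinity has a zero scheme on `U0` whose structure ring `(B ⊗ A0) ⧸ zeroIdeal σ0` is finite and
projective over `B`:

* finite: `FiniteAtInfty46.finite_quotient_of_sup_span_eq_top` (closedness at infinity);
* flat: `FibreRegularConst46.regular_and_flat_const` (the section is nonzero on every fibre, because
  it stays a generating section on the fibres by `Brick.BC2`);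
* projective: finite + flat + finitely presented.
-/
import Mathlib
import Fermat.Agent.JAC.Hilb.ChartSpec24
import Fermat.Agent.JAC.Hilb.FibreRegularConst46
import Fermat.Agent.JAC.Hilb.FiniteAtInfty46
import Fermat.Agent.JAC.Frame.BaseChange65

set_option autoImplicit false
set_option linter.unusedSectionVars false
set_option linter.style.haveILetI false

universe u

namespace Fermat.Agent.JAC.Hilb.K4_87

open scoped TensorProduct Polynomial
open scoped Fermat.Agent.JAC.Core.ConstFamily36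
open Fermat.Agent.JAC.Core.Defs36 Fermat.Agent.JAC.Core.Cart36 Fermat.Agent.JAC.Core.ConstFamily36
  Fermat.Agent.JAC.Core.AlgAtlas36 Fermat.Agent.JAC.Grp.Diag33
  Fermat.Agent.JAC.Hilb.BasedQuot46 Fermat.Agent.JAC.Hilb.ZeroIdeal46
  Fermat.Agent.JAC.Hilb.ChartDef24 Fermat.Agent.JAC.Hilb.ChartSpec24
  Fermat.Agent.JAC.Hilb.SectionQuot46 Fermat.Agent.JAC.Hilb.SectionDiv46

/-! ### Generalities -/

section General

/-- A `φ`-semilinear map kills `x` as soon as `1 ⊗ x = 0` in `R' ⊗[R] P`. -/
theorem semilinear_eq_zero_of_tmul_eq_zero {R R' : Type*} [CommRing R] [CommRing R']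
    (φ : R →+* R') {P P' : Type*} [AddCommGroup P] [Module R P] [AddCommGroup P'] [Module R' P']
    (θ : P →ₛₗ[φ] P') (x : P)
    (h : letI : Algebra R R' := φ.toAlgebra
      (1 : R') ⊗ₜ[R] x = 0) : θ x = 0 := by
  letI : Algebra R R' := φ.toAlgebra
  letI : Module R P' := Module.compHom P' φ
  haveI : IsScalarTower R R' P' := IsScalarTower.of_algebraMap_smul fun _ _ => rfl
  let θ' : P →ₗ[R] P' :=
    { toFun := θ
      map_add' := θ.map_add
      map_smul' := fun r y => θ.map_smulₛₗ r y }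
  have h1 := congrArg (LinearMap.liftBaseChange R' θ') h
  rw [LinearMap.liftBaseChange_tmul, map_zero, one_smul] at h1
  exact h1

/-- Module-finiteness over `B[X]` from coordinates. -/
theorem finite_of_coords {B R : Type*} [CommRing B] [CommRing R] [Algebra B R] (t : R) {n : ℕ}
    (b : Fin n → R)
    (hb : Function.Surjective (fun p : Fin n → B[X] => ∑ j, Polynomial.aeval t (p j) * b j))
    [Algebra B[X] R] (h : ∀ p : B[X], algebraMap B[X] R p = Polynomial.aeval t p) :
    Module.Finite B[X] R := by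
  let f : (Fin n → B[X]) →ₗ[B[X]] R :=
    { toFun := fun p => ∑ j, Polynomial.aeval t (p j) * b j
      map_add' := fun p q => by
        simp only [Pi.add_apply, map_add, add_mul, Finset.sum_add_distrib]
      map_smul' := fun c p => by
        simp only [Pi.smul_apply, smul_eq_mul, map_mul, RingHom.id_apply,
          Algebra.smul_def, h, mul_assoc, Finset.mul_sum] }
  exact Module.Finite.of_surjective f hb

/-- Over a domain, a localisation map out of an invertible module at the powers of a nonzero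
element is injective. -/
theorem injective_of_isLocalizedModule_of_isDomain {D : Type*} [CommRing D] [IsDomain D]
    {L L' : Type*} [AddCommGroup L] [Module D L] [Module.Invertible D L] [AddCommGroup L']
    [Module D L'] (s : D) (hs : s ≠ 0) (ρ : L →ₗ[D] L') [IsLocalizedModule (Submonoid.powers s) ρ] :
    Function.Injective ρ := by
  rw [injective_iff_map_eq_zero]
  intro x hx
  obtain ⟨⟨_, n, rfl⟩, hc⟩ := (IsLocalizedModule.eq_zero_iff (Submonoid.powers s) ρ).mp hx
  by_contra hx0
  have h1 : s ^ n • x = 0 := hc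
  exact pow_ne_zero n hs (isRegularSection_of_ne_zero hx0 _ h1)

end General

variable {k : Type u} [Field k] {A0 A1 A01 : Type u} [CommRing A0] [CommRing A1] [CommRing A01]
  [Algebra k A0] [Algebra k A1] [Algebra k A01] [Algebra A0 A01] [Algebra A1 A01]
  [IsScalarTower k A0 A01] [IsScalarTower k A1 A01] {t : A0} {s : A1}
  [IsLocalization.Away t A01] [IsLocalization.Away s A01]

/-- Over a field `K` such that `K ⊗ A1`, `K ⊗ A01` are domains, the first component of a generating
section is not zero. -/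
theorem fst_ne_zero_of_isGenSection {K : Type u} [Field K] [Algebra k K]
    [IsDomain (K ⊗[k] A1)] [Nontrivial (K ⊗[k] A01)]
    (N : CDiag k A0 A1 A01 t s K) {σ0 : N.M0} {σ1 : N.M1} (h : IsGenSection N σ0 σ1) :
    σ0 ≠ 0 := by
  intro h0
  -- `1 ⊗ s ≠ 0`
  have hs : (1 : K) ⊗ₜ[k] s ≠ (0 : K ⊗[k] A1) := by
    intro hs0
    have hu : IsUnit (algebraMap (K ⊗[k] A1) (K ⊗[k] A01) ((1 : K) ⊗ₜ[k] s)) :=
      IsLocalization.Away.algebraMap_isUnit ((1 : K) ⊗ₜ[k] s)
    rw [hs0, map_zero] at hu
    exact not_isUnit_zero hu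
  have hinj : Function.Injective N.rho1 :=
    injective_of_isLocalizedModule_of_isDomain ((1 : K) ⊗ₜ[k] s) hs N.rho1
  have h1 : σ1 = 0 := by
    apply hinj
    rw [map_zero, ← h.1, h0, map_zero]
  -- both `0` and `1` are multipliers for the zero section
  obtain ⟨b, -, hb⟩ := h.2 0 0 (by rw [map_zero, map_zero])
  have e0 := hb 0 (by subst h0 h1; exact ⟨(smul_zero _).symm, (smul_zero _).symm⟩)
  have e1 := hb 1 (by subst h0 h1; exact ⟨(smul_zero _).symm, (smul_zero _).symm⟩)
  exact one_ne_zero (e1.trans e0.symm)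

/-- **Brick K4**: the zero scheme on `U0` of a generating section without zero at infinity of a
line diagram with `H¹ = 0` is finite and projective over the base. -/
theorem k4 (H : CurveHyp k A0 A1 A01 t s) (hBC2 : Brick.BC2 k A0 A1 A01 t s) :
    Brick.K4 k A0 A1 A01 t s := by
  intro B _ _ N σ0 σ1 hH1 hgen hnz
  have hσ : N.rho0 σ0 = N.rho1 σ1 := hgen.1
  -- (1) finiteness
  have hfin : Module.Finite B ((B ⊗[k] A0) ⧸ zeroIdeal (B ⊗[k] A0) σ0) := by
    obtain ⟨n0, b0, hb0⟩ := H.coords0
    obtain ⟨n1, b1, hb1⟩ := H.coords1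
    letI alg0 : Algebra B[X] (B ⊗[k] A0) :=
      (Polynomial.aeval ((1 : B) ⊗ₜ[k] t) : B[X] →ₐ[B] B ⊗[k] A0).toRingHom.toAlgebra
    letI alg1 : Algebra B[X] (B ⊗[k] A1) :=
      (Polynomial.aeval ((1 : B) ⊗ₜ[k] s) : B[X] →ₐ[B] B ⊗[k] A1).toRingHom.toAlgebra
    have e0 : ∀ p : B[X], algebraMap B[X] (B ⊗[k] A0) p =
        Polynomial.aeval ((1 : B) ⊗ₜ[k] t) p := fun _ => rfl
    have e1 : ∀ p : B[X], algebraMap B[X] (B ⊗[k] A1) p =
        Polynomial.aeval ((1 : B) ⊗ₜ[k] s) p := fun _ => rfl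
    haveI tower0 : IsScalarTower B B[X] (B ⊗[k] A0) := IsScalarTower.of_algebraMap_eq (fun b => by
      rw [e0, ← Polynomial.C_eq_algebraMap, Polynomial.aeval_C])
    haveI tower1 : IsScalarTower B B[X] (B ⊗[k] A1) := IsScalarTower.of_algebraMap_eq (fun b => by
      rw [e1, ← Polynomial.C_eq_algebraMap, Polynomial.aeval_C])
    have hX0 : algebraMap B[X] (B ⊗[k] A0) Polynomial.X = (1 : B) ⊗ₜ[k] t := by
      rw [e0, Polynomial.aeval_X]
    have hX1 : algebraMap B[X] (B ⊗[k] A1) Polynomial.X = (1 : B) ⊗ₜ[k] s := by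
      rw [e1, Polynomial.aeval_X]
    haveI fin0 : Module.Finite B[X] (B ⊗[k] A0) :=
      finite_of_coords ((1 : B) ⊗ₜ[k] t) (fun j => (1 : B) ⊗ₜ[k] b0 j)
        (Fermat.Agent.JAC.Frame.BaseChange65.bijective_baseChange B hb0).2 e0
    haveI fin1 : Module.Finite B[X] (B ⊗[k] A1) :=
      finite_of_coords ((1 : B) ⊗ₜ[k] s) (fun j => (1 : B) ⊗ₜ[k] b1 j)
        (Fermat.Agent.JAC.Frame.BaseChange65.bijective_baseChange B hb1).2 e1
    have hZ : Ideal.map (algebraMap (B ⊗[k] A1) (B ⊗[k] A01)) (zeroIdeal (B ⊗[k] A1) σ1) ≤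
        Ideal.map (algebraMap (B ⊗[k] A0) (B ⊗[k] A01)) (zeroIdeal (B ⊗[k] A0) σ0) :=
      (map_zeroIdeal_eq N hσ).ge
    have hinf : zeroIdeal (B ⊗[k] A1) σ1 ⊔ Ideal.span {(1 : B) ⊗ₜ[k] s} = ⊤ :=
      sup_span_eq_top_of_span_sup_smul σ1 _ hnz
    exact Fermat.Agent.JAC.Hilb.FiniteAtInfty46.finite_quotient_of_sup_span_eq_top (B := B)
      (R01 := B ⊗[k] A01) ((1 : B) ⊗ₜ[k] t) ((1 : B) ⊗ₜ[k] s) (hts_tensor H.hts B) hX0 hX1
      (zeroIdeal (B ⊗[k] A0) σ0) (zeroIdeal (B ⊗[k] A1) σ1) hZ hinf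
  refine ⟨hfin, ?_⟩
  -- (2) flatness: the section is nonzero on every fibre
  have hdom : ∀ (K : Type u) [Field K] [Algebra k K], IsDomain (K ⊗[k] A0) := fun K _ _ =>
    have := H.dedekind0 K
    inferInstance
  have hflat : Module.Flat B ((B ⊗[k] A0) ⧸ zeroIdeal (B ⊗[k] A0) σ0) := by
    refine (Fermat.Agent.JAC.Hilb.FibreRegularConst46.regular_and_flat_const (k := k) (A := A0)
      (B := B) (M := N.M0) hdom σ0 (fun m _ => ?_)).2
    intro hzero
    have := H.dedekind1 m.ResidueField
    have := H.dedekind01 m.ResidueField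
    have hg := hBC2 B m.ResidueField (IsScalarTower.toAlgHom k B m.ResidueField) N
      (bcd (IsScalarTower.toAlgHom k B m.ResidueField) N)
      (bcc (IsScalarTower.toAlgHom k B m.ResidueField) N) σ0 σ1 hH1 hgen
    refine fst_ne_zero_of_isGenSection _ hg ?_
    exact semilinear_eq_zero_of_tmul_eq_zero _
      (bcc (IsScalarTower.toAlgHom k B m.ResidueField) N).f0 σ0 hzero
  -- (3) projectivity: finite + flat + finitely presented
  have := H.finiteType0
  have hfp0 : Algebra.FinitePresentation k A0 := Algebra.FinitePresentation.of_finiteType.mp inferInstance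
  have hfpB : Algebra.FinitePresentation B (B ⊗[k] A0) := inferInstance
  have hfpQ : Algebra.FinitePresentation B ((B ⊗[k] A0) ⧸ zeroIdeal (B ⊗[k] A0) σ0) :=
    Algebra.FinitePresentation.quotient (zeroIdeal_fg σ0)
  have : Module.FinitePresentation B ((B ⊗[k] A0) ⧸ zeroIdeal (B ⊗[k] A0) σ0) :=
    Module.FinitePresentation.of_finite_of_finitePresentation B _
  exact Module.Flat.projective_of_finitePresentation

end Fermat.Agent.JAC.Hilb.K4_87
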