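/-
Programme JAC (S25), work package A4.3a, part V (helper46): the condition "the section does not
vanish at infinity" (`span {σ} ⊔ (s) • ⊤ = ⊤`) under base change, and its spreading out from a fibre
to a basic open set.

* `subsingleton_tensor_quotient_iff` : `R' ⊗[R] (M ⧸ U) = 0 ↔ U.baseChange R' = ⊤`.
* `baseChange_span_sup_smul` : the base change of `span {σ} ⊔ (s) • ⊤` is
  `span {1 ⊗ σ} ⊔ (s') • ⊤`.
* `span_sup_smul_baseChange_iff` : along a pushout `R' = B' ⊗[B] R`, the condition over `R'` is
  equivalent to `B' ⊗[B] Q = 0`, `Q := M ⧸ (span {σ} ⊔ (s) • ⊤)`.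
* `finite_quotient_span_sup_smul` : `Q` is finite over `B` if `R ⧸ (s)` is.
* `exists_notMem_forall_subsingleton_tensor`, `isOpen_subsingleton_residueField_tensor` : spreading
  out and openness of the vanishing locus of the fibres of a finite module.
* `exists_notMem_forall_span_sup_smul` : spreading out of the condition.
-/
import Mathlib

set_option autoImplicit false

open TensorProduct

namespace Fermat.Agent.JAC.Hilb.NoZeroInf46

section Quotient

variable {R : Type*} [CommRing R] {M : Type*} [AddCommGroup M] [Module R M]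
  (R' : Type*) [CommRing R'] [Algebra R R']

/-- The base change of a quotient module vanishes iff the base change of the submodule is
everything. -/
theorem subsingleton_tensor_quotient_iff (U : Submodule R M) :
    Subsingleton (R' ⊗[R] (M ⧸ U)) ↔ U.baseChange R' = ⊤ := by
  have hex := lTensor_exact R' (LinearMap.exact_subtype_mkQ U) (Submodule.mkQ_surjective U)
  have hs : Function.Surjective (U.mkQ.lTensor R') :=
    LinearMap.lTensor_surjective R' (Submodule.mkQ_surjective U)
  constructor
  · intro h
    rw [eq_top_iff]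
    intro x _
    have hx : (U.mkQ.lTensor R') x = 0 := Subsingleton.elim _ _
    obtain ⟨y, hy⟩ := (hex x).mp hx
    exact ⟨y, by rw [← hy, LinearMap.baseChange_eq_ltensor]⟩
  · intro h
    refine ⟨fun a b => ?_⟩
    obtain ⟨a', rfl⟩ := hs a
    obtain ⟨b', rfl⟩ := hs b
    have h0 : ∀ x : R' ⊗[R] M, (U.mkQ.lTensor R') x = 0 := by
      intro x
      rw [hex x]
      obtain ⟨y, hy⟩ := (h ▸ Submodule.mem_top : x ∈ U.baseChange R')
      exact ⟨y, by rw [← hy, LinearMap.baseChange_eq_ltensor]⟩
    rw [h0 a', h0 b']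

/-- The base change of `span {σ} ⊔ (s) • ⊤`. -/
theorem baseChange_span_sup_smul (σ : M) (s : R) :
    (Submodule.span R {σ} ⊔ Ideal.span {s} • (⊤ : Submodule R M)).baseChange R' =
      Submodule.span R' {(1 : R') ⊗ₜ[R] σ} ⊔
        Ideal.span {algebraMap R R' s} • (⊤ : Submodule R' (R' ⊗[R] M)) := by
  apply le_antisymm
  · rw [Submodule.baseChange_eq_span, Submodule.span_le]
    rintro _ ⟨u, hu, rfl⟩
    obtain ⟨a, ha, w, hw, rfl⟩ := Submodule.mem_sup.mp hu
    obtain ⟨c, rfl⟩ := Submodule.mem_span_singleton.mp ha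
    rw [map_add]
    refine Submodule.add_mem _ (Submodule.mem_sup_left ?_) (Submodule.mem_sup_right ?_)
    · change (1 : R') ⊗ₜ[R] (c • σ) ∈ _
      rw [TensorProduct.tmul_smul, ← algebraMap_smul R' c ((1 : R') ⊗ₜ[R] σ)]
      exact Submodule.smul_mem _ _ (Submodule.mem_span_singleton_self _)
    · change (1 : R') ⊗ₜ[R] w ∈ _
      refine Submodule.smul_induction_on hw ?_ ?_
      · intro i hi m _
        obtain ⟨c, rfl⟩ := Ideal.mem_span_singleton'.mp hi
        have : (1 : R') ⊗ₜ[R] ((c * s) • m) =
            algebraMap R R' s • ((1 : R') ⊗ₜ[R] (c • m)) := by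
          rw [mul_comm, mul_smul, TensorProduct.tmul_smul, algebraMap_smul]
        rw [this]
        exact Submodule.smul_mem_smul (Ideal.mem_span_singleton_self _) Submodule.mem_top
      · intro x y hx hy
        rw [TensorProduct.tmul_add]
        exact Submodule.add_mem _ hx hy
  · refine sup_le ?_ ?_
    · rw [Submodule.span_le, Set.singleton_subset_iff]
      exact Submodule.tmul_mem_baseChange_of_mem _
        (Submodule.mem_sup_left (Submodule.mem_span_singleton_self σ))
    · rw [Submodule.smul_le]
      intro i hi x hx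
      clear hx
      obtain ⟨c, rfl⟩ := Ideal.mem_span_singleton'.mp hi
      rw [mul_smul]
      refine Submodule.smul_mem _ c ?_
      induction x using TensorProduct.induction_on with
      | zero => rw [smul_zero]; exact Submodule.zero_mem _
      | tmul r m =>
        have : algebraMap R R' s • (r ⊗ₜ[R] m) = r ⊗ₜ[R] (s • m) := by
          rw [algebraMap_smul, TensorProduct.tmul_smul]
        rw [this]
        exact Submodule.tmul_mem_baseChange_of_mem _ (Submodule.mem_sup_right
          (Submodule.smul_mem_smul (Ideal.mem_span_singleton_self _) Submodule.mem_top))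
      | add x y hx hy => rw [smul_add]; exact Submodule.add_mem _ hx hy

end Quotient


section Pushout

variable (B B' : Type*) {R : Type*} (R' : Type*) [CommRing B] [CommRing B'] [CommRing R]
  [CommRing R'] [Algebra B B'] [Algebra B R] [Algebra R R'] [Algebra B' R'] [Algebra B R']
  [IsScalarTower B R R'] [IsScalarTower B B' R'] [Algebra.IsPushout B B' R R']
  {M : Type*} [AddCommGroup M] [Module R M] [Module B M] [IsScalarTower B R M]

/-- Along a pushout `R' = B' ⊗[B] R`, the condition "`1 ⊗ σ` generates `M'` modulo `s'`" is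
equivalent to the vanishing of `B' ⊗[B] Q`, where `Q := M ⧸ (span {σ} ⊔ (s) • ⊤)`. -/
theorem span_sup_smul_baseChange_iff (σ : M) (s : R) :
    Submodule.span R' {(1 : R') ⊗ₜ[R] σ} ⊔
        Ideal.span {algebraMap R R' s} • (⊤ : Submodule R' (R' ⊗[R] M)) = ⊤ ↔
      Subsingleton
        (B' ⊗[B] (M ⧸ (Submodule.span R {σ} ⊔ Ideal.span {s} • (⊤ : Submodule R M)))) := by
  rw [← baseChange_span_sup_smul, ← subsingleton_tensor_quotient_iff]
  exact (Algebra.IsPushout.cancelBaseChange B B' R R' _).toEquiv.subsingleton_congr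

end Pushout

section Finite

variable (B : Type*) {R : Type*} [CommRing B] [CommRing R] [Algebra B R]
  {M : Type*} [AddCommGroup M] [Module R M] [Module B M] [IsScalarTower B R M]

/-- `M ⧸ (span {σ} ⊔ (s) • ⊤)` is finite over `B` as soon as `M` is finite over `R` and `R ⧸ (s)` is
finite over `B`. -/
theorem finite_quotient_span_sup_smul [Module.Finite R M] (σ : M) (s : R)
    [Module.Finite B (R ⧸ Ideal.span {s})] :
    Module.Finite B (M ⧸ (Submodule.span R {σ} ⊔ Ideal.span {s} • (⊤ : Submodule R M))) := by
  set U : Submodule R M := Submodule.span R {σ} ⊔ Ideal.span {s} • (⊤ : Submodule R M) with hU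
  -- `M ⧸ U` is a module over `R ⧸ (s)`
  have htors : Module.IsTorsionBySet R (M ⧸ U) (Ideal.span {s} : Set R) := by
    rw [Module.isTorsionBySet_iff_subset_annihilator]
    intro i hi
    rw [SetLike.mem_coe, Module.mem_annihilator]
    intro q
    obtain ⟨m, rfl⟩ := Submodule.mkQ_surjective U q
    rw [← map_smul, Submodule.mkQ_apply, Submodule.Quotient.mk_eq_zero]
    exact Submodule.mem_sup_right (Submodule.smul_mem_smul hi Submodule.mem_top)
  let _ : Module (R ⧸ Ideal.span {s}) (M ⧸ U) := htors.module
  have : IsScalarTower R (R ⧸ Ideal.span {s}) (M ⧸ U) := htors.isScalarTower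
  have : Module.Finite R (M ⧸ U) := Module.Finite.quotient R U
  have : Module.Finite (R ⧸ Ideal.span {s}) (M ⧸ U) :=
    Module.Finite.of_restrictScalars_finite R _ _
  have : IsScalarTower B (R ⧸ Ideal.span {s}) (M ⧸ U) := by
    refine ⟨fun b x q => ?_⟩
    obtain ⟨r, rfl⟩ := Ideal.Quotient.mk_surjective x
    change Ideal.Quotient.mk _ (b • r) • q = b • (Ideal.Quotient.mk _ r • q)
    rw [Module.IsTorsionBySet.mk_smul htors, Module.IsTorsionBySet.mk_smul htors, smul_assoc]
  exact Module.Finite.trans (R ⧸ Ideal.span {s}) (M ⧸ U)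

end Finite


section Spread

variable {B : Type*} [CommRing B] {Q : Type*} [AddCommGroup Q] [Module B Q]

/-- If `f` kills `Q` and becomes a unit in `B'`, then `B' ⊗[B] Q = 0`. -/
theorem subsingleton_tensor_of_isUnit {f : B} (hf : ∀ q : Q, f • q = 0) (B' : Type*)
    [CommRing B'] [Algebra B B'] (hu : IsUnit (algebraMap B B' f)) : Subsingleton (B' ⊗[B] Q) := by
  have h0 : ∀ x : B' ⊗[B] Q, x = 0 := by
    intro x
    induction x using TensorProduct.induction_on with
    | zero => rfl
    | tmul b q =>
      obtain ⟨u, hu'⟩ := hu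
      have : b = (b * (u⁻¹ : B'ˣ)) * algebraMap B B' f := by
        rw [mul_assoc, ← hu', Units.inv_mul, mul_one]
      rw [this, mul_comm, ← Algebra.smul_def, TensorProduct.smul_tmul, hf, TensorProduct.tmul_zero]
    | add x y hx hy => rw [hx, hy, add_zero]
  exact ⟨fun a b => by rw [h0 a, h0 b]⟩

variable [Module.Finite B Q]

/-- **Spreading out.**  If the fibre of a finite module `Q` at a prime `p` vanishes, then `Q`
vanishes after base change to any algebra in which a suitable `f ∉ p` becomes invertible. -/
theorem exists_notMem_forall_subsingleton_tensor (p : Ideal B) [p.IsPrime]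
    (h : Subsingleton (p.ResidueField ⊗[B] Q)) :
    ∃ f : B, f ∉ p ∧ (∀ q : Q, f • q = 0) := by
  have hp : (⟨p, inferInstance⟩ : PrimeSpectrum B) ∉ Module.support B Q := by
    rw [Module.mem_support_iff_nontrivial_residueField_tensorProduct,
      not_nontrivial_iff_subsingleton]
    exact h
  rw [Module.mem_support_iff_of_finite, SetLike.not_le_iff_exists] at hp
  obtain ⟨f, hf, hfp⟩ := hp
  exact ⟨f, hfp, fun q => Module.mem_annihilator.mp hf q⟩

/-- Openness of the locus where the fibre of a finite module vanishes. -/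
theorem isOpen_subsingleton_residueField_tensor :
    IsOpen {p : PrimeSpectrum B | Subsingleton (p.asIdeal.ResidueField ⊗[B] Q)} := by
  have : {p : PrimeSpectrum B | Subsingleton (p.asIdeal.ResidueField ⊗[B] Q)} =
      (Module.support B Q)ᶜ := by
    ext p
    rw [Set.mem_ofPred_eq, Set.mem_compl_iff,
      Module.mem_support_iff_nontrivial_residueField_tensorProduct,
      not_nontrivial_iff_subsingleton]
  rw [this, isOpen_compl_iff, Module.support_eq_zeroLocus]
  exact PrimeSpectrum.isClosed_zeroLocus _

end Spread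


section Main

variable {B : Type*} {R : Type*} [CommRing B] [CommRing R] [Algebra B R]
  {M : Type*} [AddCommGroup M] [Module R M] [Module B M] [IsScalarTower B R M]

/-- **Spreading out "no zero at infinity", step 1.**  If `1 ⊗ σ` generates the fibre of `M` at a
prime `p` of `B` modulo `s`, then some `f ∉ p` kills `M ⧸ (span {σ} ⊔ (s) • ⊤)`. -/
theorem exists_notMem_smul_eq_zero_of_fibre [Module.Finite R M] (σ : M) (s : R)
    [Module.Finite B (R ⧸ Ideal.span {s})] (p : Ideal B) [p.IsPrime]
    (Rp : Type*) [CommRing Rp] [Algebra R Rp] [Algebra p.ResidueField Rp] [Algebra B Rp]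
    [IsScalarTower B R Rp] [IsScalarTower B p.ResidueField Rp]
    [Algebra.IsPushout B p.ResidueField R Rp]
    (h : Submodule.span Rp {(1 : Rp) ⊗ₜ[R] σ} ⊔
      Ideal.span {algebraMap R Rp s} • (⊤ : Submodule Rp (Rp ⊗[R] M)) = ⊤) :
    ∃ f : B, f ∉ p ∧
      ∀ q : M ⧸ (Submodule.span R {σ} ⊔ Ideal.span {s} • (⊤ : Submodule R M)), f • q = 0 := by
  have := finite_quotient_span_sup_smul B σ s
  exact exists_notMem_forall_subsingleton_tensor p
    ((span_sup_smul_baseChange_iff B p.ResidueField Rp σ s).mp h)

/-- **Spreading out "no zero at infinity", step 2.**  If `f` kills `M ⧸ (span {σ} ⊔ (s) • ⊤)` and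
becomes a unit in `B'`, then `1 ⊗ σ` generates `M' = R' ⊗[R] M` modulo `s'`, for `R' = B' ⊗[B] R`. -/
theorem span_sup_smul_of_isUnit (σ : M) (s : R) {f : B}
    (hf : ∀ q : M ⧸ (Submodule.span R {σ} ⊔ Ideal.span {s} • (⊤ : Submodule R M)), f • q = 0)
    (B' R' : Type*) [CommRing B'] [CommRing R'] [Algebra B B'] [Algebra R R'] [Algebra B' R']
    [Algebra B R'] [IsScalarTower B R R'] [IsScalarTower B B' R'] [Algebra.IsPushout B B' R R']
    (hu : IsUnit (algebraMap B B' f)) :
    Submodule.span R' {(1 : R') ⊗ₜ[R] σ} ⊔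
      Ideal.span {algebraMap R R' s} • (⊤ : Submodule R' (R' ⊗[R] M)) = ⊤ :=
  (span_sup_smul_baseChange_iff B B' R' σ s).mpr (subsingleton_tensor_of_isUnit hf B' hu)

/-- The condition over `B` itself, in terms of the quotient. -/
theorem span_sup_smul_eq_top_iff (σ : M) (s : R) :
    Submodule.span R {σ} ⊔ Ideal.span {s} • (⊤ : Submodule R M) = ⊤ ↔
      Subsingleton (M ⧸ (Submodule.span R {σ} ⊔ Ideal.span {s} • (⊤ : Submodule R M))) :=
  Submodule.Quotient.subsingleton_iff.symm

end Main

end Fermat.Agent.JAC.Hilb.NoZeroInf46
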