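/-
Programme JAC (S25), chart theorem, bricks (BC3), (FE3), (SP3) of `Hilb/ChartSpec24` (helper46):
the condition "no zero at infinity" under base change, descent along field extensions, and
spreading out from the fibre at a prime to a basic open neighbourhood.
-/
import Mathlib
import Fermat.Agent.JAC.Hilb.ChartSpec24
import Fermat.Agent.JAC.Hilb.NoZeroInf46
import Fermat.Agent.JAC.Hilb.FlatPure46
import Fermat.Agent.JAC.Frame.BaseChange65

set_option autoImplicit false
set_option maxHeartbeats 400000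

universe u

namespace Fermat.Agent.JAC.Hilb.NoZeroInfBricks46

open scoped TensorProduct Polynomial
open scoped Fermat.Agent.JAC.Core.ConstFamily36
open Fermat.Agent.JAC.Core.Defs36 Fermat.Agent.JAC.Core.Cart36 Fermat.Agent.JAC.Core.ConstFamily36
  Fermat.Agent.JAC.Core.AlgAtlas36 Fermat.Agent.JAC.Grp.Diag33 Fermat.Agent.JAC.Grp.Cart33
  Fermat.Agent.JAC.Hilb.ChartDef24 Fermat.Agent.JAC.Hilb.ChartSpec24
  Fermat.Agent.JAC.Hilb.NoZeroInf46 Fermat.Agent.JAC.Hilb.FlatPure46

/-! ### Abstract two-family lemmas -/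

section Abstract

variable {R R' : Type u} [CommRing R] [CommRing R'] {φ : R →+* R'}
  {P P' : Type u} [AddCommGroup P] [Module R P] [AddCommGroup P'] [Module R' P']

/-- The image of a base change generates the target. -/
theorem span_range_eq_top_of_isBaseChangeHom {θ : P →ₛₗ[φ] P'} (h : IsBaseChangeHom θ) :
    Submodule.span R' (Set.range θ) = ⊤ := by
  set Q : Submodule R' P' := Submodule.span R' (Set.range θ) with hQ
  have h0 : Q.mkQ = 0 := by
    apply isBaseChangeHom_hom_ext h
    intro x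
    rw [LinearMap.zero_apply, Submodule.mkQ_apply, Submodule.Quotient.mk_eq_zero]
    exact Submodule.subset_span ⟨x, rfl⟩
  rw [← Submodule.ker_mkQ Q, h0, LinearMap.ker_zero]

/-- "No zero at infinity" is preserved by base change (abstract form). -/
theorem span_sup_smul_eq_top_of_isBaseChangeHom {θ : P →ₛₗ[φ] P'} (h : IsBaseChangeHom θ)
    (σ : P) (s : R)
    (hσ : Submodule.span R {σ} ⊔ Ideal.span {s} • (⊤ : Submodule R P) = ⊤) :
    Submodule.span R' {θ σ} ⊔ Ideal.span {φ s} • (⊤ : Submodule R' P') = ⊤ := by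
  have key : Submodule.span R' (Set.range θ) ≤
      Submodule.span R' {θ σ} ⊔ Ideal.span {φ s} • (⊤ : Submodule R' P') := by
    rw [Submodule.span_le]
    rintro _ ⟨m, rfl⟩
    have hm : m ∈ Submodule.span R {σ} ⊔ Ideal.span {s} • (⊤ : Submodule R P) := by
      rw [hσ]; trivial
    obtain ⟨a, ha, w, hw, rfl⟩ := Submodule.mem_sup.mp hm
    obtain ⟨c, rfl⟩ := Submodule.mem_span_singleton.mp ha
    rw [SetLike.mem_coe, map_add]
    refine Submodule.add_mem _ (Submodule.mem_sup_left ?_) (Submodule.mem_sup_right ?_)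
    · rw [θ.map_smulₛₗ]
      exact Submodule.smul_mem _ _ (Submodule.mem_span_singleton_self _)
    · refine Submodule.smul_induction_on hw ?_ ?_
      · intro i hi x _
        obtain ⟨d, rfl⟩ := Ideal.mem_span_singleton'.mp hi
        rw [θ.map_smulₛₗ, map_mul, mul_comm, mul_smul]
        exact Submodule.smul_mem_smul (Ideal.mem_span_singleton_self _) Submodule.mem_top
      · intro x y hx hy
        rw [map_add]
        exact Submodule.add_mem _ hx hy
  rw [span_range_eq_top_of_isBaseChangeHom h] at key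
  exact eq_top_iff.mpr key

/-- Transport of "no zero at infinity" along a linear equivalence. -/
theorem span_sup_smul_eq_top_of_linearEquiv {P'' : Type u} [AddCommGroup P''] [Module R' P'']
    (e : P' ≃ₗ[R'] P'') (σ : P') (s : R')
    (hσ : Submodule.span R' {σ} ⊔ Ideal.span {s} • (⊤ : Submodule R' P') = ⊤) :
    Submodule.span R' {e σ} ⊔ Ideal.span {s} • (⊤ : Submodule R' P'') = ⊤ := by
  have := span_sup_smul_eq_top_of_isBaseChangeHom
    (isBaseChangeHom_of_linearEquiv (isBaseChangeHom_id (R := R') (P := P')) e _ (fun _ => rfl))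
    σ s hσ
  exact this

/-- If `R` is generated over `B[s]` by finitely many elements, then `R ⧸ (s)` is finite over `B`. -/
theorem finite_quotient_span_of_coords {B R : Type*} [CommRing B] [CommRing R] [Algebra B R]
    (s : R) {n : ℕ} (b : Fin n → R)
    (hb : Function.Surjective (fun p : Fin n → B[X] => ∑ j, Polynomial.aeval s (p j) * b j)) :
    Module.Finite B (R ⧸ Ideal.span {s}) := by
  let g : (Fin n → B) →ₗ[B] R ⧸ Ideal.span {s} :=
    Fintype.linearCombination B (fun j => Ideal.Quotient.mk (Ideal.span {s}) (b j))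
  refine Module.Finite.of_surjective g ?_
  intro x
  obtain ⟨r, rfl⟩ := Ideal.Quotient.mk_surjective x
  obtain ⟨p, rfl⟩ := hb r
  refine ⟨fun j => (p j).coeff 0, ?_⟩
  simp only [g, Fintype.linearCombination_apply, map_sum, map_mul]
  refine Finset.sum_congr rfl fun j _ => ?_
  have h1 : Ideal.Quotient.mk (Ideal.span {s}) (Polynomial.aeval s (p j)) =
      algebraMap B (R ⧸ Ideal.span {s}) ((p j).coeff 0) := by
    conv_lhs => rw [← Polynomial.divX_mul_X_add (p j)]
    rw [map_add, map_mul, Polynomial.aeval_X, Polynomial.aeval_C, map_add, map_mul]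
    have : Ideal.Quotient.mk (Ideal.span {s}) s = 0 :=
      Ideal.Quotient.eq_zero_iff_mem.mpr (Ideal.mem_span_singleton_self s)
    rw [this, mul_zero, zero_add]
    rfl
  rw [h1, Algebra.smul_def]

end Abstract


/-! ### The bricks -/

section Bricks

variable {k : Type u} [Field k] {A0 A1 A01 : Type u} [CommRing A0] [CommRing A1] [CommRing A01]
  [Algebra k A0] [Algebra k A1] [Algebra k A01] [Algebra A0 A01] [Algebra A1 A01]
  [IsScalarTower k A0 A01] [IsScalarTower k A1 A01] {t : A0} {s : A1}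
  [IsLocalization.Away t A01] [IsLocalization.Away s A01]

omit [IsLocalization.Away t A01] [IsLocalization.Away s A01] in
/-- **(BC3)** "no zero at infinity" is stable under base change. -/
theorem bc3 : Brick.BC3 k A0 A1 A01 t s := by
  intro B B' _ _ _ _ ψ N N' c σ1 h
  have h1 := span_sup_smul_eq_top_of_isBaseChangeHom c.cart1 σ1 ((1 : B) ⊗ₜ[k] s) h
  rw [(familyHom ψ t s).map_s] at h1
  exact h1


section Dictionary

variable {B B' : Type u} [CommRing B] [CommRing B'] [Algebra k B] [Algebra k B']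

/-- The `B`-module structure on a module over `B ⊗[k] A`. -/
@[reducible] def moduleBase (A : Type u) [CommRing A] [Algebra k A] (M : Type u) [AddCommGroup M]
    [Module (B ⊗[k] A) M] : Module B M :=
  Module.compHom M (algebraMap B (B ⊗[k] A))

theorem isScalarTower_moduleBase (A : Type u) [CommRing A] [Algebra k A] (M : Type u)
    [AddCommGroup M] [Module (B ⊗[k] A) M] :
    letI := moduleBase (k := k) (B := B) A M
    IsScalarTower B (B ⊗[k] A) M :=
  letI := moduleBase (k := k) (B := B) A M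
  IsScalarTower.of_algebraMap_smul fun _ _ => rfl

/-- The quotient `M1 ⧸ (span {σ1} ⊔ (1 ⊗ s) • ⊤)` measuring the zeros at infinity of `σ1`. -/
abbrev infQuot (N : CDiag k A0 A1 A01 t s B) (σ1 : N.M1) : Type u :=
  N.M1 ⧸ (Submodule.span (B ⊗[k] A1) {σ1} ⊔
    Ideal.span {(1 : B) ⊗ₜ[k] s} • (⊤ : Submodule (B ⊗[k] A1) N.M1))

/-- **Dictionary**: "no zero at infinity" for the canonical base change `bcd ψ N` is the vanishing
of `B' ⊗[B] infQuot N σ1`. -/
theorem noZeroInf_bcd_iff [Algebra B B'] [IsScalarTower k B B'] (ψ : B →ₐ[k] B')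
    (hψ : ∀ b, ψ b = algebraMap B B' b) (N : CDiag k A0 A1 A01 t s B) (σ1 : N.M1) :
    letI := moduleBase (k := k) (B := B) A1 N.M1
    haveI := isScalarTower_moduleBase (k := k) (B := B) A1 N.M1
    NoZeroInf (bcd ψ N) ((bcc ψ N).f1 σ1) ↔ Subsingleton (B' ⊗[B] infQuot N σ1) := by
  let _ := moduleBase (k := k) (B := B) A1 N.M1
  have := isScalarTower_moduleBase (k := k) (B := B) A1 N.M1
  let _ : Algebra (B ⊗[k] A1) (B' ⊗[k] A1) := (familyHom (A01 := A01) ψ t s).ψ1.toAlgebra
  have halg : ∀ (b : B) (a : A1),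
      algebraMap (B ⊗[k] A1) (B' ⊗[k] A1) (b ⊗ₜ a) = algebraMap B B' b ⊗ₜ a := by
    intro b a
    change (Algebra.TensorProduct.map ψ (AlgHom.id k A1)) (b ⊗ₜ a) = _
    rw [Algebra.TensorProduct.map_tmul, hψ]
    rfl
  have := isScalarTower_const k A1 B B' halg
  have := isPushout_const k A1 B B' halg
  have hs : algebraMap (B ⊗[k] A1) (B' ⊗[k] A1) ((1 : B) ⊗ₜ[k] s) = (1 : B') ⊗ₜ[k] s := by
    rw [halg, map_one]
  have key := span_sup_smul_baseChange_iff B B' (B' ⊗[k] A1) σ1 ((1 : B) ⊗ₜ[k] s)
  rw [hs] at key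
  exact key

end Dictionary

omit [IsScalarTower k A0 A01] [IsScalarTower k A1 A01] [IsLocalization.Away t A01]
  [IsLocalization.Away s A01] in
/-- `(B ⊗[k] A1) ⧸ (1 ⊗ s)` is finite over `B`. -/
theorem finite_quotient_span_const (H : CurveHyp k A0 A1 A01 t s) (B : Type u) [CommRing B]
    [Algebra k B] : Module.Finite B ((B ⊗[k] A1) ⧸ Ideal.span {(1 : B) ⊗ₜ[k] s}) := by
  obtain ⟨n, b, hb⟩ := H.coords1
  exact finite_quotient_span_of_coords ((1 : B) ⊗ₜ[k] s) (fun j => (1 : B) ⊗ₜ[k] b j)
    (Fermat.Agent.JAC.Frame.BaseChange65.bijective_baseChange B hb).2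

/-- **(SP3)** "no zero at infinity" at `κ(p)` spreads to a basic open neighbourhood of `p`. -/
theorem sp3 (H : CurveHyp k A0 A1 A01 t s) : Brick.SP3 k A0 A1 A01 t s := by
  intro B _ _ p N σ1 h
  let _ := moduleBase (k := k) (B := B) A1 N.M1
  have := isScalarTower_moduleBase (k := k) (B := B) A1 N.M1
  rw [noZeroInf_bcd_iff (toResidue B p) (fun _ => rfl)] at h
  have := finite_quotient_span_const H B
  have : Module.Finite B (infQuot N σ1) :=
    finite_quotient_span_sup_smul B σ1 ((1 : B) ⊗ₜ[k] s)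
  obtain ⟨f, hfp, hf⟩ := exists_notMem_forall_subsingleton_tensor p.asIdeal h
  refine ⟨f, hfp, ?_⟩
  rw [noZeroInf_bcd_iff (toAway B f) (fun _ => rfl)]
  exact subsingleton_tensor_of_isUnit hf (Localization.Away f)
    (IsLocalization.Away.algebraMap_isUnit f)

/-- **(FE3)** "no zero at infinity" descends along field extensions. -/
theorem fe3 : Brick.FE3 k A0 A1 A01 t s := by
  intro K L _ _ _ _ ψ N N' c σ1 h
  let _ : Algebra K L := ψ.toRingHom.toAlgebra
  have : IsScalarTower k K L := IsScalarTower.of_algebraMap_eq (fun x => (ψ.commutes x).symm)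
  let _ := moduleBase (k := k) (B := K) A1 N.M1
  have := isScalarTower_moduleBase (k := k) (B := K) A1 N.M1
  -- transport to the canonical base change
  obtain ⟨e, he⟩ := IsBaseChangeHom.exists_linearEquiv c.cart1 (bcc ψ N).cart1
  have h1 : NoZeroInf (bcd ψ N) ((bcc ψ N).f1 σ1) := by
    have := span_sup_smul_eq_top_of_linearEquiv e (c.f1 σ1) ((1 : L) ⊗ₜ[k] s) h
    rw [he] at this
    exact this
  rw [noZeroInf_bcd_iff ψ (fun _ => rfl)] at h1
  have h2 : Subsingleton (infQuot N σ1) :=
    Module.FaithfullyFlat.lTensor_reflects_triviality K L (infQuot N σ1)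
  exact Submodule.Quotient.subsingleton_iff.mp h2

end Bricks

end Fermat.Agent.JAC.Hilb.NoZeroInfBricks46
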