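/-
Programme JAC (S25), chapter Hilb.  Owner: helper33.

LOCAL-TO-GLOBAL FOR ALGEBRAIC ATLASES (part (d4) of the chart plan, algebra port of
`Repr/LocalChart24.pointwiseChart_of_local`), against the abstract interface `Core/AlgAtlas36` only.

* `exists_algHom_of_span`: for a chart `(R, x)` with the injectivity property, a rigid class `ξ` over
  `B` comes from the chart as soon as it does so over `B[1/f]` for all `f` in a set spanning the unit
  ideal (the local algebra maps glue by `inj` and the sheaf property of `B`; the classes agree by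
  separatedness `Zar/Sep39.sep`).
* `W_comap`: the pointwise predicate at a prime `p'` of `B'` for `bc φ ξ` is the predicate at
  `φ⁻¹ p'` for `ξ`.
* `LocalAtlas`: the data of an `AlgAtlas` in which `mem_iff`, `isOpen` and `formallySmooth` are
  replaced by the two LOCAL statements `univ` (the universal class satisfies `W` at all points of
  its chart) and `loc` (if `W` holds at a prime `p` of `B` then `ξ` comes from the chart over a basic
  open neighbourhood of `p`).
* `LocalAtlas.toAlgAtlas`: a `LocalAtlas` gives an `AlgAtlas` (formal smoothness by helper70's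
  `formallySmooth_of_chart`).
-/
import Mathlib
import Fermat.Agent.JAC.Core.AlgAtlas36
import Fermat.Agent.JAC.Zar.Sep39
import Fermat.Agent.JAC.Grp.ConstBc33
import Fermat.Agent.JAC.Smooth.AtlasSmoothFinal70

set_option autoImplicit false

universe u

namespace Fermat.Agent.JAC.Hilb.AtlasLocal33

open scoped TensorProduct
open Fermat.Agent.JAC.Core.Defs36 Fermat.Agent.JAC.Core.AlgAtlas36 Fermat.Agent.JAC.Grp.ConstBc33

variable {k : Type u} [Field k] {A0 A1 A01 : Type u} [CommRing A0] [CommRing A1] [CommRing A01]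
  [Algebra k A0] [Algebra k A1] [Algebra k A01] [Algebra A0 A01] [Algebra A1 A01]
  [IsScalarTower k A0 A01] [IsScalarTower k A1 A01] {t : A0} {s : A1}
  [IsLocalization.Away t A01] [IsLocalization.Away s A01]

section Away

variable (B : Type u) [CommRing B] [Algebra k B]

/-- The localisation map `B → B[1/f]` as a `k`-algebra map. -/
noncomputable abbrev toAway (f : B) : B →ₐ[k] Localization.Away f :=
  IsScalarTower.toAlgHom k B (Localization.Away f)

/-- The canonical map `B[1/a] → B[1/(ab)]` as a `k`-algebra map. -/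
noncomputable def awayRight (a b : B) : Localization.Away a →ₐ[k] Localization.Away (a * b) :=
  { IsLocalization.Away.awayToAwayRight (S := Localization.Away a)
      (P := Localization.Away (a * b)) a b with
    commutes' := fun c => by
      change IsLocalization.Away.awayToAwayRight (S := Localization.Away a)
        (P := Localization.Away (a * b)) a b (algebraMap k (Localization.Away a) c) =
        algebraMap k (Localization.Away (a * b)) c
      rw [IsScalarTower.algebraMap_apply k B (Localization.Away a),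
        IsScalarTower.algebraMap_apply k B (Localization.Away (a * b))]
      exact IsLocalization.Away.awayToAwayRight_eq a b _ }

/-- The canonical map `B[1/b] → B[1/(ab)]` as a `k`-algebra map. -/
noncomputable def awayLeft (b a : B) : Localization.Away b →ₐ[k] Localization.Away (a * b) :=
  { IsLocalization.Away.awayToAwayLeft (S := Localization.Away b)
      (P := Localization.Away (a * b)) b a with
    commutes' := fun c => by
      change IsLocalization.Away.awayToAwayLeft (S := Localization.Away b)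
        (P := Localization.Away (a * b)) b a (algebraMap k (Localization.Away b) c) =
        algebraMap k (Localization.Away (a * b)) c
      rw [IsScalarTower.algebraMap_apply k B (Localization.Away b),
        IsScalarTower.algebraMap_apply k B (Localization.Away (a * b))]
      exact IsLocalization.Away.awayToAwayLeft_eq b a _ }

theorem awayRight_apply (a b : B) (z : Localization.Away a) :
    awayRight (k := k) B a b z = IsLocalization.Away.awayToAwayRight (S := Localization.Away a)
      (P := Localization.Away (a * b)) a b z := rfl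

theorem awayLeft_apply (b a : B) (z : Localization.Away b) :
    awayLeft (k := k) B b a z = IsLocalization.Away.awayToAwayLeft (S := Localization.Away b)
      (P := Localization.Away (a * b)) b a z := rfl

theorem awayRight_comp_toAway (a b : B) :
    (awayRight (k := k) B a b).comp (toAway B a) = toAway B (a * b) := by
  ext c
  exact IsLocalization.Away.awayToAwayRight_eq a b c

theorem awayLeft_comp_toAway (b a : B) :
    (awayLeft (k := k) B b a).comp (toAway B b) = toAway B (a * b) := by
  ext c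
  exact IsLocalization.Away.awayToAwayLeft_eq b a c

end Away

section Glue

variable (e : A01 →ₐ[k] k)

/-- **Gluing of local factorisations through a chart** (algebra form of
`LocalChart24.exists_hom_of_span`). -/
theorem exists_algHom_of_span
    (hH0 : ∀ (a0 : A0) (a1 : A1), algebraMap A0 A01 a0 = algebraMap A1 A01 a1 →
      ∃ c : k, a0 = algebraMap k A0 c ∧ a1 = algebraMap k A1 c)
    {R : Type u} [CommRing R] [Algebra k R] (x : Cl k A0 A1 A01 t s R)
    (x_rigid : IsRigidCl e R x)
    (inj : ∀ (B : Type u) [CommRing B] [Algebra k B] (φ ψ : R →ₐ[k] B),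
      bc φ x = bc ψ x → φ = ψ)
    (B : Type u) [CommRing B] [Algebra k B] (ξ : Cl k A0 A1 A01 t s B) (hξ : IsRigidCl e B ξ)
    (S : Set B) (hS : Ideal.span S = ⊤)
    (h : ∀ f ∈ S, ∃ ψ : R →ₐ[k] Localization.Away f, bc ψ x = bc (toAway B f) ξ) :
    ∃ ψ : R →ₐ[k] B, bc ψ x = ξ := by
  choose ψ hψ using h
  -- compatibility on the overlaps
  have hcompat : ∀ a b : S, (awayRight B a.1 b.1).comp (ψ a.1 a.2) =
      (awayLeft B b.1 a.1).comp (ψ b.1 b.2) := by
    intro a b
    apply inj
    rw [← bc_bc, ← bc_bc, hψ, hψ, bc_bc, bc_bc, awayRight_comp_toAway, awayLeft_comp_toAway]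
  -- the two maps to the product of the localisations
  let Ψ : R →ₐ[k] (∀ a : S, Localization.Away a.1) := AlgHom.pi (fun a => ψ a.1 a.2)
  let ι : B →ₐ[k] (∀ a : S, Localization.Away a.1) := AlgHom.pi (fun a => toAway B a.1)
  have hι : Function.Injective ι := by
    have := Localization.algebraMap_injective_of_span_eq_top S hS
    intro c c' hc
    exact this hc
  have hrange : ∀ r, Ψ r ∈ ι.range := by
    intro r
    obtain ⟨c, hc, -⟩ := Localization.existsUnique_algebraMap_eq_of_span_eq_top S hS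
      (fun a => ψ a.1 a.2 r) (fun a b => by
        have := AlgHom.congr_fun (hcompat a b) r
        exact this)
    exact ⟨c, funext fun a => hc a⟩
  let ψ0 : R →ₐ[k] B :=
    ((AlgEquiv.ofInjective ι hι).symm : ι.range →ₐ[k] B).comp (Ψ.codRestrict ι.range hrange)
  have hψ0 : ∀ r, ι (ψ0 r) = Ψ r := by
    intro r
    have h1 : (AlgEquiv.ofInjective ι hι) (ψ0 r) = Ψ.codRestrict ι.range hrange r :=
      AlgEquiv.apply_symm_apply _ _
    exact congrArg Subtype.val h1
  have hcomp : ∀ a : S, (toAway B a.1).comp ψ0 = ψ a.1 a.2 := by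
    intro a
    ext r
    exact congrFun (hψ0 r) a
  refine ⟨ψ0, ?_⟩
  refine Fermat.Agent.JAC.Zar.Sep39.sep e hH0 B (bc ψ0 x) ξ (isRigidCl_bc e ψ0 x x_rigid) hξ S hS
    (fun f hf => ?_)
  have := hcomp ⟨f, hf⟩
  change bc (toAway B f) (bc ψ0 x) = bc (toAway B f) ξ
  rw [bc_bc, this, hψ]

end Glue

section Local

variable (e : A01 →ₐ[k] k)

/-- The residue field map `κ(φ⁻¹ p') → κ(p')` as a `k`-algebra map. -/
noncomputable abbrev residueMap {B B' : Type u} [CommRing B] [CommRing B'] [Algebra k B]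
    [Algebra k B'] (φ : B →ₐ[k] B') (p' : PrimeSpectrum B') :
    (PrimeSpectrum.comap φ.toRingHom p').asIdeal.ResidueField →ₐ[k] p'.asIdeal.ResidueField :=
  Ideal.ResidueField.mapₐ (PrimeSpectrum.comap φ.toRingHom p').asIdeal p'.asIdeal φ rfl

theorem residueMap_comp_toResidue {B B' : Type u} [CommRing B] [CommRing B'] [Algebra k B]
    [Algebra k B'] (φ : B →ₐ[k] B') (p' : PrimeSpectrum B') :
    (residueMap φ p').comp (toResidue B (PrimeSpectrum.comap φ.toRingHom p')) =
      (toResidue B' p').comp φ := by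
  ext b
  exact Ideal.ResidueField.map_algebraMap _ _ _ _ b

variable {R : Type u} [CommRing R] [Algebra k R] (x : Cl k A0 A1 A01 t s R)
  (W : ∀ (K : Type u) [Field K] [Algebra k K], Cl k A0 A1 A01 t s K → Prop)
  (W_iff : ∀ (K L : Type u) [Field K] [Field L] [Algebra k K] [Algebra k L]
    (ψ : K →ₐ[k] L) (ξ : Cl k A0 A1 A01 t s K), IsRigidCl e K ξ → IsDegZero K ξ →
    (W L (bc ψ ξ) ↔ W K ξ))

include W_iff in
/-- The predicate `W` at a prime `p'` of `B'` for `bc φ ξ` is the predicate at `φ⁻¹ p'` for `ξ`. -/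
theorem W_comap {B B' : Type u} [CommRing B] [CommRing B'] [Algebra k B] [Algebra k B']
    (φ : B →ₐ[k] B') (ξ : Cl k A0 A1 A01 t s B) (hr : IsRigidCl e B ξ) (hd : IsDegZero B ξ)
    (p' : PrimeSpectrum B') :
    W p'.asIdeal.ResidueField (bc (toResidue B' p') (bc φ ξ)) ↔
      W (PrimeSpectrum.comap φ.toRingHom p').asIdeal.ResidueField
        (bc (toResidue B (PrimeSpectrum.comap φ.toRingHom p')) ξ) := by
  rw [← W_iff _ _ (residueMap φ p') _ (isRigidCl_bc e _ ξ hr) (isDegZero_bc _ ξ hd), bc_bc, bc_bc,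
    residueMap_comp_toResidue]

include W_iff in
/-- If `W` holds at all points of `Spec R` for the universal class, it holds at all points of
`Spec B` for every class coming from the chart. -/
theorem W_of_algHom (x_rigid : IsRigidCl e R x) (x_degZero : IsDegZero R x)
    (univ : ∀ p : PrimeSpectrum R, W p.asIdeal.ResidueField (bc (toResidue R p) x))
    {B : Type u} [CommRing B] [Algebra k B] (ψ : R →ₐ[k] B) (p : PrimeSpectrum B) :
    W p.asIdeal.ResidueField (bc (toResidue B p) (bc ψ x)) :=
  (W_comap e W W_iff ψ x x_rigid x_degZero p).mpr (univ _)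

variable (hH0 : ∀ (a0 : A0) (a1 : A1), algebraMap A0 A01 a0 = algebraMap A1 A01 a1 →
    ∃ c : k, a0 = algebraMap k A0 c ∧ a1 = algebraMap k A1 c)
  (x_rigid : IsRigidCl e R x) (x_degZero : IsDegZero R x)
  (inj : ∀ (B : Type u) [CommRing B] [Algebra k B] (φ ψ : R →ₐ[k] B),
    bc φ x = bc ψ x → φ = ψ)
  (univ : ∀ p : PrimeSpectrum R, W p.asIdeal.ResidueField (bc (toResidue R p) x))
  (loc : ∀ (B : Type u) [CommRing B] [Algebra k B] (ξ : Cl k A0 A1 A01 t s B),
    IsRigidCl e B ξ → IsDegZero B ξ → ∀ p : PrimeSpectrum B,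
    W p.asIdeal.ResidueField (bc (toResidue B p) ξ) →
    ∃ f : B, f ∉ p.asIdeal ∧ ∃ ψ : R →ₐ[k] Localization.Away f, bc ψ x = bc (toAway B f) ξ)

include W_iff hH0 x_rigid x_degZero inj univ loc in
/-- **The field `mem_iff` of an `AlgAtlas` from the local statements.** -/
theorem mem_iff_of_local (B : Type u) [CommRing B] [Algebra k B] (ξ : Cl k A0 A1 A01 t s B)
    (hr : IsRigidCl e B ξ) (hd : IsDegZero B ξ) :
    (∃ ψ : R →ₐ[k] B, bc ψ x = ξ) ↔
      ∀ p : PrimeSpectrum B, W p.asIdeal.ResidueField (bc (toResidue B p) ξ) := by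
  constructor
  · rintro ⟨ψ, rfl⟩ p
    exact W_of_algHom e x W W_iff x_rigid x_degZero univ ψ p
  · intro h
    refine exists_algHom_of_span e hH0 x x_rigid inj B ξ hr
      {f | ∃ ψ : R →ₐ[k] Localization.Away f, bc ψ x = bc (toAway B f) ξ} ?_ (fun a ha => ha)
    by_contra hne
    obtain ⟨m, hm, hle⟩ := Ideal.exists_le_maximal _ hne
    obtain ⟨f, hf, hψ⟩ := loc B ξ hr hd ⟨m, hm.isPrime⟩ (h _)
    exact hf (hle (Ideal.subset_span hψ))

include W_iff x_rigid x_degZero univ loc in
/-- **The field `isOpen` of an `AlgAtlas` from the local statements.** -/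
theorem isOpen_of_local (B : Type u) [CommRing B] [Algebra k B] (ξ : Cl k A0 A1 A01 t s B)
    (hr : IsRigidCl e B ξ) (hd : IsDegZero B ξ) :
    IsOpen {p : PrimeSpectrum B | W p.asIdeal.ResidueField (bc (toResidue B p) ξ)} := by
  rw [isOpen_iff_forall_mem_open]
  intro p hp
  obtain ⟨f, hf, ψ, hψ⟩ := loc B ξ hr hd p hp
  refine ⟨PrimeSpectrum.basicOpen f, ?_, (PrimeSpectrum.basicOpen f).isOpen, hf⟩
  intro q hq
  have hq' : q ∈ Set.range (PrimeSpectrum.comap (algebraMap B (Localization.Away f))) := by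
    rw [PrimeSpectrum.localization_away_comap_range (Localization.Away f) f]
    exact hq
  obtain ⟨q', rfl⟩ := hq'
  have h1 := W_of_algHom e x W W_iff x_rigid x_degZero univ ψ q'
  rw [hψ] at h1
  exact (W_comap e W W_iff (toAway B f) ξ hr hd q').mp h1

end Local

/-- **A local atlas**: the data of an `AlgAtlas36.AlgAtlas` in which the global statements
`mem_iff`, `isOpen` (and `formallySmooth`) are replaced by the two LOCAL statements `univ` and
`loc`. -/
structure LocalAtlas (e : A01 →ₐ[k] k) where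
  /-- index type of the charts -/
  ι : Type u
  /-- the chart rings -/
  R : ι → Type u
  [commRing : ∀ γ, CommRing (R γ)]
  [algebra : ∀ γ, Algebra k (R γ)]
  finiteType : ∀ γ, Algebra.FiniteType k (R γ)
  /-- the universal classes -/
  x : ∀ γ, Cl k A0 A1 A01 t s (R γ)
  x_rigid : ∀ γ, IsRigidCl e (R γ) (x γ)
  x_degZero : ∀ γ, IsDegZero (R γ) (x γ)
  /-- the pointwise predicates on field-valued points -/
  W : ι → ∀ (K : Type u) [Field K] [Algebra k K], Cl k A0 A1 A01 t s K → Prop
  W_iff : ∀ (γ : ι) (K L : Type u) [Field K] [Field L] [Algebra k K] [Algebra k L]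
    (ψ : K →ₐ[k] L) (ξ : Cl k A0 A1 A01 t s K), IsRigidCl e K ξ → IsDegZero K ξ →
    (W γ L (bc ψ ξ) ↔ W γ K ξ)
  inj : ∀ (γ : ι) (B : Type u) [CommRing B] [Algebra k B] (φ ψ : R γ →ₐ[k] B),
    bc φ (x γ) = bc ψ (x γ) → φ = ψ
  /-- the universal class satisfies `W` at all points of its chart -/
  univ : ∀ (γ : ι) (p : PrimeSpectrum (R γ)),
    W γ p.asIdeal.ResidueField (bc (toResidue (R γ) p) (x γ))
  /-- if `W` holds at `p` then `ξ` comes from the chart on a basic open neighbourhood of `p` -/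
  loc : ∀ (γ : ι) (B : Type u) [CommRing B] [Algebra k B] (ξ : Cl k A0 A1 A01 t s B),
    IsRigidCl e B ξ → IsDegZero B ξ → ∀ p : PrimeSpectrum B,
    W γ p.asIdeal.ResidueField (bc (toResidue B p) ξ) →
    ∃ f : B, f ∉ p.asIdeal ∧ ∃ ψ : R γ →ₐ[k] Localization.Away f,
      bc ψ (x γ) = bc (toAway B f) ξ
  covers : ∀ (K : Type u) [Field K] [Algebra k K] (ξ : Cl k A0 A1 A01 t s K),
    IsRigidCl e K ξ → IsDegZero K ξ → ∃ γ, W γ K ξ

attribute [instance] LocalAtlas.commRing LocalAtlas.algebra

/-- **A local atlas is an atlas.** -/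
noncomputable def LocalAtlas.toAlgAtlas {e : A01 →ₐ[k] k}
    (𝔏 : LocalAtlas (A0 := A0) (A1 := A1) (t := t) (s := s) e)
    (hH0 : ∀ (a0 : A0) (a1 : A1), algebraMap A0 A01 a0 = algebraMap A1 A01 a1 →
      ∃ c : k, a0 = algebraMap k A0 c ∧ a1 = algebraMap k A1 c) :
    AlgAtlas k A0 A1 A01 t s e where
  ι := 𝔏.ι
  R := 𝔏.R
  finiteType := 𝔏.finiteType
  formallySmooth γ :=
    Fermat.Agent.JAC.Smooth.AtlasSmoothFinal70.formallySmooth_of_chart (𝔏.R γ) (𝔏.x γ)
      (𝔏.x_rigid γ) (𝔏.x_degZero γ) (𝔏.W γ) (𝔏.W_iff γ) (𝔏.inj γ)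
      (mem_iff_of_local e (𝔏.x γ) (𝔏.W γ) (𝔏.W_iff γ) hH0 (𝔏.x_rigid γ) (𝔏.x_degZero γ)
        (𝔏.inj γ) (𝔏.univ γ) (𝔏.loc γ))
  x := 𝔏.x
  x_rigid := 𝔏.x_rigid
  x_degZero := 𝔏.x_degZero
  W := 𝔏.W
  W_iff := 𝔏.W_iff
  inj := 𝔏.inj
  mem_iff γ := mem_iff_of_local e (𝔏.x γ) (𝔏.W γ) (𝔏.W_iff γ) hH0 (𝔏.x_rigid γ) (𝔏.x_degZero γ)
    (𝔏.inj γ) (𝔏.univ γ) (𝔏.loc γ)
  isOpen γ := isOpen_of_local e (𝔏.x γ) (𝔏.W γ) (𝔏.W_iff γ) (𝔏.x_rigid γ) (𝔏.x_degZero γ)
    (𝔏.univ γ) (𝔏.loc γ)
  covers := 𝔏.covers

end Fermat.Agent.JAC.Hilb.AtlasLocal33
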