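/-
Programme JAC (S25), chart theorem (A4.3) and atlas assembly.  Owner: helper24.

Elementary lemmas on the conditions of `Hilb/ChartDef24` (no brick is used here):
invariance under isomorphisms of line diagrams, under multiplication of the section by a unit of
the base, and uniqueness of generating sections up to a unit.
-/
import Mathlib
import Fermat.Agent.JAC.Hilb.ChartSpec24

set_option autoImplicit false
set_option maxHeartbeats 400000
set_option linter.unusedSectionVars false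

universe u

namespace Fermat.Agent.JAC.Hilb.ChartLemmas24

open scoped TensorProduct Polynomial
open scoped Fermat.Agent.JAC.Core.ConstFamily36
open Fermat.Agent.JAC.Core.Defs36 Fermat.Agent.JAC.Core.Cart36 Fermat.Agent.JAC.Core.ConstFamily36
  Fermat.Agent.JAC.Core.Degree36 Fermat.Agent.JAC.Core.AlgAtlas36 Fermat.Agent.JAC.Grp.Diag33
  Fermat.Agent.JAC.Hilb.BasedQuot46 Fermat.Agent.JAC.Hilb.ZeroIdeal46
  Fermat.Agent.JAC.Hilb.ChartDef24 Fermat.Agent.JAC.Hilb.ChartSpec24

variable {k : Type u} [Field k] {A0 A1 A01 : Type u} [CommRing A0] [CommRing A1] [CommRing A01]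
  [Algebra k A0] [Algebra k A1] [Algebra k A01] [Algebra A0 A01] [Algebra A1 A01]
  [IsScalarTower k A0 A01] [IsScalarTower k A1 A01] {t : A0} {s : A1}
  [IsLocalization.Away t A01] [IsLocalization.Away s A01]

variable {B : Type u} [CommRing B] [Algebra k B]

section Iso

variable {N N' : CDiag k A0 A1 A01 t s B} (ε : LineDiag.Iso N N')

include ε in
theorem h1Zero_of_iso (h : H1Zero N) : H1Zero N' := by
  intro z
  obtain ⟨x, y, hxy⟩ := h (ε.e01.symm z)
  refine ⟨ε.e0 x, ε.e1 y, ?_⟩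
  rw [← ε.comm0, ← ε.comm1, ← map_sub, hxy, LinearEquiv.apply_symm_apply]

theorem isGenSection_of_iso {σ0 : N.M0} {σ1 : N.M1} (h : IsGenSection N σ0 σ1) :
    IsGenSection N' (ε.e0 σ0) (ε.e1 σ1) := by
  obtain ⟨hσ, hgen⟩ := h
  refine ⟨by rw [← ε.comm0, ← ε.comm1, hσ], fun x y hxy => ?_⟩
  have hxy' : N.rho0 (ε.e0.symm x) = N.rho1 (ε.e1.symm y) := by
    apply ε.e01.injective
    rw [ε.comm0, ε.comm1, LinearEquiv.apply_symm_apply, LinearEquiv.apply_symm_apply, hxy]
  obtain ⟨b, ⟨hb0, hb1⟩, huniq⟩ := hgen _ _ hxy'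
  refine ⟨b, ⟨?_, ?_⟩, ?_⟩
  · rw [← map_smul, ← hb0, LinearEquiv.apply_symm_apply]
  · rw [← map_smul, ← hb1, LinearEquiv.apply_symm_apply]
  · rintro b' ⟨h0, h1⟩
    apply huniq
    constructor
    · rw [h0, map_smul, LinearEquiv.symm_apply_apply]
    · rw [h1, map_smul, LinearEquiv.symm_apply_apply]

theorem noZeroInf_of_iso {σ1 : N.M1} (h : NoZeroInf N σ1) : NoZeroInf N' (ε.e1 σ1) := by
  unfold NoZeroInf at h ⊢
  have := congrArg (Submodule.map ε.e1.toLinearMap) h
  rw [Submodule.map_sup, Submodule.map_span, Set.image_singleton, Submodule.map_smul'',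
    Submodule.map_top, LinearMap.range_eq_top.mpr ε.e1.surjective] at this
  exact this

theorem zeroIdeal_of_iso (σ0 : N.M0) :
    zeroIdeal (B ⊗[k] A0) (ε.e0 σ0) = zeroIdeal (B ⊗[k] A0) σ0 :=
  zeroIdeal_equiv ε.e0 σ0

end Iso

section Unit

variable {N : CDiag k A0 A1 A01 t s B}

/-- Two generating sections differ by a unit of the base. -/
theorem exists_isUnit_of_isGenSection {σ0 τ0 : N.M0} {σ1 τ1 : N.M1}
    (hσ : IsGenSection N σ0 σ1) (hτ : IsGenSection N τ0 τ1) :
    ∃ b : B, IsUnit b ∧ τ0 = algebraMap B (B ⊗[k] A0) b • σ0 ∧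
      τ1 = algebraMap B (B ⊗[k] A1) b • σ1 := by
  obtain ⟨b, ⟨hb0, hb1⟩, -⟩ := hσ.2 τ0 τ1 hτ.1
  obtain ⟨b', ⟨hb0', hb1'⟩, -⟩ := hτ.2 σ0 σ1 hσ.1
  obtain ⟨c, -, hc⟩ := hσ.2 σ0 σ1 hσ.1
  have h1 : (1 : B) = c := hc 1 ⟨by rw [map_one, one_smul], by rw [map_one, one_smul]⟩
  have h2 : b' * b = c := by
    apply hc
    constructor
    · rw [map_mul, mul_smul, ← hb0, ← hb0']
    · rw [map_mul, mul_smul, ← hb1, ← hb1']
  exact ⟨b, .of_mul_eq_one_right b' (h2.trans h1.symm), hb0, hb1⟩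

theorem isGenSection_smul {σ0 : N.M0} {σ1 : N.M1} (h : IsGenSection N σ0 σ1) {b : B}
    (hb : IsUnit b) :
    IsGenSection N (algebraMap B (B ⊗[k] A0) b • σ0) (algebraMap B (B ⊗[k] A1) b • σ1) := by
  obtain ⟨u, rfl⟩ := hb
  refine ⟨?_, fun x y hxy => ?_⟩
  · rw [map_smul, map_smul, h.1]
    rw [← algebraMap_smul (B ⊗[k] A01) (algebraMap B (B ⊗[k] A0) (u : B)),
      ← algebraMap_smul (B ⊗[k] A01) (algebraMap B (B ⊗[k] A1) (u : B))]
    congr 1
    rw [← IsScalarTower.algebraMap_apply, ← IsScalarTower.algebraMap_apply]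
  · obtain ⟨c, ⟨hc0, hc1⟩, huniq⟩ := h.2 x y hxy
    refine ⟨c * (↑u⁻¹ : B), ⟨?_, ?_⟩, ?_⟩
    · rw [smul_smul, ← map_mul, mul_assoc, Units.inv_mul, mul_one, hc0]
    · rw [smul_smul, ← map_mul, mul_assoc, Units.inv_mul, mul_one, hc1]
    · rintro c' ⟨h0, h1⟩
      have : c' * u = c := by
        apply huniq
        constructor
        · rw [h0, smul_smul, ← map_mul]
        · rw [h1, smul_smul, ← map_mul]
      rw [← this, mul_assoc, Units.mul_inv, mul_one]

theorem noZeroInf_smul {σ1 : N.M1} (h : NoZeroInf N σ1) {b : B} (hb : IsUnit b) :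
    NoZeroInf N (algebraMap B (B ⊗[k] A1) b • σ1) := by
  unfold NoZeroInf at h ⊢
  rw [Submodule.span_singleton_smul_eq (hb.map (algebraMap B (B ⊗[k] A1)))]
  exact h

theorem zeroIdeal_smul_of_isUnit (σ0 : N.M0) {b : B} (hb : IsUnit b) :
    zeroIdeal (B ⊗[k] A0) (algebraMap B (B ⊗[k] A0) b • σ0) = zeroIdeal (B ⊗[k] A0) σ0 :=
  zeroIdeal_isUnit_smul (hb.map (algebraMap B (B ⊗[k] A0))) σ0

end Unit

section Point

variable {n : ℕ} (β : Fin n → A0) {B' : Type u} [CommRing B'] [Algebra k B']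

theorem isBasedQuot_pointIdeal (f : chartRing k A0 β →ₐ[k] B) : IsBasedQuot β (pointIdeal β f) :=
  (pointEquiv f).isBasedQuot_ideal

/-- The ideal of the composite point is the extension of the ideal. -/
theorem pointIdeal_comp (g : B →ₐ[k] B') (f : chartRing k A0 β →ₐ[k] B) :
    pointIdeal β (g.comp f) = Ideal.map (tensorMap (A := A0) g) (pointIdeal β f) := by
  unfold pointIdeal
  rw [pointEquiv_comp, BasedPoint.map_ideal]

/-- A point of the chart ring is determined by its ideal. -/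
theorem pointIdeal_injective {f f' : chartRing k A0 β →ₐ[k] B}
    (h : pointIdeal β f = pointIdeal β f') : f = f' := by
  apply (pointEquiv (k := k) (A := A0) (β := β) (B := B)).injective
  apply (basedPointEquivIdeal (k := k) (A := A0) (β := β) (B := B)).injective
  exact Subtype.ext h

/-- Every based quotient is classified by a point of the chart ring. -/
theorem exists_pointIdeal_eq {I : Ideal (B ⊗[k] A0)} (h : IsBasedQuot β I) :
    ∃ f : chartRing k A0 β →ₐ[k] B, pointIdeal β f = I := by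
  refine ⟨(pointEquiv (k := k) (A := A0) (β := β) (B := B)).symm h.toBasedPoint, ?_⟩
  unfold pointIdeal
  rw [Equiv.apply_symm_apply, h.toBasedPoint_ideal]

theorem finite_quot_of_isBasedQuot {I : Ideal (B ⊗[k] A0)} (h : IsBasedQuot β I) :
    Module.Finite B ((B ⊗[k] A0) ⧸ I) :=
  Module.Finite.equiv h.equiv

theorem free_quot_of_isBasedQuot {I : Ideal (B ⊗[k] A0)} (h : IsBasedQuot β I) :
    Module.Free B ((B ⊗[k] A0) ⧸ I) :=
  Module.Free.of_equiv h.equiv

end Point

end Fermat.Agent.JAC.Hilb.ChartLemmas24
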