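/-
Programme JAC (S25), chart theorem (A4.3) and atlas assembly.  Owner: helper24.

ASSEMBLY, part 1: from the bricks of `Hilb/ChartSpec24` (taken as hypotheses, bundled in the
structure `Bricks`) to the properties of the predicate `chartW`:
* `chartW_bc`      : `chartW` is stable under arbitrary base change;
* `chartW_of_bc_field` : `chartW` descends along field extensions (so `W_iff`);
* `chartW_locClass`: the universal class satisfies `chartW` over its chart ring;
* `exists_algHom_of_chartW` : THE CHART THEOREM: a class satisfying `chartW` over `B` comes from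
  the chart by a (unique, `inj_locClass`) `k`-algebra map `Localization.Away φ → B`.
-/
import Mathlib
import Fermat.Agent.JAC.Hilb.ChartLemmas24

set_option autoImplicit false
set_option maxHeartbeats 400000
set_option linter.unusedSectionVars false

universe u

namespace Fermat.Agent.JAC.Hilb.ChartAssembly24

open scoped TensorProduct Polynomial
open scoped Fermat.Agent.JAC.Core.ConstFamily36
open Fermat.Agent.JAC.Core.Defs36 Fermat.Agent.JAC.Core.Cart36 Fermat.Agent.JAC.Core.ConstFamily36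
  Fermat.Agent.JAC.Core.Degree36 Fermat.Agent.JAC.Core.AlgAtlas36 Fermat.Agent.JAC.Grp.Diag33
  Fermat.Agent.JAC.Hilb.BasedQuot46 Fermat.Agent.JAC.Hilb.ZeroIdeal46
  Fermat.Agent.JAC.Hilb.ChartDef24 Fermat.Agent.JAC.Hilb.ChartSpec24
  Fermat.Agent.JAC.Hilb.ChartLemmas24

variable {k : Type u} [Field k] {A0 A1 A01 : Type u} [CommRing A0] [CommRing A1] [CommRing A01]
  [Algebra k A0] [Algebra k A1] [Algebra k A01] [Algebra A0 A01] [Algebra A1 A01]
  [IsScalarTower k A0 A01] [IsScalarTower k A1 A01] {t : A0} {s : A1}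
  [IsLocalization.Away t A01] [IsLocalization.Away s A01]

variable (k A0 A1 A01 t s) in
/-- All the bricks of `Hilb/ChartSpec24` (except `COV`, which depends on the twists). -/
structure Bricks (hts : algebraMap A0 A01 t * algebraMap A1 A01 s = 1) (e : A01 →ₐ[k] k) :
    Prop where
  bc1 : Brick.BC1 k A0 A1 A01 t s
  bc2 : Brick.BC2 k A0 A1 A01 t s
  bc3 : Brick.BC3 k A0 A1 A01 t s
  bc4 : Brick.BC4 k A0 A1 A01 t s
  fe1 : Brick.FE1 k A0 A1 A01 t s
  fe2 : Brick.FE2 k A0 A1 A01 t s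
  fe3 : Brick.FE3 k A0 A1 A01 t s
  sp1 : Brick.SP1 k A0 A1 A01 t s
  sp2 : Brick.SP2 k A0 A1 A01 t s
  sp3 : Brick.SP3 k A0 A1 A01 t s
  k0 : Brick.K0 k A0
  k1 : Brick.K1 k A0 A1 A01 t s hts
  k2 : Brick.K2 k A0 A1 A01 t s hts
  k3 : Brick.K3 k A0 A1 A01 t s hts
  k4 : Brick.K4 k A0 A1 A01 t s
  g1 : Brick.G1 k A0 A1 A01 t s
  g2 : Brick.G2 k A0 A1 A01 t s
  g3 : Brick.G3 k A0 A1 A01 t s e
  g4 : Brick.G4 k A0 A1 A01 t s e
  g5 : Brick.G5 k A0 A1 A01 t s e
  g6 : Brick.G6 k A0 A1 A01 t s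
  g7 : Brick.G7 k A0 A1 A01 t s
  fs : Brick.FS k A0 A1 A01 t s e

variable {hts : algebraMap A0 A01 t * algebraMap A1 A01 s = 1} {e : A01 →ₐ[k] k}
  (hB : Bricks k A0 A1 A01 t s hts e)
  {J : Type u} (lam : J → Cl k A0 A1 A01 t s k)

section Twist

variable {B B' : Type u} [CommRing B] [CommRing B'] [Algebra k B] [Algebra k B']

include hB in
/-- The twists are compatible with base change. -/
theorem bc_twist (ψ : B →ₐ[k] B') (j : J) : bc ψ (twist lam B j) = twist lam B' j := by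
  unfold twist
  rw [← hB.g1.2]
  congr 2
  ext

include hB in
theorem bc_cls_bcd (ψ : B →ₐ[k] B') (N : CDiag k A0 A1 A01 t s B) :
    bc ψ (cls N) = cls (bcd ψ N) :=
  (hB.g2 B B' ψ N (bcd ψ N)).mpr ⟨bcc ψ N⟩

end Twist

section BaseChange

variable {n : ℕ} (β : Fin n → A0) (j : J) (φ : chartRing k A0 β)
  {B B' : Type u} [CommRing B] [CommRing B'] [Algebra k B] [Algebra k B']

include hB in
/-- **`chartW` is stable under base change.** -/
theorem chartW_bc (ψ : B →ₐ[k] B') (ξ : Cl k A0 A1 A01 t s B)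
    (h : chartW lam β j φ B ξ) : chartW lam β j φ B' (bc ψ ξ) := by
  obtain ⟨N, σ0, σ1, hcls, h1, hgen, hinf, f, hf, hu⟩ := h
  refine ⟨bcd ψ N, (bcc ψ N).f0 σ0, (bcc ψ N).f1 σ1, ?_, hB.bc1 B B' ψ N _ (bcc ψ N) h1,
    hB.bc2 B B' ψ N _ (bcc ψ N) σ0 σ1 h1 hgen, hB.bc3 B B' ψ N _ (bcc ψ N) σ1 hinf,
    ψ.comp f, ?_, ?_⟩
  · rw [← bc_cls_bcd hB, hcls, map_mul, bc_twist hB]
  · rw [pointIdeal_comp, hf, hB.bc4 B B' ψ N _ (bcc ψ N) σ0]
  · exact hu.map ψ

end BaseChange

section FieldExt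

variable {n : ℕ} (β : Fin n → A0) (j : J) (φ : chartRing k A0 β)
  {K L : Type u} [Field K] [Field L] [Algebra k K] [Algebra k L]

/-- Based quotients descend along field extensions. -/
theorem isBasedQuot_of_map_field (ψ : K →ₐ[k] L) (I : Ideal (K ⊗[k] A0))
    (h : IsBasedQuot β (Ideal.map (tensorMap (A := A0) ψ) I)) : IsBasedQuot β I := by
  letI : Algebra K L := ψ.toRingHom.toAlgebra
  haveI : IsScalarTower k K L := IsScalarTower.of_algebraMap_eq (fun c => (ψ.commutes c).symm)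
  have hψ : IsScalarTower.toAlgHom k K L = ψ := by ext; rfl
  rw [← Fermat.Agent.JAC.Hilb.BasedOpen24.isBasedQuot_baseChange_iff_of_faithfullyFlat β I L,
    Fermat.Agent.JAC.Hilb.BasedOpen24.baseChangeIdeal_eq_map_tensorMap, hψ]
  exact h

include hB in
/-- **`chartW` descends along field extensions.** -/
theorem chartW_of_bc_field (ψ : K →ₐ[k] L) (ξ : Cl k A0 A1 A01 t s K)
    (h : chartW lam β j φ L (bc ψ ξ)) : chartW lam β j φ K ξ := by
  obtain ⟨N', τ0, τ1, hcls, h1, hgen, hinf, f', hf', hu⟩ := h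
  obtain ⟨N, hN⟩ : ∃ N : CDiag k A0 A1 A01 t s K, cls N = ξ * twist lam K j :=
    Quotient.exists_rep _
  have hNL : cls N' = cls (bcd ψ N) := by
    rw [← bc_cls_bcd hB, hN, map_mul, bc_twist hB, hcls]
  obtain ⟨ε⟩ := cls_eq_iff.mp hNL
  have h1L := h1Zero_of_iso ε h1
  have hgenL := isGenSection_of_iso ε hgen
  have hinfL := noZeroInf_of_iso ε hinf
  have h1K := hB.fe1 K L ψ N _ (bcc ψ N) h1L
  obtain ⟨σ0, σ1, hgenK⟩ := hB.fe2 K L ψ N _ (bcc ψ N) _ _ h1L hgenL
  have hgenL' := hB.bc2 K L ψ N _ (bcc ψ N) σ0 σ1 h1K hgenK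
  obtain ⟨b', hb', hb0', hb1'⟩ := exists_isUnit_of_isGenSection hgenL hgenL'
  have hinfL' : NoZeroInf (bcd ψ N) ((bcc ψ N).f1 σ1) := by
    rw [hb1']
    exact noZeroInf_smul hinfL hb'
  have hinfK := hB.fe3 K L ψ N _ (bcc ψ N) σ1 hinfL'
  have hz : Ideal.map (tensorMap (A := A0) ψ) (zeroIdeal (K ⊗[k] A0) σ0) = pointIdeal β f' := by
    rw [← hB.bc4 K L ψ N _ (bcc ψ N) σ0, hb0', zeroIdeal_smul_of_isUnit _ hb', zeroIdeal_of_iso,
      hf']
  have hβK : IsBasedQuot β (zeroIdeal (K ⊗[k] A0) σ0) := by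
    apply isBasedQuot_of_map_field β ψ
    rw [hz]
    exact isBasedQuot_pointIdeal β f'
  obtain ⟨f, hf⟩ := exists_pointIdeal_eq β hβK
  have hff' : ψ.comp f = f' := pointIdeal_injective β (by rw [pointIdeal_comp, hf, hz])
  refine ⟨N, σ0, σ1, hN, h1K, hgenK, hinfK, f, hf, ?_⟩
  have h2 : ψ (f φ) = f' φ := by rw [← hff']; rfl
  rw [isUnit_iff_ne_zero]
  intro h0
  rw [h0, map_zero] at h2
  exact hu.ne_zero h2.symm

include hB in
/-- The field `W_iff` of the atlas. -/
theorem chartW_bc_field_iff (ψ : K →ₐ[k] L) (ξ : Cl k A0 A1 A01 t s K) :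
    chartW lam β j φ L (bc ψ ξ) ↔ chartW lam β j φ K ξ :=
  ⟨chartW_of_bc_field hB lam β j φ ψ ξ, chartW_bc hB lam β j φ ψ ξ⟩

end FieldExt

section Chart

variable {n : ℕ} (β : Fin n → A0) (j : J) (φ : chartRing k A0 β)
  {B : Type u} [CommRing B] [Algebra k B]

/-- The structure map of the chart ring, as a point of the chart ring `chartRing k A0 β`. -/
noncomputable abbrev locPoint : chartRing k A0 β →ₐ[k] Localization.Away φ :=
  IsScalarTower.toAlgHom k (chartRing k A0 β) (Localization.Away φ)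

include hB in
/-- **The universal class satisfies `chartW`** over its chart ring. -/
theorem chartW_locClass (hc : ChartCond hts e lam β j φ) :
    chartW lam β j φ (Localization.Away φ) (locClass hts lam β j φ) := by
  refine ⟨OD hts _ (locIdeal β φ) hc.good.finite hc.good.invertible,
    oneSec0 hts _ _ hc.good.finite hc.good.invertible,
    oneSec1 hts _ _ hc.good.finite hc.good.invertible, ?_, hc.good.h1, hc.good.gen,
    hB.k3 _ _ hc.good.finite hc.good.invertible, locPoint β φ, ?_, ?_⟩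
  · unfold locClass
    rw [inv_mul_cancel_right, odClass_eq]
  · rw [zeroIdeal_oneSec0]
    rfl
  · exact IsLocalization.Away.algebraMap_isUnit φ

include hB in
/-- Base change of the class of `O(D)` for a divisor with flat structure ring. -/
theorem bc_odClass {B' : Type u} [CommRing B'] [Algebra k B'] (ψ : B →ₐ[k] B')
    (I0 : Ideal (B ⊗[k] A0)) (hf : Module.Finite B ((B ⊗[k] A0) ⧸ I0))
    (hfl : Module.Flat B ((B ⊗[k] A0) ⧸ I0)) (hi : Module.Invertible (B ⊗[k] A0) I0) :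
    bc ψ (odClass hts B I0) = odClass hts B' (Ideal.map (tensorMap (A := A0) ψ) I0) := by
  obtain ⟨hf', hi', c, -, -⟩ := hB.k2 B B' ψ I0 hf hfl hi
  rw [odClass_eq hts B I0 hf hi, odClass_eq hts B' _ hf' hi']
  exact (hB.g2 B B' ψ _ _).mpr ⟨c⟩

include hB in
/-- The base change of the universal class along `ψ : Localization.Away φ →ₐ[k] B`. -/
theorem bc_locClass (hc : ChartCond hts e lam β j φ) (ψ : Localization.Away φ →ₐ[k] B) :
    bc ψ (locClass hts lam β j φ) =
      odClass hts B (pointIdeal β (ψ.comp (locPoint β φ))) * (twist lam B j)⁻¹ := by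
  unfold locClass
  have hfree := free_quot_of_isBasedQuot β (isBasedQuot_pointIdeal β (locPoint β φ))
  have hfl : Module.Flat (Localization.Away φ)
      ((Localization.Away φ ⊗[k] A0) ⧸ locIdeal β φ) :=
    @Module.Flat.of_free _ _ _ _ _ hfree
  rw [map_mul, map_inv, bc_twist hB,
    bc_odClass hB ψ (locIdeal β φ) hc.good.finite hfl hc.good.invertible, pointIdeal_comp]
  rfl

include hB in
/-- **THE CHART THEOREM**: a class satisfying `chartW` over `B` comes from the chart. -/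
theorem exists_algHom_of_chartW (hc : ChartCond hts e lam β j φ) (ξ : Cl k A0 A1 A01 t s B)
    (h : chartW lam β j φ B ξ) :
    ∃ ψ : Localization.Away φ →ₐ[k] B, bc ψ (locClass hts lam β j φ) = ξ := by
  obtain ⟨N, σ0, σ1, hcls, h1, hgen, hinf, f, hf, hu⟩ := h
  have hfu : ∀ y : Submonoid.powers φ, IsUnit (f y) := by
    rintro ⟨_, m, rfl⟩
    rw [map_pow]
    exact hu.pow m
  let ψ : Localization.Away φ →ₐ[k] B := IsLocalization.liftAlgHom hfu
  have hψ : ψ.comp (locPoint β φ) = f := by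
    ext x
    exact IsLocalization.lift_eq hfu x
  refine ⟨ψ, ?_⟩
  have hfin : Module.Finite B ((B ⊗[k] A0) ⧸ zeroIdeal (B ⊗[k] A0) σ0) := by
    rw [← hf]
    exact finite_quot_of_isBasedQuot β (isBasedQuot_pointIdeal β f)
  rw [bc_locClass hB lam β j φ hc ψ, hψ, hf, ← (hB.k1 B N σ0 σ1 hgen.1 hinf hfin).2, hcls,
    mul_inv_cancel_right]

include hB in
/-- **Injectivity of the chart**: a `k`-algebra map out of the chart ring is determined by the
pull-back of the universal class. -/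
theorem inj_locClass (hc : ChartCond hts e lam β j φ) (φ1 φ2 : Localization.Away φ →ₐ[k] B)
    (h : bc φ1 (locClass hts lam β j φ) = bc φ2 (locClass hts lam β j φ)) : φ1 = φ2 := by
  rw [bc_locClass hB lam β j φ hc φ1, bc_locClass hB lam β j φ hc φ2, mul_left_inj,
    pointIdeal_comp, pointIdeal_comp] at h
  have hfree := free_quot_of_isBasedQuot β (isBasedQuot_pointIdeal β (locPoint β φ))
  have hfl : Module.Flat (Localization.Away φ)
      ((Localization.Away φ ⊗[k] A0) ⧸ locIdeal β φ) :=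
    @Module.Flat.of_free _ _ _ _ _ hfree
  obtain ⟨hf1, hi1, c1, hc10, hc11⟩ :=
    hB.k2 _ B φ1 (locIdeal β φ) hc.good.finite hfl hc.good.invertible
  obtain ⟨hf2, hi2, c2, hc20, hc21⟩ :=
    hB.k2 _ B φ2 (locIdeal β φ) hc.good.finite hfl hc.good.invertible
  change odClass hts B (Ideal.map (tensorMap (A := A0) φ1) (locIdeal β φ)) =
    odClass hts B (Ideal.map (tensorMap (A := A0) φ2) (locIdeal β φ)) at h
  rw [odClass_eq hts B _ hf1 hi1, odClass_eq hts B _ hf2 hi2] at h
  obtain ⟨ε⟩ := cls_eq_iff.mp h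
  have g1 := hB.bc2 _ _ φ1 _ _ c1 _ _ hc.good.h1 hc.good.gen
  rw [hc10, hc11] at g1
  have g2 := hB.bc2 _ _ φ2 _ _ c2 _ _ hc.good.h1 hc.good.gen
  rw [hc20, hc21] at g2
  have g1' := isGenSection_of_iso ε g1
  obtain ⟨b, hb, hb0, -⟩ := exists_isUnit_of_isGenSection g2 g1'
  have hI : Ideal.map (tensorMap (A := A0) φ1) (locIdeal β φ) =
      Ideal.map (tensorMap (A := A0) φ2) (locIdeal β φ) := by
    rw [← zeroIdeal_oneSec0 hts B _ hf1 hi1, ← zeroIdeal_of_iso ε, hb0,
      zeroIdeal_smul_of_isUnit _ hb, zeroIdeal_oneSec0]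
  have h3 : φ1.comp (locPoint β φ) = φ2.comp (locPoint β φ) :=
    pointIdeal_injective β (by rw [pointIdeal_comp, pointIdeal_comp]; exact hI)
  exact IsLocalization.algHom_ext (Submonoid.powers φ) h3

end Chart

end Fermat.Agent.JAC.Hilb.ChartAssembly24
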