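/-
Programme JAC (S25), chart theorem (A4.3) and atlas assembly.  Owner: helper24.

ASSEMBLY, part 2: the local atlas (`Hilb/AtlasLocal33.LocalAtlas`, hence the `AlgAtlas` of
`Core/AlgAtlas36`) from the bricks of `Hilb/ChartSpec24`, the spreading-out statement for `chartW`
and the covering statement.

* index type `{γ : ChartIdx A0 J // ChartCond hts e lam γ.β γ.j γ.φ}`;
* chart rings `Localization.Away γ.φ`, universal classes `locClass hts lam γ.β γ.j γ.φ`;
* pointwise predicates `chartW lam γ.β γ.j γ.φ`.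
-/
import Mathlib
import Fermat.Agent.JAC.Hilb.ChartAssembly24
import Fermat.Agent.JAC.Hilb.AtlasLocal33

set_option autoImplicit false
set_option maxHeartbeats 400000
set_option linter.unusedSectionVars false

universe u

namespace Fermat.Agent.JAC.Hilb.Atlas24

open scoped TensorProduct Polynomial
open scoped Fermat.Agent.JAC.Core.ConstFamily36
open Fermat.Agent.JAC.Core.Defs36 Fermat.Agent.JAC.Core.Cart36 Fermat.Agent.JAC.Core.ConstFamily36
  Fermat.Agent.JAC.Core.Degree36 Fermat.Agent.JAC.Core.AlgAtlas36 Fermat.Agent.JAC.Grp.Diag33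
  Fermat.Agent.JAC.Hilb.BasedQuot46 Fermat.Agent.JAC.Hilb.ZeroIdeal46
  Fermat.Agent.JAC.Hilb.ChartDef24 Fermat.Agent.JAC.Hilb.ChartSpec24
  Fermat.Agent.JAC.Hilb.ChartLemmas24 Fermat.Agent.JAC.Hilb.ChartAssembly24
  Fermat.Agent.JAC.Hilb.AtlasLocal33

variable {k : Type u} [Field k] {A0 A1 A01 : Type u} [CommRing A0] [CommRing A1] [CommRing A01]
  [Algebra k A0] [Algebra k A1] [Algebra k A01] [Algebra A0 A01] [Algebra A1 A01]
  [IsScalarTower k A0 A01] [IsScalarTower k A1 A01] {t : A0} {s : A1}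
  [IsLocalization.Away t A01] [IsLocalization.Away s A01]

variable {hts : algebraMap A0 A01 t * algebraMap A1 A01 s = 1} {e : A01 →ₐ[k] k}
  {J : Type u} (lam : J → Cl k A0 A1 A01 t s k)

/-- The chart rings are of finite type over `k`. -/
theorem finiteType_chart [Algebra.FiniteType k A0] {n : ℕ} (β : Fin n → A0)
    (φ : chartRing k A0 β) : Algebra.FiniteType k (Localization.Away φ) :=
  inferInstance

/-- **The local atlas** from the bricks, the spreading-out of `chartW` and the covering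
statement. -/
noncomputable def localAtlas (hft : Algebra.FiniteType k A0) (hB : Bricks k A0 A1 A01 t s hts e)
    (hspread : ∀ {n : ℕ} (β : Fin n → A0) (j : J) (φ : chartRing k A0 β) (B : Type u)
      [CommRing B] [Algebra k B] (ξ : Cl k A0 A1 A01 t s B) (p : PrimeSpectrum B),
      chartW lam β j φ p.asIdeal.ResidueField (bc (toResidue B p) ξ) →
      ∃ f : B, f ∉ p.asIdeal ∧
        chartW lam β j φ (Localization.Away f) (bc (ChartSpec24.toAway B f) ξ))
    (hcovers : ∀ (K : Type u) [Field K] [Algebra k K] (ξ : Cl k A0 A1 A01 t s K),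
      IsRigidCl e K ξ → IsDegZero K ξ →
      ∃ γ : ChartIdx (k := k) A0 J, ChartCond hts e lam γ.β γ.j γ.φ ∧
        chartW lam γ.β γ.j γ.φ K ξ) :
    LocalAtlas (A0 := A0) (A1 := A1) (t := t) (s := s) e where
  ι := {γ : ChartIdx (k := k) A0 J // ChartCond hts e lam γ.β γ.j γ.φ}
  R γ := Localization.Away γ.1.φ
  finiteType γ := finiteType_chart γ.1.β γ.1.φ
  x γ := locClass hts lam γ.1.β γ.1.j γ.1.φ
  x_rigid γ := γ.2.rigid
  x_degZero γ := γ.2.degZero
  W γ K _ _ ξ := chartW lam γ.1.β γ.1.j γ.1.φ K ξ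
  W_iff γ K L _ _ _ _ ψ ξ _ _ := chartW_bc_field_iff hB lam γ.1.β γ.1.j γ.1.φ ψ ξ
  inj γ B _ _ φ1 φ2 h := inj_locClass hB lam γ.1.β γ.1.j γ.1.φ γ.2 φ1 φ2 h
  univ γ p := chartW_bc hB lam γ.1.β γ.1.j γ.1.φ _ _
    (chartW_locClass hB lam γ.1.β γ.1.j γ.1.φ γ.2)
  loc γ B _ _ ξ _ _ p hp := by
    obtain ⟨f, hf, hW⟩ := hspread γ.1.β γ.1.j γ.1.φ B ξ p hp
    exact ⟨f, hf, exists_algHom_of_chartW hB lam γ.1.β γ.1.j γ.1.φ γ.2 _ hW⟩
  covers K _ _ ξ hr hd := by
    obtain ⟨γ, hc, hW⟩ := hcovers K ξ hr hd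
    exact ⟨⟨γ, hc⟩, hW⟩

end Fermat.Agent.JAC.Hilb.Atlas24
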