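/-
Programme JAC (S25), chart chapter: the bricks `Brick.G6` and `Brick.G7` of `Hilb/ChartSpec24`
(helper10, assigned in COORD #8 = report #1225).

* `g6` : the degree is locally constant: degree zero at the residue field of a prime `p` of `B`
  spreads out to a basic open neighbourhood of `p`;
* `g7` : degree zero descends along field extensions.

Both are repackagings of helper65's `Frame/DegFamily65` + `Frame/DegSpread65` with the coordinates
taken from `CurveHyp`.
-/
import Fermat.Agent.JAC.Hilb.ChartSpec24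
import Fermat.Agent.JAC.Frame.DegSpread65

set_option autoImplicit false

universe u

namespace Fermat.Agent.JAC.Hilb.DegBricks10

open scoped TensorProduct Polynomial
open Fermat.Agent.JAC.Core.AlgAtlas36 Fermat.Agent.JAC.Core.Degree36
  Fermat.Agent.JAC.Hilb.ChartDef24 Fermat.Agent.JAC.Hilb.ChartSpec24
  Fermat.Agent.JAC.Frame.DegFamily65 Fermat.Agent.JAC.Frame.DegSpread65

variable {k : Type u} [Field k] {A0 A1 A01 : Type u} [CommRing A0] [CommRing A1] [CommRing A01]
  [Algebra k A0] [Algebra k A1] [Algebra k A01] [Algebra A0 A01] [Algebra A1 A01]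
  [IsScalarTower k A0 A01] [IsScalarTower k A1 A01] {t : A0} {s : A1}
  [IsLocalization.Away t A01] [IsLocalization.Away s A01]

/-- **Brick (G6)**: the degree is locally constant; degree zero at `κ(p)` spreads out to a basic
open neighbourhood of `p`. -/
theorem g6 (H : CurveHyp k A0 A1 A01 t s) : Brick.G6 k A0 A1 A01 t s := by
  obtain ⟨n0, a0, ha0⟩ := H.coords0
  obtain ⟨n1, a1, ha1⟩ := H.coords1
  intro B _ _ p ξ h
  have h0 : degFun ξ p = 0 :=
    (isDegZero_field_iff H.hts a0 ha0 a1 ha1 (bc (toResidue B p) ξ)).1 h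
  exact exists_away_isDegZero H.hts a0 ha0 a1 ha1 ξ p h0

/-- **Brick (G7)**: degree zero descends along field extensions (the degree is invariant under
extension of the base field). -/
theorem g7 (H : CurveHyp k A0 A1 A01 t s) : Brick.G7 k A0 A1 A01 t s := by
  obtain ⟨n0, a0, ha0⟩ := H.coords0
  obtain ⟨n1, a1, ha1⟩ := H.coords1
  intro K L _ _ _ _ ψ ξ h
  rw [isDegZero_field_iff H.hts a0 ha0 a1 ha1] at h ⊢
  rwa [degClass_bc_field H.hts a0 ha0 a1 ha1] at h

/-- Complement to (G7): degree zero over `K` is equivalent to degree zero after any field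
extension. -/
theorem isDegZero_bc_field_iff (H : CurveHyp k A0 A1 A01 t s) (K L : Type u) [Field K] [Field L]
    [Algebra k K] [Algebra k L] (ψ : K →ₐ[k] L) (ξ : Cl k A0 A1 A01 t s K) :
    IsDegZero L (bc ψ ξ) ↔ IsDegZero K ξ :=
  ⟨g7 H K L ψ ξ, Fermat.Agent.JAC.Zar.BcFunct39.isDegZero_bc ψ ξ⟩

/-- Complement to (G6), in the form used by `covers`: degree zero at one geometric point spreads
out to a basic open neighbourhood of that point. -/
theorem exists_away_isDegZero_of_point' (H : CurveHyp k A0 A1 A01 t s) (B : Type u) [CommRing B]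
    [Algebra k B] (ξ : Cl k A0 A1 A01 t s B) (K : Type u) [Field K] [Algebra k K]
    (ψ : B →ₐ[k] K) (h : IsDegZero K (bc ψ ξ)) :
    ∃ f : B, ψ f ≠ 0 ∧ IsDegZero (Localization.Away f) (bc (toAway B f) ξ) := by
  obtain ⟨n0, a0, ha0⟩ := H.coords0
  obtain ⟨n1, a1, ha1⟩ := H.coords1
  exact exists_away_isDegZero_of_point H.hts a0 ha0 a1 ha1 ξ K ψ
    ((isDegZero_field_iff H.hts a0 ha0 a1 ha1 _).1 h)

end Fermat.Agent.JAC.Hilb.DegBricks10
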