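/-
Programme JAC (S25), chart theorem (A4.3) and atlas assembly.  Owner: helper24.

FINAL ASSEMBLY: the algebra-side atlas `AlgAtlas k A0 A1 A01 t s e` of `Core/AlgAtlas36` for CURVE
data satisfying `CurveHyp`, from the landed bricks.  The bricks which are not yet landed are
explicit hypotheses of `bricks_of` / `algAtlas_of`; they disappear one by one.
-/
import Mathlib
import Fermat.Agent.JAC.Hilb.Atlas24
import Fermat.Agent.JAC.Hilb.NoZeroInfBricks46
import Fermat.Agent.JAC.Hilb.K0K3_87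
import Fermat.Agent.JAC.Hilb.K4_87
import Fermat.Agent.JAC.Hilb.DegBricks10
import Fermat.Agent.JAC.Hilb.Cov67
import Fermat.Agent.JAC.Grp.Bricks33

set_option autoImplicit false
set_option maxHeartbeats 400000
set_option linter.unusedSectionVars false

universe u

namespace Fermat.Agent.JAC.Hilb.AtlasFinal24

open scoped TensorProduct Polynomial
open scoped Fermat.Agent.JAC.Core.ConstFamily36
open Fermat.Agent.JAC.Core.Defs36 Fermat.Agent.JAC.Core.Cart36 Fermat.Agent.JAC.Core.ConstFamily36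
  Fermat.Agent.JAC.Core.Degree36 Fermat.Agent.JAC.Core.AlgAtlas36 Fermat.Agent.JAC.Grp.Diag33
  Fermat.Agent.JAC.Hilb.BasedQuot46 Fermat.Agent.JAC.Hilb.ZeroIdeal46
  Fermat.Agent.JAC.Hilb.ChartDef24 Fermat.Agent.JAC.Hilb.ChartSpec24
  Fermat.Agent.JAC.Hilb.ChartLemmas24 Fermat.Agent.JAC.Hilb.ChartAssembly24
  Fermat.Agent.JAC.Hilb.AtlasLocal33 Fermat.Agent.JAC.Hilb.Atlas24

variable {k : Type u} [Field k] {A0 A1 A01 : Type u} [CommRing A0] [CommRing A1] [CommRing A01]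
  [Algebra k A0] [Algebra k A1] [Algebra k A01] [Algebra A0 A01] [Algebra A1 A01]
  [IsScalarTower k A0 A01] [IsScalarTower k A1 A01] {t : A0} {s : A1}
  [IsLocalization.Away t A01] [IsLocalization.Away s A01]

/-- All the bricks, from `CurveHyp` and the bricks which are not yet landed. -/
theorem bricks_of (H : CurveHyp k A0 A1 A01 t s) (e : A01 →ₐ[k] k)
    (hBC1 : Brick.BC1 k A0 A1 A01 t s) (hBC2 : Brick.BC2 k A0 A1 A01 t s)
    (hBC4 : Brick.BC4 k A0 A1 A01 t s)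
    (hFE1 : Brick.FE1 k A0 A1 A01 t s) (hFE2 : Brick.FE2 k A0 A1 A01 t s)
    (hSP1 : Brick.SP1 k A0 A1 A01 t s) (hSP2 : Brick.SP2 k A0 A1 A01 t s)
    (hK1 : Brick.K1 k A0 A1 A01 t s H.hts) (hK2 : Brick.K2 k A0 A1 A01 t s H.hts) :
    Bricks k A0 A1 A01 t s H.hts e where
  bc1 := hBC1
  bc2 := hBC2
  bc3 := Fermat.Agent.JAC.Hilb.NoZeroInfBricks46.bc3
  bc4 := hBC4
  fe1 := hFE1
  fe2 := hFE2
  fe3 := Fermat.Agent.JAC.Hilb.NoZeroInfBricks46.fe3
  sp1 := hSP1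
  sp2 := hSP2
  sp3 := Fermat.Agent.JAC.Hilb.NoZeroInfBricks46.sp3 H
  k0 := Fermat.Agent.JAC.Hilb.K0K3_87.k0 H
  k1 := hK1
  k2 := hK2
  k3 := Fermat.Agent.JAC.Hilb.K0K3_87.k3 H.hts
  k4 := Fermat.Agent.JAC.Hilb.K4_87.k4 H hBC2
  g1 := Fermat.Agent.JAC.Grp.Bricks33.g1
  g2 := Fermat.Agent.JAC.Grp.Bricks33.g2
  g3 := Fermat.Agent.JAC.Grp.Bricks33.g3 e
  g4 := Fermat.Agent.JAC.Grp.Bricks33.g4' H e
  g5 := Fermat.Agent.JAC.Grp.Bricks33.g5 e
  g6 := Fermat.Agent.JAC.Hilb.DegBricks10.g6 H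
  g7 := Fermat.Agent.JAC.Hilb.DegBricks10.g7 H
  fs := Fermat.Agent.JAC.Grp.Bricks33.fs e

/-- **The algebra-side atlas**, modulo the bricks which are not yet landed, the spreading-out of
`chartW` and the covering statement (twists `Cov67.lam H e`). -/
noncomputable def algAtlas_of [IsAlgClosed k] (H : CurveHyp k A0 A1 A01 t s) (e : A01 →ₐ[k] k)
    (hB : Bricks k A0 A1 A01 t s H.hts e)
    (hspread : ∀ {n : ℕ} (β : Fin n → A0) (j : Fermat.Agent.JAC.Hilb.Cov67.J k A01)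
      (φ : chartRing k A0 β) (B : Type u)
      [CommRing B] [Algebra k B] (ξ : Cl k A0 A1 A01 t s B) (p : PrimeSpectrum B),
      chartW (Fermat.Agent.JAC.Hilb.Cov67.lam H e) β j φ p.asIdeal.ResidueField
        (bc (toResidue B p) ξ) →
      ∃ f : B, f ∉ p.asIdeal ∧
        chartW (Fermat.Agent.JAC.Hilb.Cov67.lam H e) β j φ (Localization.Away f)
          (bc (ChartSpec24.toAway B f) ξ))
    (hcovers : ∀ (K : Type u) [Field K] [Algebra k K] (ξ : Cl k A0 A1 A01 t s K),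
      IsRigidCl e K ξ → IsDegZero K ξ →
      ∃ γ : ChartIdx (k := k) A0 (Fermat.Agent.JAC.Hilb.Cov67.J k A01),
        ChartCond H.hts e (Fermat.Agent.JAC.Hilb.Cov67.lam H e) γ.β γ.j γ.φ ∧
        chartW (Fermat.Agent.JAC.Hilb.Cov67.lam H e) γ.β γ.j γ.φ K ξ) :
    AlgAtlas k A0 A1 A01 t s e :=
  (localAtlas (Fermat.Agent.JAC.Hilb.Cov67.lam H e) H.finiteType0 hB hspread hcovers).toAlgAtlas
    H.h0

end Fermat.Agent.JAC.Hilb.AtlasFinal24
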