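/-
Programme JAC (S25), atlas assembly, piece `loc`, second half (helper33): THE SPREADING CHAIN.

If the pointwise predicate `chartW lam β j φ` holds for a class `ξ` over `B` at the residue field of
a prime `p`, then it holds over a basic open neighbourhood `D(f)` of `p`
(`exists_away_chartW`).  Together with helper37's chart theorem (`chartW` over `B_f` ⇒ `ξ|B_f` comes
from the chart) this is the field `loc` of `AtlasLocal33.LocalAtlas`.

All bricks (`BC1`–`BC4`, `SP1`–`SP3`, `K4` of `ChartSpec24`) are hypotheses in literal form.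

* `exists_prime_over`, `exists_away_hom`: neighbourhood calculus for iterated localisations;
* `Body`, `body_map`: the body of `chartW` and its transport along any cartesian morphism;
* `chartW_bc`: `chartW` is stable under every base change;
* `fibreData`: the fibre data of `chartW` on the canonical base change of ANY representative;
* `exists_unit_of_isGenSection`: two generating sections differ by a unit;
* `step1` … `step5`, `spread_trans`, `exists_away_chartW`.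
-/
import Mathlib
import Fermat.Agent.JAC.Hilb.ChartInj37
import Fermat.Agent.JAC.Hilb.AtlasLocal33
import Fermat.Agent.JAC.Hilb.BasedOpen24

set_option autoImplicit false
set_option maxHeartbeats 400000
set_option linter.unusedSectionVars false
set_option linter.style.haveILetI false

universe u

namespace Fermat.Agent.JAC.Hilb.ChartSpread33

open scoped TensorProduct Polynomial
open scoped Fermat.Agent.JAC.Core.ConstFamily36
open Fermat.Agent.JAC.Core.Defs36 Fermat.Agent.JAC.Core.Cart36 Fermat.Agent.JAC.Core.ConstFamily36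
  Fermat.Agent.JAC.Core.Degree36 Fermat.Agent.JAC.Core.AlgAtlas36 Fermat.Agent.JAC.Grp.Diag33
  Fermat.Agent.JAC.Hilb.BasedQuot46 Fermat.Agent.JAC.Hilb.ZeroIdeal46
  Fermat.Agent.JAC.Hilb.ChartDef24 Fermat.Agent.JAC.Hilb.ChartSpec24
  Fermat.Agent.JAC.Grp.ConstBc33 Fermat.Agent.JAC.Hilb.ChartInj37

/-! ### Neighbourhood calculus -/

section Nbhd

variable {k : Type u} [Field k] (B : Type u) [CommRing B] [Algebra k B]

/-- A prime of `B[1/f]` over a prime `p` of `B` not containing `f`. -/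
theorem exists_prime_over (p : PrimeSpectrum B) (f : B) (hf : f ∉ p.asIdeal) :
    ∃ p1 : PrimeSpectrum (Localization.Away f),
      PrimeSpectrum.comap (toAway (k := k) B f).toRingHom p1 = p := by
  have hp : p ∈ Set.range (PrimeSpectrum.comap (algebraMap B (Localization.Away f))) := by
    rw [PrimeSpectrum.localization_away_comap_range (Localization.Away f) f]
    exact hf
  obtain ⟨p1, hp1⟩ := hp
  exact ⟨p1, hp1⟩

/-- Iterated basic open neighbourhoods: for `f2 ∉ p1` in `B[1/f1]` (`p1` over `p`) there are `f ∉ p`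
in `B` and a `k`-algebra map `B[1/f1][1/f2] → B[1/f]` over `B`. -/
theorem exists_away_hom (p : PrimeSpectrum B) (f1 : B) (p1 : PrimeSpectrum (Localization.Away f1))
    (hp1 : PrimeSpectrum.comap (toAway (k := k) B f1).toRingHom p1 = p)
    (f2 : Localization.Away f1) (hf2 : f2 ∉ p1.asIdeal) :
    ∃ f : B, f ∉ p.asIdeal ∧ ∃ θ : Localization.Away f2 →ₐ[k] Localization.Away f,
      θ.comp ((toAway (Localization.Away f1) f2).comp (toAway B f1)) = toAway B f := by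
  obtain ⟨n, a, ha⟩ := IsLocalization.Away.surj f1 f2
  have hmem : ∀ b : B, b ∈ p.asIdeal ↔ algebraMap B (Localization.Away f1) b ∈ p1.asIdeal := by
    intro b
    rw [← hp1]
    rfl
  have hunit : IsUnit (algebraMap B (Localization.Away f1) f1) :=
    IsLocalization.Away.algebraMap_isUnit f1
  have hf1 : f1 ∉ p.asIdeal := by
    rw [hmem]
    intro h
    exact p1.isPrime.ne_top (Ideal.eq_top_of_isUnit_mem _ h hunit)
  have ha' : a ∉ p.asIdeal := by
    rw [hmem, ← ha]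
    intro h
    rcases p1.isPrime.mem_or_mem h with h | h
    · exact hf2 h
    · exact p1.isPrime.ne_top (Ideal.eq_top_of_isUnit_mem _ h (hunit.pow n))
  refine ⟨f1 * a, fun h => ?_, ?_⟩
  · rcases p.isPrime.mem_or_mem h with h | h
    · exact hf1 h
    · exact ha' h
  · have hu1 : IsUnit (toAway (k := k) B (f1 * a) f1) :=
      IsLocalization.Away.isUnit_of_dvd (f1 * a) (dvd_mul_right f1 a)
    let θ1 : Localization.Away f1 →ₐ[k] Localization.Away (f1 * a) :=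
      IsLocalization.Away.liftAlgHom (A := k) (S := Localization.Away f1) f1
        (f := toAway B (f1 * a)) hu1
    have hθ1 : ∀ b : B, θ1 (algebraMap B (Localization.Away f1) b) =
        algebraMap B (Localization.Away (f1 * a)) b := by
      intro b
      exact IsLocalization.Away.lift_eq
        (g := ((toAway (k := k) B (f1 * a) : B →ₐ[k] Localization.Away (f1 * a)) :
          B →+* Localization.Away (f1 * a))) f1 hu1 b
    have hu2 : IsUnit (θ1 f2) := by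
      have h1 : θ1 f2 * θ1 (algebraMap B (Localization.Away f1) f1) ^ n =
          algebraMap B (Localization.Away (f1 * a)) a := by
        rw [← map_pow, ← map_mul, ha, hθ1]
      have h2 : IsUnit (algebraMap B (Localization.Away (f1 * a)) a) :=
        IsLocalization.Away.isUnit_of_dvd (f1 * a) (dvd_mul_left a f1)
      rw [← h1] at h2
      exact isUnit_of_mul_isUnit_left h2
    let θ : Localization.Away f2 →ₐ[k] Localization.Away (f1 * a) :=
      IsLocalization.Away.liftAlgHom (A := k) (S := Localization.Away f2) f2 (f := θ1) hu2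
    refine ⟨θ, ?_⟩
    ext b
    change θ (algebraMap (Localization.Away f1) (Localization.Away f2)
      (algebraMap B (Localization.Away f1) b)) = algebraMap B (Localization.Away (f1 * a)) b
    have : θ (algebraMap (Localization.Away f1) (Localization.Away f2)
        (algebraMap B (Localization.Away f1) b)) = θ1 (algebraMap B (Localization.Away f1) b) :=
      IsLocalization.Away.lift_eq
        (g := (θ1 : Localization.Away f1 →+* Localization.Away (f1 * a))) f2 hu2 _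
    rw [this, hθ1]

end Nbhd

variable {k : Type u} [Field k] {A0 A1 A01 : Type u} [CommRing A0] [CommRing A1] [CommRing A01]
  [Algebra k A0] [Algebra k A1] [Algebra k A01] [Algebra A0 A01] [Algebra A1 A01]
  [IsScalarTower k A0 A01] [IsScalarTower k A1 A01] {t : A0} {s : A1}
  [IsLocalization.Away t A01] [IsLocalization.Away s A01]

/-! ### Based quotients and the classifying map under base change -/

section Based

variable {n : ℕ} (β : Fin n → A0)
  {B B' : Type u} [CommRing B] [CommRing B'] [Algebra k B] [Algebra k B']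

/-- The classifying map of a based quotient has the given ideal as its point ideal. -/
theorem pointIdeal_symm_toBasedPoint {I : Ideal (B ⊗[k] A0)} (hβ : IsBasedQuot β I) :
    pointIdeal β ((pointEquiv (k := k) (A := A0) (β := β) (B := B)).symm hβ.toBasedPoint) = I := by
  unfold pointIdeal
  rw [Equiv.apply_symm_apply, IsBasedQuot.toBasedPoint_ideal]

/-- Based quotients and their classifying maps are compatible with base change. -/
theorem exists_isBasedQuot_map (ψ : B →ₐ[k] B') {I : Ideal (B ⊗[k] A0)}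
    {I' : Ideal (B' ⊗[k] A0)} (hI : I' = Ideal.map (tensorMap (A := A0) ψ) I)
    (hβ : IsBasedQuot β I) :
    ∃ hβ' : IsBasedQuot β I',
      (pointEquiv (k := k) (A := A0) (β := β) (B := B')).symm hβ'.toBasedPoint =
        ψ.comp ((pointEquiv (k := k) (A := A0) (β := β) (B := B)).symm hβ.toBasedPoint) := by
  have h1 : I' = pointIdeal β
      (ψ.comp ((pointEquiv (k := k) (A := A0) (β := β) (B := B)).symm hβ.toBasedPoint)) := by
    rw [pointIdeal_comp, pointIdeal_symm_toBasedPoint, hI]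
  have hβ' : IsBasedQuot β I' := by
    rw [h1]
    exact isBasedQuot_pointIdeal β _
  exact ⟨hβ', pointEquiv_symm_toBasedPoint_of_eq β _ hβ' h1⟩

/-- The classifying map only depends on the ideal. -/
theorem symm_toBasedPoint_congr {I I' : Ideal (B ⊗[k] A0)} (h : I = I') (hβ : IsBasedQuot β I)
    (hβ' : IsBasedQuot β I') :
    (pointEquiv (k := k) (A := A0) (β := β) (B := B)).symm hβ.toBasedPoint =
      (pointEquiv (k := k) (A := A0) (β := β) (B := B)).symm hβ'.toBasedPoint := by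
  subst h
  rfl

end Based

/-! ### The body of `chartW` and its transport along cartesian morphisms -/

section Body

variable {n : ℕ} (β : Fin n → A0) (φ : chartRing k A0 β)
  {B B' : Type u} [CommRing B] [CommRing B'] [Algebra k B] [Algebra k B']

/-- The conditions of `chartW` on a representative with a section. -/
def Body (N : CDiag k A0 A1 A01 t s B) (σ0 : N.M0) (σ1 : N.M1) : Prop :=
  H1Zero N ∧ IsGenSection N σ0 σ1 ∧ NoZeroInf N σ1 ∧
    ∃ f : chartRing k A0 β →ₐ[k] B, pointIdeal β f = zeroIdeal (B ⊗[k] A0) σ0 ∧ IsUnit (f φ)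

variable (hBC1 : Brick.BC1 k A0 A1 A01 t s) (hBC2 : Brick.BC2 k A0 A1 A01 t s)
  (hBC3 : Brick.BC3 k A0 A1 A01 t s) (hBC4 : Brick.BC4 k A0 A1 A01 t s)

include hBC1 hBC2 hBC3 hBC4 in
/-- The body of `chartW` is transported by every cartesian morphism. -/
theorem body_map (ψ : B →ₐ[k] B') {N : CDiag k A0 A1 A01 t s B} {N' : CDiag k A0 A1 A01 t s B'}
    (c : LineDiag.CartHom (familyHom ψ t s) N N') {σ0 : N.M0} {σ1 : N.M1}
    (h : Body β φ N σ0 σ1) : Body β φ N' (c.f0 σ0) (c.f1 σ1) := by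
  obtain ⟨h1, hg, hz, f, hf, hu⟩ := h
  refine ⟨hBC1 B B' ψ N N' c h1, hBC2 B B' ψ N N' c σ0 σ1 h1 hg, hBC3 B B' ψ N N' c σ1 hz,
    ψ.comp f, ?_, hu.map ψ⟩
  rw [pointIdeal_comp, hf, hBC4 B B' ψ N N' c σ0]

end Body

/-! ### `chartW` in terms of `Body`; stability under base change; fibre data -/

section ChartW

variable {J : Type u} (lam : J → Cl k A0 A1 A01 t s k) {n : ℕ} (β : Fin n → A0) (j : J)
  (φ : chartRing k A0 β)
  {B B' : Type u} [CommRing B] [CommRing B'] [Algebra k B] [Algebra k B']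

theorem chartW_iff_body (ξ : Cl k A0 A1 A01 t s B) :
    chartW lam β j φ B ξ ↔ ∃ (N : CDiag k A0 A1 A01 t s B) (σ0 : N.M0) (σ1 : N.M1),
      cls N = ξ * twist lam B j ∧ Body β φ N σ0 σ1 :=
  Iff.rfl

/-- The class of the canonical base change of a representative of `ξ · lam j`. -/
theorem cls_bcd (ψ : B →ₐ[k] B') (ξ : Cl k A0 A1 A01 t s B) (N : CDiag k A0 A1 A01 t s B)
    (hN : cls N = ξ * twist lam B j) : cls (bcd ψ N) = bc ψ ξ * twist lam B' j := by
  have : cls (bcd ψ N) = bc ψ (cls N) := (bc_cls ψ N).symm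
  rw [this, hN, map_mul, bc_twist]

variable (hBC1 : Brick.BC1 k A0 A1 A01 t s) (hBC2 : Brick.BC2 k A0 A1 A01 t s)
  (hBC3 : Brick.BC3 k A0 A1 A01 t s) (hBC4 : Brick.BC4 k A0 A1 A01 t s)

include hBC1 hBC2 hBC3 hBC4 in
/-- **`chartW` is stable under every base change.** -/
theorem chartW_bc (ψ : B →ₐ[k] B') (ξ : Cl k A0 A1 A01 t s B) (h : chartW lam β j φ B ξ) :
    chartW lam β j φ B' (bc ψ ξ) := by
  obtain ⟨N, σ0, σ1, hN, hb⟩ := h
  exact ⟨bcd ψ N, (bcc ψ N).f0 σ0, (bcc ψ N).f1 σ1, cls_bcd lam j ψ ξ N hN,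
    body_map β φ hBC1 hBC2 hBC3 hBC4 ψ (bcc ψ N) hb⟩

include hBC1 hBC2 hBC3 hBC4 in
/-- **Fibre data**: if `chartW` holds for `bc ψ ξ`, then the canonical base change of ANY
representative `N` of `ξ · lam j` carries sections satisfying the body of `chartW`. -/
theorem fibreData (ψ : B →ₐ[k] B') (ξ : Cl k A0 A1 A01 t s B) (N : CDiag k A0 A1 A01 t s B)
    (hN : cls N = ξ * twist lam B j) (h : chartW lam β j φ B' (bc ψ ξ)) :
    ∃ (τ0 : (bcd ψ N).M0) (τ1 : (bcd ψ N).M1), Body β φ (bcd ψ N) τ0 τ1 := by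
  obtain ⟨N', τ0, τ1, hN', hb⟩ := h
  have hcls : bc (AlgHom.id k B') (cls N') = cls (bcd ψ N) := by
    rw [bc_id_apply, hN', cls_bcd lam j ψ ξ N hN]
  obtain ⟨c⟩ := (bc_cls_eq_iff (AlgHom.id k B') N' (bcd ψ N)).mp hcls
  exact ⟨c.f0 τ0, c.f1 τ1, body_map β φ hBC1 hBC2 hBC3 hBC4 (AlgHom.id k B') c hb⟩

end ChartW

/-! ### Two generating sections differ by a unit -/

section Unit

variable {B : Type u} [CommRing B] [Algebra k B]

theorem exists_unit_of_isGenSection {N : CDiag k A0 A1 A01 t s B} {σ0 τ0 : N.M0} {σ1 τ1 : N.M1}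
    (hσ : IsGenSection N σ0 σ1) (hτ : IsGenSection N τ0 τ1) :
    ∃ u : B, IsUnit u ∧ τ0 = algebraMap B (B ⊗[k] A0) u • σ0 ∧
      τ1 = algebraMap B (B ⊗[k] A1) u • σ1 := by
  obtain ⟨b, ⟨hb0, hb1⟩, -⟩ := hσ.2 τ0 τ1 hτ.1
  obtain ⟨b', ⟨hb0', hb1'⟩, -⟩ := hτ.2 σ0 σ1 hσ.1
  refine ⟨b, ?_, hb0, hb1⟩
  have h1 : σ0 = algebraMap B (B ⊗[k] A0) (b' * b) • σ0 ∧
      σ1 = algebraMap B (B ⊗[k] A1) (b' * b) • σ1 := by
    constructor
    · conv_lhs => rw [hb0', hb0]
      rw [map_mul, mul_smul]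
    · conv_lhs => rw [hb1', hb1]
      rw [map_mul, mul_smul]
  have h2 : σ0 = algebraMap B (B ⊗[k] A0) 1 • σ0 ∧ σ1 = algebraMap B (B ⊗[k] A1) 1 • σ1 := by
    rw [map_one, map_one, one_smul, one_smul]
    exact ⟨rfl, rfl⟩
  have := (hσ.2 σ0 σ1 hσ.1).unique h1 h2
  exact IsUnit.of_mul_eq_one b' (by rw [mul_comm]; exact this)

theorem noZeroInf_smul_iff {N : CDiag k A0 A1 A01 t s B} (σ1 : N.M1) {u : B} (hu : IsUnit u) :
    NoZeroInf N (algebraMap B (B ⊗[k] A1) u • σ1) ↔ NoZeroInf N σ1 := by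
  unfold NoZeroInf
  rw [Submodule.span_singleton_smul_eq (hu.map (algebraMap B (B ⊗[k] A1)))]

end Unit

/-! ### The intermediate predicates and their stability under base change -/

section Steps

variable {J : Type u} (lam : J → Cl k A0 A1 A01 t s k) {n : ℕ} (β : Fin n → A0) (j : J)
  (φ : chartRing k A0 β)

/-- `ξ · lam j` has a representative with `H¹ = 0`. -/
def Q1 (B : Type u) [CommRing B] [Algebra k B] (ξ : Cl k A0 A1 A01 t s B) : Prop :=
  ∃ N : CDiag k A0 A1 A01 t s B, cls N = ξ * twist lam B j ∧ H1Zero N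

/-- … and a generating section. -/
def Q2 (B : Type u) [CommRing B] [Algebra k B] (ξ : Cl k A0 A1 A01 t s B) : Prop :=
  ∃ (N : CDiag k A0 A1 A01 t s B) (σ0 : N.M0) (σ1 : N.M1),
    cls N = ξ * twist lam B j ∧ H1Zero N ∧ IsGenSection N σ0 σ1

/-- … without zero at infinity. -/
def Q3 (B : Type u) [CommRing B] [Algebra k B] (ξ : Cl k A0 A1 A01 t s B) : Prop :=
  ∃ (N : CDiag k A0 A1 A01 t s B) (σ0 : N.M0) (σ1 : N.M1),
    cls N = ξ * twist lam B j ∧ H1Zero N ∧ IsGenSection N σ0 σ1 ∧ NoZeroInf N σ1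

/-- … whose divisor of zeros is `β`-based. -/
def Q4 (B : Type u) [CommRing B] [Algebra k B] (ξ : Cl k A0 A1 A01 t s B) : Prop :=
  ∃ (N : CDiag k A0 A1 A01 t s B) (σ0 : N.M0) (σ1 : N.M1),
    cls N = ξ * twist lam B j ∧ H1Zero N ∧ IsGenSection N σ0 σ1 ∧ NoZeroInf N σ1 ∧
      IsBasedQuot β (zeroIdeal (B ⊗[k] A0) σ0)

variable (hBC1 : Brick.BC1 k A0 A1 A01 t s) (hBC2 : Brick.BC2 k A0 A1 A01 t s)
  (hBC3 : Brick.BC3 k A0 A1 A01 t s) (hBC4 : Brick.BC4 k A0 A1 A01 t s)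

section Stable

variable {B B' : Type u} [CommRing B] [CommRing B'] [Algebra k B] [Algebra k B']

include hBC1 in
theorem q1_bc (ψ : B →ₐ[k] B') (ξ : Cl k A0 A1 A01 t s B) (h : Q1 lam j B ξ) :
    Q1 lam j B' (bc ψ ξ) := by
  obtain ⟨N, hN, h1⟩ := h
  exact ⟨bcd ψ N, cls_bcd lam j ψ ξ N hN, hBC1 B B' ψ N _ (bcc ψ N) h1⟩

include hBC1 hBC2 in
theorem q2_bc (ψ : B →ₐ[k] B') (ξ : Cl k A0 A1 A01 t s B) (h : Q2 lam j B ξ) :
    Q2 lam j B' (bc ψ ξ) := by
  obtain ⟨N, σ0, σ1, hN, h1, hg⟩ := h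
  exact ⟨bcd ψ N, (bcc ψ N).f0 σ0, (bcc ψ N).f1 σ1, cls_bcd lam j ψ ξ N hN,
    hBC1 B B' ψ N _ (bcc ψ N) h1, hBC2 B B' ψ N _ (bcc ψ N) σ0 σ1 h1 hg⟩

include hBC1 hBC2 hBC3 in
theorem q3_bc (ψ : B →ₐ[k] B') (ξ : Cl k A0 A1 A01 t s B) (h : Q3 lam j B ξ) :
    Q3 lam j B' (bc ψ ξ) := by
  obtain ⟨N, σ0, σ1, hN, h1, hg, hz⟩ := h
  exact ⟨bcd ψ N, (bcc ψ N).f0 σ0, (bcc ψ N).f1 σ1, cls_bcd lam j ψ ξ N hN,
    hBC1 B B' ψ N _ (bcc ψ N) h1, hBC2 B B' ψ N _ (bcc ψ N) σ0 σ1 h1 hg,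
    hBC3 B B' ψ N _ (bcc ψ N) σ1 hz⟩

include hBC1 hBC2 hBC3 hBC4 in
theorem q4_bc (ψ : B →ₐ[k] B') (ξ : Cl k A0 A1 A01 t s B) (h : Q4 lam β j B ξ) :
    Q4 lam β j B' (bc ψ ξ) := by
  obtain ⟨N, σ0, σ1, hN, h1, hg, hz, hβ⟩ := h
  obtain ⟨hβ', -⟩ := exists_isBasedQuot_map β ψ (hBC4 B B' ψ N _ (bcc ψ N) σ0) hβ
  exact ⟨bcd ψ N, (bcc ψ N).f0 σ0, (bcc ψ N).f1 σ1, cls_bcd lam j ψ ξ N hN,
    hBC1 B B' ψ N _ (bcc ψ N) h1, hBC2 B B' ψ N _ (bcc ψ N) σ0 σ1 h1 hg,
    hBC3 B B' ψ N _ (bcc ψ N) σ1 hz, hβ'⟩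

end Stable

/-! ### The combinator -/

include hBC1 hBC2 hBC3 hBC4 in
/-- The predicate at the residue field of `p` passes to the residue field of a prime over `p` in a
basic open neighbourhood. -/
theorem chartW_residue_away (B : Type u) [CommRing B] [Algebra k B] (ξ : Cl k A0 A1 A01 t s B)
    (f1 : B) (p1 : PrimeSpectrum (Localization.Away f1))
    (hW : chartW lam β j φ
      (PrimeSpectrum.comap (toAway (k := k) B f1).toRingHom p1).asIdeal.ResidueField
      (bc (toResidue B (PrimeSpectrum.comap (toAway (k := k) B f1).toRingHom p1)) ξ)) :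
    chartW lam β j φ p1.asIdeal.ResidueField
      (bc (toResidue (Localization.Away f1) p1) (bc (toAway B f1) ξ)) := by
  have h := chartW_bc lam β j φ hBC1 hBC2 hBC3 hBC4
    (Fermat.Agent.JAC.Hilb.AtlasLocal33.residueMap (toAway (k := k) B f1) p1) _ hW
  rw [bc_bc, Fermat.Agent.JAC.Hilb.AtlasLocal33.residueMap_comp_toResidue, ← bc_bc] at h
  exact h

include hBC1 hBC2 hBC3 hBC4 in
/-- **Chaining two spreading steps.** -/
theorem spread_trans
    {Q Q' : ∀ (B : Type u) [CommRing B] [Algebra k B], Cl k A0 A1 A01 t s B → Prop}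
    (hQ' : ∀ (B B' : Type u) [CommRing B] [CommRing B'] [Algebra k B] [Algebra k B']
      (ψ : B →ₐ[k] B') (ξ : Cl k A0 A1 A01 t s B), Q' B ξ → Q' B' (bc ψ ξ))
    (step : ∀ (B : Type u) [CommRing B] [Algebra k B] (ξ : Cl k A0 A1 A01 t s B)
      (p : PrimeSpectrum B),
      chartW lam β j φ p.asIdeal.ResidueField (bc (toResidue B p) ξ) → Q B ξ →
      ∃ f : B, f ∉ p.asIdeal ∧ Q' (Localization.Away f) (bc (toAway B f) ξ))
    (B : Type u) [CommRing B] [Algebra k B] (ξ : Cl k A0 A1 A01 t s B) (p : PrimeSpectrum B)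
    (hW : chartW lam β j φ p.asIdeal.ResidueField (bc (toResidue B p) ξ))
    (h : ∃ f : B, f ∉ p.asIdeal ∧ Q (Localization.Away f) (bc (toAway B f) ξ)) :
    ∃ f : B, f ∉ p.asIdeal ∧ Q' (Localization.Away f) (bc (toAway B f) ξ) := by
  obtain ⟨f1, hf1, hQ⟩ := h
  obtain ⟨p1, hp1⟩ := exists_prime_over (k := k) B p f1 hf1
  subst hp1
  have hW1 := chartW_residue_away lam β j φ hBC1 hBC2 hBC3 hBC4 B ξ f1 p1 hW
  obtain ⟨f2, hf2, hQ2⟩ := step (Localization.Away f1) (bc (toAway B f1) ξ) p1 hW1 hQ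
  obtain ⟨f, hf, θ, hθ⟩ := exists_away_hom (k := k) B _ f1 p1 rfl f2 hf2
  refine ⟨f, hf, ?_⟩
  have := hQ' _ _ θ _ hQ2
  rw [bc_bc, bc_bc, AlgHom.comp_assoc, hθ] at this
  exact this

/-! ### The five spreading steps -/

section Chain

variable (hSP1 : Brick.SP1 k A0 A1 A01 t s) (hSP2 : Brick.SP2 k A0 A1 A01 t s)
  (hSP3 : Brick.SP3 k A0 A1 A01 t s) (hK4 : Brick.K4 k A0 A1 A01 t s)
  (B : Type u) [CommRing B] [Algebra k B] (ξ : Cl k A0 A1 A01 t s B) (p : PrimeSpectrum B)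
  (hW : chartW lam β j φ p.asIdeal.ResidueField (bc (toResidue B p) ξ))

include hBC1 hBC2 hBC3 hBC4 hSP1 hW in
/-- Step 1: `H¹ = 0` spreads out. -/
theorem step1 : ∃ f : B, f ∉ p.asIdeal ∧ Q1 lam j (Localization.Away f) (bc (toAway B f) ξ) := by
  obtain ⟨N, hN⟩ := Quotient.exists_rep (ξ * twist lam B j)
  have hN' : cls N = ξ * twist lam B j := hN
  obtain ⟨τ0, τ1, hb⟩ := fibreData lam β j φ hBC1 hBC2 hBC3 hBC4 (toResidue B p) ξ N hN' hW
  obtain ⟨f, hf, h1⟩ := hSP1 B p N hb.1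
  exact ⟨f, hf, bcd (toAway B f) N, cls_bcd lam j _ ξ N hN', h1⟩

include hBC1 hBC2 hBC3 hBC4 hSP2 hW in
/-- Step 2: the generating section spreads out. -/
theorem step2 (hQ : Q1 lam j B ξ) :
    ∃ f : B, f ∉ p.asIdeal ∧ Q2 lam j (Localization.Away f) (bc (toAway B f) ξ) := by
  obtain ⟨N, hN, h1⟩ := hQ
  obtain ⟨τ0, τ1, hb⟩ := fibreData lam β j φ hBC1 hBC2 hBC3 hBC4 (toResidue B p) ξ N hN hW
  obtain ⟨f, hf, σ0, σ1, hg⟩ := hSP2 B p N τ0 τ1 h1 hb.2.1
  exact ⟨f, hf, bcd (toAway B f) N, σ0, σ1, cls_bcd lam j _ ξ N hN,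
    hBC1 _ _ (toAway B f) N _ (bcc (toAway B f) N) h1, hg⟩

include hBC1 hBC2 hBC3 hBC4 hSP3 hW in
/-- Step 3: "no zero at infinity" spreads out. -/
theorem step3 (hQ : Q2 lam j B ξ) :
    ∃ f : B, f ∉ p.asIdeal ∧ Q3 lam j (Localization.Away f) (bc (toAway B f) ξ) := by
  obtain ⟨N, σ0, σ1, hN, h1, hg⟩ := hQ
  obtain ⟨τ0, τ1, hb⟩ := fibreData lam β j φ hBC1 hBC2 hBC3 hBC4 (toResidue B p) ξ N hN hW
  have hgκ := hBC2 _ _ (toResidue B p) N _ (bcc (toResidue B p) N) σ0 σ1 h1 hg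
  obtain ⟨u, hu, -, hu1⟩ := exists_unit_of_isGenSection hgκ hb.2.1
  have hz : NoZeroInf (bcd (toResidue B p) N) ((bcc (toResidue B p) N).f1 σ1) := by
    have := hb.2.2.1
    rw [hu1, noZeroInf_smul_iff _ hu] at this
    exact this
  obtain ⟨f, hf, hzf⟩ := hSP3 B p N σ1 hz
  exact ⟨f, hf, bcd (toAway B f) N, (bcc (toAway B f) N).f0 σ0, (bcc (toAway B f) N).f1 σ1,
    cls_bcd lam j _ ξ N hN, hBC1 _ _ (toAway B f) N _ (bcc (toAway B f) N) h1,
    hBC2 _ _ (toAway B f) N _ (bcc (toAway B f) N) σ0 σ1 h1 hg, hzf⟩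

include hBC1 hBC2 hBC3 hBC4 hK4 hW in
/-- Step 4: the based-quotient condition spreads out. -/
theorem step4 (hQ : Q3 lam j B ξ) :
    ∃ f : B, f ∉ p.asIdeal ∧ Q4 lam β j (Localization.Away f) (bc (toAway B f) ξ) := by
  obtain ⟨N, σ0, σ1, hN, h1, hg, hz⟩ := hQ
  obtain ⟨hfin, hproj⟩ := hK4 B N σ0 σ1 h1 hg hz
  obtain ⟨τ0, τ1, hb⟩ := fibreData lam β j φ hBC1 hBC2 hBC3 hBC4 (toResidue B p) ξ N hN hW
  have hgκ := hBC2 _ _ (toResidue B p) N _ (bcc (toResidue B p) N) σ0 σ1 h1 hg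
  obtain ⟨u, hu, hu0, -⟩ := exists_unit_of_isGenSection hgκ hb.2.1
  obtain ⟨fκ, hfκ, -⟩ := hb.2.2.2
  have hβτ : IsBasedQuot β (zeroIdeal (p.asIdeal.ResidueField ⊗[k] A0) τ0) := by
    rw [← hfκ]
    exact isBasedQuot_pointIdeal β fκ
  have hI : zeroIdeal (p.asIdeal.ResidueField ⊗[k] A0) τ0 =
      Fermat.Agent.JAC.Hilb.BasedOpen24.baseChangeIdeal (zeroIdeal (B ⊗[k] A0) σ0)
        p.asIdeal.ResidueField := by
    rw [hu0, zeroIdeal_isUnit_smul (hu.map _),
      hBC4 _ _ (toResidue B p) N _ (bcc (toResidue B p) N) σ0]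
    rfl
  rw [hI] at hβτ
  haveI := p.isPrime
  obtain ⟨f, hf, hβf⟩ := Fermat.Agent.JAC.Hilb.BasedOpen24.exists_away_isBasedQuot β
    (zeroIdeal (B ⊗[k] A0) σ0) p.asIdeal hβτ
  refine ⟨f, hf, bcd (toAway B f) N, (bcc (toAway B f) N).f0 σ0, (bcc (toAway B f) N).f1 σ1,
    cls_bcd lam j _ ξ N hN, hBC1 _ _ (toAway B f) N _ (bcc (toAway B f) N) h1,
    hBC2 _ _ (toAway B f) N _ (bcc (toAway B f) N) σ0 σ1 h1 hg,
    hBC3 _ _ (toAway B f) N _ (bcc (toAway B f) N) σ1 hz, ?_⟩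
  rw [hBC4 _ _ (toAway B f) N _ (bcc (toAway B f) N) σ0]
  exact hβf

include hBC1 hBC2 hBC3 hBC4 hW in
/-- Step 5: invertibility of `φ` at the classifying point spreads out. -/
theorem step5 (hQ : Q4 lam β j B ξ) :
    ∃ f : B, f ∉ p.asIdeal ∧ chartW lam β j φ (Localization.Away f) (bc (toAway B f) ξ) := by
  obtain ⟨N, σ0, σ1, hN, h1, hg, hz, hβ⟩ := hQ
  obtain ⟨τ0, τ1, hb⟩ := fibreData lam β j φ hBC1 hBC2 hBC3 hBC4 (toResidue B p) ξ N hN hW
  have hgκ := hBC2 _ _ (toResidue B p) N _ (bcc (toResidue B p) N) σ0 σ1 h1 hg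
  obtain ⟨u, hu, hu0, -⟩ := exists_unit_of_isGenSection hgκ hb.2.1
  obtain ⟨fκ, hfκ, huκ⟩ := hb.2.2.2
  obtain ⟨g, hgdef⟩ : ∃ g : chartRing k A0 β →ₐ[k] B,
      g = (pointEquiv (k := k) (A := A0) (β := β) (B := B)).symm hβ.toBasedPoint := ⟨_, rfl⟩
  have hgI : pointIdeal β g = zeroIdeal (B ⊗[k] A0) σ0 := by
    rw [hgdef]
    exact pointIdeal_symm_toBasedPoint β hβ
  have hI : zeroIdeal (p.asIdeal.ResidueField ⊗[k] A0) τ0 =
      Ideal.map (tensorMap (A := A0) (toResidue B p)) (zeroIdeal (B ⊗[k] A0) σ0) := by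
    rw [hu0, zeroIdeal_isUnit_smul (hu.map _),
      hBC4 _ _ (toResidue B p) N _ (bcc (toResidue B p) N) σ0]
  have hfκ' : fκ = (toResidue B p).comp g := by
    apply pointIdeal_injective β
    rw [hfκ, hI, pointIdeal_comp, hgI]
  have hunit : IsUnit (toResidue (k := k) B p (g φ)) := by
    rw [hfκ'] at huκ
    exact huκ
  have hf : g φ ∉ p.asIdeal := by
    intro hmem
    have h0 : toResidue (k := k) B p (g φ) = 0 :=
      Ideal.algebraMap_residueField_eq_zero.mpr hmem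
    rw [h0] at hunit
    exact not_isUnit_zero hunit
  refine ⟨g φ, hf, bcd (toAway B (g φ)) N, (bcc (toAway B (g φ)) N).f0 σ0,
    (bcc (toAway B (g φ)) N).f1 σ1,
    cls_bcd lam j _ ξ N hN, hBC1 _ _ (toAway B (g φ)) N _ (bcc (toAway B (g φ)) N) h1,
    hBC2 _ _ (toAway B (g φ)) N _ (bcc (toAway B (g φ)) N) σ0 σ1 h1 hg,
    hBC3 _ _ (toAway B (g φ)) N _ (bcc (toAway B (g φ)) N) σ1 hz,
    (toAway B (g φ)).comp g, ?_, ?_⟩
  · rw [pointIdeal_comp, hgI, hBC4 _ _ (toAway B (g φ)) N _ (bcc (toAway B (g φ)) N) σ0]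
  · exact IsLocalization.Away.algebraMap_isUnit (g φ)

include hBC1 hBC2 hBC3 hBC4 hSP1 hSP2 hSP3 hK4 hW in
/-- **The spreading chain**: if `chartW` holds for `ξ` at the residue field of `p`, it holds over a
basic open neighbourhood of `p`. -/
theorem exists_away_chartW :
    ∃ f : B, f ∉ p.asIdeal ∧ chartW lam β j φ (Localization.Away f) (bc (toAway B f) ξ) := by
  have s1 := step1 lam β j φ hBC1 hBC2 hBC3 hBC4 hSP1 B ξ p hW
  have s2 := spread_trans lam β j φ hBC1 hBC2 hBC3 hBC4 (Q := Q1 lam j) (Q' := Q2 lam j)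
    (fun _ _ _ _ _ _ ψ ξ h => q2_bc lam j hBC1 hBC2 ψ ξ h)
    (fun B _ _ ξ p hW hQ => step2 lam β j φ hBC1 hBC2 hBC3 hBC4 hSP2 B ξ p hW hQ) B ξ p hW s1
  have s3 := spread_trans lam β j φ hBC1 hBC2 hBC3 hBC4 (Q := Q2 lam j) (Q' := Q3 lam j)
    (fun _ _ _ _ _ _ ψ ξ h => q3_bc lam j hBC1 hBC2 hBC3 ψ ξ h)
    (fun B _ _ ξ p hW hQ => step3 lam β j φ hBC1 hBC2 hBC3 hBC4 hSP3 B ξ p hW hQ) B ξ p hW s2
  have s4 := spread_trans lam β j φ hBC1 hBC2 hBC3 hBC4 (Q := Q3 lam j) (Q' := Q4 lam β j)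
    (fun _ _ _ _ _ _ ψ ξ h => q4_bc lam β j hBC1 hBC2 hBC3 hBC4 ψ ξ h)
    (fun B _ _ ξ p hW hQ => step4 lam β j φ hBC1 hBC2 hBC3 hBC4 hK4 B ξ p hW hQ) B ξ p hW s3
  exact spread_trans lam β j φ hBC1 hBC2 hBC3 hBC4 (Q := Q4 lam β j)
    (Q' := fun B _ _ ξ => chartW lam β j φ B ξ)
    (fun _ _ _ _ _ _ ψ ξ h => chartW_bc lam β j φ hBC1 hBC2 hBC3 hBC4 ψ ξ h)
    (fun B _ _ ξ p hW hQ => step5 lam β j φ hBC1 hBC2 hBC3 hBC4 B ξ p hW hQ) B ξ p hW s4

end Chain

end Steps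

end Fermat.Agent.JAC.Hilb.ChartSpread33
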