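/-
Programme JAC (S25), chart theorem.  Owner: helper23.

BRIDGE between line diagrams over a family `R0 → R01 ← R1` of `B`-algebras (`Core/Defs36`,
conditions of `Hilb/ChartDef24`) and Cech pairs of `B`-modules (`Cech/Basic`, `Cech/FlatBC67`,
`Frame/DegFamily65`: `moduleB0/1/01`, `rho0B`, `rho1B`).

General families (section `General`, `CartHom`):
* `h1_iff_cechD`     : `(∀ z, ∃ x y, rho0 x - rho1 y = z) ↔ Surjective (cechD (rho0B B N) (rho1B B N))`;
* `mem_H0_iff`, `secH0`, `genSection_iff` : sections are elements of `H⁰`; "`H⁰` is free on `(σ0, σ1)`"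
  `↔ b ↦ b • secH0 B N σ0 σ1 h` is bijective `B → H⁰`;
* `exists_equivs_of_cartHom` (MASTER): a cartesian morphism `c : CartHom ψ N N'` over `B → B'` with the
  three ring squares pushouts (`DegFamily65.IsPushoutSquare`) gives `B'`-linear equivalences
  `B' ⊗[B] N.Mi ≃ N'.Mi`, `b ⊗ x ↦ b • c.fi x`, commuting with the Cech maps;
* `exists_h0Equiv_of_cartHom`, `exists_h1Equiv_of_cartHom`, `h1_iff_of_cartHom`, `h1_of_cartHom`,
  `section_of_cartHom`, `bijective_smul_iff_of_cartHom`.

Constant families `B ⊗[k] A_i` (section `Const`, predicates of `Hilb/ChartDef24`):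
* `h1Zero_iff_cechD`, `isGenSection_iff`;
* `isPushoutSquare_familyHom ψ hψ` for `[Algebra B B'] [IsScalarTower k B B']`,
  `hψ : ∀ b, ψ b = algebraMap B B' b` (`hψ := fun _ => rfl` for `toResidue`, `toAway`);
* `h1Zero_iff_of_cartHom`, `exists_h0Equiv`, `bijective_smul_iff`;
* `h1Zero_of_cartHom` (= brick BC1, arbitrary `ψ`), `flat_M01`.
-/
import Mathlib
import Fermat.Agent.JAC.Frame.DegFamily65
import Fermat.Agent.JAC.Frame.Shrink65
import Fermat.Agent.JAC.Cech.FlatBC67
import Fermat.Agent.JAC.Hilb.ChartSpec24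

set_option autoImplicit false
set_option linter.style.haveILetI false
set_option linter.unusedSectionVars false

namespace Fermat.Agent.JAC.Hilb.CechBridge23

open Fermat.Agent.JAC.Core.Defs36 Fermat.Agent.JAC.Core.Cart36 Fermat.Agent.JAC.Grp.Cart33
  Fermat.Agent.JAC.Cech Fermat.Agent.JAC.Cech.FlatBC67 Fermat.Agent.JAC.Frame.GoodTwist65
  Fermat.Agent.JAC.Frame.Shrink65 Fermat.Agent.JAC.Frame.DegFamily65 TensorProduct

universe u

section General

variable {R0 R1 R01 : Type u} [CommRing R0] [CommRing R1] [CommRing R01]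
  [Algebra R0 R01] [Algebra R1 R01] {t : R0} {s : R1}
  (B : Type u) [CommRing B] [Algebra B R0] [Algebra B R1] [Algebra B R01]
  [IsScalarTower B R0 R01] [IsScalarTower B R1 R01]

/-- Dictionary `H¹ = 0` (diagram form) `↔` the Cech differential over the base ring is
surjective. -/
theorem h1_iff_cechD (N : LineDiag t s R01) :
    letI := moduleB0 B N; letI := moduleB1 B N; letI := moduleB01 B N
    (∀ z : N.M01, ∃ (x : N.M0) (y : N.M1), N.rho0 x - N.rho1 y = z) ↔
      Function.Surjective (cechD (rho0B B N) (rho1B B N)) := by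
  letI := moduleB0 B N; letI := moduleB1 B N; letI := moduleB01 B N
  constructor
  · intro h z
    obtain ⟨x, y, hxy⟩ := h z
    exact ⟨(x, y), by rw [cechD_apply]; exact hxy⟩
  · intro h z
    obtain ⟨⟨x, y⟩, hxy⟩ := h z
    rw [cechD_apply] at hxy
    exact ⟨x, y, hxy⟩

/-- Dictionary for sections. -/
theorem mem_H0_iff (N : LineDiag t s R01) (x : N.M0) (y : N.M1) :
    letI := moduleB0 B N; letI := moduleB1 B N; letI := moduleB01 B N
    (x, y) ∈ H0 (rho0B B N) (rho1B B N) ↔ N.rho0 x = N.rho1 y := by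
  letI := moduleB0 B N; letI := moduleB1 B N; letI := moduleB01 B N
  rw [mem_H0]
  rfl

/-- A section `(σ0, σ1)` of a line diagram, as an element of `H⁰` of its Cech pair. -/
def secH0 (N : LineDiag t s R01) (σ0 : N.M0) (σ1 : N.M1) (h : N.rho0 σ0 = N.rho1 σ1) :
    letI := moduleB0 B N; letI := moduleB1 B N; letI := moduleB01 B N
    H0 (rho0B B N) (rho1B B N) :=
  letI := moduleB0 B N; letI := moduleB1 B N; letI := moduleB01 B N
  ⟨(σ0, σ1), (mem_H0_iff B N σ0 σ1).mpr h⟩

theorem secH0_val (N : LineDiag t s R01) (σ0 : N.M0) (σ1 : N.M1) (h : N.rho0 σ0 = N.rho1 σ1) :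
    letI := moduleB0 B N; letI := moduleB1 B N; letI := moduleB01 B N
    ((secH0 B N σ0 σ1 h : H0 (rho0B B N) (rho1B B N)) : N.M0 × N.M1) = (σ0, σ1) := rfl

/-- Dictionary "`H⁰` is free of rank one on the section `(σ0, σ1)`". -/
theorem genSection_iff (N : LineDiag t s R01) (σ0 : N.M0) (σ1 : N.M1) :
    letI := moduleB0 B N; letI := moduleB1 B N; letI := moduleB01 B N
    (N.rho0 σ0 = N.rho1 σ1 ∧ ∀ (x : N.M0) (y : N.M1), N.rho0 x = N.rho1 y →
      ∃! b : B, x = algebraMap B R0 b • σ0 ∧ y = algebraMap B R1 b • σ1) ↔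
    ∃ h : N.rho0 σ0 = N.rho1 σ1, Function.Bijective (fun b : B => b • secH0 B N σ0 σ1 h) := by
  letI := moduleB0 B N; letI := moduleB1 B N; letI := moduleB01 B N
  constructor
  · rintro ⟨h, hu⟩
    refine ⟨h, ?_, ?_⟩
    · intro b b' hbb'
      have hbb : (b • secH0 B N σ0 σ1 h : H0 (rho0B B N) (rho1B B N)) =
        b' • secH0 B N σ0 σ1 h := hbb'
      have h1 : N.rho0 (algebraMap B R0 b • σ0) = N.rho1 (algebraMap B R1 b • σ1) := by
        have := (b • secH0 B N σ0 σ1 h).2
        exact (mem_H0_iff B N _ _).mp this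
      obtain ⟨c, -, hc⟩ := hu _ _ h1
      have e1 := congrArg (fun z : H0 (rho0B B N) (rho1B B N) => (z : N.M0 × N.M1).1) hbb
      have e2 := congrArg (fun z : H0 (rho0B B N) (rho1B B N) => (z : N.M0 × N.M1).2) hbb
      rw [hc b ⟨rfl, rfl⟩]
      exact (hc b' ⟨e1, e2⟩).symm
    · rintro ⟨⟨x, y⟩, hxy⟩
      obtain ⟨b, ⟨hb1, hb2⟩, -⟩ := hu x y ((mem_H0_iff B N x y).mp hxy)
      refine ⟨b, Subtype.ext ?_⟩
      change (algebraMap B R0 b • σ0, algebraMap B R1 b • σ1) = (x, y)
      rw [← hb1, ← hb2]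
  · rintro ⟨h, hinj, hsurj⟩
    refine ⟨h, fun x y hxy => ?_⟩
    obtain ⟨b, hb⟩ := hsurj ⟨(x, y), (mem_H0_iff B N x y).mpr hxy⟩
    have e1 := congrArg (fun z : H0 (rho0B B N) (rho1B B N) => (z : N.M0 × N.M1).1) hb
    have e2 := congrArg (fun z : H0 (rho0B B N) (rho1B B N) => (z : N.M0 × N.M1).2) hb
    refine ⟨b, ⟨e1.symm, e2.symm⟩, ?_⟩
    rintro b' ⟨h1, h2⟩
    apply hinj
    apply Subtype.ext
    change (algebraMap B R0 b' • σ0, algebraMap B R1 b' • σ1) =
      (algebraMap B R0 b • σ0, algebraMap B R1 b • σ1)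
    rw [← h1, ← h2]
    exact Prod.ext e1.symm e2.symm

end General


section CartHom

variable {B B' : Type u} [CommRing B] [CommRing B'] [Algebra B B']
  {R0 R1 R01 : Type u} [CommRing R0] [CommRing R1] [CommRing R01]
  [Algebra B R0] [Algebra B R1] [Algebra B R01] [Algebra R0 R01] [Algebra R1 R01]
  [IsScalarTower B R0 R01] [IsScalarTower B R1 R01] {t : R0} {s : R1}
  {R0' R1' R01' : Type u} [CommRing R0'] [CommRing R1'] [CommRing R01']
  [Algebra B' R0'] [Algebra B' R1'] [Algebra B' R01'] [Algebra R0' R01'] [Algebra R1' R01']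
  [IsScalarTower B' R0' R01'] [IsScalarTower B' R1' R01'] {t' : R0'} {s' : R1'}

/-- **Master bridge**: a cartesian morphism `c : CartHom ψ N N'` over `B → B'` whose three ring
squares are pushouts identifies the three vertices of `N'` with the base changes to `B'` of the
vertices of `N` (as `B`-modules), compatibly with the two Cech maps. -/
theorem exists_equivs_of_cartHom (ψ : FamilyHom t s t' s' R01 R01') {N : LineDiag t s R01}
    {N' : LineDiag t' s' R01'} (c : LineDiag.CartHom ψ N N')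
    (h0 : IsPushoutSquare B B' ψ.ψ0) (h1 : IsPushoutSquare B B' ψ.ψ1)
    (h01 : IsPushoutSquare B B' ψ.ψ01) :
    letI := moduleB0 B N; letI := moduleB1 B N; letI := moduleB01 B N
    letI := moduleB0 B' N'; letI := moduleB1 B' N'; letI := moduleB01 B' N'
    ∃ (e0 : B' ⊗[B] N.M0 ≃ₗ[B'] N'.M0) (e1 : B' ⊗[B] N.M1 ≃ₗ[B'] N'.M1)
      (e01 : B' ⊗[B] N.M01 ≃ₗ[B'] N'.M01),
      (∀ (b : B') (x : N.M0), e0 (b ⊗ₜ[B] x) = b • c.f0 x) ∧
      (∀ (b : B') (y : N.M1), e1 (b ⊗ₜ[B] y) = b • c.f1 y) ∧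
      (∀ (b : B') (z : N.M01), e01 (b ⊗ₜ[B] z) = b • c.f01 z) ∧
      (∀ w, e01 ((rho0B B N).baseChange B' w) = rho0B B' N' (e0 w)) ∧
      (∀ w, e01 ((rho1B B N).baseChange B' w) = rho1B B' N' (e1 w)) := by
  obtain ⟨θ0, hθ0, cart0⟩ := h0
  obtain ⟨θ1, hθ1, cart1⟩ := h1
  obtain ⟨θ01, hθ01, cart01⟩ := h01
  letI := moduleB0 B N; letI := moduleB1 B N; letI := moduleB01 B N
  letI := moduleB0 B' N'; letI := moduleB1 B' N'; letI := moduleB01 B' N'
  letI : Module B N'.M0 := Module.compHom N'.M0 (algebraMap B B')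
  letI : Module B N'.M1 := Module.compHom N'.M1 (algebraMap B B')
  letI : Module B N'.M01 := Module.compHom N'.M01 (algebraMap B B')
  haveI : IsScalarTower B B' N'.M0 := IsScalarTower.of_algebraMap_smul fun _ _ => rfl
  haveI : IsScalarTower B B' N'.M1 := IsScalarTower.of_algebraMap_smul fun _ _ => rfl
  haveI : IsScalarTower B B' N'.M01 := IsScalarTower.of_algebraMap_smul fun _ _ => rfl
  obtain ⟨f₀, hf₀, hb₀⟩ := exists_isBaseChange_of_isBaseChangeHom θ0 hθ0 cart0 c.f0 c.cart0
  obtain ⟨f₁, hf₁, hb₁⟩ := exists_isBaseChange_of_isBaseChangeHom θ1 hθ1 cart1 c.f1 c.cart1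
  obtain ⟨f, hf, hb⟩ := exists_isBaseChange_of_isBaseChangeHom θ01 hθ01 cart01 c.f01 c.cart01
  refine ⟨hb₀.equiv, hb₁.equiv, hb.equiv, fun b x => ?_, fun b y => ?_, fun b z => ?_, ?_, ?_⟩
  · rw [IsBaseChange.equiv_tmul, hf₀]
  · rw [IsBaseChange.equiv_tmul, hf₁]
  · rw [IsBaseChange.equiv_tmul, hf]
  · exact isBaseChange_comm B' (ρ₀ := rho0B B N) (ρ₀' := rho0B B' N') hb₀ hb
      (fun x => by rw [rho0B_apply, hf₀, rho0B_apply, hf, c.comm0])
  · exact isBaseChange_comm B' (ρ₀ := rho1B B N) (ρ₀' := rho1B B' N') hb₁ hb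
      (fun y => by rw [rho1B_apply, hf₁, rho1B_apply, hf, c.comm1])


/-- A cartesian morphism carries sections to sections. -/
theorem section_of_cartHom (ψ : FamilyHom t s t' s' R01 R01') {N : LineDiag t s R01}
    {N' : LineDiag t' s' R01'} (c : LineDiag.CartHom ψ N N') {σ0 : N.M0} {σ1 : N.M1}
    (h : N.rho0 σ0 = N.rho1 σ1) : N'.rho0 (c.f0 σ0) = N'.rho1 (c.f1 σ1) := by
  rw [← c.comm0, ← c.comm1, h]

/-- **`H⁰` of any model of the base change** is `H⁰` of the base-changed Cech pair, and the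
comparison map `H⁰(N) → H⁰(base change)` becomes `(x, y) ↦ (c.f0 x, c.f1 y)`. -/
theorem exists_h0Equiv_of_cartHom (ψ : FamilyHom t s t' s' R01 R01') {N : LineDiag t s R01}
    {N' : LineDiag t' s' R01'} (c : LineDiag.CartHom ψ N N')
    (h0 : IsPushoutSquare B B' ψ.ψ0) (h1 : IsPushoutSquare B B' ψ.ψ1)
    (h01 : IsPushoutSquare B B' ψ.ψ01) :
    letI := moduleB0 B N; letI := moduleB1 B N; letI := moduleB01 B N
    letI := moduleB0 B' N'; letI := moduleB1 B' N'; letI := moduleB01 B' N'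
    ∃ e : H0 ((rho0B B N).baseChange B') ((rho1B B N).baseChange B') ≃ₗ[B']
        H0 (rho0B B' N') (rho1B B' N'),
      ∀ z : H0 (rho0B B N) (rho1B B N),
        ((e (h0ToBaseChange (rho0B B N) (rho1B B N) B' z) : H0 (rho0B B' N') (rho1B B' N')) :
          N'.M0 × N'.M1) = (c.f0 (z : N.M0 × N.M1).1, c.f1 (z : N.M0 × N.M1).2) := by
  letI := moduleB0 B N; letI := moduleB1 B N; letI := moduleB01 B N
  letI := moduleB0 B' N'; letI := moduleB1 B' N'; letI := moduleB01 B' N'
  obtain ⟨e0, e1, e01, he0, he1, -, hc0, hc1⟩ := exists_equivs_of_cartHom ψ c h0 h1 h01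
  refine ⟨H0congr e0 e1 e01 hc0 hc1, fun z => ?_⟩
  change (e0 ((1 : B') ⊗ₜ[B] (z : N.M0 × N.M1).1), e1 ((1 : B') ⊗ₜ[B] (z : N.M0 × N.M1).2)) = _
  rw [he0, he1, one_smul, one_smul]

/-- **`H¹` of any model of the base change** is `H¹` of the base-changed Cech pair. -/
theorem exists_h1Equiv_of_cartHom (ψ : FamilyHom t s t' s' R01 R01') {N : LineDiag t s R01}
    {N' : LineDiag t' s' R01'} (c : LineDiag.CartHom ψ N N')
    (h0 : IsPushoutSquare B B' ψ.ψ0) (h1 : IsPushoutSquare B B' ψ.ψ1)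
    (h01 : IsPushoutSquare B B' ψ.ψ01) :
    letI := moduleB0 B N; letI := moduleB1 B N; letI := moduleB01 B N
    letI := moduleB0 B' N'; letI := moduleB1 B' N'; letI := moduleB01 B' N'
    Nonempty (H1 ((rho0B B N).baseChange B') ((rho1B B N).baseChange B') ≃ₗ[B']
        H1 (rho0B B' N') (rho1B B' N')) := by
  letI := moduleB0 B N; letI := moduleB1 B N; letI := moduleB01 B N
  letI := moduleB0 B' N'; letI := moduleB1 B' N'; letI := moduleB01 B' N'
  obtain ⟨e0, e1, e01, -, -, -, hc0, hc1⟩ := exists_equivs_of_cartHom ψ c h0 h1 h01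
  exact ⟨H1congr e0 e1 e01 hc0 hc1⟩

/-- **Any model of the base change computes the base-changed Cech pair**: `H¹(N') = 0` iff the
differential of the base change to `B'` of the Cech pair of `N` is surjective. -/
theorem h1_iff_of_cartHom (ψ : FamilyHom t s t' s' R01 R01') {N : LineDiag t s R01}
    {N' : LineDiag t' s' R01'} (c : LineDiag.CartHom ψ N N')
    (h0 : IsPushoutSquare B B' ψ.ψ0) (h1 : IsPushoutSquare B B' ψ.ψ1)
    (h01 : IsPushoutSquare B B' ψ.ψ01) :
    letI := moduleB0 B N; letI := moduleB1 B N; letI := moduleB01 B N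
    (∀ z : N'.M01, ∃ (x : N'.M0) (y : N'.M1), N'.rho0 x - N'.rho1 y = z) ↔ Function.Surjective
      (cechD ((rho0B B N).baseChange B') ((rho1B B N).baseChange B')) := by
  letI := moduleB0 B N; letI := moduleB1 B N; letI := moduleB01 B N
  letI := moduleB0 B' N'; letI := moduleB1 B' N'; letI := moduleB01 B' N'
  obtain ⟨e⟩ := exists_h1Equiv_of_cartHom ψ c h0 h1 h01
  rw [h1_iff_cechD B' N']
  constructor
  · intro h
    apply GoodTwist.surjective_of_subsingleton_h1
    have := GoodTwist.subsingleton_h1_of_surjective h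
    exact e.toEquiv.subsingleton
  · intro h
    apply GoodTwist.surjective_of_subsingleton_h1
    have := GoodTwist.subsingleton_h1_of_surjective h
    exact e.symm.toEquiv.subsingleton

/-- **`H¹ = 0` is stable under every base change** (right exactness of the tensor product). -/
theorem h1_of_cartHom (ψ : FamilyHom t s t' s' R01 R01') {N : LineDiag t s R01}
    {N' : LineDiag t' s' R01'} (c : LineDiag.CartHom ψ N N')
    (h0 : IsPushoutSquare B B' ψ.ψ0) (h1 : IsPushoutSquare B B' ψ.ψ1)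
    (h01 : IsPushoutSquare B B' ψ.ψ01)
    (h : ∀ z : N.M01, ∃ (x : N.M0) (y : N.M1), N.rho0 x - N.rho1 y = z) :
    ∀ z : N'.M01, ∃ (x : N'.M0) (y : N'.M1), N'.rho0 x - N'.rho1 y = z := by
  letI := moduleB0 B N; letI := moduleB1 B N; letI := moduleB01 B N
  rw [h1_iff_of_cartHom ψ c h0 h1 h01]
  exact cechD_surjective_baseChange B' (rho0B B N) (rho1B B N) ((h1_iff_cechD B N).mp h)

/-- Transport of "`H⁰` is free of rank one on the section" along the bridge: the image of the
section `(σ0, σ1)` in `H⁰` of the base-changed Cech pair generates freely iff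
`(c.f0 σ0, c.f1 σ1)` generates `H⁰(N')` freely. -/
theorem bijective_smul_iff_of_cartHom (ψ : FamilyHom t s t' s' R01 R01') {N : LineDiag t s R01}
    {N' : LineDiag t' s' R01'} (c : LineDiag.CartHom ψ N N')
    (h0 : IsPushoutSquare B B' ψ.ψ0) (h1 : IsPushoutSquare B B' ψ.ψ1)
    (h01 : IsPushoutSquare B B' ψ.ψ01) (σ0 : N.M0) (σ1 : N.M1) (h : N.rho0 σ0 = N.rho1 σ1) :
    letI := moduleB0 B N; letI := moduleB1 B N; letI := moduleB01 B N
    letI := moduleB0 B' N'; letI := moduleB1 B' N'; letI := moduleB01 B' N'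
    Function.Bijective (fun b : B' =>
      b • h0ToBaseChange (rho0B B N) (rho1B B N) B' (secH0 B N σ0 σ1 h)) ↔
    Function.Bijective (fun b : B' =>
      b • secH0 B' N' (c.f0 σ0) (c.f1 σ1) (section_of_cartHom ψ c h)) := by
  letI := moduleB0 B N; letI := moduleB1 B N; letI := moduleB01 B N
  letI := moduleB0 B' N'; letI := moduleB1 B' N'; letI := moduleB01 B' N'
  obtain ⟨e, he⟩ := exists_h0Equiv_of_cartHom ψ c h0 h1 h01
  have key : e (h0ToBaseChange (rho0B B N) (rho1B B N) B' (secH0 B N σ0 σ1 h)) =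
      secH0 B' N' (c.f0 σ0) (c.f1 σ1) (section_of_cartHom ψ c h) :=
    Subtype.ext (he _)
  have hfun : (fun b : B' => b • secH0 B' N' (c.f0 σ0) (c.f1 σ1) (section_of_cartHom ψ c h)) =
      e ∘ (fun b : B' => b • h0ToBaseChange (rho0B B N) (rho1B B N) B' (secH0 B N σ0 σ1 h)) := by
    funext b
    simp only [Function.comp_apply, map_smul, key]
  rw [hfun]
  exact (e.bijective.of_comp_iff' _).symm

end CartHom


section Const

open scoped Fermat.Agent.JAC.Core.ConstFamily36
open Fermat.Agent.JAC.Core.ConstFamily36 Fermat.Agent.JAC.Core.AlgAtlas36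
  Fermat.Agent.JAC.Hilb.ChartDef24 Fermat.Agent.JAC.Hilb.ChartSpec24

variable {k : Type u} [Field k] {A0 A1 A01 : Type u} [CommRing A0] [CommRing A1] [CommRing A01]
  [Algebra k A0] [Algebra k A1] [Algebra k A01] [Algebra A0 A01] [Algebra A1 A01]
  [IsScalarTower k A0 A01] [IsScalarTower k A1 A01] {t : A0} {s : A1}
  [IsLocalization.Away t A01] [IsLocalization.Away s A01]
  {B B' : Type u} [CommRing B] [CommRing B'] [Algebra k B] [Algebra k B']

/-- `H1Zero N ↔` the Cech differential of `N` over `B` is surjective. -/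
theorem h1Zero_iff_cechD (N : CDiag k A0 A1 A01 t s B) :
    letI := moduleB0 B N; letI := moduleB1 B N; letI := moduleB01 B N
    H1Zero N ↔ Function.Surjective (cechD (rho0B B N) (rho1B B N)) :=
  h1_iff_cechD B N

/-- `IsGenSection N σ0 σ1 ↔ (σ0, σ1)` is a section and `b ↦ b • (σ0, σ1)` is a bijection
`B → H⁰(N)`. -/
theorem isGenSection_iff (N : CDiag k A0 A1 A01 t s B) (σ0 : N.M0) (σ1 : N.M1) :
    letI := moduleB0 B N; letI := moduleB1 B N; letI := moduleB01 B N
    IsGenSection N σ0 σ1 ↔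
      ∃ h : N.rho0 σ0 = N.rho1 σ1, Function.Bijective (fun b : B => b • secH0 B N σ0 σ1 h) :=
  genSection_iff B N σ0 σ1

section Algebra

variable [Algebra B B'] [IsScalarTower k B B'] (ψ : B →ₐ[k] B')
  (hψ : ∀ b, ψ b = algebraMap B B' b)

include hψ in
/-- The three ring squares of the morphism of constant families induced by `ψ : B →ₐ[k] B'` are
pushouts (for `toResidue B p`, `toAway B f` and every `IsScalarTower.toAlgHom k B B'` take
`hψ := fun _ => rfl`). -/
theorem isPushoutSquare_familyHom :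
    IsPushoutSquare B B' (familyHom (A01 := A01) ψ t s).ψ0 ∧
      IsPushoutSquare B B' (familyHom (A01 := A01) ψ t s).ψ1 ∧
      IsPushoutSquare B B' (familyHom (A01 := A01) ψ t s).ψ01 :=
  ⟨isPushoutSquare_tensor A0 _ (fun b a => by
      change (Algebra.TensorProduct.map ψ (AlgHom.id k A0)) (b ⊗ₜ a) = _
      rw [Algebra.TensorProduct.map_tmul, hψ]; rfl),
    isPushoutSquare_tensor A1 _ (fun b a => by
      change (Algebra.TensorProduct.map ψ (AlgHom.id k A1)) (b ⊗ₜ a) = _
      rw [Algebra.TensorProduct.map_tmul, hψ]; rfl),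
    isPushoutSquare_tensor A01 _ (fun b a => by
      change (Algebra.TensorProduct.map ψ (AlgHom.id k A01)) (b ⊗ₜ a) = _
      rw [Algebra.TensorProduct.map_tmul, hψ]; rfl)⟩

include hψ in
/-- **`H1Zero` of any model of the base change**, in Cech form. -/
theorem h1Zero_iff_of_cartHom {N : CDiag k A0 A1 A01 t s B} {N' : CDiag k A0 A1 A01 t s B'}
    (c : LineDiag.CartHom (familyHom ψ t s) N N') :
    letI := moduleB0 B N; letI := moduleB1 B N; letI := moduleB01 B N
    H1Zero N' ↔ Function.Surjective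
      (cechD ((rho0B B N).baseChange B') ((rho1B B N).baseChange B')) :=
  h1_iff_of_cartHom (familyHom ψ t s) c (isPushoutSquare_familyHom ψ hψ).1
    (isPushoutSquare_familyHom ψ hψ).2.1 (isPushoutSquare_familyHom ψ hψ).2.2

include hψ in
/-- **`H⁰` of any model of the base change**, in Cech form. -/
theorem exists_h0Equiv {N : CDiag k A0 A1 A01 t s B} {N' : CDiag k A0 A1 A01 t s B'}
    (c : LineDiag.CartHom (familyHom ψ t s) N N') :
    letI := moduleB0 B N; letI := moduleB1 B N; letI := moduleB01 B N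
    letI := moduleB0 B' N'; letI := moduleB1 B' N'; letI := moduleB01 B' N'
    ∃ e : H0 ((rho0B B N).baseChange B') ((rho1B B N).baseChange B') ≃ₗ[B']
        H0 (rho0B B' N') (rho1B B' N'),
      ∀ z : H0 (rho0B B N) (rho1B B N),
        ((e (h0ToBaseChange (rho0B B N) (rho1B B N) B' z) : H0 (rho0B B' N') (rho1B B' N')) :
          N'.M0 × N'.M1) = (c.f0 (z : N.M0 × N.M1).1, c.f1 (z : N.M0 × N.M1).2) :=
  exists_h0Equiv_of_cartHom (familyHom ψ t s) c (isPushoutSquare_familyHom ψ hψ).1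
    (isPushoutSquare_familyHom ψ hψ).2.1 (isPushoutSquare_familyHom ψ hψ).2.2

include hψ in
/-- Transport of "`H⁰` is free of rank one on the section" along the bridge. -/
theorem bijective_smul_iff {N : CDiag k A0 A1 A01 t s B} {N' : CDiag k A0 A1 A01 t s B'}
    (c : LineDiag.CartHom (familyHom ψ t s) N N') (σ0 : N.M0) (σ1 : N.M1)
    (h : N.rho0 σ0 = N.rho1 σ1) :
    letI := moduleB0 B N; letI := moduleB1 B N; letI := moduleB01 B N
    letI := moduleB0 B' N'; letI := moduleB1 B' N'; letI := moduleB01 B' N'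
    Function.Bijective (fun b : B' =>
      b • h0ToBaseChange (rho0B B N) (rho1B B N) B' (secH0 B N σ0 σ1 h)) ↔
    Function.Bijective (fun b : B' =>
      b • secH0 B' N' (c.f0 σ0) (c.f1 σ1) (section_of_cartHom (familyHom ψ t s) c h)) :=
  bijective_smul_iff_of_cartHom (familyHom ψ t s) c (isPushoutSquare_familyHom ψ hψ).1
    (isPushoutSquare_familyHom ψ hψ).2.1 (isPushoutSquare_familyHom ψ hψ).2.2 σ0 σ1 h

end Algebra

/-- **(BC1) `H1Zero` is stable under every base change**, for an arbitrary `ψ : B →ₐ[k] B'` and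
any cartesian morphism over it. -/
theorem h1Zero_of_cartHom (ψ : B →ₐ[k] B') {N : CDiag k A0 A1 A01 t s B}
    {N' : CDiag k A0 A1 A01 t s B'} (c : LineDiag.CartHom (familyHom ψ t s) N N')
    (h : H1Zero N) : H1Zero N' := by
  letI : Algebra B B' := ψ.toRingHom.toAlgebra
  haveI : IsScalarTower k B B' := IsScalarTower.of_algebraMap_eq fun c => (ψ.commutes c).symm
  have hp := isPushoutSquare_familyHom (A01 := A01) (t := t) (s := s) ψ (fun _ => rfl)
  exact h1_of_cartHom (familyHom ψ t s) c hp.1 hp.2.1 hp.2.2 h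

/-- The overlap module of a line diagram over a constant family is flat over the base. -/
theorem flat_M01 (N : CDiag k A0 A1 A01 t s B) :
    letI := moduleB01 B N
    Module.Flat B N.M01 := by
  letI := moduleB01 B N
  haveI : IsScalarTower B (B ⊗[k] A01) N.M01 := IsScalarTower.of_algebraMap_smul fun _ _ => rfl
  haveI : Module.Flat (B ⊗[k] A01) N.M01 :=
    Module.Flat.of_isLocalizedModule (B ⊗[k] A01) (Submonoid.powers ((1 : B) ⊗ₜ[k] t)) N.rho0
  exact Module.Flat.trans B (B ⊗[k] A01) N.M01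

end Const

end Fermat.Agent.JAC.Hilb.CechBridge23
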