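/-
Programme JAC (S25), chart theorem.  Owner: helper23.

The bricks (BC1), (SP1), (FE1) of `Hilb/ChartSpec24` about `H1Zero`:
* `bc1` : `H¹ = 0` is stable under every base change (right exactness of the tensor product);
* `sp1` : `H¹ = 0` at `κ(p)` spreads out to a basic open neighbourhood of `p`
  (good twists of `Frame/GoodTwist65` + `Frame/Shrink65`);
* `fe1` : `H¹ = 0` descends along field extensions (`Cech/FlatBC67`);
* `isOpen_h1Zero` : the locus of `Spec B` where the fibre of `N` has `H¹ = 0` is open.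
-/
import Mathlib
import Fermat.Agent.JAC.Hilb.CechBridge23

set_option autoImplicit false
set_option linter.style.haveILetI false
set_option linter.unusedSectionVars false

namespace Fermat.Agent.JAC.Hilb.H1Bricks23

open Fermat.Agent.JAC.Core.Defs36 Fermat.Agent.JAC.Core.Cart36 Fermat.Agent.JAC.Grp.Cart33
  Fermat.Agent.JAC.Cech Fermat.Agent.JAC.Cech.FlatBC67 Fermat.Agent.JAC.Frame.GoodTwist65
  Fermat.Agent.JAC.Frame.Shrink65 Fermat.Agent.JAC.Frame.DegFamily65 TensorProduct
  Fermat.Agent.JAC.Hilb.CechBridge23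

universe u

section Spread

open Polynomial

variable {B : Type u} [CommRing B]
  {R0 R1 R01 : Type u} [CommRing R0] [CommRing R1] [CommRing R01]
  [Algebra B R0] [Algebra B R1] [Algebra B R01] [Algebra R0 R01] [Algebra R1 R01]
  [IsScalarTower B R0 R01] [IsScalarTower B R1 R01] {t : R0} {s : R1}
  (hts : algebraMap R0 R01 t * algebraMap R1 R01 s = 1)
  {n0 n1 : ℕ} (b0 : Fin n0 → R0)
  (hb0 : Function.Bijective (fun p : Fin n0 → B[X] => ∑ j, Polynomial.aeval t (p j) * b0 j))
  (b1 : Fin n1 → R1)
  (hb1 : Function.Bijective (fun p : Fin n1 → B[X] => ∑ j, Polynomial.aeval s (p j) * b1 j))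

include hts hb0 hb1 in
/-- **Spreading out, Cech form**: if `H¹` of the fibre of a line diagram at a prime `p` vanishes
then `H¹` vanishes over `Localization.Away f` for some `f ∉ p`. -/
theorem exists_away_cechD_surjective (N : LineDiag t s R01) (p : PrimeSpectrum B) :
    letI := moduleB0 B N; letI := moduleB1 B N; letI := moduleB01 B N
    Function.Surjective (cechD ((rho0B B N).baseChange p.asIdeal.ResidueField)
      ((rho1B B N).baseChange p.asIdeal.ResidueField)) →
    ∃ f : B, f ∉ p.asIdeal ∧ Function.Surjective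
      (cechD ((rho0B B N).baseChange (Localization.Away f))
        ((rho1B B N).baseChange (Localization.Away f))) := by
  letI := moduleB0 B N; letI := moduleB1 B N; letI := moduleB01 B N
  haveI := tower0 B N; haveI := tower1 B N; haveI := tower01_0 B N; haveI := tower01_1 B N
  intro hp
  obtain ⟨m0, h⟩ := exists_goodTwist (B := B) t s hts b0 hb0 b1 hb1 N.rho0 N.rho1
  exact Fermat.Agent.JAC.Frame.Shrink65.GoodTwist.exists_away_surjective (h m0 le_rfl) p hp

include hts hb0 hb1 in
/-- **The locus of `Spec B` where `H¹` of the fibre vanishes is open** (Cech form). -/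
theorem isOpen_cechD_surjective (N : LineDiag t s R01) :
    letI := moduleB0 B N; letI := moduleB1 B N; letI := moduleB01 B N
    IsOpen {p : PrimeSpectrum B | Function.Surjective
      (cechD ((rho0B B N).baseChange p.asIdeal.ResidueField)
        ((rho1B B N).baseChange p.asIdeal.ResidueField))} := by
  letI := moduleB0 B N; letI := moduleB1 B N; letI := moduleB01 B N
  haveI := tower0 B N; haveI := tower1 B N; haveI := tower01_0 B N; haveI := tower01_1 B N
  exact isOpen_h1_vanishing_diagram (B := B) t s hts b0 hb0 b1 hb1 N.rho0 N.rho1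

end Spread

section Bricks

open scoped Fermat.Agent.JAC.Core.ConstFamily36
open Fermat.Agent.JAC.Core.ConstFamily36 Fermat.Agent.JAC.Core.AlgAtlas36
  Fermat.Agent.JAC.Hilb.ChartDef24 Fermat.Agent.JAC.Hilb.ChartSpec24 Polynomial

variable {k : Type u} [Field k] {A0 A1 A01 : Type u} [CommRing A0] [CommRing A1] [CommRing A01]
  [Algebra k A0] [Algebra k A1] [Algebra k A01] [Algebra A0 A01] [Algebra A1 A01]
  [IsScalarTower k A0 A01] [IsScalarTower k A1 A01] {t : A0} {s : A1}
  [IsLocalization.Away t A01] [IsLocalization.Away s A01]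

/-- **Brick (BC1)**: `H¹ = 0` is stable under base change. -/
theorem bc1 (_H : CurveHyp k A0 A1 A01 t s) : Brick.BC1 k A0 A1 A01 t s :=
  fun _ _ _ _ _ _ ψ _ _ c h => h1Zero_of_cartHom ψ c h

/-- **Brick (FE1)**: `H¹ = 0` descends along field extensions. -/
theorem fe1 (_H : CurveHyp k A0 A1 A01 t s) : Brick.FE1 k A0 A1 A01 t s := by
  intro K L _ _ _ _ ψ N N' c h
  letI : Algebra K L := ψ.toRingHom.toAlgebra
  haveI : IsScalarTower k K L := IsScalarTower.of_algebraMap_eq fun c => (ψ.commutes c).symm
  letI := moduleB0 K N; letI := moduleB1 K N; letI := moduleB01 K N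
  rw [h1Zero_iff_of_cartHom ψ (fun _ => rfl) c] at h
  rw [h1Zero_iff_cechD N]
  exact (cechD_baseChange_surjective_iff L (rho0B K N) (rho1B K N)).mp h

/-- **Spreading out `H1Zero`, any models of the base changes**: if some model `Np` of the fibre of
`N` at `p` has `H¹ = 0`, there is `f ∉ p` such that EVERY model of the restriction of `N` to
`Localization.Away f` has `H¹ = 0`. -/
theorem exists_away_h1Zero (H : CurveHyp k A0 A1 A01 t s) {B : Type u} [CommRing B] [Algebra k B]
    (p : PrimeSpectrum B) (N : CDiag k A0 A1 A01 t s B)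
    {Np : CDiag k A0 A1 A01 t s p.asIdeal.ResidueField}
    (cp : LineDiag.CartHom (familyHom (toResidue B p) t s) N Np) (h : H1Zero Np) :
    ∃ f : B, f ∉ p.asIdeal ∧ ∀ (Nf : CDiag k A0 A1 A01 t s (Localization.Away f))
      (_ : LineDiag.CartHom (familyHom (toAway B f) t s) N Nf), H1Zero Nf := by
  letI := moduleB0 B N; letI := moduleB1 B N; letI := moduleB01 B N
  obtain ⟨n0, a0, ha0⟩ := H.coords0
  obtain ⟨n1, a1, ha1⟩ := H.coords1
  have h1 := (h1Zero_iff_of_cartHom (toResidue B p) (fun _ => rfl) cp).mp h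
  have hb0 := Fermat.Agent.JAC.Frame.BaseChange65.bijective_baseChange B ha0
  have hb1 := Fermat.Agent.JAC.Frame.BaseChange65.bijective_baseChange B ha1
  obtain ⟨f, hf, h2⟩ :=
    exists_away_cechD_surjective (B := B) (ChartDef24.hts_tensor H.hts B) _ hb0 _ hb1 N p h1
  exact ⟨f, hf, fun Nf cf => (h1Zero_iff_of_cartHom (toAway B f) (fun _ => rfl) cf).mpr h2⟩

/-- **Brick (SP1)**: `H¹ = 0` at `κ(p)` spreads to a basic open neighbourhood of `p`. -/
theorem sp1 (H : CurveHyp k A0 A1 A01 t s) : Brick.SP1 k A0 A1 A01 t s := by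
  intro B _ _ p N h
  obtain ⟨f, hf, h2⟩ := exists_away_h1Zero H p N (bcc (toResidue B p) N) h
  exact ⟨f, hf, h2 _ (bcc (toAway B f) N)⟩

/-- **The locus of `Spec B` where the fibre of `N` has `H¹ = 0` is open.** -/
theorem isOpen_h1Zero (H : CurveHyp k A0 A1 A01 t s) {B : Type u} [CommRing B] [Algebra k B]
    (N : CDiag k A0 A1 A01 t s B) :
    IsOpen {p : PrimeSpectrum B | H1Zero (bcd (toResidue B p) N)} := by
  letI := moduleB0 B N; letI := moduleB1 B N; letI := moduleB01 B N
  obtain ⟨n0, a0, ha0⟩ := H.coords0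
  obtain ⟨n1, a1, ha1⟩ := H.coords1
  have hb0 := Fermat.Agent.JAC.Frame.BaseChange65.bijective_baseChange B ha0
  have hb1 := Fermat.Agent.JAC.Frame.BaseChange65.bijective_baseChange B ha1
  have key := isOpen_cechD_surjective (B := B) (ChartDef24.hts_tensor H.hts B) _ hb0 _ hb1 N
  have : {p : PrimeSpectrum B | H1Zero (bcd (toResidue B p) N)} =
      {p : PrimeSpectrum B | Function.Surjective
        (cechD ((rho0B B N).baseChange p.asIdeal.ResidueField)
          ((rho1B B N).baseChange p.asIdeal.ResidueField))} := by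
    ext p
    exact h1Zero_iff_of_cartHom (toResidue B p) (fun _ => rfl) (bcc (toResidue B p) N)
  rw [this]
  exact key

end Bricks

end Fermat.Agent.JAC.Hilb.H1Bricks23
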