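/-
Programme JAC (S25), chart theorem (A4.3) and atlas assembly.  Owner: helper24.

THE ALGEBRA-SIDE ATLAS, unconditionally: for CURVE data satisfying `CurveHyp` over an algebraically
closed field `k` and a `k`-point `e` of the overlap, `Nonempty (AlgAtlas k A0 A1 A01 t s e)`.

All bricks of `Hilb/ChartSpec24` are landed (`H1Bricks23`, `H0Bricks50`, `NoZeroInfBricks46`,
`BC4_80`, `K0K3_87`, `K4_87`, `DivBricks46`, `Grp/Bricks33`, `DegBricks10`, `Cov67`), as are the
spreading-out of `chartW` (`ChartSpread33`) and the covering statement (`ChartCovers4`).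
-/
import Mathlib
import Fermat.Agent.JAC.Hilb.AtlasFinal24
import Fermat.Agent.JAC.Hilb.H1Bricks23
import Fermat.Agent.JAC.Hilb.H0Bricks50
import Fermat.Agent.JAC.Hilb.BC4_80
import Fermat.Agent.JAC.Hilb.DivBricks46
import Fermat.Agent.JAC.Hilb.ChartSpread33
import Fermat.Agent.JAC.Hilb.ChartCovers4

set_option autoImplicit false
set_option maxHeartbeats 400000
set_option linter.unusedSectionVars false

universe u

namespace Fermat.Agent.JAC.Hilb.AtlasDone24

open scoped TensorProduct Polynomial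
open scoped Fermat.Agent.JAC.Core.ConstFamily36
open Fermat.Agent.JAC.Core.Defs36 Fermat.Agent.JAC.Core.Cart36 Fermat.Agent.JAC.Core.ConstFamily36
  Fermat.Agent.JAC.Core.Degree36 Fermat.Agent.JAC.Core.AlgAtlas36 Fermat.Agent.JAC.Grp.Diag33
  Fermat.Agent.JAC.Hilb.BasedQuot46 Fermat.Agent.JAC.Hilb.ZeroIdeal46
  Fermat.Agent.JAC.Hilb.ChartDef24 Fermat.Agent.JAC.Hilb.ChartSpec24
  Fermat.Agent.JAC.Hilb.ChartLemmas24 Fermat.Agent.JAC.Hilb.ChartAssembly24
  Fermat.Agent.JAC.Hilb.AtlasLocal33 Fermat.Agent.JAC.Hilb.Atlas24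
  Fermat.Agent.JAC.Hilb.AtlasFinal24

variable {k : Type u} [Field k] {A0 A1 A01 : Type u} [CommRing A0] [CommRing A1] [CommRing A01]
  [Algebra k A0] [Algebra k A1] [Algebra k A01] [Algebra A0 A01] [Algebra A1 A01]
  [IsScalarTower k A0 A01] [IsScalarTower k A1 A01] {t : A0} {s : A1}
  [IsLocalization.Away t A01] [IsLocalization.Away s A01]

/-- **All the bricks** of `Hilb/ChartSpec24`, for curve data. -/
theorem bricks (H : CurveHyp k A0 A1 A01 t s) (e : A01 →ₐ[k] k) :
    Bricks k A0 A1 A01 t s H.hts e :=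
  bricks_of H e (Fermat.Agent.JAC.Hilb.H1Bricks23.bc1 H)
    (Fermat.Agent.JAC.Hilb.H0Bricks50.bc2 k A0 A1 A01 t s)
    Fermat.Agent.JAC.Hilb.BC4_80.bc4 (Fermat.Agent.JAC.Hilb.H1Bricks23.fe1 H)
    (Fermat.Agent.JAC.Hilb.H0Bricks50.fe2 k A0 A1 A01 t s)
    (Fermat.Agent.JAC.Hilb.H1Bricks23.sp1 H)
    (Fermat.Agent.JAC.Hilb.H0Bricks50.sp2 k A0 A1 A01 t s H)
    (Fermat.Agent.JAC.Hilb.DivBricks46.k1 H)
    (Fermat.Agent.JAC.Hilb.DivBricks46.k2 H.hts)

/-- **The algebra-side atlas** of curve data over an algebraically closed field. -/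
noncomputable def algAtlas [IsAlgClosed k] (H : CurveHyp k A0 A1 A01 t s) (e : A01 →ₐ[k] k) :
    AlgAtlas k A0 A1 A01 t s e :=
  algAtlas_of H e (bricks H e)
    (fun β j φ B _ _ ξ p hW =>
      Fermat.Agent.JAC.Hilb.ChartSpread33.exists_away_chartW
        (Fermat.Agent.JAC.Hilb.Cov67.lam H e) β j φ
        (bricks H e).bc1 (bricks H e).bc2 (bricks H e).bc3 (bricks H e).bc4
        (bricks H e).sp1 (bricks H e).sp2 (bricks H e).sp3 (bricks H e).k4 B ξ p hW)
    (Fermat.Agent.JAC.Hilb.ChartCovers4.covers H e (Fermat.Agent.JAC.Hilb.Cov67.lam H e)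
      (bricks H e).bc1 (bricks H e).bc2 (bricks H e).fe1 (bricks H e).fe2
      (bricks H e).sp1 (bricks H e).sp2 (bricks H e).k0 (bricks H e).k1 (bricks H e).k2
      (bricks H e).k4 (bricks H e).g5 (bricks H e).g6 (bricks H e).g7
      (fun K _ _ ξ => Fermat.Agent.JAC.Hilb.Cov67.goodAt_twist H e K ξ))

/-- **The algebra-side atlas exists** (the single open input of S25 after helper36's and helper56's
wiring: `Final/S25Dry56.s25_of_algAtlas`, `Final/S25Skeleton36`). -/
theorem nonempty_algAtlas [IsAlgClosed k] (H : CurveHyp k A0 A1 A01 t s) (e : A01 →ₐ[k] k) :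
    Nonempty (AlgAtlas k A0 A1 A01 t s e) :=
  ⟨algAtlas H e⟩

end Fermat.Agent.JAC.Hilb.AtlasDone24
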