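/-
Programme JAC (S25), atlas assembly, the CHART THEOREM (helper37).

For a chart index `(j, β, φ)` whose universal divisor over `R := Localization.Away φ` is good:
a class `ξ` over ANY `k`-algebra `B` satisfies `chartW lam β j φ B ξ` if and only if it is the
pull-back of the universal class `locClass hts lam β j φ` along a `k`-algebra map `R → B`
("`W` is the image of the chart").  In particular `chartW` is stable under every base change.

The bricks `BC1`, `BC2`, `K1`, `K2`, `K3` of `ChartSpec24` are taken as hypotheses in their literal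
form.
-/
import Mathlib
import Fermat.Agent.JAC.Hilb.ChartUniv37

set_option autoImplicit false
set_option maxHeartbeats 400000
set_option linter.unusedSectionVars false

universe u

namespace Fermat.Agent.JAC.Hilb.ChartThm37

open scoped TensorProduct Polynomial
open scoped Fermat.Agent.JAC.Core.ConstFamily36
open Fermat.Agent.JAC.Core.Defs36 Fermat.Agent.JAC.Core.Cart36 Fermat.Agent.JAC.Core.ConstFamily36
  Fermat.Agent.JAC.Core.Degree36 Fermat.Agent.JAC.Core.AlgAtlas36 Fermat.Agent.JAC.Grp.Diag33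
  Fermat.Agent.JAC.Hilb.BasedQuot46 Fermat.Agent.JAC.Hilb.ZeroIdeal46
  Fermat.Agent.JAC.Hilb.ChartDef24 Fermat.Agent.JAC.Hilb.ChartSpec24
  Fermat.Agent.JAC.Hilb.GenSection46 Fermat.Agent.JAC.Grp.ConstBc33
  Fermat.Agent.JAC.Hilb.ChartInj37 Fermat.Agent.JAC.Hilb.ChartUniv37

variable {k : Type u} [Field k] {A0 A1 A01 : Type u} [CommRing A0] [CommRing A1] [CommRing A01]
  [Algebra k A0] [Algebra k A1] [Algebra k A01] [Algebra A0 A01] [Algebra A1 A01]
  [IsScalarTower k A0 A01] [IsScalarTower k A1 A01] {t : A0} {s : A1}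
  [IsLocalization.Away t A01] [IsLocalization.Away s A01]

section Lift

variable {n : ℕ} (β : Fin n → A0) (φ : chartRing k A0 β)
  {B : Type u} [CommRing B] [Algebra k B]

/-- A point of the chart ring at which `φ` is invertible extends to `Localization.Away φ`. -/
noncomputable def liftAway (f : chartRing k A0 β →ₐ[k] B) (hφ : IsUnit (f φ)) :
    Localization.Away φ →ₐ[k] B :=
  IsLocalization.liftAlgHom (M := Submonoid.powers φ) (f := f) (by
    rintro ⟨y, m, rfl⟩
    rw [map_pow]
    exact hφ.pow m)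

theorem liftAway_comp (f : chartRing k A0 β →ₐ[k] B) (hφ : IsUnit (f φ)) :
    (liftAway β φ f hφ).comp (chartToAway β φ) = f := by
  refine AlgHom.ext fun x => ?_
  simp [liftAway]

end Lift

variable (hts : algebraMap A0 A01 t * algebraMap A1 A01 s = 1)
  (hBC1 : Brick.BC1 k A0 A1 A01 t s) (hBC2 : Brick.BC2 k A0 A1 A01 t s)
  (hK1 : Brick.K1 k A0 A1 A01 t s hts)
  (hK2 : Brick.K2 k A0 A1 A01 t s hts) (hK3 : Brick.K3 k A0 A1 A01 t s hts)
  {J : Type u} (lam : J → Cl k A0 A1 A01 t s k) {n : ℕ} (β : Fin n → A0) (j : J)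
  (φ : chartRing k A0 β)

include hK1 hK2 in
/-- **The chart theorem**: a class satisfying `chartW` comes from the chart. -/
theorem exists_algHom_of_chartW
    (hi : Module.Invertible (Localization.Away φ ⊗[k] A0) (locIdeal β φ))
    (B : Type u) [CommRing B] [Algebra k B] (ξ : Cl k A0 A1 A01 t s B)
    (h : chartW lam β j φ B ξ) :
    ∃ ψ : Localization.Away φ →ₐ[k] B, bc ψ (locClass hts lam β j φ) = ξ := by
  obtain ⟨N, σ0, σ1, hcls, -, hgen, hnz, f, hI, hu⟩ := h
  have hfin : Module.Finite B ((B ⊗[k] A0) ⧸ zeroIdeal (B ⊗[k] A0) σ0) := by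
    rw [← hI]
    exact finite_quotient_pointIdeal β f
  obtain ⟨-, hN⟩ := hK1 B N σ0 σ1 hgen.1 hnz hfin
  refine ⟨liftAway β φ f hu, ?_⟩
  rw [bc_locClass hts hK2 lam β j φ hi, liftAway_comp, odClass_congr hts hI, ← hN, hcls,
    mul_inv_cancel_right]

include hBC1 hBC2 hK1 hK2 hK3 in
/-- **`W` is the image of the chart**, over every `k`-algebra. -/
theorem chartW_iff (hgood : IsGoodDiv hts (Localization.Away φ) (locIdeal β φ))
    (B : Type u) [CommRing B] [Algebra k B] (ξ : Cl k A0 A1 A01 t s B) :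
    chartW lam β j φ B ξ ↔
      ∃ ψ : Localization.Away φ →ₐ[k] B, bc ψ (locClass hts lam β j φ) = ξ := by
  constructor
  · exact exists_algHom_of_chartW hts hK1 hK2 lam β j φ hgood.invertible B ξ
  · rintro ⟨ψ, rfl⟩
    exact chartW_bc_locClass hts hBC1 hBC2 hK2 hK3 lam β j φ hgood B ψ

include hBC1 hBC2 hK1 hK2 hK3 in
/-- `chartW` is stable under every base change. -/
theorem chartW_bc (hgood : IsGoodDiv hts (Localization.Away φ) (locIdeal β φ))
    {B B' : Type u} [CommRing B] [CommRing B'] [Algebra k B] [Algebra k B'] (ψ : B →ₐ[k] B')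
    (ξ : Cl k A0 A1 A01 t s B) (h : chartW lam β j φ B ξ) :
    chartW lam β j φ B' (bc ψ ξ) := by
  obtain ⟨ψ0, rfl⟩ := exists_algHom_of_chartW hts hK1 hK2 lam β j φ hgood.invertible B ξ h
  rw [bc_bc]
  exact chartW_bc_locClass hts hBC1 hBC2 hK2 hK3 lam β j φ hgood B' (ψ.comp ψ0)

include hK1 hK2 in
/-- **`loc` from spreading**: if `chartW` spreads from the residue field of `p` to a basic open
neighbourhood, then the class comes from the chart on that neighbourhood (the field `loc` of
`AtlasLocal33.LocalAtlas`). -/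
theorem loc_of_spread
    (hi : Module.Invertible (Localization.Away φ ⊗[k] A0) (locIdeal β φ))
    (B : Type u) [CommRing B] [Algebra k B] (ξ : Cl k A0 A1 A01 t s B) (p : PrimeSpectrum B)
    (hsp : ∃ f : B, f ∉ p.asIdeal ∧
      chartW lam β j φ (Localization.Away f) (bc (toAway B f) ξ)) :
    ∃ f : B, f ∉ p.asIdeal ∧ ∃ ψ : Localization.Away φ →ₐ[k] Localization.Away f,
      bc ψ (locClass hts lam β j φ) = bc (toAway B f) ξ := by
  obtain ⟨f, hf, hW⟩ := hsp
  exact ⟨f, hf, exists_algHom_of_chartW hts hK1 hK2 lam β j φ hi _ _ hW⟩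

end Fermat.Agent.JAC.Hilb.ChartThm37
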