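/-
Programme JAC (S25), atlas assembly: the CONDITIONAL final structure (helper37; integration test and
backup of `Hilb/Atlas24`).

From the bricks `BC1`, `BC2`, `K1`, `K2`, `K3` of `ChartSpec24` and the three remaining assembly
statements (spreading of `chartW`, descent of `chartW` along field extensions, the covering
statement), all taken as HYPOTHESES in literal form, we build the `AtlasLocal33.LocalAtlas` whose
charts are the valid chart indices `{γ : ChartIdx // ChartCond γ}`, and hence the `AlgAtlas`.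
-/
import Mathlib
import Fermat.Agent.JAC.Hilb.ChartThm37
import Fermat.Agent.JAC.Hilb.AtlasLocal33

set_option autoImplicit false
set_option maxHeartbeats 400000
set_option linter.unusedSectionVars false

universe u

namespace Fermat.Agent.JAC.Hilb.AtlasOfBricks37

open scoped TensorProduct Polynomial
open scoped Fermat.Agent.JAC.Core.ConstFamily36
open Fermat.Agent.JAC.Core.Defs36 Fermat.Agent.JAC.Core.Cart36 Fermat.Agent.JAC.Core.ConstFamily36
  Fermat.Agent.JAC.Core.Degree36 Fermat.Agent.JAC.Core.AlgAtlas36 Fermat.Agent.JAC.Grp.Diag33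
  Fermat.Agent.JAC.Hilb.BasedQuot46 Fermat.Agent.JAC.Hilb.ZeroIdeal46
  Fermat.Agent.JAC.Hilb.ChartDef24 Fermat.Agent.JAC.Hilb.ChartSpec24
  Fermat.Agent.JAC.Grp.ConstBc33
  Fermat.Agent.JAC.Hilb.ChartInj37 Fermat.Agent.JAC.Hilb.ChartUniv37
  Fermat.Agent.JAC.Hilb.ChartThm37 Fermat.Agent.JAC.Hilb.AtlasLocal33

variable {k : Type u} [Field k] {A0 A1 A01 : Type u} [CommRing A0] [CommRing A1] [CommRing A01]
  [Algebra k A0] [Algebra k A1] [Algebra k A01] [Algebra A0 A01] [Algebra A1 A01]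
  [IsScalarTower k A0 A01] [IsScalarTower k A1 A01] {t : A0} {s : A1}
  [IsLocalization.Away t A01] [IsLocalization.Away s A01]

section FiniteType

variable {n : ℕ} (β : Fin n → A0) (φ : chartRing k A0 β)

/-- The chart rings are of finite type over `k`. -/
theorem finiteType_away [Algebra.FiniteType k A0] :
    Algebra.FiniteType k (Localization.Away φ) :=
  haveI : Algebra.FiniteType (chartRing k A0 β) (Localization.Away φ) :=
    IsLocalization.finiteType_of_monoid_fg (Submonoid.powers φ) (Localization.Away φ)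
  Algebra.FiniteType.trans (inferInstance : Algebra.FiniteType k (chartRing k A0 β)) this

end FiniteType

variable (hts : algebraMap A0 A01 t * algebraMap A1 A01 s = 1) (e : A01 →ₐ[k] k)
  {J : Type u} (lam : J → Cl k A0 A1 A01 t s k)

/-- The valid chart indices. -/
abbrev Idx : Type u :=
  {γ : ChartIdx (k := k) A0 J // ChartCond hts e lam γ.β γ.j γ.φ}

variable [Algebra.FiniteType k A0]
  (hBC1 : Brick.BC1 k A0 A1 A01 t s) (hBC2 : Brick.BC2 k A0 A1 A01 t s)
  (hK1 : Brick.K1 k A0 A1 A01 t s hts)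
  (hK2 : Brick.K2 k A0 A1 A01 t s hts) (hK3 : Brick.K3 k A0 A1 A01 t s hts)
  -- spreading of `chartW` from the residue field of a prime to a basic open neighbourhood
  (hspread : ∀ (γ : Idx hts e lam) (B : Type u) [CommRing B] [Algebra k B]
    (ξ : Cl k A0 A1 A01 t s B), IsRigidCl e B ξ → IsDegZero B ξ → ∀ p : PrimeSpectrum B,
    chartW lam γ.1.β γ.1.j γ.1.φ p.asIdeal.ResidueField (bc (toResidue B p) ξ) →
    ∃ f : B, f ∉ p.asIdeal ∧
      chartW lam γ.1.β γ.1.j γ.1.φ (Localization.Away f) (bc (ChartSpec24.toAway B f) ξ))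
  -- descent of `chartW` along field extensions
  (hdesc : ∀ (γ : Idx hts e lam) (K L : Type u) [Field K] [Field L] [Algebra k K] [Algebra k L]
    (ψ : K →ₐ[k] L) (ξ : Cl k A0 A1 A01 t s K), IsRigidCl e K ξ → IsDegZero K ξ →
    chartW lam γ.1.β γ.1.j γ.1.φ L (bc ψ ξ) → chartW lam γ.1.β γ.1.j γ.1.φ K ξ)
  -- the covering statement
  (hcov : ∀ (K : Type u) [Field K] [Algebra k K] (ξ : Cl k A0 A1 A01 t s K),
    IsRigidCl e K ξ → IsDegZero K ξ →
    ∃ γ : Idx hts e lam, chartW lam γ.1.β γ.1.j γ.1.φ K ξ)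

/-- **The local atlas from the bricks.** -/
noncomputable def localAtlas : LocalAtlas (A0 := A0) (A1 := A1) (t := t) (s := s) e where
  ι := Idx hts e lam
  R γ := Localization.Away γ.1.φ
  finiteType γ := finiteType_away γ.1.β γ.1.φ
  x γ := locClass hts lam γ.1.β γ.1.j γ.1.φ
  x_rigid γ := γ.2.rigid
  x_degZero γ := γ.2.degZero
  W γ K _ _ ξ := chartW lam γ.1.β γ.1.j γ.1.φ K ξ
  W_iff γ K L _ _ _ _ ψ ξ hr hd :=
    ⟨hdesc γ K L ψ ξ hr hd,
      chartW_bc hts hBC1 hBC2 hK1 hK2 hK3 lam γ.1.β γ.1.j γ.1.φ γ.2.good ψ ξ⟩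
  inj γ B _ _ ψ ψ' h := inj hts hBC1 hBC2 hK2 lam γ.1.β γ.1.j γ.1.φ γ.2.good B ψ ψ' h
  univ γ p := univ hts hBC1 hBC2 hK2 hK3 lam γ.1.β γ.1.j γ.1.φ γ.2.good p
  loc γ B _ _ ξ hr hd p hW :=
    loc_of_spread hts hK1 hK2 lam γ.1.β γ.1.j γ.1.φ γ.2.good.invertible B ξ p
      (hspread γ B ξ hr hd p hW)
  covers K _ _ ξ hr hd := hcov K ξ hr hd

/-- **The atlas from the bricks.** -/
noncomputable def algAtlas
    (hH0 : ∀ (a0 : A0) (a1 : A1), algebraMap A0 A01 a0 = algebraMap A1 A01 a1 →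
      ∃ c : k, a0 = algebraMap k A0 c ∧ a1 = algebraMap k A1 c) :
    AlgAtlas k A0 A1 A01 t s e :=
  (localAtlas hts e lam hBC1 hBC2 hK1 hK2 hK3 hspread hdesc hcov).toAlgAtlas hH0

end Fermat.Agent.JAC.Hilb.AtlasOfBricks37
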