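/-
Programme JAC (S25), chart chapter (long pole `nonempty_algAtlas`).  Owner: helper87
(ruling #1140; design = report #684 (d1)-(d3) of helper24).

THE DEFINITIONS of the chart construction.  Nothing is proved here beyond well-typedness and a few
`rfl`/unfolding lemmas; the bricks are stated against these definitions in `Hilb/ChartBricks87`.

Family level (`R0 → R01 ← R1; t, s`):
* `H1Zero N`            : `H¹(N) = 0` (every `z : M01` is `rho0 x - rho1 y`);
* `IsGenSection B N σ0 σ1` : `(σ0, σ1)` is a section and `H⁰(N)` is free of rank one over `B` on it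
  (`GenSection46.Generates` ∧ `GenSection46.IsFaithfulSection`);
* `NoZeroInf N σ1`      : `σ1` generates `M1 / s M1` (no zero on `s = 0`);
* `OD t s Z0`           : the line diagram `O(D) = dual (idealDiag Z0 (I1 Z0))` of the divisor
  `D = V(Z0) ⊆ U0` (closure `I1 Z0` in `U1`), with its tautological section `taut0`, `taut1`;
* `odClassGen t s Z0`   : its class (junk value `1` when `Z0` or `I1 Z0` is not invertible).

Constant family (`B ⊗[k] A_i`) of CURVE data, twists `lam : J → Cl .. k`:
* `odClass B Z0`, `twist lam j B`, `GoodAt B η`, `Cov e lam`, `CovAC e lam`;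
* `ChartIdx k A0 J` (`γ = (j, n, β, φ)`), `chartR γ := Localization.Away γ.φ`,
  `chartHom γ : chartRing k A0 γ.β →ₐ[k] chartR γ`, `pullIdeal ψ`, `univIdealAway γ`,
  `xClass lam γ`, `Valid e lam γ`, `W lam γ K ξ`.
-/
import Mathlib
import Fermat.Agent.JAC.Core.AlgAtlas36
import Fermat.Agent.JAC.Hilb.BasedQuot46
import Fermat.Agent.JAC.Hilb.GenSection46
import Fermat.Agent.JAC.Hilb.SectionDiv46
import Fermat.Agent.JAC.Div.DivisorDiagram56

set_option autoImplicit false

universe u

namespace Fermat.Agent.JAC.Hilb.ChartDef87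

open scoped TensorProduct
open scoped Fermat.Agent.JAC.Core.ConstFamily36
open Fermat.Agent.JAC.Core.Defs36 Fermat.Agent.JAC.Core.ConstFamily36
  Fermat.Agent.JAC.Core.AlgAtlas36 Fermat.Agent.JAC.Grp.Diag33
  Fermat.Agent.JAC.Hilb.BasedQuot46 Fermat.Agent.JAC.Hilb.GenSection46
  Fermat.Agent.JAC.Hilb.SectionDiv46 Fermat.Agent.JAC.Hilb.ZeroIdeal46
  Fermat.Agent.JAC.Div.DivisorDiagram56

/-! ### Family level -/

section Family

variable {R0 R1 R01 : Type u} [CommRing R0] [CommRing R1] [CommRing R01]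
  [Algebra R0 R01] [Algebra R1 R01] {t : R0} {s : R1}

/-- `H¹(N) = 0`: every element of `M01` is a difference `rho0 x - rho1 y`. -/
def H1Zero (N : LineDiag t s R01) : Prop :=
  ∀ z : N.M01, ∃ (x : N.M0) (y : N.M1), N.rho0 x - N.rho1 y = z

/-- `(σ0, σ1)` is a section of `N` and `H⁰(N)` is free of rank one over `B` with generator
`(σ0, σ1)`: every section is a `B`-multiple of it (`Generates`), and the multiplier is unique
(`IsFaithfulSection`). -/
def IsGenSection (B : Type*) [CommRing B] [Algebra B R0] [Algebra B R1] (N : LineDiag t s R01)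
    (σ0 : N.M0) (σ1 : N.M1) : Prop :=
  Generates B N σ0 σ1 ∧ IsFaithfulSection B N σ0 σ1

/-- The section does not vanish on `s = 0` ("at infinity"): `σ1` generates `M1 / s M1`. -/
def NoZeroInf (N : LineDiag t s R01) (σ1 : N.M1) : Prop :=
  Submodule.span R1 {σ1} ⊔ Ideal.span {s} • (⊤ : Submodule R1 N.M1) = ⊤

theorem IsGenSection.section_eq {B : Type*} [CommRing B] [Algebra B R0] [Algebra B R1]
    {N : LineDiag t s R01} {σ0 : N.M0} {σ1 : N.M1} (h : IsGenSection B N σ0 σ1) :
    N.rho0 σ0 = N.rho1 σ1 := h.1.1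

variable [IsLocalization.Away t R01] [IsLocalization.Away s R01]

include s in
variable (s) in
/-- The two ideals `Z0`, `I1 Z0` (closure in the second chart) have the same extension to `R01`. -/
theorem map_eq_map_I1 (Z0 : Ideal R0) :
    Ideal.map (algebraMap R0 R01) Z0 =
      Ideal.map (algebraMap R1 R01) (I1 (R1 := R1) (R01 := R01) Z0) :=
  (map_I1 (R1 := R1) (R01 := R01) s Z0).symm

variable (t s) in
/-- The line diagram `O(D)` of the effective divisor `D = V(Z0) ⊆ U0`, closed up in `U1` by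
`I1 Z0`: the dual of the ideal diagram `Z0 → Z0 R01 ← I1 Z0`. -/
noncomputable def OD (Z0 : Ideal R0) [Module.Invertible R0 Z0]
    [Module.Invertible R1 (I1 (R1 := R1) (R01 := R01) Z0)] : LineDiag t s R01 :=
  dual (idealDiag t s Z0 (I1 (R1 := R1) (R01 := R01) Z0) (map_eq_map_I1 s Z0))

variable (t s) in
/-- The tautological section of `O(D)` on the first chart: the inclusion `Z0 → R0`. -/
def taut0 (Z0 : Ideal R0) [Module.Invertible R0 Z0]
    [Module.Invertible R1 (I1 (R1 := R1) (R01 := R01) Z0)] : (OD t s (R01 := R01) Z0).M0 :=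
  (Submodule.subtype Z0 : Module.Dual R0 Z0)

variable (t s) in
/-- The tautological section of `O(D)` on the second chart: the inclusion `I1 Z0 → R1`. -/
def taut1 (Z0 : Ideal R0) [Module.Invertible R0 Z0]
    [Module.Invertible R1 (I1 (R1 := R1) (R01 := R01) Z0)] : (OD t s (R01 := R01) Z0).M1 :=
  (Submodule.subtype (I1 (R1 := R1) (R01 := R01) Z0) :
    Module.Dual R1 (I1 (R1 := R1) (R01 := R01) Z0))

/-- The tautological section is a section. -/
theorem taut_section (Z0 : Ideal R0) [Module.Invertible R0 Z0]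
    [Module.Invertible R1 (I1 (R1 := R1) (R01 := R01) Z0)] :
    (OD t s (R01 := R01) Z0).rho0 (taut0 t s Z0) = (OD t s (R01 := R01) Z0).rho1 (taut1 t s Z0) :=
  dual_idealDiag_section Z0 (I1 (R1 := R1) (R01 := R01) Z0) (map_eq_map_I1 s Z0)

/-- The zero ideal of the tautological section on the first chart is `Z0`. -/
theorem zeroIdeal_taut0 (Z0 : Ideal R0) [Module.Invertible R0 Z0]
    [Module.Invertible R1 (I1 (R1 := R1) (R01 := R01) Z0)] :
    zeroIdeal R0 (taut0 t s (R01 := R01) Z0) = Z0 :=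
  zeroIdeal_subtype Z0

/-- The zero ideal of the tautological section on the second chart is `I1 Z0`. -/
theorem zeroIdeal_taut1 (Z0 : Ideal R0) [Module.Invertible R0 Z0]
    [Module.Invertible R1 (I1 (R1 := R1) (R01 := R01) Z0)] :
    zeroIdeal R1 (taut1 t s (R01 := R01) Z0) = I1 (R1 := R1) (R01 := R01) Z0 :=
  zeroIdeal_subtype _

open Classical in
variable (t s R01) in
/-- The class of `O(D)`, `D = V(Z0)`; junk value `1` when `Z0` or `I1 Z0` is not invertible. -/
noncomputable def odClassGen (Z0 : Ideal R0) : LineDiag.Classes t s R01 :=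
  if h : Module.Invertible R0 Z0 ∧ Module.Invertible R1 (I1 (R1 := R1) (R01 := R01) Z0) then
    haveI := h.1
    haveI := h.2
    cls (OD t s (R01 := R01) Z0)
  else 1

theorem odClassGen_eq (Z0 : Ideal R0) [h0 : Module.Invertible R0 Z0]
    [h1 : Module.Invertible R1 (I1 (R1 := R1) (R01 := R01) Z0)] :
    odClassGen R01 t s Z0 = cls (OD t s (R01 := R01) Z0) := by
  unfold odClassGen
  rw [dif_pos ⟨h0, h1⟩]

end Family

/-! ### The constant family -/

section Const

variable {k : Type u} [Field k] {A0 A1 A01 : Type u} [CommRing A0] [CommRing A1] [CommRing A01]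
  [Algebra k A0] [Algebra k A1] [Algebra k A01] [Algebra A0 A01] [Algebra A1 A01]
  [IsScalarTower k A0 A01] [IsScalarTower k A1 A01] {t : A0} {s : A1}
  [IsLocalization.Away t A01] [IsLocalization.Away s A01]

variable (A1 A01 t s) in
/-- The class of `O(D)` over the constant family `B ⊗[k] A_i`, for `D = V(Z0)`,
`Z0 ≤ B ⊗[k] A0`. -/
noncomputable def odClass (B : Type u) [CommRing B] [Algebra k B] (Z0 : Ideal (B ⊗[k] A0)) :
    Cl k A0 A1 A01 t s B :=
  odClassGen (B ⊗[k] A01) ((1 : B) ⊗ₜ[k] t) ((1 : B) ⊗ₜ[k] s) Z0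

theorem odClass_eq (B : Type u) [CommRing B] [Algebra k B] (Z0 : Ideal (B ⊗[k] A0))
    [Module.Invertible (B ⊗[k] A0) Z0]
    [Module.Invertible (B ⊗[k] A1) (I1 (R1 := B ⊗[k] A1) (R01 := B ⊗[k] A01) Z0)] :
    odClass A1 A01 t s B Z0 =
      cls (OD ((1 : B) ⊗ₜ[k] t) ((1 : B) ⊗ₜ[k] s) (R01 := B ⊗[k] A01) Z0) :=
  odClassGen_eq Z0

/-- **The good locus** (report #684 (d1)): the class `η` over `B` is represented by a line diagram
with `H¹ = 0`, `H⁰` free of rank one on a section which does not vanish at infinity. -/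
def GoodAt (B : Type u) [CommRing B] [Algebra k B] (η : Cl k A0 A1 A01 t s B) : Prop :=
  ∃ (N : LineDiag ((1 : B) ⊗ₜ[k] t) ((1 : B) ⊗ₜ[k] s) (B ⊗[k] A01)) (σ0 : N.M0) (σ1 : N.M1),
    cls N = η ∧ H1Zero N ∧ IsGenSection B N σ0 σ1 ∧ NoZeroInf N σ1

variable {J : Type u} (lam : J → Cl k A0 A1 A01 t s k)

/-- The twist `lam j`, pulled back to the `k`-algebra `B`. -/
noncomputable def twist (j : J) (B : Type u) [CommRing B] [Algebra k B] : Cl k A0 A1 A01 t s B :=
  bc (Algebra.ofId k B) (lam j)

/-- **The covering hypothesis** (report #684 (d1)): every rigid class of degree zero over a field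
becomes good after one of the twists. -/
def Cov (e : A01 →ₐ[k] k) : Prop :=
  ∀ (K : Type u) [Field K] [Algebra k K] (ξ : Cl k A0 A1 A01 t s K),
    IsRigidCl e K ξ → IsDegZero K ξ → ∃ j, GoodAt K (ξ * twist lam j K)

/-- The covering hypothesis over algebraically closed fields only (implies `Cov` by the invariance
of `GoodAt` under field extensions). -/
def CovAC (e : A01 →ₐ[k] k) : Prop :=
  ∀ (K : Type u) [Field K] [IsAlgClosed K] [Algebra k K] (ξ : Cl k A0 A1 A01 t s K),
    IsRigidCl e K ξ → IsDegZero K ξ → ∃ j, GoodAt K (ξ * twist lam j K)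

variable (k A0 J) in
/-- **Chart index** (report #684 (d2)): a twist `j`, a number of points `n`, a candidate basis
`β : Fin n → A0` of the structure ring of the divisor and a function `φ` on the chart
`chartRing k A0 β` of the Hilbert functor of `n` points of `Spec A0`. -/
structure ChartIdx where
  /-- the twist -/
  j : J
  /-- the number of points -/
  n : ℕ
  /-- the candidate basis -/
  β : Fin n → A0
  /-- the function cutting out the chart inside `Spec (chartRing k A0 β)` -/
  φ : chartRing k A0 β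

/-- The chart ring of the index `γ`: the localisation of `chartRing k A0 γ.β` at `γ.φ`. -/
abbrev chartR (γ : ChartIdx k A0 J) : Type u := Localization.Away γ.φ

/-- The localisation map `chartRing k A0 γ.β → chartR γ`, as a `k`-algebra map. -/
noncomputable abbrev chartHom (γ : ChartIdx k A0 J) : chartRing k A0 γ.β →ₐ[k] chartR γ :=
  IsScalarTower.toAlgHom k (chartRing k A0 γ.β) (Localization.Away γ.φ)

/-- The pull-back of the universal ideal along a point `ψ` of the chart of the Hilbert functor: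
the ideal of the based point classified by `ψ`
(`pullIdeal_eq_map : pullIdeal ψ = (univIdeal).map (ψ ⊗ id)`). -/
noncomputable def pullIdeal {n : ℕ} {β : Fin n → A0} {B : Type u} [CommRing B] [Algebra k B]
    (ψ : chartRing k A0 β →ₐ[k] B) : Ideal (B ⊗[k] A0) :=
  (pointEquiv ψ).ideal

theorem pullIdeal_eq_map {n : ℕ} {β : Fin n → A0} {B : Type u} [CommRing B] [Algebra k B]
    (ψ : chartRing k A0 β →ₐ[k] B) :
    pullIdeal ψ = Ideal.map (tensorMap ψ) (univIdeal (k := k) (A := A0) (β := β)) :=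
  pointEquiv_ideal ψ

theorem isBasedQuot_pullIdeal {n : ℕ} {β : Fin n → A0} {B : Type u} [CommRing B] [Algebra k B]
    (ψ : chartRing k A0 β →ₐ[k] B) : IsBasedQuot β (pullIdeal ψ) :=
  (pointEquiv ψ).isBasedQuot_ideal

/-- The universal ideal over the chart ring `chartR γ`. -/
noncomputable def univIdealAway (γ : ChartIdx k A0 J) : Ideal (chartR γ ⊗[k] A0) :=
  pullIdeal (chartHom γ)

/-- **The universal class** (report #684 (d2)): `[O(D_univ)] * (lam j)⁻¹` over `chartR γ`. -/
noncomputable def xClass (γ : ChartIdx k A0 J) : Cl k A0 A1 A01 t s (chartR γ) :=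
  odClass A1 A01 t s (chartR γ) (univIdealAway γ) * (twist lam γ.j (chartR γ))⁻¹

/-- **Validity of a chart index** (report #684 (d2)): over `chartR γ` the universal ideal and its
closure in the second chart are invertible, `O(D_univ)` has `H¹ = 0` and `H⁰` free of rank one on
the tautological section, and the universal class is rigid of degree zero. -/
structure Valid (e : A01 →ₐ[k] k) (γ : ChartIdx k A0 J) : Prop where
  inv0 : Module.Invertible (chartR γ ⊗[k] A0) (univIdealAway γ)
  inv1 : Module.Invertible (chartR γ ⊗[k] A1)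
    (I1 (R1 := chartR γ ⊗[k] A1) (R01 := chartR γ ⊗[k] A01) (univIdealAway γ))
  h1Zero : H1Zero (OD ((1 : chartR γ) ⊗ₜ[k] t) ((1 : chartR γ) ⊗ₜ[k] s)
    (R01 := chartR γ ⊗[k] A01) (univIdealAway γ))
  isGen : IsGenSection (chartR γ) (OD ((1 : chartR γ) ⊗ₜ[k] t) ((1 : chartR γ) ⊗ₜ[k] s)
      (R01 := chartR γ ⊗[k] A01) (univIdealAway γ))
    (taut0 ((1 : chartR γ) ⊗ₜ[k] t) ((1 : chartR γ) ⊗ₜ[k] s) (univIdealAway γ))
    (taut1 ((1 : chartR γ) ⊗ₜ[k] t) ((1 : chartR γ) ⊗ₜ[k] s) (univIdealAway γ))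
  rigid : IsRigidCl e (chartR γ) (xClass lam γ)
  degZero : IsDegZero (chartR γ) (xClass lam γ)

/-- **The pointwise predicate** (report #684 (d3)): the class `ξ` over the field `K` lies in the
chart `γ` iff `ξ * lam j` is good, the divisor of its generating section is a `γ.β`-based quotient
and `γ.φ` does not vanish at the corresponding point of `Spec (chartRing k A0 γ.β)`. -/
def W (γ : ChartIdx k A0 J) (K : Type u) [Field K] [Algebra k K]
    (ξ : Cl k A0 A1 A01 t s K) : Prop :=
  ∃ (N : LineDiag ((1 : K) ⊗ₜ[k] t) ((1 : K) ⊗ₜ[k] s) (K ⊗[k] A01)) (σ0 : N.M0) (σ1 : N.M1),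
    cls N = ξ * twist lam γ.j K ∧ H1Zero N ∧ IsGenSection K N σ0 σ1 ∧ NoZeroInf N σ1 ∧
      ∃ hβ : IsBasedQuot γ.β (zeroIdeal (K ⊗[k] A0) σ0),
        IsUnit ((pointEquiv.symm hβ.toBasedPoint : chartRing k A0 γ.β →ₐ[k] K) γ.φ)

theorem W.goodAt {γ : ChartIdx k A0 J} {K : Type u} [Field K] [Algebra k K]
    {ξ : Cl k A0 A1 A01 t s K} (h : W lam γ K ξ) : GoodAt K (ξ * twist lam γ.j K) := by
  obtain ⟨N, σ0, σ1, h1, h2, h3, h4, -⟩ := h
  exact ⟨N, σ0, σ1, h1, h2, h3, h4⟩

theorem Cov.covAC {e : A01 →ₐ[k] k} (h : Cov lam e) : CovAC lam e :=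
  fun K _ _ _ ξ hr hd => h K ξ hr hd

end Const

end Fermat.Agent.JAC.Hilb.ChartDef87
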