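/-
Programme JAC (S25), chart theorem (A4.3): the bricks `(FE1)` and `(FE2)` of `Hilb/ChartSpec24`
(descent of `H¹ = 0` and of "`H⁰` is one-dimensional" along a field extension).  Owner: helper67.

For a field extension `ψ : K →ₐ[k] L` and a cartesian morphism `c : N → N'` of line diagrams over
`familyHom ψ t s`, the three vertex maps of `c` are base changes along `K → L`
(`DegFamily65.exists_isBaseChange_of_isBaseChangeHom`), so the Čech pair of `N'` is the base change
of the Čech pair of `N`, and `Cech/FlatBC67` applies.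
-/
import Mathlib
import Fermat.Agent.JAC.Hilb.ChartSpec24
import Fermat.Agent.JAC.Frame.DegFamily65
import Fermat.Agent.JAC.Cech.FlatBC67

set_option autoImplicit false
set_option maxHeartbeats 400000
set_option linter.unusedSectionVars false
set_option linter.style.haveILetI false

universe u

namespace Fermat.Agent.JAC.Hilb.FieldDescent67

open scoped TensorProduct
open scoped Fermat.Agent.JAC.Core.ConstFamily36
open Fermat.Agent.JAC.Core.Defs36 Fermat.Agent.JAC.Core.Cart36 Fermat.Agent.JAC.Core.ConstFamily36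
  Fermat.Agent.JAC.Core.Degree36 Fermat.Agent.JAC.Core.AlgAtlas36
  Fermat.Agent.JAC.Hilb.ChartDef24 Fermat.Agent.JAC.Hilb.ChartSpec24
  Fermat.Agent.JAC.Frame.DegFamily65 Fermat.Agent.JAC.Cech

variable {k : Type u} [Field k] {A0 A1 A01 : Type u} [CommRing A0] [CommRing A1] [CommRing A01]
  [Algebra k A0] [Algebra k A1] [Algebra k A01] [Algebra A0 A01] [Algebra A1 A01]
  [IsScalarTower k A0 A01] [IsScalarTower k A1 A01] {t : A0} {s : A1}
  [IsLocalization.Away t A01] [IsLocalization.Away s A01]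

section Dictionary

variable {K : Type u} [Field K] [Algebra k K] (N : CDiag k A0 A1 A01 t s K)

/-- `H¹ = 0` in terms of the Čech differential of the `K`-linear Čech pair. -/
theorem h1Zero_iff_surjective :
    letI := module0 K N; letI := module1 K N; letI := module01 K N
    H1Zero N ↔ Function.Surjective (cechD (rho0K K N) (rho1K K N)) := by
  letI := module0 K N; letI := module1 K N; letI := module01 K N
  constructor
  · intro h z
    obtain ⟨x, y, hxy⟩ := h z
    exact ⟨(x, y), by rw [cechD_apply]; exact hxy⟩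
  · intro h z
    obtain ⟨⟨x, y⟩, hxy⟩ := h z
    rw [cechD_apply] at hxy
    exact ⟨x, y, hxy⟩

/-- If `H⁰` of the `K`-linear Čech pair is one-dimensional, there is a generating section. -/
theorem exists_isGenSection_of_finrank_eq_one
    (h : letI := module0 K N; letI := module1 K N; letI := module01 K N
      Module.finrank K (H0 (rho0K K N) (rho1K K N)) = 1) :
    ∃ (σ0 : N.M0) (σ1 : N.M1), IsGenSection N σ0 σ1 := by
  letI := module0 K N; letI := module1 K N; letI := module01 K N
  obtain ⟨v, hv, hgen⟩ := finrank_eq_one_iff'.mp h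
  have hvm := (mem_H0 _ _ _).mp v.2
  refine ⟨v.1.1, v.1.2, hvm, fun x y hxy => ?_⟩
  have hw : ((x, y) : N.M0 × N.M1) ∈ H0 (rho0K K N) (rho1K K N) := (mem_H0 _ _ _).mpr hxy
  obtain ⟨b, hb⟩ := hgen ⟨(x, y), hw⟩
  have hb' : b • (v : N.M0 × N.M1) = (x, y) := congrArg Subtype.val hb
  refine ⟨b, ⟨(congrArg Prod.fst hb').symm, (congrArg Prod.snd hb').symm⟩, fun b' hb'' => ?_⟩
  have h2 : b' • (v : N.M0 × N.M1) = (x, y) := Prod.ext hb''.1.symm hb''.2.symm
  have h3 : (b' - b) • v = 0 := by
    apply Subtype.ext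
    rw [Submodule.coe_smul, sub_smul, h2, hb', sub_self]
    rfl
  rcases smul_eq_zero.mp h3 with h4 | h4
  · exact sub_eq_zero.mp h4
  · exact absurd h4 hv

/-- A generating section makes `H⁰` of the `K`-linear Čech pair one-dimensional. -/
theorem finrank_eq_one_of_isGenSection {σ0 : N.M0} {σ1 : N.M1} (h : IsGenSection N σ0 σ1) :
    letI := module0 K N; letI := module1 K N; letI := module01 K N
    Module.finrank K (H0 (rho0K K N) (rho1K K N)) = 1 := by
  letI := module0 K N; letI := module1 K N; letI := module01 K N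
  have hmem : ((σ0, σ1) : N.M0 × N.M1) ∈ H0 (rho0K K N) (rho1K K N) := (mem_H0 _ _ _).mpr h.1
  have hne : (⟨(σ0, σ1), hmem⟩ : H0 (rho0K K N) (rho1K K N)) ≠ 0 := by
    intro h0
    have h1 : ((σ0, σ1) : N.M0 × N.M1) = 0 := congrArg Subtype.val h0
    have hσ0 : σ0 = 0 := congrArg Prod.fst h1
    have hσ1 : σ1 = 0 := congrArg Prod.snd h1
    obtain ⟨b, -, hb⟩ := h.2 0 0 (by rw [map_zero, map_zero])
    have e0 : (0 : K) = b := hb 0 ⟨by rw [hσ0, smul_zero], by rw [hσ1, smul_zero]⟩
    have e1 : (1 : K) = b := hb 1 ⟨by rw [hσ0, smul_zero], by rw [hσ1, smul_zero]⟩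
    exact zero_ne_one (e0.trans e1.symm)
  rw [finrank_eq_one_iff_of_nonzero' _ hne]
  rintro ⟨⟨x, y⟩, hxy⟩
  obtain ⟨b, ⟨hx, hy⟩, -⟩ := h.2 x y ((mem_H0 _ _ _).mp hxy)
  exact ⟨b, Subtype.ext (Prod.ext hx.symm hy.symm)⟩

end Dictionary

section Descent

variable {K L : Type u} [Field K] [Field L] [Algebra k K] [Algebra k L] (ψ : K →ₐ[k] L)
  {N : CDiag k A0 A1 A01 t s K} {N' : CDiag k A0 A1 A01 t s L}
  (c : LineDiag.CartHom (familyHom ψ t s) N N')

include c in
/-- **Comparison of the Čech pairs over `K` and over `L`**: surjectivity of the differential and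
the dimension of `H⁰` are the same. -/
theorem cech_comparison :
    letI := module0 K N; letI := module1 K N; letI := module01 K N
    letI := module0 L N'; letI := module1 L N'; letI := module01 L N'
    (Function.Surjective (cechD (rho0K L N') (rho1K L N')) ↔
        Function.Surjective (cechD (rho0K K N) (rho1K K N))) ∧
      Module.finrank L (H0 (rho0K L N') (rho1K L N')) =
        Module.finrank K (H0 (rho0K K N) (rho1K K N)) := by
  letI : Algebra K L := ψ.toRingHom.toAlgebra
  haveI : IsScalarTower k K L := IsScalarTower.of_algebraMap_eq fun a => (ψ.commutes a).symm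
  obtain ⟨θ0, hθ0, cart0⟩ := isPushoutSquare_tensor (k := k) (B := K) (K := L) A0
    (familyHom (A01 := A01) ψ t s).ψ0 (fun b a => rfl)
  obtain ⟨θ1, hθ1, cart1⟩ := isPushoutSquare_tensor (k := k) (B := K) (K := L) A1
    (familyHom (A01 := A01) ψ t s).ψ1 (fun b a => rfl)
  obtain ⟨θ01, hθ01, cart01⟩ := isPushoutSquare_tensor (k := k) (B := K) (K := L) A01
    (familyHom (A01 := A01) ψ t s).ψ01 (fun b a => rfl)
  letI := module0 K N; letI := module1 K N; letI := module01 K N
  letI := module0 L N'; letI := module1 L N'; letI := module01 L N'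
  letI : Module K N'.M0 := Module.compHom N'.M0 (algebraMap K L)
  letI : Module K N'.M1 := Module.compHom N'.M1 (algebraMap K L)
  letI : Module K N'.M01 := Module.compHom N'.M01 (algebraMap K L)
  haveI : IsScalarTower K L N'.M0 := IsScalarTower.of_algebraMap_smul fun _ _ => rfl
  haveI : IsScalarTower K L N'.M1 := IsScalarTower.of_algebraMap_smul fun _ _ => rfl
  haveI : IsScalarTower K L N'.M01 := IsScalarTower.of_algebraMap_smul fun _ _ => rfl
  obtain ⟨f₀, hf₀, hb₀⟩ := exists_isBaseChange_of_isBaseChangeHom θ0 hθ0 cart0 c.f0 c.cart0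
  obtain ⟨f₁, hf₁, hb₁⟩ := exists_isBaseChange_of_isBaseChangeHom θ1 hθ1 cart1 c.f1 c.cart1
  obtain ⟨f, hf, hb⟩ := exists_isBaseChange_of_isBaseChangeHom θ01 hθ01 cart01 c.f01 c.cart01
  have hc₀ : ∀ x, rho0K L N' (f₀ x) = f (rho0K K N x) := fun x => by
    rw [rho0K_apply, hf₀, rho0K_apply, hf, c.comm0]
  have hc₁ : ∀ y, rho1K L N' (f₁ y) = f (rho1K K N y) := fun y => by
    rw [rho1K_apply, hf₁, rho1K_apply, hf, c.comm1]
  exact ⟨Fermat.Agent.JAC.Cech.FlatBC67.cechD_surjective_iff_of_isBaseChange L hb₀ hb₁ hb hc₀ hc₁,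
    Fermat.Agent.JAC.Cech.FlatBC67.finrank_H0_of_isBaseChange L hb₀ hb₁ hb hc₀ hc₁⟩

include c in
/-- `H¹ = 0` is invariant under extension of the base field. -/
theorem h1Zero_iff_of_cartHom_field : H1Zero N' ↔ H1Zero N := by
  rw [h1Zero_iff_surjective N', h1Zero_iff_surjective N]
  exact (cech_comparison ψ c).1

include c in
/-- "`H⁰` has a generating section" descends along field extensions. -/
theorem exists_isGenSection_of_cartHom_field {τ0 : N'.M0} {τ1 : N'.M1}
    (h : IsGenSection N' τ0 τ1) : ∃ (σ0 : N.M0) (σ1 : N.M1), IsGenSection N σ0 σ1 := by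
  apply exists_isGenSection_of_finrank_eq_one N
  rw [← (cech_comparison ψ c).2]
  exact finrank_eq_one_of_isGenSection N' h

end Descent

/-- **The brick `(FE1)` of `ChartSpec24`.** -/
theorem fe1 : Brick.FE1 k A0 A1 A01 t s :=
  fun _ _ _ _ _ _ ψ _ _ c h => (h1Zero_iff_of_cartHom_field ψ c).mp h

/-- **The brick `(FE2)` of `ChartSpec24`.** -/
theorem fe2 : Brick.FE2 k A0 A1 A01 t s :=
  fun _ _ _ _ _ _ ψ _ _ c _ _ _ h => exists_isGenSection_of_cartHom_field ψ c h

end Fermat.Agent.JAC.Hilb.FieldDescent67
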