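/-
Programme JAC (S25), chart atlas, item `finiteType` of COORD #7 -- helper30.

The chart rings `Localization.Away φ`, `φ : chartRing k A0 β`, of the algebraic atlas are of finite
type over `k`.
-/
import Mathlib
import Fermat.Agent.JAC.Hilb.ChartDef24

set_option autoImplicit false
set_option linter.unusedSectionVars false

universe u

namespace Fermat.Agent.JAC.Hilb.FiniteType30

open Fermat.Agent.JAC.Hilb.BasedQuot46 Fermat.Agent.JAC.Hilb.ChartDef24

/-- A localisation away from one element of an algebra of finite type is of finite type. -/
theorem finiteType_away {k R : Type*} [CommRing k] [CommRing R] [Algebra k R]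
    [Algebra.FiniteType k R] (φ : R) : Algebra.FiniteType k (Localization.Away φ) := by
  have h1 : Algebra.FiniteType R (Localization.Away φ) :=
    IsLocalization.finiteType_of_monoid_fg (Submonoid.powers φ) (Localization.Away φ)
  exact Algebra.FiniteType.trans (R := k) (S := R) (A := Localization.Away φ) inferInstance h1

variable {k : Type u} [Field k] {A0 A1 A01 : Type u} [CommRing A0] [CommRing A1] [CommRing A01]
  [Algebra k A0] [Algebra k A1] [Algebra k A01] [Algebra A0 A01] [Algebra A1 A01]
  [IsScalarTower k A0 A01] [IsScalarTower k A1 A01] {t : A0} {s : A1}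
  [IsLocalization.Away t A01] [IsLocalization.Away s A01]

/-- **`finiteType`**: the chart rings of the atlas are of finite type over `k`. -/
theorem finiteType_chartR (H : CurveHyp k A0 A1 A01 t s) {n : ℕ} (β : Fin n → A0)
    (φ : chartRing k A0 β) : Algebra.FiniteType k (Localization.Away φ) := by
  have : Algebra.FiniteType k A0 := H.finiteType0
  exact finiteType_away φ

/-- The same, indexed by `ChartIdx`. -/
theorem finiteType_chartIdx (H : CurveHyp k A0 A1 A01 t s) {J : Type u}
    (γ : ChartIdx (k := k) A0 J) : Algebra.FiniteType k (Localization.Away γ.φ) :=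
  finiteType_chartR H γ.β γ.φ

end Fermat.Agent.JAC.Hilb.FiniteType30
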