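/-
JAC programme, work package A4.1 (helper24): the chart `β` of the Hilbert scheme of
`|ι|` points of an affine `k`-scheme `Spec A`.

For a `k`-algebra `B`, a *point* is an ideal `I` of `B ⊗[k] A` such that the classes of
`1 ⊗ β i` form a `B`-basis of the quotient.  Such points are in natural bijection with
*coordinate systems* `lam : A →ₗ[k] (ι → B)` (`IsCoord`), and these are the `B`-points of an
explicit `k`-algebra `chartRing k A β`, which is of finite type when `A` is.
-/
import Mathlib

set_option autoImplicit false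
set_option linter.unusedSectionVars false

namespace Fermat.Agent.JAC.Hilb.HilbChart24

open TensorProduct

universe u v w w' t

section Coord

variable {k : Type u} [CommRing k] {A : Type v} [CommRing A] [Algebra k A]
variable {ι : Type t} [Fintype ι] [DecidableEq ι] (β : ι → A)
variable {B : Type w} [CommRing B] [Algebra k B]

/-- A coordinate system: `lam a j` is the `j`-th coordinate of the class of `1 ⊗ a` in the
basis `1 ⊗ β i` of the quotient. -/
structure IsCoord (lam : A →ₗ[k] (ι → B)) : Prop where
  beta : ∀ i, lam (β i) = Pi.single i 1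
  mul : ∀ a b j, lam (a * b) j = ∑ i, lam (a * β i) j * lam b i

/-- The `B`-linear extension `B ⊗[k] A → (ι → B)` of a coordinate system. -/
noncomputable def coordMap (lam : A →ₗ[k] (ι → B)) : B ⊗[k] A →ₗ[B] (ι → B) :=
  LinearMap.liftBaseChange B lam

@[simp]
theorem coordMap_tmul (lam : A →ₗ[k] (ι → B)) (b : B) (a : A) :
    coordMap lam (b ⊗ₜ[k] a) = b • lam a := by
  simp [coordMap]

/-- The action of `a` on coordinates. -/
noncomputable def actMap (lam : A →ₗ[k] (ι → B)) (a : A) : (ι → B) →ₗ[B] (ι → B) :=
  Fintype.linearCombination B (fun i => lam (a * β i))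

theorem actMap_apply (lam : A →ₗ[k] (ι → B)) (a : A) (c : ι → B) (j : ι) :
    actMap β lam a c j = ∑ i, lam (a * β i) j * c i := by
  simp [actMap, Fintype.linearCombination_apply, Finset.sum_apply, mul_comm]

variable {β}

theorem IsCoord.actMap_lam {lam : A →ₗ[k] (ι → B)} (h : IsCoord β lam) (a b : A) :
    actMap β lam a (lam b) = lam (a * b) := by
  funext j
  rw [actMap_apply, h.mul]

theorem IsCoord.coordMap_mul {lam : A →ₗ[k] (ι → B)} (h : IsCoord β lam) (a : A)
    (x : B ⊗[k] A) :
    coordMap lam (((1 : B) ⊗ₜ[k] a) * x) = actMap β lam a (coordMap lam x) := by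
  induction x using TensorProduct.induction_on with
  | zero => simp
  | tmul b a' =>
    rw [Algebra.TensorProduct.tmul_mul_tmul, one_mul, coordMap_tmul, coordMap_tmul,
      map_smul, h.actMap_lam]
  | add x y hx hy => rw [mul_add, map_add, map_add, map_add, hx, hy]

theorem IsCoord.coordMap_mul_eq_zero {lam : A →ₗ[k] (ι → B)} (h : IsCoord β lam)
    (r x : B ⊗[k] A) (hx : coordMap lam x = 0) : coordMap lam (r * x) = 0 := by
  induction r using TensorProduct.induction_on with
  | zero => simp
  | tmul b a =>
    have : (b ⊗ₜ[k] a) * x = b • (((1 : B) ⊗ₜ[k] a) * x) := by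
      rw [← smul_mul_assoc, TensorProduct.smul_tmul', smul_eq_mul, mul_one]
    rw [this, map_smul, h.coordMap_mul, hx, map_zero, smul_zero]
  | add r s hr hs => rw [add_mul, map_add, hr, hs, add_zero]

/-- The ideal attached to a coordinate system: the kernel of `coordMap`. -/
noncomputable def IsCoord.ideal {lam : A →ₗ[k] (ι → B)} (h : IsCoord β lam) :
    Ideal (B ⊗[k] A) where
  carrier := {x | coordMap lam x = 0}
  add_mem' := by
    intro x y hx hy
    change coordMap lam x = 0 at hx; change coordMap lam y = 0 at hy; change coordMap lam (x + y) = 0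
    rw [map_add, hx, hy, add_zero]
  zero_mem' := by simp
  smul_mem' := by
    intro r x hx
    exact h.coordMap_mul_eq_zero r x hx

theorem IsCoord.mem_ideal {lam : A →ₗ[k] (ι → B)} (h : IsCoord β lam) (x : B ⊗[k] A) :
    x ∈ h.ideal ↔ coordMap lam x = 0 := Iff.rfl

/-! ### Points -/

variable (β)

/-- The `B`-linear map `(ι → B) → (B ⊗ A) ⧸ I`, `c ↦ ∑ i, c i • [1 ⊗ β i]`. -/
noncomputable def basisMap (I : Ideal (B ⊗[k] A)) : (ι → B) →ₗ[B] ((B ⊗[k] A) ⧸ I) :=
  Fintype.linearCombination B (fun i => Ideal.Quotient.mk I ((1 : B) ⊗ₜ[k] β i))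

/-- `I` is a point of the chart `β` of the Hilbert scheme: the classes of `1 ⊗ β i` form a
`B`-basis of the quotient `(B ⊗[k] A) ⧸ I`. -/
def IsPoint (I : Ideal (B ⊗[k] A)) : Prop :=
  Function.Bijective (basisMap β I)

variable {β}

/-- The basis of the quotient given by a point. -/
noncomputable def IsPoint.equiv {I : Ideal (B ⊗[k] A)} (h : IsPoint β I) :
    (ι → B) ≃ₗ[B] ((B ⊗[k] A) ⧸ I) :=
  LinearEquiv.ofBijective (basisMap β I) h

theorem IsPoint.equiv_apply {I : Ideal (B ⊗[k] A)} (h : IsPoint β I) (c : ι → B) :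
    h.equiv c = ∑ i, c i • Ideal.Quotient.mk I ((1 : B) ⊗ₜ[k] β i) := by
  simp [IsPoint.equiv, basisMap, Fintype.linearCombination_apply]

theorem IsPoint.equiv_single {I : Ideal (B ⊗[k] A)} (h : IsPoint β I) (i : ι) :
    h.equiv (Pi.single i 1) = Ideal.Quotient.mk I ((1 : B) ⊗ₜ[k] β i) := by
  simp [IsPoint.equiv, basisMap, Fintype.linearCombination_apply_single]

/-- The `k`-linear map `a ↦ [1 ⊗ a]`. -/
noncomputable def classMap (I : Ideal (B ⊗[k] A)) : A →ₗ[k] ((B ⊗[k] A) ⧸ I) :=
  ((Ideal.Quotient.mkₐ k I).toLinearMap).comp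
    (Algebra.TensorProduct.includeRight (R := k) (A := B) (B := A)).toLinearMap

@[simp]
theorem classMap_apply (I : Ideal (B ⊗[k] A)) (a : A) :
    classMap I a = Ideal.Quotient.mk I ((1 : B) ⊗ₜ[k] a) := rfl

/-- The coordinate system of a point. -/
noncomputable def IsPoint.lam {I : Ideal (B ⊗[k] A)} (h : IsPoint β I) : A →ₗ[k] (ι → B) :=
  (h.equiv.symm.toLinearMap.restrictScalars k).comp (classMap I)

theorem IsPoint.lam_apply {I : Ideal (B ⊗[k] A)} (h : IsPoint β I) (a : A) :
    h.lam a = h.equiv.symm (Ideal.Quotient.mk I ((1 : B) ⊗ₜ[k] a)) := rfl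

theorem IsPoint.equiv_lam {I : Ideal (B ⊗[k] A)} (h : IsPoint β I) (a : A) :
    h.equiv (h.lam a) = Ideal.Quotient.mk I ((1 : B) ⊗ₜ[k] a) := by
  rw [h.lam_apply, LinearEquiv.apply_symm_apply]

theorem IsPoint.isCoord {I : Ideal (B ⊗[k] A)} (h : IsPoint β I) : IsCoord β h.lam where
  beta i := by
    rw [h.lam_apply, ← h.equiv_single, LinearEquiv.symm_apply_apply]
  mul a b j := by
    have key : h.lam (a * b) = ∑ i, h.lam b i • h.lam (a * β i) := by
      apply h.equiv.injective
      rw [h.equiv_lam, map_sum]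
      simp only [map_smul, h.equiv_lam]
      have h1 : ((1 : B) ⊗ₜ[k] (a * b) : B ⊗[k] A) = ((1 : B) ⊗ₜ[k] a) * ((1 : B) ⊗ₜ[k] b) := by
        rw [Algebra.TensorProduct.tmul_mul_tmul, one_mul]
      rw [h1, map_mul, ← h.equiv_lam b, h.equiv_apply, Finset.mul_sum]
      refine Finset.sum_congr rfl fun i _ => ?_
      rw [mul_smul_comm, ← map_mul, Algebra.TensorProduct.tmul_mul_tmul, one_mul]
    rw [key, Finset.sum_apply]
    refine Finset.sum_congr rfl fun i _ => ?_
    rw [Pi.smul_apply, smul_eq_mul, mul_comm]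

theorem IsPoint.coordMap_eq {I : Ideal (B ⊗[k] A)} (h : IsPoint β I) (x : B ⊗[k] A) :
    coordMap h.lam x = h.equiv.symm (Ideal.Quotient.mk I x) := by
  induction x using TensorProduct.induction_on with
  | zero => simp
  | tmul b a =>
    rw [coordMap_tmul, h.lam_apply, ← map_smul]
    congr 1
    rw [← Ideal.Quotient.mkₐ_eq_mk B, ← map_smul, TensorProduct.smul_tmul', smul_eq_mul, mul_one]
  | add x y hx hy => rw [map_add, map_add, map_add, hx, hy]

theorem IsPoint.ideal_isCoord {I : Ideal (B ⊗[k] A)} (h : IsPoint β I) :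
    h.isCoord.ideal = I := by
  ext x
  rw [IsCoord.mem_ideal, h.coordMap_eq, LinearEquiv.map_eq_zero_iff, Ideal.Quotient.eq_zero_iff_mem]

/-- The map induced by `coordMap` on the quotient by the ideal of a coordinate system. -/
noncomputable def IsCoord.quotMap {lam : A →ₗ[k] (ι → B)} (h : IsCoord β lam) :
    ((B ⊗[k] A) ⧸ h.ideal) →ₗ[B] (ι → B) :=
  Submodule.liftQ (h.ideal.restrictScalars B) (coordMap lam) (fun _ hx => hx)

@[simp]
theorem IsCoord.quotMap_mk {lam : A →ₗ[k] (ι → B)} (h : IsCoord β lam) (x : B ⊗[k] A) :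
    h.quotMap (Ideal.Quotient.mk h.ideal x) = coordMap lam x := rfl

theorem IsCoord.quotMap_injective {lam : A →ₗ[k] (ι → B)} (h : IsCoord β lam) :
    Function.Injective h.quotMap := by
  rw [← LinearMap.ker_eq_bot, LinearMap.ker_eq_bot']
  intro q hq
  obtain ⟨x, rfl⟩ := Ideal.Quotient.mk_surjective q
  rw [h.quotMap_mk] at hq
  exact Ideal.Quotient.eq_zero_iff_mem.mpr hq

theorem IsCoord.quotMap_basisMap {lam : A →ₗ[k] (ι → B)} (h : IsCoord β lam) (c : ι → B) :
    h.quotMap (basisMap β h.ideal c) = c := by
  have : h.quotMap.comp (basisMap β h.ideal) = LinearMap.id := by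
    apply LinearMap.pi_ext
    intro i b
    simp only [LinearMap.comp_apply, basisMap, Fintype.linearCombination_apply_single,
      map_smul, h.quotMap_mk, coordMap_tmul, one_smul, h.beta, LinearMap.id_apply]
    rw [← Pi.single_smul, smul_eq_mul, mul_one]
  exact LinearMap.congr_fun this c

theorem IsCoord.isPoint {lam : A →ₗ[k] (ι → B)} (h : IsCoord β lam) : IsPoint β h.ideal := by
  refine ⟨fun c c' hc => ?_, fun q => ⟨h.quotMap q, ?_⟩⟩
  · rw [← h.quotMap_basisMap c, ← h.quotMap_basisMap c', hc]
  · apply h.quotMap_injective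
    rw [h.quotMap_basisMap]

theorem IsCoord.lam_isPoint {lam : A →ₗ[k] (ι → B)} (h : IsCoord β lam) :
    h.isPoint.lam = lam := by
  ext a : 1
  apply h.isPoint.equiv.injective
  rw [h.isPoint.equiv_lam]
  apply h.quotMap_injective
  rw [h.quotMap_mk, coordMap_tmul, one_smul]
  exact (h.quotMap_basisMap (lam a)).symm

variable (k A β B) in
/-- Points of the chart `β` over `B` are the same as coordinate systems over `B`. -/
noncomputable def pointEquivCoord :
    {I : Ideal (B ⊗[k] A) // IsPoint β I} ≃ {lam : A →ₗ[k] (ι → B) // IsCoord β lam} where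
  toFun I := ⟨I.2.lam, I.2.isCoord⟩
  invFun lam := ⟨lam.2.ideal, lam.2.isPoint⟩
  left_inv I := Subtype.ext I.2.ideal_isCoord
  right_inv lam := Subtype.ext lam.2.lam_isPoint

end Coord

/-! ### The universal ring -/

section Universal

variable (k : Type u) [CommRing k] (A : Type v) [CommRing A] [Algebra k A]
variable {ι : Type t} [Fintype ι] [DecidableEq ι] (β : ι → A)

open MvPolynomial in
/-- The defining relations of the chart ring, in the variables `X (j, a)` (the `j`-th coordinate
of `a`). -/
inductive Rel : MvPolynomial (ι × A) k → Prop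
  | add (j : ι) (a b : A) : Rel (X (j, a + b) - (X (j, a) + X (j, b)))
  | smul (j : ι) (c : k) (a : A) : Rel (X (j, c • a) - C c * X (j, a))
  | beta (j i : ι) : Rel (X (j, β i) - (if i = j then 1 else 0))
  | mul (j : ι) (a b : A) : Rel (X (j, a * b) - ∑ i, X (j, a * β i) * X (i, b))

/-- The ideal of relations. -/
noncomputable def relIdeal : Ideal (MvPolynomial (ι × A) k) := Ideal.span {p | Rel k A β p}

/-- The coordinate ring of the chart `β` of the Hilbert scheme of `|ι|` points on `Spec A`. -/
def chartRing : Type (max u v t) := MvPolynomial (ι × A) k ⧸ relIdeal k A β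

noncomputable instance : CommRing (chartRing k A β) :=
  inferInstanceAs (CommRing (MvPolynomial (ι × A) k ⧸ relIdeal k A β))

noncomputable instance : Algebra k (chartRing k A β) :=
  inferInstanceAs (Algebra k (MvPolynomial (ι × A) k ⧸ relIdeal k A β))

/-- The quotient map from the polynomial ring. -/
noncomputable def chartMk : MvPolynomial (ι × A) k →ₐ[k] chartRing k A β :=
  Ideal.Quotient.mkₐ k (relIdeal k A β)

theorem chartMk_surjective : Function.Surjective (chartMk k A β) :=
  Ideal.Quotient.mkₐ_surjective k _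

theorem chartMk_eq_zero {p : MvPolynomial (ι × A) k} (hp : Rel k A β p) :
    chartMk k A β p = 0 :=
  Ideal.Quotient.eq_zero_iff_mem.mpr (Ideal.subset_span hp)

/-- The generators of the chart ring. -/
noncomputable def gen (j : ι) (a : A) : chartRing k A β := chartMk k A β (MvPolynomial.X (j, a))

theorem gen_add (j : ι) (a b : A) : gen k A β j (a + b) = gen k A β j a + gen k A β j b := by
  have := chartMk_eq_zero k A β (Rel.add j a b)
  rwa [map_sub, map_add, sub_eq_zero] at this

theorem gen_smul (j : ι) (c : k) (a : A) : gen k A β j (c • a) = c • gen k A β j a := by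
  have := chartMk_eq_zero k A β (Rel.smul j c a)
  rw [map_sub, map_mul, sub_eq_zero] at this
  rw [gen, this, Algebra.smul_def]
  congr 1

theorem gen_beta (j i : ι) : gen k A β j (β i) = if i = j then 1 else 0 := by
  have := chartMk_eq_zero k A β (Rel.beta j i)
  rw [map_sub, sub_eq_zero] at this
  rw [gen, this]
  split_ifs <;> simp

theorem gen_mul (j : ι) (a b : A) :
    gen k A β j (a * b) = ∑ i, gen k A β j (a * β i) * gen k A β i b := by
  have := chartMk_eq_zero k A β (Rel.mul j a b)
  rw [map_sub, sub_eq_zero, map_sum] at this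
  rw [gen, this]
  simp only [map_mul, gen]

/-- The universal coordinate system. -/
noncomputable def univLam : A →ₗ[k] (ι → chartRing k A β) where
  toFun a j := gen k A β j a
  map_add' a b := by funext j; exact gen_add k A β j a b
  map_smul' c a := by funext j; exact gen_smul k A β j c a

@[simp]
theorem univLam_apply (a : A) (j : ι) : univLam k A β a j = gen k A β j a := rfl

theorem univLam_isCoord : IsCoord β (univLam k A β) where
  beta i := by
    funext j
    rw [univLam_apply, gen_beta, Pi.single_apply]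
    simp only [eq_comm]
  mul a b j := by
    simp only [univLam_apply]
    exact gen_mul k A β j a b

variable {k A β}
variable {B : Type w} [CommRing B] [Algebra k B]

/-- Push a coordinate system forward along an algebra map. -/
noncomputable def mapLam {B' : Type w'} [CommRing B'] [Algebra k B'] (φ : B →ₐ[k] B')
    (lam : A →ₗ[k] (ι → B)) : A →ₗ[k] (ι → B') :=
  (φ.toLinearMap.compLeft ι).comp lam

@[simp]
theorem mapLam_apply {B' : Type w'} [CommRing B'] [Algebra k B'] (φ : B →ₐ[k] B')
    (lam : A →ₗ[k] (ι → B)) (a : A) (j : ι) : mapLam φ lam a j = φ (lam a j) := rfl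

theorem IsCoord.map {B' : Type w'} [CommRing B'] [Algebra k B'] (φ : B →ₐ[k] B')
    {lam : A →ₗ[k] (ι → B)} (h : IsCoord β lam) : IsCoord β (mapLam φ lam) where
  beta i := by
    funext j
    rw [mapLam_apply, h.beta, Pi.single_apply, Pi.single_apply]
    by_cases hij : j = i
    · rw [if_pos hij, if_pos hij, map_one]
    · rw [if_neg hij, if_neg hij, map_zero]
  mul a b j := by
    simp only [mapLam_apply]
    rw [h.mul a b j, map_sum]
    simp only [map_mul]

/-- The algebra map out of the chart ring attached to a coordinate system. -/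
noncomputable def IsCoord.hom {lam : A →ₗ[k] (ι → B)} (h : IsCoord β lam) :
    chartRing k A β →ₐ[k] B :=
  Ideal.Quotient.liftₐ (relIdeal k A β)
    (MvPolynomial.aeval (fun p : ι × A => lam p.2 p.1)) (by
      intro p hp
      refine Submodule.span_induction (p := fun x _ => MvPolynomial.aeval
        (fun p : ι × A => lam p.2 p.1) x = 0) ?_ ?_ ?_ ?_ hp
      · intro x hx
        cases hx with
        | add j a b =>
          simp only [map_sub, map_add, MvPolynomial.aeval_X, Pi.add_apply, sub_self]
        | smul j c a =>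
          rw [map_sub, map_mul, MvPolynomial.aeval_X, MvPolynomial.aeval_X,
            MvPolynomial.aeval_C]
          show lam (c • a) j - algebraMap k B c * lam a j = 0
          rw [LinearMap.map_smul, Pi.smul_apply, Algebra.smul_def, sub_self]
        | beta j i =>
          rw [map_sub, MvPolynomial.aeval_X, h.beta, Pi.single_apply]
          by_cases hij : i = j
          · rw [if_pos hij, if_pos hij.symm, map_one, sub_self]
          · rw [if_neg hij, if_neg (fun e => hij e.symm), map_zero, sub_self]
        | mul j a b =>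
          simp only [map_sub, map_sum, map_mul, MvPolynomial.aeval_X]
          rw [h.mul a b j, sub_self]
      · simp
      · intro x y _ _ hx hy
        rw [map_add, hx, hy, add_zero]
      · intro r x _ hx
        rw [smul_eq_mul, map_mul, hx, mul_zero])

@[simp]
theorem IsCoord.hom_gen {lam : A →ₗ[k] (ι → B)} (h : IsCoord β lam) (j : ι) (a : A) :
    h.hom (gen k A β j a) = lam a j := by
  show MvPolynomial.aeval (fun p : ι × A => lam p.2 p.1) (MvPolynomial.X (j, a)) = _
  rw [MvPolynomial.aeval_X]

theorem chartRing_algHom_ext {f g : chartRing k A β →ₐ[k] B}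
    (h : ∀ j a, f (gen k A β j a) = g (gen k A β j a)) : f = g := by
  apply AlgHom.cancel_right (chartMk_surjective k A β) |>.mp
  apply MvPolynomial.algHom_ext
  rintro ⟨j, a⟩
  exact h j a

variable (k A β B) in
/-- Universal property of the chart ring: algebra maps `chartRing k A β →ₐ[k] B` are the same
as coordinate systems over `B`. -/
noncomputable def homEquivCoord :
    (chartRing k A β →ₐ[k] B) ≃ {lam : A →ₗ[k] (ι → B) // IsCoord β lam} where
  toFun f := ⟨mapLam f (univLam k A β), (univLam_isCoord k A β).map f⟩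
  invFun lam := lam.2.hom
  left_inv f := by
    apply chartRing_algHom_ext
    intro j a
    rw [IsCoord.hom_gen]
    rfl
  right_inv lam := by
    apply Subtype.ext
    ext a j
    simp

variable (k A β B) in
/-- **Representability of the chart**: algebra maps `chartRing k A β →ₐ[k] B` are the same as
ideals `I` of `B ⊗[k] A` such that the classes of `1 ⊗ β i` form a `B`-basis of the quotient. -/
noncomputable def chartEquiv :
    (chartRing k A β →ₐ[k] B) ≃ {I : Ideal (B ⊗[k] A) // IsPoint β I} :=
  (homEquivCoord k A β B).trans (pointEquivCoord k A β B).symm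

theorem chartEquiv_apply_coe (f : chartRing k A β →ₐ[k] B) :
    ((chartEquiv k A β B f : {I : Ideal (B ⊗[k] A) // IsPoint β I}) : Ideal (B ⊗[k] A)) =
      ((univLam_isCoord k A β).map f).ideal := rfl

theorem chartEquiv_symm_apply_gen (I : {I : Ideal (B ⊗[k] A) // IsPoint β I}) (j : ι) (a : A) :
    (chartEquiv k A β B).symm I (gen k A β j a) = I.2.lam a j := by
  simp [chartEquiv, homEquivCoord, pointEquivCoord]

end Universal

/-! ### Generators of the ideal of a point, base change -/

section BaseChange

variable {k : Type u} [CommRing k] {A : Type v} [CommRing A] [Algebra k A]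
variable {ι : Type t} [Fintype ι] [DecidableEq ι] {β : ι → A}
variable {B : Type w} [CommRing B] [Algebra k B]

/-- The standard generator `1 ⊗ a - ∑ i, lam a i ⊗ β i` of the ideal of a coordinate system. -/
noncomputable def stdGen (β : ι → A) (lam : A →ₗ[k] (ι → B)) (a : A) : B ⊗[k] A :=
  (1 : B) ⊗ₜ[k] a - ∑ i, (lam a i) ⊗ₜ[k] β i

theorem IsCoord.stdGen_mem {lam : A →ₗ[k] (ι → B)} (h : IsCoord β lam) (a : A) :
    stdGen β lam a ∈ h.ideal := by
  rw [h.mem_ideal, stdGen, map_sub, map_sum, coordMap_tmul, one_smul, sub_eq_zero]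
  funext j
  rw [Finset.sum_apply]
  simp only [coordMap_tmul, h.beta, Pi.smul_apply, Pi.single_apply, smul_eq_mul, mul_ite,
    mul_one, mul_zero, Finset.sum_ite_eq, Finset.mem_univ, if_true]

theorem IsCoord.sub_mem_span {lam : A →ₗ[k] (ι → B)} (_h : IsCoord β lam) (x : B ⊗[k] A) :
    x - ∑ i, (coordMap lam x i) ⊗ₜ[k] β i ∈ Ideal.span (Set.range (stdGen β lam)) := by
  induction x using TensorProduct.induction_on with
  | zero => simp
  | tmul b a =>
    have : b ⊗ₜ[k] a - ∑ i, (coordMap lam (b ⊗ₜ[k] a) i) ⊗ₜ[k] β i =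
        (b ⊗ₜ[k] (1 : A)) * stdGen β lam a := by
      rw [stdGen, mul_sub, Algebra.TensorProduct.tmul_mul_tmul, mul_one, one_mul, Finset.mul_sum]
      congr 1
      refine Finset.sum_congr rfl fun i _ => ?_
      rw [Algebra.TensorProduct.tmul_mul_tmul, one_mul, coordMap_tmul, Pi.smul_apply, smul_eq_mul]
    rw [this]
    exact Ideal.mul_mem_left _ _ (Ideal.subset_span ⟨a, rfl⟩)
  | add x y hx hy =>
    have : x + y - ∑ i, (coordMap lam (x + y) i) ⊗ₜ[k] β i =
        (x - ∑ i, (coordMap lam x i) ⊗ₜ[k] β i) + (y - ∑ i, (coordMap lam y i) ⊗ₜ[k] β i) := by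
      simp only [map_add, Pi.add_apply, TensorProduct.add_tmul, Finset.sum_add_distrib]
      abel
    rw [this]
    exact Ideal.add_mem _ hx hy

/-- The ideal of a coordinate system is generated by the `1 ⊗ a - ∑ i, lam a i ⊗ β i`. -/
theorem IsCoord.ideal_eq_span {lam : A →ₗ[k] (ι → B)} (h : IsCoord β lam) :
    h.ideal = Ideal.span (Set.range (stdGen β lam)) := by
  apply le_antisymm
  · intro x hx
    have := h.sub_mem_span x
    rw [(h.mem_ideal x).mp hx] at this
    simpa using this
  · rw [Ideal.span_le]
    rintro _ ⟨a, rfl⟩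
    exact h.stdGen_mem a

variable {B' : Type w'} [CommRing B'] [Algebra k B']

theorem map_stdGen (φ : B →ₐ[k] B') (lam : A →ₗ[k] (ι → B)) (a : A) :
    Algebra.TensorProduct.map φ (AlgHom.id k A) (stdGen β lam a) = stdGen β (mapLam φ lam) a := by
  simp [stdGen]

/-- Base change of the ideal of a coordinate system. -/
theorem IsCoord.map_ideal (φ : B →ₐ[k] B') {lam : A →ₗ[k] (ι → B)} (h : IsCoord β lam) :
    Ideal.map (Algebra.TensorProduct.map φ (AlgHom.id k A)) h.ideal = (h.map φ).ideal := by
  rw [h.ideal_eq_span, (h.map φ).ideal_eq_span, Ideal.map_span]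
  congr 1
  ext x
  constructor
  · rintro ⟨_, ⟨a, rfl⟩, rfl⟩
    exact ⟨a, (map_stdGen φ lam a).symm⟩
  · rintro ⟨a, rfl⟩
    exact ⟨_, ⟨a, rfl⟩, map_stdGen φ lam a⟩

/-- Base change of a point of the chart is a point of the chart. -/
theorem IsPoint.map (φ : B →ₐ[k] B') {I : Ideal (B ⊗[k] A)} (h : IsPoint β I) :
    IsPoint β (Ideal.map (Algebra.TensorProduct.map φ (AlgHom.id k A)) I) := by
  have := h.isCoord.map_ideal φ
  rw [h.ideal_isCoord] at this
  rw [this]
  exact (h.isCoord.map φ).isPoint

/-- Base change of points, as a map. -/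
noncomputable def pointMap (β : ι → A) (φ : B →ₐ[k] B') (I : {I : Ideal (B ⊗[k] A) // IsPoint β I}) :
    {I : Ideal (B' ⊗[k] A) // IsPoint β I} :=
  ⟨Ideal.map (Algebra.TensorProduct.map φ (AlgHom.id k A)) I.1, I.2.map φ⟩

/-- **Naturality** of the representing bijection `chartEquiv` in `B`. -/
theorem chartEquiv_comp (φ : B →ₐ[k] B') (f : chartRing k A β →ₐ[k] B) :
    chartEquiv k A β B' (φ.comp f) = pointMap β φ (chartEquiv k A β B f) := by
  apply Subtype.ext
  show ((univLam_isCoord k A β).map (φ.comp f)).ideal =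
    Ideal.map (Algebra.TensorProduct.map φ (AlgHom.id k A)) ((univLam_isCoord k A β).map f).ideal
  rw [((univLam_isCoord k A β).map f).map_ideal φ]
  rfl

/-- The coordinates of the base change of a point. -/
theorem IsPoint.lam_map (φ : B →ₐ[k] B') {I : Ideal (B ⊗[k] A)} (h : IsPoint β I) :
    (h.map φ).lam = mapLam φ h.lam := by
  have e : Ideal.map (Algebra.TensorProduct.map φ (AlgHom.id k A)) I = (h.isCoord.map φ).ideal := by
    rw [← h.isCoord.map_ideal φ, h.ideal_isCoord]
  have key : ∀ (J : Ideal (B' ⊗[k] A)) (hJ : IsPoint β J) (lam : A →ₗ[k] (ι → B'))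
      (hl : IsCoord β lam), J = hl.ideal → hJ.lam = lam := by
    intro J hJ lam hl hJl
    subst hJl
    exact hl.lam_isPoint
  exact key _ _ _ _ e

end BaseChange

/-! ### The quotient of a point is free with basis `β` -/

section Free

variable {k : Type u} [CommRing k] {A : Type v} [CommRing A] [Algebra k A]
variable {ι : Type t} [Fintype ι] [DecidableEq ι] {β : ι → A}
variable {B : Type w} [CommRing B] [Algebra k B]

/-- The basis of the quotient of a point given by the classes of `1 ⊗ β i`. -/
noncomputable def IsPoint.basis {I : Ideal (B ⊗[k] A)} (h : IsPoint β I) :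
    Module.Basis ι B ((B ⊗[k] A) ⧸ I) :=
  Module.Basis.ofEquivFun h.equiv.symm

theorem IsPoint.basis_apply {I : Ideal (B ⊗[k] A)} (h : IsPoint β I) (i : ι) :
    h.basis i = Ideal.Quotient.mk I ((1 : B) ⊗ₜ[k] β i) := by
  rw [IsPoint.basis, Module.Basis.coe_ofEquivFun, LinearEquiv.symm_symm]
  exact h.equiv_single i

theorem IsPoint.basis_repr {I : Ideal (B ⊗[k] A)} (h : IsPoint β I) (a : A) (j : ι) :
    h.basis.repr (Ideal.Quotient.mk I ((1 : B) ⊗ₜ[k] a)) j = h.lam a j := by
  rw [IsPoint.basis, Module.Basis.ofEquivFun_repr_apply, h.lam_apply]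

theorem IsPoint.free {I : Ideal (B ⊗[k] A)} (h : IsPoint β I) :
    Module.Free B ((B ⊗[k] A) ⧸ I) :=
  Module.Free.of_basis h.basis

theorem IsPoint.finite {I : Ideal (B ⊗[k] A)} (h : IsPoint β I) :
    Module.Finite B ((B ⊗[k] A) ⧸ I) :=
  Module.Finite.of_basis h.basis

theorem IsPoint.finrank_eq [Nontrivial B] {I : Ideal (B ⊗[k] A)} (h : IsPoint β I) :
    Module.finrank B ((B ⊗[k] A) ⧸ I) = Fintype.card ι :=
  Module.finrank_eq_card_basis h.basis

/-- A point is the same as an ideal together with a basis of the quotient of the prescribed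
shape. -/
theorem isPoint_iff_exists_basis (I : Ideal (B ⊗[k] A)) :
    IsPoint β I ↔ ∃ b : Module.Basis ι B ((B ⊗[k] A) ⧸ I),
      ∀ i, b i = Ideal.Quotient.mk I ((1 : B) ⊗ₜ[k] β i) := by
  constructor
  · intro h
    exact ⟨h.basis, h.basis_apply⟩
  · rintro ⟨b, hb⟩
    have : basisMap β I = b.equivFun.symm.toLinearMap := by
      apply LinearMap.pi_ext
      intro i c
      simp [basisMap, Fintype.linearCombination_apply_single, ← hb]
    rw [IsPoint, this]
    exact b.equivFun.symm.bijective

end Free

/-! ### Finite type -/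

section FiniteType

variable (k : Type u) [CommRing k] (A : Type v) [CommRing A] [Algebra k A]
variable {ι : Type t} [Fintype ι] [DecidableEq ι] (β : ι → A)

/-- The chart ring is generated by the `gen j (x * β i)` (`x` in a generating set of `A`) and the
`gen j 1`. -/
theorem adjoin_gen_eq_top (s : Set A) (hs : Algebra.adjoin k s = ⊤) :
    Algebra.adjoin k
      ((Set.range fun p : s × ι × ι => gen k A β p.2.2 ((p.1 : A) * β p.2.1)) ∪
        (Set.range fun j : ι => gen k A β j 1)) = ⊤ := by
  set S := Algebra.adjoin k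
      ((Set.range fun p : s × ι × ι => gen k A β p.2.2 ((p.1 : A) * β p.2.1)) ∪
        (Set.range fun j : ι => gen k A β j 1)) with hS
  -- the subalgebra of elements whose action matrix has entries in `S`
  let T : Subalgebra k A :=
    { carrier := {a | ∀ i j, gen k A β j (a * β i) ∈ S}
      mul_mem' := by
        intro a b ha hb i j
        rw [mul_assoc, gen_mul]
        exact Subalgebra.sum_mem _ fun m _ => Subalgebra.mul_mem _ (ha m j) (hb i m)
      add_mem' := by
        intro a b ha hb i j
        rw [add_mul, gen_add]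
        exact Subalgebra.add_mem _ (ha i j) (hb i j)
      algebraMap_mem' := by
        intro c i j
        rw [← Algebra.smul_def, gen_smul, gen_beta]
        exact Subalgebra.smul_mem _ (by split_ifs <;> simp) c }
  have hT : T = ⊤ := by
    rw [eq_top_iff, ← hs]
    apply Algebra.adjoin_le
    intro x hx i j
    exact Algebra.subset_adjoin (Or.inl ⟨(⟨x, hx⟩, i, j), rfl⟩)
  have hgen : ∀ j a, gen k A β j a ∈ S := by
    intro j a
    have ha : a ∈ T := hT ▸ Algebra.mem_top
    have h1 := gen_mul k A β j a 1
    rw [mul_one] at h1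
    rw [h1]
    exact Subalgebra.sum_mem _ fun i _ => Subalgebra.mul_mem _ (ha i j)
      (Algebra.subset_adjoin (Or.inr ⟨i, rfl⟩))
  rw [eq_top_iff]
  rintro x -
  obtain ⟨p, rfl⟩ := chartMk_surjective k A β x
  induction p using MvPolynomial.induction_on with
  | C c => exact (chartMk k A β).commutes c ▸ Subalgebra.algebraMap_mem S c
  | add p q hp hq => rw [map_add]; exact Subalgebra.add_mem _ hp hq
  | mul_X p i hp =>
    rw [map_mul]
    exact Subalgebra.mul_mem _ hp (hgen i.1 i.2)

/-- The chart ring is a `k`-algebra of finite type when `A` is. -/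
theorem chartRing_finiteType [Algebra.FiniteType k A] : Algebra.FiniteType k (chartRing k A β) := by
  obtain ⟨s, hs⟩ := (Algebra.FiniteType.out : (⊤ : Subalgebra k A).FG)
  refine ⟨Subalgebra.fg_def.mpr ⟨_, ?_, adjoin_gen_eq_top k A β (s : Set A) hs⟩⟩
  have : Finite (s : Set A) := s.finite_toSet.to_subtype
  exact (Set.finite_range _).union (Set.finite_range _)

end FiniteType

end Fermat.Agent.JAC.Hilb.HilbChart24
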