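/-
Programme JAC (S25), chart chapter, local-to-global step (helper10; declared backup of the assembly
step (d4) of report #684).

ALGEBRA-language version of `Repr/LocalChart24`: for CURVE data `(A0 → A01 ← A1; t, s; e)` over a
field `k`, a `k`-algebra `R` with a rigid class `x : Cl R` having the injectivity property, and a
predicate `W` on field-valued points:

* `exists_ringHom_of_span`, `exists_algHom_of_span'` : ring / algebra maps out of `R` glue on a
  standard cover of `Spec B`;
* `exists_algHom_of_span` : a rigid class `ξ` over `B` comes from the chart `(R, x)` as soon as it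
  does so on a standard cover of `Spec B` (the local factorizations glue by injectivity, the glued
  map has the right class by separatedness `Zar/Sep39.sep`);
* `isOpen_of_local`, `mem_iff_of_local` : the fields `isOpen` and `mem_iff` of
  `Core/AlgAtlas36.AlgAtlas` follow from `inj`, `univ` and the LOCAL statement;
* `algAtlas_of_local` : an `AlgAtlas` from a family of such charts.
-/
import Fermat.Agent.JAC.Core.AlgAtlas36
import Fermat.Agent.JAC.Zar.BcFunct39
import Fermat.Agent.JAC.Zar.Sep39

set_option autoImplicit false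

universe u

open CategoryTheory Limits AlgebraicGeometry

namespace Fermat.Agent.JAC.Hilb.LocalToGlobal10

section Ring

variable {R B : Type u} [CommRing R] [CommRing B]

/-- **Gluing of ring maps on a standard cover.**  A family of ring maps `ψ f : R → B[1/f]`,
`f ∈ S` with `span S = ⊤`, which is compatible on overlaps (tested on all rings `D` receiving
`B[1/f]` and `B[1/g]` compatibly) comes from a ring map `R → B`. -/
theorem exists_ringHom_of_span (S : Set B) (hS : Ideal.span S = ⊤)
    (ψ : ∀ f : S, R →+* Localization.Away (f : B))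
    (hcompat : ∀ (f g : S) (D : Type u) [CommRing D] (α : Localization.Away (f : B) →+* D)
      (β : Localization.Away (g : B) →+* D),
      α.comp (algebraMap B (Localization.Away (f : B))) =
        β.comp (algebraMap B (Localization.Away (g : B))) →
      α.comp (ψ f) = β.comp (ψ g)) :
    ∃ Ψ : R →+* B, ∀ f : S, (algebraMap B (Localization.Away (f : B))).comp Ψ = ψ f := by
  have hs' : Ideal.span (Set.range (fun a : S => (a : B))) = ⊤ := by
    rw [Subtype.range_coe]; exact hS
  let 𝒰 : (Spec (CommRingCat.of B)).OpenCover :=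
    (Scheme.affineOpenCoverOfSpanRangeEqTop (R := CommRingCat.of B)
      (fun a : S => (a : B)) hs').openCover
  let fa : ∀ a : S, Spec (CommRingCat.of (Localization.Away (a : B))) ⟶ Spec (CommRingCat.of B) :=
    fun a => Spec.map (CommRingCat.ofHom (algebraMap B (Localization.Away (a : B))))
  let g : ∀ a : S, Spec (CommRingCat.of (Localization.Away (a : B))) ⟶ Spec (CommRingCat.of R) :=
    fun a => Spec.map (CommRingCat.ofHom (ψ a))
  have hg : ∀ a b : S, pullback.fst (fa a) (fa b) ≫ g a = pullback.snd (fa a) (fa b) ≫ g b := by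
    intro a b
    refine (pullback (fa a) (fa b)).affineOpenCover.openCover.hom_ext _ _ fun i => ?_
    obtain ⟨α, hα⟩ := Spec.map_surjective
      ((pullback (fa a) (fa b)).affineOpenCover.f i ≫ pullback.fst (fa a) (fa b))
    obtain ⟨β, hβ⟩ := Spec.map_surjective
      ((pullback (fa a) (fa b)).affineOpenCover.f i ≫ pullback.snd (fa a) (fa b))
    have hαβ : CommRingCat.ofHom (algebraMap B (Localization.Away (a : B))) ≫ α =
        CommRingCat.ofHom (algebraMap B (Localization.Away (b : B))) ≫ β := by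
      apply Spec.map_injective
      rw [Spec.map_comp, Spec.map_comp, hα, hβ, Category.assoc, Category.assoc]
      exact congrArg _ pullback.condition
    have key := hcompat a b _ α.hom β.hom (by
      have := congrArg CommRingCat.Hom.hom hαβ
      simpa using this)
    change (pullback (fa a) (fa b)).affineOpenCover.f i ≫ pullback.fst (fa a) (fa b) ≫ g a =
      (pullback (fa a) (fa b)).affineOpenCover.f i ≫ pullback.snd (fa a) (fa b) ≫ g b
    rw [← Category.assoc, ← Category.assoc, ← hα, ← hβ]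
    change Spec.map α ≫ Spec.map _ = Spec.map β ≫ Spec.map _
    rw [← Spec.map_comp, ← Spec.map_comp]
    congr 1
    ext r
    exact DFunLike.congr_fun key r
  obtain ⟨Ψ, hΨ⟩ := Spec.map_surjective (𝒰.glueMorphisms (fun a : S => g a) hg)
  refine ⟨Ψ.hom, fun a => ?_⟩
  have h1 : fa a ≫ Spec.map Ψ = g a := by
    rw [hΨ]; exact 𝒰.ι_glueMorphisms (fun a : S => g a) hg a
  have h2 : Ψ ≫ CommRingCat.ofHom (algebraMap B (Localization.Away (a : B))) =
      CommRingCat.ofHom (ψ a) := by
    apply Spec.map_injective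
    rw [Spec.map_comp]
    exact h1
  have := congrArg CommRingCat.Hom.hom h2
  simpa using this

end Ring

section Alg

variable {k : Type u} [Field k] {R B : Type u} [CommRing R] [CommRing B] [Algebra k R]
  [Algebra k B]

/-- An element of `B` is determined by its images in the localisations `B[1/f]`, `f ∈ S`,
`span S = ⊤`. -/
theorem eq_of_span (S : Set B) (hS : Ideal.span S = ⊤) (b b' : B)
    (h : ∀ f : S, algebraMap B (Localization.Away (f : B)) b =
      algebraMap B (Localization.Away (f : B)) b') : b = b' :=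
  Module.eq_of_isLocalized_span S hS (fun f : S => Localization.Away (f : B))
    (fun f : S => Algebra.linearMap B (Localization.Away (f : B))) b b' h

/-- **Gluing of `k`-algebra maps on a standard cover.** -/
theorem exists_algHom_of_span' (S : Set B) (hS : Ideal.span S = ⊤)
    (ψ : ∀ f : S, R →ₐ[k] Localization.Away (f : B))
    (hcompat : ∀ (f g : S) (D : Type u) [CommRing D] [Algebra k D]
      (α : Localization.Away (f : B) →ₐ[k] D) (β : Localization.Away (g : B) →ₐ[k] D),
      α.comp (IsScalarTower.toAlgHom k B (Localization.Away (f : B))) =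
        β.comp (IsScalarTower.toAlgHom k B (Localization.Away (g : B))) →
      α.comp (ψ f) = β.comp (ψ g)) :
    ∃ Ψ : R →ₐ[k] B, ∀ f : S,
      (IsScalarTower.toAlgHom k B (Localization.Away (f : B))).comp Ψ = ψ f := by
  obtain ⟨Ψ, hΨ⟩ := exists_ringHom_of_span S hS (fun f => (ψ f : R →+* Localization.Away (f : B)))
    (by
      intro f g D _ α β hαβ
      let _ : Algebra k D := (α.comp (algebraMap k (Localization.Away (f : B)))).toAlgebra
      let α' : Localization.Away (f : B) →ₐ[k] D := { α with commutes' := fun c => rfl }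
      let β' : Localization.Away (g : B) →ₐ[k] D :=
        { β with
          commutes' := fun c => by
            change β (algebraMap k (Localization.Away (g : B)) c) =
              α (algebraMap k (Localization.Away (f : B)) c)
            rw [IsScalarTower.algebraMap_apply k B (Localization.Away (g : B)),
              IsScalarTower.algebraMap_apply k B (Localization.Away (f : B))]
            exact (DFunLike.congr_fun hαβ (algebraMap k B c)).symm }
      have := hcompat f g D α' β' (by
        ext b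
        exact DFunLike.congr_fun hαβ b)
      ext r
      exact DFunLike.congr_fun this r)
  have hc : ∀ c : k, Ψ (algebraMap k R c) = algebraMap k B c := by
    intro c
    refine eq_of_span S hS _ _ fun f => ?_
    have := DFunLike.congr_fun (hΨ f) (algebraMap k R c)
    simp only [RingHom.coe_comp, Function.comp_apply, RingHom.coe_coe, AlgHom.commutes] at this
    rw [this, ← IsScalarTower.algebraMap_apply]
  refine ⟨{ Ψ with commutes' := hc }, fun f => ?_⟩
  ext r
  exact DFunLike.congr_fun (hΨ f) r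

/-- The residue field map at a point `q` of `D(f)` factors through `B[1/f]`. -/
theorem exists_lift_away_residue (f : B) (q : PrimeSpectrum B) (hq : f ∉ q.asIdeal) :
    ∃ χ : Localization.Away f →ₐ[k] q.asIdeal.ResidueField,
      χ.comp (IsScalarTower.toAlgHom k B (Localization.Away f)) =
        IsScalarTower.toAlgHom k B q.asIdeal.ResidueField := by
  have hu : ∀ y : Submonoid.powers f,
      IsUnit ((IsScalarTower.toAlgHom k B q.asIdeal.ResidueField) y) := by
    rintro ⟨_, n, rfl⟩
    change IsUnit (algebraMap B q.asIdeal.ResidueField (f ^ n))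
    rw [map_pow]
    refine IsUnit.pow n (isUnit_iff_ne_zero.mpr fun h0 => hq ?_)
    exact (Ideal.algebraMap_residueField_eq_zero).mp h0
  refine ⟨IsLocalization.liftAlgHom (A := k) (R := B) (M := Submonoid.powers f)
      (S := Localization.Away f) (f := IsScalarTower.toAlgHom k B q.asIdeal.ResidueField) hu, ?_⟩
  refine AlgHom.ext fun b => ?_
  rw [AlgHom.comp_apply, IsLocalization.liftAlgHom_apply]
  exact IsLocalization.lift_eq _ b

end Alg

section Chart

open Fermat.Agent.JAC.Core.AlgAtlas36 Fermat.Agent.JAC.Zar.BcFunct39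

variable {k : Type u} [Field k] {A0 A1 A01 : Type u} [CommRing A0] [CommRing A1] [CommRing A01]
  [Algebra k A0] [Algebra k A1] [Algebra k A01] [Algebra A0 A01] [Algebra A1 A01]
  [IsScalarTower k A0 A01] [IsScalarTower k A1 A01] {t : A0} {s : A1}
  [IsLocalization.Away t A01] [IsLocalization.Away s A01]
  (e : A01 →ₐ[k] k)
  {R : Type u} [CommRing R] [Algebra k R] (x : Cl k A0 A1 A01 t s R)

/-- **Gluing of local factorizations** (algebra form of `LocalChart24.exists_hom_of_span`): a rigid
class `ξ` over `B` which comes from the chart `(R, x)` over `B[1/f]` for all `f` in a set spanning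
the unit ideal comes from the chart. -/
theorem exists_algHom_of_span
    (hH0 : ∀ (a0 : A0) (a1 : A1), algebraMap A0 A01 a0 = algebraMap A1 A01 a1 →
      ∃ c : k, a0 = algebraMap k A0 c ∧ a1 = algebraMap k A1 c)
    (inj : ∀ (B : Type u) [CommRing B] [Algebra k B] (φ ψ : R →ₐ[k] B),
      bc φ x = bc ψ x → φ = ψ)
    (hx : IsRigidCl e R x)
    (B : Type u) [CommRing B] [Algebra k B] (ξ : Cl k A0 A1 A01 t s B) (hξ : IsRigidCl e B ξ)
    (S : Set B) (hS : Ideal.span S = ⊤)
    (h : ∀ f ∈ S, ∃ ψ : R →ₐ[k] Localization.Away f,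
      bc ψ x = bc (IsScalarTower.toAlgHom k B (Localization.Away f)) ξ) :
    ∃ ψ : R →ₐ[k] B, bc ψ x = ξ := by
  choose ψ hψ using fun f : S => h f.1 f.2
  obtain ⟨Ψ, hΨ⟩ := exists_algHom_of_span' S hS ψ (by
    intro f g D _ _ α β hαβ
    apply inj
    rw [bc_comp_apply, bc_comp_apply, hψ, hψ, ← bc_comp_apply, ← bc_comp_apply, hαβ])
  refine ⟨Ψ, ?_⟩
  refine Fermat.Agent.JAC.Zar.Sep39.sep e hH0 B _ _ (isRigidCl_bc e Ψ x hx) hξ S hS fun f hf => ?_
  rw [← bc_comp_apply, hΨ ⟨f, hf⟩, hψ ⟨f, hf⟩]

variable (W : ∀ (K : Type u) [Field K] [Algebra k K], Cl k A0 A1 A01 t s K → Prop)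

/-- If `W` holds for the universal class at the residue fields of `R` and is invariant under
extension of fields, it holds at all field-valued points of `R`. -/
theorem univ_of_residue
    (W_iff : ∀ (K L : Type u) [Field K] [Field L] [Algebra k K] [Algebra k L]
      (ψ : K →ₐ[k] L) (ξ : Cl k A0 A1 A01 t s K), IsRigidCl e K ξ → IsDegZero K ξ →
      (W L (bc ψ ξ) ↔ W K ξ))
    (hx : IsRigidCl e R x) (hx0 : IsDegZero R x)
    (univ : ∀ p : PrimeSpectrum R, W p.asIdeal.ResidueField (bc (toResidue R p) x))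
    (K : Type u) [Field K] [Algebra k K] (ψ : R →ₐ[k] K) : W K (bc ψ x) := by
  obtain ⟨p, hp⟩ : ∃ p : PrimeSpectrum R, p.asIdeal = RingHom.ker ψ :=
    ⟨⟨RingHom.ker ψ, RingHom.ker_isPrime ψ.toRingHom⟩, rfl⟩
  have h2 : p.asIdeal.primeCompl ≤ (IsUnit.submonoid K).comap ψ := by
    intro r hr
    change IsUnit (ψ r)
    refine isUnit_iff_ne_zero.mpr fun h0 => hr ?_
    rw [hp]
    exact (RingHom.mem_ker).mpr h0
  let ι : p.asIdeal.ResidueField →ₐ[k] K :=
    Ideal.ResidueField.liftₐ p.asIdeal ψ hp.le h2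
  have hι : ι.comp (toResidue R p) = ψ := Ideal.ResidueField.liftₐ_comp_toAlgHom _ _ hp.le h2
  rw [← hι, bc_comp_apply]
  exact (W_iff _ _ ι _ (isRigidCl_bc e _ x hx) (isDegZero_bc _ x hx0)).mpr (univ p)

variable {W}

/-- `W` holds at all points of `Spec B` for every class coming from the chart. -/
theorem W_of_algHom
    (univ : ∀ (K : Type u) [Field K] [Algebra k K] (ψ : R →ₐ[k] K), W K (bc ψ x))
    {B : Type u} [CommRing B] [Algebra k B] (ψ : R →ₐ[k] B) (p : PrimeSpectrum B) :
    W p.asIdeal.ResidueField (bc (toResidue B p) (bc ψ x)) := by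
  rw [← bc_comp_apply]
  exact univ _ _

/-- If `ξ` comes from the chart over `B[1/f]`, then `W` holds for `ξ` on the basic open set
`D(f)`. -/
theorem W_of_factors_away
    (univ : ∀ (K : Type u) [Field K] [Algebra k K] (ψ : R →ₐ[k] K), W K (bc ψ x))
    {B : Type u} [CommRing B] [Algebra k B] (ξ : Cl k A0 A1 A01 t s B) (f : B)
    (ψ : R →ₐ[k] Localization.Away f)
    (hψ : bc ψ x = bc (IsScalarTower.toAlgHom k B (Localization.Away f)) ξ)
    (q : PrimeSpectrum B) (hq : f ∉ q.asIdeal) :
    W q.asIdeal.ResidueField (bc (toResidue B q) ξ) := by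
  obtain ⟨χ, hχ⟩ := exists_lift_away_residue (k := k) f q hq
  change χ.comp (IsScalarTower.toAlgHom k B (Localization.Away f)) = toResidue B q at hχ
  rw [← hχ, bc_comp_apply, ← hψ, ← bc_comp_apply]
  exact univ _ _

/-- **Openness `(Ch3)` from the local statement.** -/
theorem isOpen_of_local
    (univ : ∀ (K : Type u) [Field K] [Algebra k K] (ψ : R →ₐ[k] K), W K (bc ψ x))
    (loc : ∀ (B : Type u) [CommRing B] [Algebra k B] (ξ : Cl k A0 A1 A01 t s B),
      IsRigidCl e B ξ → IsDegZero B ξ → ∀ p : PrimeSpectrum B,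
      W p.asIdeal.ResidueField (bc (toResidue B p) ξ) →
      ∃ f : B, f ∉ p.asIdeal ∧ ∃ ψ : R →ₐ[k] Localization.Away f,
        bc ψ x = bc (IsScalarTower.toAlgHom k B (Localization.Away f)) ξ)
    (B : Type u) [CommRing B] [Algebra k B] (ξ : Cl k A0 A1 A01 t s B)
    (hξ : IsRigidCl e B ξ) (hξ0 : IsDegZero B ξ) :
    IsOpen {p : PrimeSpectrum B | W p.asIdeal.ResidueField (bc (toResidue B p) ξ)} := by
  rw [isOpen_iff_forall_mem_open]
  intro p hp
  obtain ⟨f, hf, ψ, hψ⟩ := loc B ξ hξ hξ0 p hp
  exact ⟨PrimeSpectrum.basicOpen f, fun q hq => W_of_factors_away x univ ξ f ψ hψ q hq,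
    (PrimeSpectrum.basicOpen f).isOpen, hf⟩

/-- **The global criterion `(Ch2)` from the local statement.** -/
theorem mem_iff_of_local
    (hH0 : ∀ (a0 : A0) (a1 : A1), algebraMap A0 A01 a0 = algebraMap A1 A01 a1 →
      ∃ c : k, a0 = algebraMap k A0 c ∧ a1 = algebraMap k A1 c)
    (inj : ∀ (B : Type u) [CommRing B] [Algebra k B] (φ ψ : R →ₐ[k] B),
      bc φ x = bc ψ x → φ = ψ)
    (hx : IsRigidCl e R x)
    (univ : ∀ (K : Type u) [Field K] [Algebra k K] (ψ : R →ₐ[k] K), W K (bc ψ x))
    (loc : ∀ (B : Type u) [CommRing B] [Algebra k B] (ξ : Cl k A0 A1 A01 t s B),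
      IsRigidCl e B ξ → IsDegZero B ξ → ∀ p : PrimeSpectrum B,
      W p.asIdeal.ResidueField (bc (toResidue B p) ξ) →
      ∃ f : B, f ∉ p.asIdeal ∧ ∃ ψ : R →ₐ[k] Localization.Away f,
        bc ψ x = bc (IsScalarTower.toAlgHom k B (Localization.Away f)) ξ)
    (B : Type u) [CommRing B] [Algebra k B] (ξ : Cl k A0 A1 A01 t s B)
    (hξ : IsRigidCl e B ξ) (hξ0 : IsDegZero B ξ) :
    (∃ ψ : R →ₐ[k] B, bc ψ x = ξ) ↔
      ∀ p : PrimeSpectrum B, W p.asIdeal.ResidueField (bc (toResidue B p) ξ) := by
  constructor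
  · rintro ⟨ψ, rfl⟩ p
    exact W_of_algHom x univ ψ p
  · intro hW
    let S : Set B := {f | ∃ ψ : R →ₐ[k] Localization.Away f,
      bc ψ x = bc (IsScalarTower.toAlgHom k B (Localization.Away f)) ξ}
    have hS : Ideal.span S = ⊤ := by
      by_contra hne
      obtain ⟨m, hm, hle⟩ := Ideal.exists_le_maximal _ hne
      obtain ⟨f, hf, ψ, hψ⟩ := loc B ξ hξ hξ0 ⟨m, hm.isPrime⟩ (hW _)
      exact hf (hle (Ideal.subset_span ⟨ψ, hψ⟩))
    exact exists_algHom_of_span e x hH0 inj hx B ξ hξ S hS fun f hf => hf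

end Chart

section Atlas

open Fermat.Agent.JAC.Core.AlgAtlas36 Fermat.Agent.JAC.Zar.BcFunct39

variable {k : Type u} [Field k] {A0 A1 A01 : Type u} [CommRing A0] [CommRing A1] [CommRing A01]
  [Algebra k A0] [Algebra k A1] [Algebra k A01] [Algebra A0 A01] [Algebra A1 A01]
  [IsScalarTower k A0 A01] [IsScalarTower k A1 A01] {t : A0} {s : A1}
  [IsLocalization.Away t A01] [IsLocalization.Away s A01]
  (e : A01 →ₐ[k] k)

/-- **Local criterion for the algebra-side atlas**: an `AlgAtlas` from a family of charts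
`(R γ, x γ, W γ)` with `(Ch1)` (`inj`), the universal property on field-valued points (`univ`), the
LOCAL statement (`loc`: if `W γ` holds at a prime `p` of `B` for `ξ`, then `ξ` comes from the chart
on a basic open neighbourhood of `p`) and the covering property.  The fields `mem_iff` and `isOpen`
are deduced. -/
noncomputable def algAtlas_of_local
    (hH0 : ∀ (a0 : A0) (a1 : A1), algebraMap A0 A01 a0 = algebraMap A1 A01 a1 →
      ∃ c : k, a0 = algebraMap k A0 c ∧ a1 = algebraMap k A1 c)
    (ι : Type u) (R : ι → Type u) [∀ γ, CommRing (R γ)] [∀ γ, Algebra k (R γ)]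
    (finiteType : ∀ γ, Algebra.FiniteType k (R γ))
    (formallySmooth : ∀ γ, Algebra.FormallySmooth k (R γ))
    (x : ∀ γ, Cl k A0 A1 A01 t s (R γ))
    (x_rigid : ∀ γ, IsRigidCl e (R γ) (x γ))
    (x_degZero : ∀ γ, IsDegZero (R γ) (x γ))
    (W : ι → ∀ (K : Type u) [Field K] [Algebra k K], Cl k A0 A1 A01 t s K → Prop)
    (W_iff : ∀ (γ : ι) (K L : Type u) [Field K] [Field L] [Algebra k K] [Algebra k L]
      (ψ : K →ₐ[k] L) (ξ : Cl k A0 A1 A01 t s K), IsRigidCl e K ξ → IsDegZero K ξ →
      (W γ L (bc ψ ξ) ↔ W γ K ξ))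
    (inj : ∀ (γ : ι) (B : Type u) [CommRing B] [Algebra k B] (φ ψ : R γ →ₐ[k] B),
      bc φ (x γ) = bc ψ (x γ) → φ = ψ)
    (univ : ∀ (γ : ι) (K : Type u) [Field K] [Algebra k K] (ψ : R γ →ₐ[k] K),
      W γ K (bc ψ (x γ)))
    (loc : ∀ (γ : ι) (B : Type u) [CommRing B] [Algebra k B] (ξ : Cl k A0 A1 A01 t s B),
      IsRigidCl e B ξ → IsDegZero B ξ → ∀ p : PrimeSpectrum B,
      W γ p.asIdeal.ResidueField (bc (toResidue B p) ξ) →
      ∃ f : B, f ∉ p.asIdeal ∧ ∃ ψ : R γ →ₐ[k] Localization.Away f,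
        bc ψ (x γ) = bc (IsScalarTower.toAlgHom k B (Localization.Away f)) ξ)
    (covers : ∀ (K : Type u) [Field K] [Algebra k K] (ξ : Cl k A0 A1 A01 t s K),
      IsRigidCl e K ξ → IsDegZero K ξ → ∃ γ, W γ K ξ) :
    AlgAtlas k A0 A1 A01 t s e where
  ι := ι
  R := R
  finiteType := finiteType
  formallySmooth := formallySmooth
  x := x
  x_rigid := x_rigid
  x_degZero := x_degZero
  W := W
  W_iff := W_iff
  inj := inj
  mem_iff γ B _ _ ξ hξ hξ0 :=
    mem_iff_of_local e (x γ) hH0 (inj γ) (x_rigid γ) (univ γ) (loc γ) B ξ hξ hξ0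
  isOpen γ B _ _ ξ hξ hξ0 := isOpen_of_local e (x γ) (univ γ) (loc γ) B ξ hξ hξ0
  covers := covers

/-- Variant of `algAtlas_of_local` with the universal property `univ` only required at the residue
fields of the chart rings. -/
noncomputable def algAtlas_of_local'
    (hH0 : ∀ (a0 : A0) (a1 : A1), algebraMap A0 A01 a0 = algebraMap A1 A01 a1 →
      ∃ c : k, a0 = algebraMap k A0 c ∧ a1 = algebraMap k A1 c)
    (ι : Type u) (R : ι → Type u) [∀ γ, CommRing (R γ)] [∀ γ, Algebra k (R γ)]
    (finiteType : ∀ γ, Algebra.FiniteType k (R γ))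
    (formallySmooth : ∀ γ, Algebra.FormallySmooth k (R γ))
    (x : ∀ γ, Cl k A0 A1 A01 t s (R γ))
    (x_rigid : ∀ γ, IsRigidCl e (R γ) (x γ))
    (x_degZero : ∀ γ, IsDegZero (R γ) (x γ))
    (W : ι → ∀ (K : Type u) [Field K] [Algebra k K], Cl k A0 A1 A01 t s K → Prop)
    (W_iff : ∀ (γ : ι) (K L : Type u) [Field K] [Field L] [Algebra k K] [Algebra k L]
      (ψ : K →ₐ[k] L) (ξ : Cl k A0 A1 A01 t s K), IsRigidCl e K ξ → IsDegZero K ξ →
      (W γ L (bc ψ ξ) ↔ W γ K ξ))
    (inj : ∀ (γ : ι) (B : Type u) [CommRing B] [Algebra k B] (φ ψ : R γ →ₐ[k] B),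
      bc φ (x γ) = bc ψ (x γ) → φ = ψ)
    (univ : ∀ (γ : ι) (p : PrimeSpectrum (R γ)),
      W γ p.asIdeal.ResidueField (bc (toResidue (R γ) p) (x γ)))
    (loc : ∀ (γ : ι) (B : Type u) [CommRing B] [Algebra k B] (ξ : Cl k A0 A1 A01 t s B),
      IsRigidCl e B ξ → IsDegZero B ξ → ∀ p : PrimeSpectrum B,
      W γ p.asIdeal.ResidueField (bc (toResidue B p) ξ) →
      ∃ f : B, f ∉ p.asIdeal ∧ ∃ ψ : R γ →ₐ[k] Localization.Away f,
        bc ψ (x γ) = bc (IsScalarTower.toAlgHom k B (Localization.Away f)) ξ)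
    (covers : ∀ (K : Type u) [Field K] [Algebra k K] (ξ : Cl k A0 A1 A01 t s K),
      IsRigidCl e K ξ → IsDegZero K ξ → ∃ γ, W γ K ξ) :
    AlgAtlas k A0 A1 A01 t s e :=
  algAtlas_of_local e hH0 ι R finiteType formallySmooth x x_rigid x_degZero W W_iff inj
    (fun γ => univ_of_residue e (x γ) (W γ) (W_iff γ) (x_rigid γ) (x_degZero γ) (univ γ))
    loc covers

end Atlas

end Fermat.Agent.JAC.Hilb.LocalToGlobal10
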