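/-
Programme JAC (S25), chart theorem (helper46): the explicit isomorphism `N ≅ O(div σ)` with its
section.

* `evalIso N : Iso N (dual (dual N))` (biduality of line diagrams);
* `sectionIso N hσ h0 h1 : Iso N (dual (divDiag N hσ h0 h1))`, carrying the regular section
  `(σ0, σ1)` to the tautological section `(Z0 ↪ R0, Z1 ↪ R1)` of `O(D) = dual (idealDiag Z0 Z1)`.
-/
import Mathlib
import Fermat.Agent.JAC.Core.Defs36
import Fermat.Agent.JAC.Grp.Diag33
import Fermat.Agent.JAC.Hilb.ZeroIdeal46
import Fermat.Agent.JAC.Hilb.SectionDiv46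

set_option autoImplicit false

universe u

namespace Fermat.Agent.JAC.Hilb.SectionIso46

open Fermat.Agent.JAC.Core.Defs36 Fermat.Agent.JAC.Grp.LocTensor33 Fermat.Agent.JAC.Grp.Diag33
  Fermat.Agent.JAC.Hilb.ZeroIdeal46 Fermat.Agent.JAC.Hilb.SectionDiv46

variable {R0 R1 R01 : Type u} [CommRing R0] [CommRing R1] [CommRing R01]
  [Algebra R0 R01] [Algebra R1 R01] {t : R0} {s : R1}
  [IsLocalization.Away t R01] [IsLocalization.Away s R01]

section Eval

variable {R : Type*} [CommRing R] (S : Submonoid R) (R' : Type*) [CommRing R'] [Algebra R R']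
  [IsLocalization S R']
variable {M M' : Type*} [AddCommGroup M] [AddCommGroup M']
  [Module R M] [Module R M'] [Module R' M'] [IsScalarTower R R' M']

/-- Biduality is compatible with localisation. -/
theorem eval_dualMap_dualMap (f : M →ₗ[R] M') [IsLocalizedModule S f]
    [IsLocalizedModule S (dualMap S R' f)] (x : M) :
    Module.Dual.eval R' M' (f x) =
      dualMap S R' (dualMap S R' f) (Module.Dual.eval R M x) := by
  apply dual_ext S R' (dualMap S R' f)
  intro l
  rw [Module.Dual.eval_apply, dualMap_apply, dualMap_apply, Module.Dual.eval_apply]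

end Eval

/-- Biduality of line diagrams. -/
noncomputable def evalIso (N : LineDiag t s R01) : LineDiag.Iso N (dual (dual N)) where
  e0 := Module.evalEquiv R0 N.M0
  e1 := Module.evalEquiv R1 N.M1
  e01 := Module.evalEquiv R01 N.M01
  comm0 x := by
    have : IsLocalizedModule (Submonoid.powers t) (dualMap (Submonoid.powers t) R01 N.rho0) :=
      (dual N).isLocalizedModule0
    exact eval_dualMap_dualMap (Submonoid.powers t) R01 N.rho0 x
  comm1 y := by
    have : IsLocalizedModule (Submonoid.powers s) (dualMap (Submonoid.powers s) R01 N.rho1) :=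
      (dual N).isLocalizedModule1
    exact eval_dualMap_dualMap (Submonoid.powers s) R01 N.rho1 y


section SectionIso

variable (N : LineDiag t s R01) {σ0 : N.M0} {σ1 : N.M1}

/-- **"`N ≅ O(div σ)`", explicit form**: the isomorphism of a line diagram with a regular section
`σ` onto `O(D) = dual (idealDiag Z0 Z1)`, `Z_i` the zero ideals of `σ`. -/
noncomputable def sectionIso (hσ : N.rho0 σ0 = N.rho1 σ1) (h0 : IsRegularSection R0 σ0)
    (h1 : IsRegularSection R1 σ1) : LineDiag.Iso N (dual (divDiag N hσ h0 h1)) :=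
  (evalIso N).trans (dualCongr (dualIsoDivDiag N hσ h0 h1))

/-- `sectionIso` carries `σ0` to the tautological section `Z0 ↪ R0`. -/
theorem sectionIso_e0 (hσ : N.rho0 σ0 = N.rho1 σ1) (h0 : IsRegularSection R0 σ0)
    (h1 : IsRegularSection R1 σ1) :
    (sectionIso N hσ h0 h1).e0 σ0 =
      (Submodule.subtype (zeroIdeal R0 σ0) : Module.Dual R0 (zeroIdeal R0 σ0)) := by
  apply LinearMap.ext
  intro (z : zeroIdeal R0 σ0)
  change ((dualEquivZeroIdeal h0).symm z) σ0 = (z : R0)
  have h := dualEquivZeroIdeal_apply h0 ((dualEquivZeroIdeal h0).symm z)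
  rw [LinearEquiv.apply_symm_apply] at h
  exact h.symm

/-- `sectionIso` carries `σ1` to the tautological section `Z1 ↪ R1`. -/
theorem sectionIso_e1 (hσ : N.rho0 σ0 = N.rho1 σ1) (h0 : IsRegularSection R0 σ0)
    (h1 : IsRegularSection R1 σ1) :
    (sectionIso N hσ h0 h1).e1 σ1 =
      (Submodule.subtype (zeroIdeal R1 σ1) : Module.Dual R1 (zeroIdeal R1 σ1)) := by
  apply LinearMap.ext
  intro (z : zeroIdeal R1 σ1)
  change ((dualEquivZeroIdeal h1).symm z) σ1 = (z : R1)
  have h := dualEquivZeroIdeal_apply h1 ((dualEquivZeroIdeal h1).symm z)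
  rw [LinearEquiv.apply_symm_apply] at h
  exact h.symm

end SectionIso


section Congr

open Fermat.Agent.JAC.Hilb.SectionDiv46

/-- `idealDiag` only depends on the two ideals (copy of `IdealDiagBC46.idealDiagCongr`, to keep the
imports of this file light). -/
noncomputable def idealDiagCongr' {Z0 Z0' : Ideal R0} {Z1 Z1' : Ideal R1} (e0 : Z0 = Z0')
    (e1 : Z1 = Z1')
    (h : Ideal.map (algebraMap R0 R01) Z0 = Ideal.map (algebraMap R1 R01) Z1)
    (h' : Ideal.map (algebraMap R0 R01) Z0' = Ideal.map (algebraMap R1 R01) Z1')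
    [Module.Invertible R0 Z0] [Module.Invertible R1 Z1]
    [Module.Invertible R0 Z0'] [Module.Invertible R1 Z1'] :
    LineDiag.Iso (idealDiag t s Z0 Z1 h) (idealDiag t s Z0' Z1' h') := by
  subst e0
  subst e1
  exact LineDiag.Iso.refl _

/-- The induced isomorphism of the duals carries the tautological section to the tautological
section (chart `0`). -/
theorem dualCongr_idealDiagCongr'_e0 {Z0 Z0' : Ideal R0} {Z1 Z1' : Ideal R1} (e0 : Z0 = Z0')
    (e1 : Z1 = Z1')
    (h : Ideal.map (algebraMap R0 R01) Z0 = Ideal.map (algebraMap R1 R01) Z1)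
    (h' : Ideal.map (algebraMap R0 R01) Z0' = Ideal.map (algebraMap R1 R01) Z1')
    [Module.Invertible R0 Z0] [Module.Invertible R1 Z1]
    [Module.Invertible R0 Z0'] [Module.Invertible R1 Z1'] :
    (dualCongr (idealDiagCongr' (t := t) (s := s) e0 e1 h h')).e0
        (Submodule.subtype Z0 : Module.Dual R0 Z0) =
      (Submodule.subtype Z0' : Module.Dual R0 Z0') := by
  subst e0
  subst e1
  rfl

/-- The induced isomorphism of the duals carries the tautological section to the tautological
section (chart `1`). -/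
theorem dualCongr_idealDiagCongr'_e1 {Z0 Z0' : Ideal R0} {Z1 Z1' : Ideal R1} (e0 : Z0 = Z0')
    (e1 : Z1 = Z1')
    (h : Ideal.map (algebraMap R0 R01) Z0 = Ideal.map (algebraMap R1 R01) Z1)
    (h' : Ideal.map (algebraMap R0 R01) Z0' = Ideal.map (algebraMap R1 R01) Z1')
    [Module.Invertible R0 Z0] [Module.Invertible R1 Z1]
    [Module.Invertible R0 Z0'] [Module.Invertible R1 Z1'] :
    (dualCongr (idealDiagCongr' (t := t) (s := s) e0 e1 h h')).e1
        (Submodule.subtype Z1 : Module.Dual R1 Z1) =
      (Submodule.subtype Z1' : Module.Dual R1 Z1') := by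
  subst e0
  subst e1
  rfl

end Congr

end Fermat.Agent.JAC.Hilb.SectionIso46
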